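import Mathlib
import Fermat.Prelude.Def_FLTPrelim_Modularity
import Fermat.Prelude.Def_FLTPrelim_GaloisRep
import Fermat.Agent.S13.DivPolyGen
import Fermat.Agent.S51.CardTorsion

/-!
S58, E-side interface [EI-FIELD]: the `m`-torsion of a Weierstrass curve over `ℤ` with `Δ ≠ 0`
(points over `AlgebraicClosure ℚ`) is fixed by the absolute Galois group of a number field.

* `s58ef_finite`: over any field of characteristic zero the `m`-torsion (`m ≥ 1`) of a Weierstrass
  curve is finite (abscissas are roots of the nonzero polynomial `dpeBadPoly W m` of S13).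
* `s58ef_gen`: the field statement for every `m ≥ 1`.
* `s58ef_main`: the interface statement, for `m = lam ^ n`.
-/

set_option autoImplicit false

open WeierstrassCurve WeierstrassCurve.Affine WeierstrassCurve.Affine.Point Polynomial

namespace Fermat.Agent.S58

local notation "Qb" => AlgebraicClosure ℚ
local notation "Γℚ" => (AlgebraicClosure ℚ ≃ₐ[ℚ] AlgebraicClosure ℚ)

/-- The `m`-torsion (`m ≥ 1`) of a Weierstrass curve over a field of characteristic zero is a
finite set. -/
theorem s58ef_finite {F : Type*} [Field F] [CharZero F] [DecidableEq F] (W : Affine F)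
    (m : ℕ) (hm : 0 < m) : {T : W.Point | m • T = 0}.Finite := by
  have h := (Fermat.Agent.S51.torsion_finite_card_le W m (Fermat.Agent.S13.dpeBadPoly W m)
    (Fermat.Agent.S13.dpeBadPoly_ne_zero W m) (fun x y h hP =>
      Fermat.Agent.S13.dpe_bad_root W (Fermat.Agent.S13.dp_genericFormula W) h
        ⟨m, hm, le_rfl, hP⟩)).1
  have h2 : ((Submodule.torsionBy ℤ W.Point (m : ℤ) : Submodule ℤ W.Point) : Set W.Point).Finite :=
    Set.toFinite _
  refine h2.subset ?_
  intro T hT
  simp only [SetLike.mem_coe, Submodule.mem_torsionBy_iff, natCast_zsmul]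
  exact hT

/-- The abscissa of a point (junk value `0` at infinity). -/
def s58efX {F : Type*} [Field F] {W : Affine F} : W.Point → F
  | .zero => 0
  | .some x _ _ => x

/-- The ordinate of a point (junk value `0` at infinity). -/
def s58efY {F : Type*} [Field F] {W : Affine F} : W.Point → F
  | .zero => 0
  | .some _ y _ => y

/-- **[EI-FIELD]**, every `m ≥ 1`: the `m`-torsion is fixed by the absolute Galois group of a
number field; stated for two automorphisms that agree on the number field. -/
theorem s58ef_gen (W : WeierstrassCurve ℤ) (m : ℕ) (hm : 0 < m) :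
    ∃ L : IntermediateField ℚ Qb, FiniteDimensional ℚ L ∧
      ∀ T : ((W.map (Int.castRingHom ℚ))⁄(AlgebraicClosure ℚ)).Point, m • T = 0 →
        ∀ σ σ' : Γℚ, (∀ x ∈ L, σ x = σ' x) → σ • T = σ' • T := by
  classical
  have hfin := s58ef_finite ((W.map (Int.castRingHom ℚ))⁄(AlgebraicClosure ℚ)) m hm
  set E := {T : ((W.map (Int.castRingHom ℚ))⁄(AlgebraicClosure ℚ)).Point | m • T = 0} with hE
  set S : Set Qb := (s58efX '' E) ∪ (s58efY '' E) with hS
  have hSfin : S.Finite := (hfin.image _).union (hfin.image _)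
  have : Finite S := hSfin.to_subtype
  have hint : ∀ x ∈ S, IsIntegral ℚ x := by
    intro x _
    have := AlgebraicClosure.isAlgebraic ℚ
    exact (this.isAlgebraic x).isIntegral
  refine ⟨IntermediateField.adjoin ℚ S, IntermediateField.finiteDimensional_adjoin hint, ?_⟩
  intro T hT σ σ' hσ
  rcases T with _ | ⟨x, y, h⟩
  · rfl
  · have hx : x ∈ S := Or.inl ⟨_, hT, rfl⟩
    have hy : y ∈ S := Or.inr ⟨_, hT, rfl⟩
    have h1 : σ x = σ' x := hσ x (IntermediateField.subset_adjoin ℚ S hx)
    have h2 : σ y = σ' y := hσ y (IntermediateField.subset_adjoin ℚ S hy)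
    rw [algEquiv_smul_def, algEquiv_smul_def, Point.map_some, Point.map_some, Point.some.injEq]
    exact ⟨h1, h2⟩

/-- **[EI-FIELD]**, every `m ≥ 1`, one automorphism fixing the number field. -/
theorem s58ef_fix (W : WeierstrassCurve ℤ) (m : ℕ) (hm : 0 < m) :
    ∃ L : IntermediateField ℚ Qb, FiniteDimensional ℚ L ∧
      ∀ σ : Γℚ, (∀ x ∈ L, σ x = x) →
        ∀ T : ((W.map (Int.castRingHom ℚ))⁄(AlgebraicClosure ℚ)).Point, m • T = 0 → σ • T = T := by
  obtain ⟨L, hL, h⟩ := s58ef_gen W m hm
  refine ⟨L, hL, fun σ hσ T hT => ?_⟩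
  have h1 := h T hT σ 1 (fun x hx => by rw [hσ x hx]; rfl)
  rwa [one_smul] at h1

set_option linter.unusedVariables false in
/-- **[EI-FIELD]** (interface statement, `m = lam ^ n`). -/
theorem s58ef_main (W : WeierstrassCurve ℤ) (hΔ : W.Δ ≠ 0)
    (lam : ℕ) (hlam : lam.Prime) (hlam2 : lam ≠ 2) (n : ℕ) :
    ∃ L : IntermediateField ℚ Qb, FiniteDimensional ℚ L ∧
      ∀ T : ((W.map (Int.castRingHom ℚ))⁄(AlgebraicClosure ℚ)).Point, lam ^ n • T = 0 →
        ∀ σ σ' : Γℚ, (∀ x ∈ L, σ x = σ' x) → σ • T = σ' • T :=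
  s58ef_gen W (lam ^ n) (pow_pos hlam.pos n)

end Fermat.Agent.S58
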