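import Mathlib
import Fermat.Agent.S31.Lucas
import Fermat.Agent.S31.TraceAbs

/-!
# S58, package M5: the abstract Frobenius transfer modulo `lam`

`s58gb_abs`: let `ρ` be a representation of a group `G` on a free module of rank two over `k`
and `ρE : G →* A` a second representation in a ring `A` (the endomorphisms of `E[lam]`), with an
injective central ring homomorphism `f : F →+* A` and `h : F →+* k` (`F = ZMod lam`).  If `τ`
has characteristic polynomial `X ^ 2 - h aℓ X + h cℓ` under `ρ` and satisfies the same quadratic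
relation under `ρE`, `σ` satisfies `X ^ 2 - aq X + cq` under `ρE`, and `σ` agrees with `τ ^ b`
under both representations with `cℓ ^ b = cq`, then `trace ρ(σ) = h aq`.
-/

set_option autoImplicit false

namespace Fermat.Agent.S58

open Fermat.Agent.S31 Polynomial

/-- **Abstract Frobenius transfer.** -/
theorem s58gb_abs {G : Type*} [Group G] {k : Type*} [CommRing k] {V : Type*} [AddCommGroup V]
    [Module k V] [Module.Free k V] [Module.Finite k V] (hV : Module.finrank k V = 2)
    (ρ : G →* Module.End k V) {A : Type*} [Ring A] (ρE : G →* A)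
    {F : Type*} [CommRing F] (f : F →+* A) (hf : Function.Injective f)
    (hcen : ∀ (c : F) (y : A), f c * y = y * f c) (h : F →+* k)
    (τ σ : G) (b : ℕ) (aℓ cℓ aq cq : F)
    (hcp : LinearMap.charpoly (ρ τ) = X ^ 2 - C (h aℓ) * X + C (h cℓ))
    (hρ : ρ (τ ^ b) = ρ σ) (hρE : ρE (τ ^ b) = ρE σ)
    (hτ : ρE τ * ρE τ - f aℓ * ρE τ + f cℓ = 0)
    (hσ : ρE σ * ρE σ - f aq * ρE σ + f cq = 0)
    (hc : cℓ ^ b = cq) :
    LinearMap.trace k V (ρ σ) = h aq := by
  have e1 : LinearMap.trace k V (ρ (τ ^ b)) = lucV (h aℓ) (h cℓ) b :=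
    luc_trace_rep hV ρ τ _ _ hcp b
  have e2 := luc_rep ρE τ (f aℓ) (f cℓ) hτ (hcen _ _) (hcen _ _) b
  rw [hρE, tra_inv_eq ρE (τ ^ b) σ hρE, ← map_pow, hc] at e2
  have hinv : ρE σ * ρE σ⁻¹ = 1 := by rw [← map_mul, mul_inv_cancel, map_one]
  have e3 : ρE σ + f cq * ρE σ⁻¹ = f aq := by
    have h1 : (ρE σ * ρE σ - f aq * ρE σ + f cq) * ρE σ⁻¹ = 0 := by rw [hσ, zero_mul]
    rw [add_mul, sub_mul, mul_assoc, mul_assoc, hinv, mul_one, mul_one] at h1
    rw [← sub_eq_zero, ← h1]
    abel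
  have e4 : f (lucV aℓ cℓ b) = f aq := by
    rw [luc_map f, ← e2, e3]
  have e5 : lucV aℓ cℓ b = aq := hf e4
  rw [← hρ, e1, ← luc_map h, e5]

end Fermat.Agent.S58
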