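import Mathlib

/-!
# S58, package M5, algebraic part

`s58ga_zero`: an algebraic integer lying in maximal ideals of residue characteristic `lam` for
infinitely many primes `lam` is zero.
-/

set_option autoImplicit false

namespace Fermat.Agent.S58

open Polynomial

/-- An integer lying, together with a prime `lam` not dividing it, in a proper ideal: absurd. -/
theorem s58ga_coprime {R : Type*} [CommRing R] (I : Ideal R) (hI : I ≠ ⊤) (c : ℤ) (lam : ℕ)
    (hcop : IsCoprime (lam : ℤ) c) (hlam : (lam : R) ∈ I) (hc : (c : R) ∈ I) : False := by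
  obtain ⟨u, v, huv⟩ := hcop
  apply hI
  rw [Ideal.eq_top_iff_one]
  have e : (1 : R) = (u : R) * (lam : R) + (v : R) * (c : R) := by
    have h := congrArg (Int.cast : ℤ → R) huv
    push_cast at h
    exact h.symm
  rw [e]
  exact I.add_mem (I.mul_mem_left _ hlam) (I.mul_mem_left _ hc)

/-- **An algebraic integer in maximal ideals over infinitely many primes is zero.** -/
theorem s58ga_zero (x : integralClosure ℤ ℂ)
    (h : ∀ n : ℕ, ∃ lam : ℕ, n < lam ∧ lam.Prime ∧ ∃ 𝔪 : Ideal (integralClosure ℤ ℂ),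
      𝔪.IsMaximal ∧ (lam : integralClosure ℤ ℂ) ∈ 𝔪 ∧ x ∈ 𝔪) : x = 0 := by
  by_contra hx
  have hint : IsIntegral ℤ x := integralClosure.isIntegral x
  obtain ⟨P, hPmonic, hP⟩ := hint
  have hP0 : P ≠ 0 := hPmonic.ne_zero
  obtain ⟨Q, hPQ, hQ⟩ := Polynomial.exists_eq_pow_rootMultiplicity_mul_and_not_dvd P hP0 0
  rw [C_0, sub_zero] at hPQ hQ
  -- `Q x = 0`
  have hQx : Polynomial.eval₂ (algebraMap ℤ (integralClosure ℤ ℂ)) x Q = 0 := by
    rw [hPQ, eval₂_mul, eval₂_pow, eval₂_X] at hP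
    rcases mul_eq_zero.mp hP with h1 | h1
    · exact absurd h1 (pow_ne_zero _ hx)
    · exact h1
  -- the constant coefficient of `Q` is a nonzero integer in every ideal containing `x`
  have hc0 : Q.coeff 0 ≠ 0 := fun h0 => hQ (Polynomial.X_dvd_iff.mpr h0)
  have hcx : ((Q.coeff 0 : ℤ) : integralClosure ℤ ℂ) =
      -(Polynomial.eval₂ (algebraMap ℤ (integralClosure ℤ ℂ)) x Q.divX * x) := by
    have h1 := hQx
    rw [← Polynomial.divX_mul_X_add Q, eval₂_add, eval₂_mul, eval₂_X, eval₂_C] at h1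
    rw [eq_neg_iff_add_eq_zero, add_comm]
    exact h1
  obtain ⟨lam, hn, hlam, 𝔪, h𝔪, hlam𝔪, hx𝔪⟩ := h (Q.coeff 0).natAbs
  have hcop : IsCoprime (lam : ℤ) (Q.coeff 0) := by
    rw [Int.isCoprime_iff_gcd_eq_one]
    have h1 : Nat.Coprime lam (Q.coeff 0).natAbs :=
      (Nat.Prime.coprime_iff_not_dvd hlam).2
        (Nat.not_dvd_of_pos_of_lt (Int.natAbs_pos.mpr hc0) hn)
    simpa [Int.gcd] using h1
  refine s58ga_coprime 𝔪 h𝔪.ne_top (Q.coeff 0) lam hcop hlam𝔪 ?_
  rw [hcx]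
  exact 𝔪.neg_mem (𝔪.mul_mem_left _ hx𝔪)

end Fermat.Agent.S58
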