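import Mathlib
import Fermat.Prelude.Def_FLTPrelim_ModularRep
import Fermat.Agent.S29
import Fermat.Agent.S30.CycloAdic
import Fermat.Agent.S31.TraceInst
import Fermat.Agent.S13.TwoGlue
import Fermat.Agent.S37.Frob
import Fermat.Agent.S58.GoodAlg
import Fermat.Agent.S58.GoodAbs

/-!
# S58, package M5: the coefficients at the good primes dividing the level

`W` an integral Weierstrass model, `g` a normalised eigenform of level `M` whose coefficients at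
the primes outside a finite set `S` are the traces of Frobenius of `W`.  Then the same holds at
EVERY good prime `q` of `W` not dividing `M` (`s58m5_core`).

Proof: for every prime `lam ≠ q` and every maximal ideal `𝔪` of the ring of algebraic integers
over `lam`, the residual representation attached to `g` modulo `𝔪` (S29) has, at a Frobenius
element `σ` at `q`, trace `a_q(g)`; the Frobenius transfer modulo `lam` (`s58gb_abs`: `σ` agrees
with a power of a Frobenius element at a prime `ℓ ∉ S` on the field cut out by the residual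
representation, by `E[lam]` and by the `lam`-th roots of unity) gives trace `= a_q(W)` modulo
`𝔪` (`s58m5_congr`).  So the algebraic integer `a_q(g) - a_q(W)` lies in maximal ideals over
infinitely many primes, hence is zero (`s58ga_zero`).

The facts on the curve are hypotheses (E-side interface of the stage), used only for the odd
primes `lam ≠ q` and the `lam`-torsion:
* `hquad` ([EI-QUAD]): the quadratic relation of a Frobenius element at a good prime `l` on the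
  torsion of order prime to `l`;
* `hord` ([EI-ORD]): a point of exact order `lam`;
* `hfield` ([EI-FIELD]): the `lam`-torsion is fixed by the Galois group of a number field.

Exports: `s58m5_core` (weakest hypotheses), `s58m5_good` (hypotheses in the shapes of
`s58rg_quad W`, `s58eo_exact W hΔ`, `s58ef_field W hΔ` and of the output of `s58m1_of_model`),
`s58m5_good'` (the `lam ^ n` shapes of the interface skeleton).
-/

set_option autoImplicit false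

open WeierstrassCurve WeierstrassCurve.Affine WeierstrassCurve.Affine.Point
open Polynomial

namespace Fermat.Agent.S58

open Fermat.Agent.S29 Fermat.Agent.S31

local notation "Qb" => AlgebraicClosure ℚ

/-- The pointwise quadratic relation on the `lam`-torsion gives the relation in the ring of
endomorphisms of `E[lam]`. -/
theorem s58m5_rel (W' : WeierstrassCurve ℚ) (lam : ℕ) (τ : Qb ≃ₐ[ℚ] Qb) (a : ℤ) (c : ℕ)
    (hrel : ∀ T : (W'⁄Qb).Point, lam • T = 0 → τ • τ • T - a • τ • T + c • T = 0) :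
    galoisRepModuleEnd (K := Qb) ℚ W' lam τ * galoisRepModuleEnd (K := Qb) ℚ W' lam τ
      - algebraMap (ZMod lam)
          (Module.End (ZMod lam) (Submodule.torsionBy ℤ (W'⁄Qb).Point lam)) (a : ZMod lam) *
        galoisRepModuleEnd (K := Qb) ℚ W' lam τ
      + algebraMap (ZMod lam)
          (Module.End (ZMod lam) (Submodule.torsionBy ℤ (W'⁄Qb).Point lam)) (c : ZMod lam)
      = 0 := by
  refine LinearMap.ext fun x => Subtype.ext ?_
  have hx : lam • (x : (W'⁄Qb).Point) = 0 := by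
    have h := x.2
    rw [Submodule.mem_torsionBy_iff] at h
    rwa [natCast_zsmul] at h
  have h := hrel x hx
  simp only [LinearMap.add_apply, LinearMap.sub_apply, Module.End.mul_apply,
    Module.algebraMap_end_apply, galoisRepModuleEnd_apply, LinearMap.zero_apply]
  rw [Int.cast_smul_eq_zsmul, Nat.cast_smul_eq_nsmul]
  exact h

/-- **The congruence at one prime.**  Modulo every maximal ideal `𝔪` over a prime `lam ≠ q`
(odd, with the facts `hord1`, `hfield` on `E[lam]`), `a_q(g) ≡ a_q(W)`. -/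
theorem s58m5_congr (W : WeierstrassCurve ℤ)
    (hquad : ∀ l : ℕ, l.Prime → ¬ (l : ℤ) ∣ W.Δ → ∀ lam : ℕ, lam.Prime → lam ≠ 2 → lam ≠ l →
      ∀ A : ValuationSubring Qb, A.LiesOverPrime l → ∀ τ : Qb ≃ₐ[ℚ] Qb, A.IsFrobeniusAt τ l →
      ∀ T : ((W.map (Int.castRingHom ℚ))⁄Qb).Point, lam • T = 0 →
        τ • τ • T - W.apOfModel l • τ • T + l • T = 0)
    (lam : ℕ) (hlam : lam.Prime) (hlam2 : lam ≠ 2)
    (hord1 : ∃ T : ((W.map (Int.castRingHom ℚ))⁄Qb).Point, T ≠ 0 ∧ lam • T = 0)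
    (hfield : ∃ L : IntermediateField ℚ Qb, FiniteDimensional ℚ L ∧
      ∀ σ : Qb ≃ₐ[ℚ] Qb, (∀ x ∈ L, σ x = x) →
        ∀ T : ((W.map (Int.castRingHom ℚ))⁄Qb).Point, lam • T = 0 → σ • T = T)
    (S : Finset ℕ) {M : ℕ} (g : CuspForm (CongruenceSubgroup.Gamma0 M) 2)
    (hg : g.IsNormalizedEigenform)
    (hgW : ∀ ℓ : ℕ, ℓ.Prime → ℓ ∉ S → ¬ (ℓ : ℤ) ∣ W.Δ ∧ ¬ ℓ ∣ M ∧
      ModularFormClass.qCoeff g ℓ = (W.apOfModel ℓ : ℂ))
    (q : ℕ) (hq : q.Prime) (hqΔ : ¬ (q : ℤ) ∣ W.Δ) (hqM : ¬ q ∣ M) (hlamq : lam ≠ q)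
    (𝔪 : Ideal (integralClosure ℤ ℂ)) (h𝔪 : 𝔪.IsMaximal)
    (hlam𝔪 : (lam : integralClosure ℤ ℂ) ∈ 𝔪) :
    ∃ a : integralClosure ℤ ℂ, (a : ℂ) = ModularFormClass.qCoeff g q ∧
      a - ((W.apOfModel q : ℤ) : integralClosure ℤ ℂ) ∈ 𝔪 := by
  classical
  have : Fact lam.Prime := ⟨hlam⟩
  have := h𝔪
  let _ : Field (integralClosure ℤ ℂ ⧸ 𝔪) := Ideal.Quotient.field 𝔪
  have hlamk : ((lam : ℕ) : integralClosure ℤ ℂ ⧸ 𝔪) = 0 := by
    have h1 : Ideal.Quotient.mk 𝔪 (lam : integralClosure ℤ ℂ) = 0 :=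
      Ideal.Quotient.eq_zero_iff_mem.mpr hlam𝔪
    rwa [map_natCast] at h1
  have : CharP (integralClosure ℤ ℂ ⧸ 𝔪) lam := (CharP.charP_iff_prime_eq_zero hlam).mpr hlamk
  obtain ⟨ρ, hatt, -⟩ := Fermat.Agent.S29.result hg hlam (Ideal.Quotient.mk 𝔪)
  -- a Frobenius element at `q`
  obtain ⟨A₀, hA₀⟩ := Fermat.Agent.S13.two_exists_liesOver q hq
  obtain ⟨σ, hσ⟩ := Fermat.Agent.S37.s37_exists_frobenius q hq A₀ hA₀
  have hne : ∀ r : ℕ, r.Prime → r ≠ lam → ((r : ℕ) : integralClosure ℤ ℂ ⧸ 𝔪) ≠ 0 := by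
    intro r hr hrlam h0
    have h1 := (CharP.cast_eq_zero_iff (integralClosure ℤ ℂ ⧸ 𝔪) lam r).mp h0
    exact hrlam ((Nat.prime_dvd_prime_iff_eq hlam hr).mp h1).symm
  obtain ⟨a, haq, hcpσ⟩ := hatt q hq hqM (hne q hq (Ne.symm hlamq)) A₀ hA₀ σ hσ
  refine ⟨a, haq, ?_⟩
  -- the auxiliary prime
  obtain ⟨Lρ, hLρfin, hLρ⟩ := ρ.factorsThroughFiniteLevel
  obtain ⟨LE, hLEfin, hLE⟩ := hfield
  have := hLρfin
  have := hLEfin
  have := Fermat.Agent.S30.cya_field_finiteDimensional lam 1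
  obtain ⟨ℓ, hℓ, hℓS, A, hA, τ, hτ, b, hb⟩ :=
    fd_main (Lρ ⊔ LE ⊔ cycField (lam ^ 1)) (insert lam S) σ
  have hℓlam : ℓ ≠ lam := fun h => hℓS (h ▸ Finset.mem_insert_self _ _)
  have hℓS' : ℓ ∉ S := fun h => hℓS (Finset.mem_insert_of_mem h)
  obtain ⟨hℓΔ, hℓM, hgℓ⟩ := hgW ℓ hℓ hℓS'
  obtain ⟨a', ha', hcpτ⟩ := hatt ℓ hℓ hℓM (hne ℓ hℓ hℓlam) A hA τ hτ
  have ha'eq : a' = ((W.apOfModel ℓ : ℤ) : integralClosure ℤ ℂ) := by
    apply Subtype.ext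
    rw [ha', hgℓ]
    simp
  -- the two representations at `τ ^ b` and `σ`
  have hρeq : ρ.ρ (τ ^ b) = ρ.ρ σ :=
    trc_rep_eq_of_eqOn ρ.ρ Lρ hLρ σ (τ ^ b)
      (fun x hx => hb x ((le_sup_left.trans le_sup_left :
        Lρ ≤ Lρ ⊔ LE ⊔ cycField (lam ^ 1)) hx))
  have hLE' : ∀ s : Qb ≃ₐ[ℚ] Qb, (∀ x ∈ LE, s x = x) →
      galoisRepModuleEnd (K := Qb) ℚ (W.map (Int.castRingHom ℚ)) lam s = 1 := by
    intro s hs
    refine LinearMap.ext fun x => Subtype.ext ?_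
    have hx : lam • (x : ((W.map (Int.castRingHom ℚ))⁄Qb).Point) = 0 := by
      have h := x.2
      rw [Submodule.mem_torsionBy_iff] at h
      rwa [natCast_zsmul] at h
    simp only [galoisRepModuleEnd_apply, Module.End.one_apply]
    exact hLE s hs x hx
  have hρEeq : galoisRepModuleEnd (K := Qb) ℚ (W.map (Int.castRingHom ℚ)) lam (τ ^ b) =
      galoisRepModuleEnd (K := Qb) ℚ (W.map (Int.castRingHom ℚ)) lam σ :=
    trc_rep_eq_of_eqOn _ LE hLE' σ (τ ^ b)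
      (fun x hx => hb x ((le_sup_right.trans le_sup_left :
        LE ≤ Lρ ⊔ LE ⊔ cycField (lam ^ 1)) hx))
  -- the cyclotomic character
  have hcyc : (ℓ : ZMod lam) ^ b = (q : ZMod lam) := by
    have h1 : trcEps lam 1 (τ ^ b) = trcEps lam 1 σ :=
      trcEps_congr lam 1 (τ ^ b) σ (fun x hx => hb x (le_sup_right (a := Lρ ⊔ LE) hx))
    rw [trcEps_pow, trcEps_frobenius lam 1 ℓ hℓ hℓlam A hA τ hτ,
      trcEps_frobenius lam 1 q hq (Ne.symm hlamq) A₀ hA₀ σ hσ] at h1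
    have h2 := congrArg (ZMod.castHom (dvd_pow_self lam one_ne_zero) (ZMod lam)) h1
    rwa [map_pow, map_natCast, map_natCast] at h2
  -- the quadratic relations on `E[lam]`
  have hrelτ := s58m5_rel (W.map (Int.castRingHom ℚ)) lam τ (W.apOfModel ℓ) ℓ
    (fun T hT => hquad ℓ hℓ hℓΔ lam hlam hlam2 (Ne.symm hℓlam) A hA τ hτ T hT)
  have hrelσ := s58m5_rel (W.map (Int.castRingHom ℚ)) lam σ (W.apOfModel q) q
    (fun T hT => hquad q hq hqΔ lam hlam hlam2 hlamq A₀ hA₀ σ hσ T hT)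
  -- the scalars act faithfully on `E[lam]`
  have hinj : Function.Injective (algebraMap (ZMod lam) (Module.End (ZMod lam)
      (Submodule.torsionBy ℤ ((W.map (Int.castRingHom ℚ))⁄Qb).Point lam))) := by
    obtain ⟨T₀, hT₀, hT₀lam⟩ := hord1
    have hmem : T₀ ∈ Submodule.torsionBy ℤ ((W.map (Int.castRingHom ℚ))⁄Qb).Point lam := by
      rw [Submodule.mem_torsionBy_iff, natCast_zsmul]
      exact hT₀lam
    rw [injective_iff_map_eq_zero]
    intro c hc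
    by_contra hc0
    have h1 := congrArg (fun e => e ⟨T₀, hmem⟩) hc
    simp only [Module.algebraMap_end_apply, LinearMap.zero_apply] at h1
    have h2 := (smul_eq_zero.mp h1).resolve_left hc0
    exact hT₀ (congrArg Subtype.val h2)
  have hcp : LinearMap.charpoly (ρ.ρ τ) =
      X ^ 2 - C (ZMod.castHom (dvd_refl lam) (integralClosure ℤ ℂ ⧸ 𝔪)
          ((W.apOfModel ℓ : ℤ) : ZMod lam)) * X
        + C (ZMod.castHom (dvd_refl lam) (integralClosure ℤ ℂ ⧸ 𝔪) ((ℓ : ℕ) : ZMod lam)) := by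
    rw [map_intCast, map_natCast, hcpτ, ha'eq, map_intCast]
  have key := s58gb_abs ρ.finrank_eq ρ.ρ
    (galoisRepModuleEnd (K := Qb) ℚ (W.map (Int.castRingHom ℚ)) lam)
    (algebraMap (ZMod lam) (Module.End (ZMod lam)
      (Submodule.torsionBy ℤ ((W.map (Int.castRingHom ℚ))⁄Qb).Point lam))) hinj
    (fun c y => Algebra.commutes c y)
    (ZMod.castHom (dvd_refl lam) (integralClosure ℤ ℂ ⧸ 𝔪))
    τ σ b ((W.apOfModel ℓ : ℤ) : ZMod lam) ((ℓ : ℕ) : ZMod lam)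
    ((W.apOfModel q : ℤ) : ZMod lam) ((q : ℕ) : ZMod lam)
    hcp hρeq hρEeq hrelτ hrelσ hcyc
  have htr := luc_trace_eq ρ.finrank_eq (ρ.ρ σ) _ _ hcpσ
  rw [htr, map_intCast] at key
  rw [← Ideal.Quotient.eq_zero_iff_mem, map_sub, key, map_intCast, sub_self]

/-- **[M5], core form**: the coefficient of `g` at every good prime `q ∤ M` is `a_q(W)`; the
facts on the curve are only used for the odd primes `lam ≠ q`. -/
theorem s58m5_core (W : WeierstrassCurve ℤ)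
    (hquad : ∀ l : ℕ, l.Prime → ¬ (l : ℤ) ∣ W.Δ → ∀ lam : ℕ, lam.Prime → lam ≠ 2 → lam ≠ l →
      ∀ A : ValuationSubring Qb, A.LiesOverPrime l → ∀ τ : Qb ≃ₐ[ℚ] Qb, A.IsFrobeniusAt τ l →
      ∀ T : ((W.map (Int.castRingHom ℚ))⁄Qb).Point, lam • T = 0 →
        τ • τ • T - W.apOfModel l • τ • T + l • T = 0)
    (hord1 : ∀ lam : ℕ, lam.Prime → lam ≠ 2 →
      ∃ T : ((W.map (Int.castRingHom ℚ))⁄Qb).Point, T ≠ 0 ∧ lam • T = 0)
    (hfield : ∀ lam : ℕ, lam.Prime → lam ≠ 2 →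
      ∃ L : IntermediateField ℚ Qb, FiniteDimensional ℚ L ∧
        ∀ σ : Qb ≃ₐ[ℚ] Qb, (∀ x ∈ L, σ x = x) →
          ∀ T : ((W.map (Int.castRingHom ℚ))⁄Qb).Point, lam • T = 0 → σ • T = T)
    (S : Finset ℕ) {M : ℕ} (g : CuspForm (CongruenceSubgroup.Gamma0 M) 2)
    (hg : g.IsNormalizedEigenform)
    (hgW : ∀ ℓ : ℕ, ℓ.Prime → ℓ ∉ S → ¬ (ℓ : ℤ) ∣ W.Δ ∧ ¬ ℓ ∣ M ∧
      ModularFormClass.qCoeff g ℓ = (W.apOfModel ℓ : ℂ))
    (q : ℕ) (hq : q.Prime) (hqΔ : ¬ (q : ℤ) ∣ W.Δ) (hqM : ¬ q ∣ M) :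
    ModularFormClass.qCoeff g q = (W.apOfModel q : ℂ) := by
  obtain ⟨lam0, hlam0q, hlam0⟩ := Nat.exists_infinite_primes (max q 2 + 1)
  have hlam0_2 : lam0 ≠ 2 := by omega
  have hlam0_q : lam0 ≠ q := by omega
  obtain ⟨𝔪0, h𝔪0, hlam𝔪0⟩ := FLTPrelim.exists_maximalIdeal_natCast_prime_mem hlam0
  obtain ⟨a, haq, -⟩ := s58m5_congr W hquad lam0 hlam0 hlam0_2 (hord1 lam0 hlam0 hlam0_2)
    (hfield lam0 hlam0 hlam0_2) S g hg hgW q hq hqΔ hqM hlam0_q 𝔪0 h𝔪0 hlam𝔪0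
  have hzero : a - ((W.apOfModel q : ℤ) : integralClosure ℤ ℂ) = 0 := by
    apply s58ga_zero
    intro n
    obtain ⟨lam, hlamn, hlam⟩ := Nat.exists_infinite_primes (max n (max q 2) + 1)
    have hlam_2 : lam ≠ 2 := by omega
    have hlam_q : lam ≠ q := by omega
    obtain ⟨𝔪, h𝔪, hlam𝔪⟩ := FLTPrelim.exists_maximalIdeal_natCast_prime_mem hlam
    obtain ⟨a2, ha2q, ha2⟩ := s58m5_congr W hquad lam hlam hlam_2 (hord1 lam hlam hlam_2)
      (hfield lam hlam hlam_2) S g hg hgW q hq hqΔ hqM hlam_q 𝔪 h𝔪 hlam𝔪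
    have hEq : a2 = a := Subtype.ext (ha2q.trans haq.symm)
    exact ⟨lam, by omega, hlam, 𝔪, h𝔪, hlam𝔪, hEq ▸ ha2⟩
  rw [← haq]
  have h1 := congrArg (Subtype.val) (sub_eq_zero.mp hzero)
  simpa using h1

/-- **[M5]** with the inputs in the shapes of the stage: `hquad` = [EI-QUAD] (`s58rg_quad W`),
`hord` = [EI-ORD] (`s58eo_exact W hΔ`), `hfield` = [EI-FIELD] (`s58ef_field W hΔ`), `hgW` = the
output of [M1] (`s58m1_of_model`), `hbad` = the hypothesis of S58. -/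
theorem s58m5_good (W : WeierstrassCurve ℤ)
    (hquad : ∀ l : ℕ, l.Prime → ¬ (l : ℤ) ∣ W.Δ → ∀ m : ℕ, m.Coprime l →
      ∀ A : ValuationSubring Qb, A.LiesOverPrime l → ∀ τ : Qb ≃ₐ[ℚ] Qb, A.IsFrobeniusAt τ l →
      ∀ T : ((W.map (Int.castRingHom ℚ))⁄Qb).Point, m • T = 0 →
        τ • τ • T - W.apOfModel l • τ • T + (l : ℤ) • T = 0)
    (hord : ∀ lam : ℕ, lam.Prime → ∀ n : ℕ,
      ∃ T : ((W.map (Int.castRingHom ℚ))⁄Qb).Point, addOrderOf T = lam ^ n)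
    (hfield : ∀ m : ℕ, 0 < m → ∃ L : IntermediateField ℚ Qb, FiniteDimensional ℚ L ∧
      ∀ σ τ : Qb ≃ₐ[ℚ] Qb, (∀ x ∈ L, σ x = τ x) →
        ∀ T : ((W.map (Int.castRingHom ℚ))⁄Qb).Point, (m : ℤ) • T = 0 → σ • T = τ • T)
    {N : ℕ} (hN : N ≠ 0) (hbad : ∀ ℓ : ℕ, ℓ.Prime → (ℓ : ℤ) ∣ W.Δ → ℓ ∣ N)
    {M : ℕ} (hMN : M ∣ N) (g : CuspForm (CongruenceSubgroup.Gamma0 M) 2)
    (hg : g.IsNormalizedEigenform)
    (hgW : ∀ ℓ : ℕ, ℓ.Prime → W.IsGoodPrimeFor ℓ → ¬ ℓ ∣ N →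
      ModularFormClass.qCoeff g ℓ = (W.apOfModel ℓ : ℂ))
    (q : ℕ) (hq : q.Prime) (hqΔ : W.IsGoodPrimeFor q) (hqM : ¬ q ∣ M) :
    ModularFormClass.qCoeff g q = (W.apOfModel q : ℂ) := by
  refine s58m5_core W ?_ ?_ ?_ N.primeFactors g hg ?_ q hq hqΔ hqM
  · intro l hl hlΔ lam hlam _ hlaml A hA τ hτ T hT
    have h := hquad l hl hlΔ lam ((Nat.coprime_primes hlam hl).mpr hlaml) A hA τ hτ T hT
    rwa [natCast_zsmul] at h
  · intro lam hlam _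
    obtain ⟨T, hT⟩ := hord lam hlam 1
    rw [pow_one] at hT
    refine ⟨T, ?_, ?_⟩
    · rintro rfl
      rw [addOrderOf_zero] at hT
      exact hlam.one_lt.ne hT
    · rw [← hT]
      exact addOrderOf_nsmul_eq_zero T
  · intro lam hlam _
    obtain ⟨L, hL, h⟩ := hfield lam hlam.pos
    refine ⟨L, hL, fun σ hσ T hT => ?_⟩
    have h1 := h σ 1 (fun x hx => by rw [hσ x hx]; rfl) T (by rw [natCast_zsmul]; exact hT)
    rwa [one_smul] at h1
  · intro ℓ hℓ hℓN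
    have hℓN' : ¬ ℓ ∣ N := fun hdvd => hℓN (Nat.mem_primeFactors.mpr ⟨hℓ, hdvd, hN⟩)
    have hℓΔ : ¬ (ℓ : ℤ) ∣ W.Δ := fun hdvd => hℓN' (hbad ℓ hℓ hdvd)
    exact ⟨hℓΔ, fun hdvd => hℓN' (hdvd.trans hMN), hgW ℓ hℓ hℓΔ hℓN'⟩

/-- **[M5]** with the inputs in the shapes of the interface skeleton of the stage (torsion of
order `lam ^ n` for the odd primes `lam` only). -/
theorem s58m5_good' (W : WeierstrassCurve ℤ)
    (hquad : ∀ l : ℕ, l.Prime → ¬ (l : ℤ) ∣ W.Δ → ∀ lam : ℕ, lam.Prime → lam ≠ 2 → lam ≠ l →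
      ∀ n : ℕ, ∀ A : ValuationSubring Qb, A.LiesOverPrime l → ∀ τ : Qb ≃ₐ[ℚ] Qb,
      A.IsFrobeniusAt τ l → ∀ T : ((W.map (Int.castRingHom ℚ))⁄Qb).Point, lam ^ n • T = 0 →
        τ • τ • T - W.apOfModel l • τ • T + l • T = 0)
    (hord : ∀ lam : ℕ, lam.Prime → lam ≠ 2 → ∀ n : ℕ,
      ∃ T : ((W.map (Int.castRingHom ℚ))⁄Qb).Point, addOrderOf T = lam ^ n)
    (hfield : ∀ lam : ℕ, lam.Prime → lam ≠ 2 → ∀ n : ℕ,
      ∃ L : IntermediateField ℚ Qb, FiniteDimensional ℚ L ∧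
        ∀ T : ((W.map (Int.castRingHom ℚ))⁄Qb).Point, lam ^ n • T = 0 →
          ∀ σ σ' : Qb ≃ₐ[ℚ] Qb, (∀ x ∈ L, σ x = σ' x) → σ • T = σ' • T)
    {N : ℕ} (hN : N ≠ 0) (hbad : ∀ ℓ : ℕ, ℓ.Prime → (ℓ : ℤ) ∣ W.Δ → ℓ ∣ N)
    {M : ℕ} (hMN : M ∣ N) (g : CuspForm (CongruenceSubgroup.Gamma0 M) 2)
    (hg : g.IsNormalizedEigenform)
    (hgW : ∀ ℓ : ℕ, ℓ.Prime → W.IsGoodPrimeFor ℓ → ¬ ℓ ∣ N →
      ModularFormClass.qCoeff g ℓ = (W.apOfModel ℓ : ℂ))
    (q : ℕ) (hq : q.Prime) (hqΔ : W.IsGoodPrimeFor q) (hqM : ¬ q ∣ M) :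
    ModularFormClass.qCoeff g q = (W.apOfModel q : ℂ) := by
  refine s58m5_core W ?_ ?_ ?_ N.primeFactors g hg ?_ q hq hqΔ hqM
  · intro l hl hlΔ lam hlam hlam2 hlaml A hA τ hτ T hT
    exact hquad l hl hlΔ lam hlam hlam2 hlaml 1 A hA τ hτ T (by rw [pow_one]; exact hT)
  · intro lam hlam hlam2
    obtain ⟨T, hT⟩ := hord lam hlam hlam2 1
    rw [pow_one] at hT
    refine ⟨T, ?_, ?_⟩
    · rintro rfl
      rw [addOrderOf_zero] at hT
      exact hlam.one_lt.ne hT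
    · rw [← hT]
      exact addOrderOf_nsmul_eq_zero T
  · intro lam hlam hlam2
    obtain ⟨L, hL, h⟩ := hfield lam hlam hlam2 1
    refine ⟨L, hL, fun σ hσ T hT => ?_⟩
    have h1 := h T (by rw [pow_one]; exact hT) σ 1 (fun x hx => by rw [hσ x hx]; rfl)
    rwa [one_smul] at h1
  · intro ℓ hℓ hℓN
    have hℓN' : ¬ ℓ ∣ N := fun hdvd => hℓN (Nat.mem_primeFactors.mpr ⟨hℓ, hdvd, hN⟩)
    have hℓΔ : ¬ (ℓ : ℤ) ∣ W.Δ := fun hdvd => hℓN' (hbad ℓ hℓ hdvd)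
    exact ⟨hℓΔ, fun hdvd => hℓN' (hdvd.trans hMN), hgW ℓ hℓ hℓΔ hℓN'⟩

end Fermat.Agent.S58
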