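import Mathlib
import Fermat.Agent.S58.GoodAtN

/-!
# S58, package M5: the bounded form

`s58m5b_main`: the statement of `s58m5_core` with the facts on the curve required only for the
primes `lam` beyond a bound `B` (so that conditions such as `lam` odd or `lam` different from
an auxiliary prime are absorbed by `B`), with the `ℤ`-multiple `(l : ℤ) • T` in the quadratic
relation and the two-automorphism form of the field hypothesis.  `s58m5b_congr` is the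
congruence at ONE prime `lam`, with the facts on the curve for this `lam` only.
-/

set_option autoImplicit false

open WeierstrassCurve WeierstrassCurve.Affine WeierstrassCurve.Affine.Point
open Polynomial

namespace Fermat.Agent.S58

open Fermat.Agent.S29 Fermat.Agent.S31

local notation "Qb" => AlgebraicClosure ℚ

/-- **The congruence at one prime**, with the facts on the curve at this prime only. -/
theorem s58m5b_congr (W : WeierstrassCurve ℤ) (lam : ℕ) (hlam : lam.Prime)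
    (hquad : ∀ l : ℕ, l.Prime → ¬ (l : ℤ) ∣ W.Δ → lam ≠ l →
      ∀ A : ValuationSubring Qb, A.LiesOverPrime l → ∀ τ : Qb ≃ₐ[ℚ] Qb, A.IsFrobeniusAt τ l →
      ∀ T : ((W.map (Int.castRingHom ℚ))⁄Qb).Point, lam • T = 0 →
        τ • τ • T - W.apOfModel l • τ • T + (l : ℤ) • T = 0)
    (hord1 : ∃ T : ((W.map (Int.castRingHom ℚ))⁄Qb).Point, T ≠ 0 ∧ lam • T = 0)
    (hfield : ∃ L : IntermediateField ℚ Qb, FiniteDimensional ℚ L ∧
      ∀ σ σ' : Qb ≃ₐ[ℚ] Qb, (∀ x ∈ L, σ x = σ' x) →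
        ∀ T : ((W.map (Int.castRingHom ℚ))⁄Qb).Point, lam • T = 0 → σ • T = σ' • T)
    (S : Finset ℕ) {M : ℕ} (g : CuspForm (CongruenceSubgroup.Gamma0 M) 2)
    (hg : g.IsNormalizedEigenform)
    (hgW : ∀ ℓ : ℕ, ℓ.Prime → ℓ ∉ S → ¬ (ℓ : ℤ) ∣ W.Δ ∧ ¬ ℓ ∣ M ∧
      ModularFormClass.qCoeff g ℓ = (W.apOfModel ℓ : ℂ))
    (q : ℕ) (hq : q.Prime) (hqΔ : ¬ (q : ℤ) ∣ W.Δ) (hqM : ¬ q ∣ M) (hlamq : lam ≠ q)
    (𝔪 : Ideal (integralClosure ℤ ℂ)) (h𝔪 : 𝔪.IsMaximal)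
    (hlam𝔪 : (lam : integralClosure ℤ ℂ) ∈ 𝔪) :
    ∃ a : integralClosure ℤ ℂ, (a : ℂ) = ModularFormClass.qCoeff g q ∧
      a - ((W.apOfModel q : ℤ) : integralClosure ℤ ℂ) ∈ 𝔪 := by
  classical
  have : Fact lam.Prime := ⟨hlam⟩
  have := h𝔪
  let _ : Field (integralClosure ℤ ℂ ⧸ 𝔪) := Ideal.Quotient.field 𝔪
  have hlamk : ((lam : ℕ) : integralClosure ℤ ℂ ⧸ 𝔪) = 0 := by
    have h1 : Ideal.Quotient.mk 𝔪 (lam : integralClosure ℤ ℂ) = 0 :=
      Ideal.Quotient.eq_zero_iff_mem.mpr hlam𝔪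
    rwa [map_natCast] at h1
  have : CharP (integralClosure ℤ ℂ ⧸ 𝔪) lam := (CharP.charP_iff_prime_eq_zero hlam).mpr hlamk
  obtain ⟨ρ, hatt, -⟩ := Fermat.Agent.S29.result hg hlam (Ideal.Quotient.mk 𝔪)
  -- a Frobenius element at `q`
  obtain ⟨A₀, hA₀⟩ := Fermat.Agent.S13.two_exists_liesOver q hq
  obtain ⟨σ, hσ⟩ := Fermat.Agent.S37.s37_exists_frobenius q hq A₀ hA₀
  have hne : ∀ r : ℕ, r.Prime → r ≠ lam → ((r : ℕ) : integralClosure ℤ ℂ ⧸ 𝔪) ≠ 0 := by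
    intro r hr hrlam h0
    have h1 := (CharP.cast_eq_zero_iff (integralClosure ℤ ℂ ⧸ 𝔪) lam r).mp h0
    exact hrlam ((Nat.prime_dvd_prime_iff_eq hlam hr).mp h1).symm
  obtain ⟨a, haq, hcpσ⟩ := hatt q hq hqM (hne q hq (Ne.symm hlamq)) A₀ hA₀ σ hσ
  refine ⟨a, haq, ?_⟩
  -- the auxiliary prime
  obtain ⟨Lρ, hLρfin, hLρ⟩ := ρ.factorsThroughFiniteLevel
  obtain ⟨LE, hLEfin, hLE0⟩ := hfield
  have hLE : ∀ s : Qb ≃ₐ[ℚ] Qb, (∀ x ∈ LE, s x = x) →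
      ∀ T : ((W.map (Int.castRingHom ℚ))⁄Qb).Point, lam • T = 0 → s • T = T := by
    intro s hs T hT
    have h1 := hLE0 s 1 (fun x hx => by rw [hs x hx]; rfl) T hT
    rwa [one_smul] at h1
  have := hLρfin
  have := hLEfin
  have := Fermat.Agent.S30.cya_field_finiteDimensional lam 1
  obtain ⟨ℓ, hℓ, hℓS, A, hA, τ, hτ, b, hb⟩ :=
    fd_main (Lρ ⊔ LE ⊔ cycField (lam ^ 1)) (insert lam S) σ
  have hℓlam : ℓ ≠ lam := fun h => hℓS (h ▸ Finset.mem_insert_self _ _)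
  have hℓS' : ℓ ∉ S := fun h => hℓS (Finset.mem_insert_of_mem h)
  obtain ⟨hℓΔ, hℓM, hgℓ⟩ := hgW ℓ hℓ hℓS'
  obtain ⟨a', ha', hcpτ⟩ := hatt ℓ hℓ hℓM (hne ℓ hℓ hℓlam) A hA τ hτ
  have ha'eq : a' = ((W.apOfModel ℓ : ℤ) : integralClosure ℤ ℂ) := by
    apply Subtype.ext
    rw [ha', hgℓ]
    simp
  -- the two representations at `τ ^ b` and `σ`
  have hρeq : ρ.ρ (τ ^ b) = ρ.ρ σ :=
    trc_rep_eq_of_eqOn ρ.ρ Lρ hLρ σ (τ ^ b)
      (fun x hx => hb x ((le_sup_left.trans le_sup_left :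
        Lρ ≤ Lρ ⊔ LE ⊔ cycField (lam ^ 1)) hx))
  have hLE' : ∀ s : Qb ≃ₐ[ℚ] Qb, (∀ x ∈ LE, s x = x) →
      galoisRepModuleEnd (K := Qb) ℚ (W.map (Int.castRingHom ℚ)) lam s = 1 := by
    intro s hs
    refine LinearMap.ext fun x => Subtype.ext ?_
    have hx : lam • (x : ((W.map (Int.castRingHom ℚ))⁄Qb).Point) = 0 := by
      have h := x.2
      rw [Submodule.mem_torsionBy_iff] at h
      rwa [natCast_zsmul] at h
    simp only [galoisRepModuleEnd_apply, Module.End.one_apply]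
    exact hLE s hs x hx
  have hρEeq : galoisRepModuleEnd (K := Qb) ℚ (W.map (Int.castRingHom ℚ)) lam (τ ^ b) =
      galoisRepModuleEnd (K := Qb) ℚ (W.map (Int.castRingHom ℚ)) lam σ :=
    trc_rep_eq_of_eqOn _ LE hLE' σ (τ ^ b)
      (fun x hx => hb x ((le_sup_right.trans le_sup_left :
        LE ≤ Lρ ⊔ LE ⊔ cycField (lam ^ 1)) hx))
  -- the cyclotomic character
  have hcyc : (ℓ : ZMod lam) ^ b = (q : ZMod lam) := by
    have h1 : trcEps lam 1 (τ ^ b) = trcEps lam 1 σ :=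
      trcEps_congr lam 1 (τ ^ b) σ (fun x hx => hb x (le_sup_right (a := Lρ ⊔ LE) hx))
    rw [trcEps_pow, trcEps_frobenius lam 1 ℓ hℓ hℓlam A hA τ hτ,
      trcEps_frobenius lam 1 q hq (Ne.symm hlamq) A₀ hA₀ σ hσ] at h1
    have h2 := congrArg (ZMod.castHom (dvd_pow_self lam one_ne_zero) (ZMod lam)) h1
    rwa [map_pow, map_natCast, map_natCast] at h2
  -- the quadratic relations on `E[lam]`
  have hrelτ := s58m5_rel (W.map (Int.castRingHom ℚ)) lam τ (W.apOfModel ℓ) ℓ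
    (fun T hT => by
      have h := hquad ℓ hℓ hℓΔ (Ne.symm hℓlam) A hA τ hτ T hT
      rwa [natCast_zsmul] at h)
  have hrelσ := s58m5_rel (W.map (Int.castRingHom ℚ)) lam σ (W.apOfModel q) q
    (fun T hT => by
      have h := hquad q hq hqΔ hlamq A₀ hA₀ σ hσ T hT
      rwa [natCast_zsmul] at h)
  -- the scalars act faithfully on `E[lam]`
  have hinj : Function.Injective (algebraMap (ZMod lam) (Module.End (ZMod lam)
      (Submodule.torsionBy ℤ ((W.map (Int.castRingHom ℚ))⁄Qb).Point lam))) := by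
    obtain ⟨T₀, hT₀, hT₀lam⟩ := hord1
    have hmem : T₀ ∈ Submodule.torsionBy ℤ ((W.map (Int.castRingHom ℚ))⁄Qb).Point lam := by
      rw [Submodule.mem_torsionBy_iff, natCast_zsmul]
      exact hT₀lam
    rw [injective_iff_map_eq_zero]
    intro c hc
    by_contra hc0
    have h1 := congrArg (fun e => e ⟨T₀, hmem⟩) hc
    simp only [Module.algebraMap_end_apply, LinearMap.zero_apply] at h1
    have h2 := (smul_eq_zero.mp h1).resolve_left hc0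
    exact hT₀ (congrArg Subtype.val h2)
  have hcp : LinearMap.charpoly (ρ.ρ τ) =
      X ^ 2 - C (ZMod.castHom (dvd_refl lam) (integralClosure ℤ ℂ ⧸ 𝔪)
          ((W.apOfModel ℓ : ℤ) : ZMod lam)) * X
        + C (ZMod.castHom (dvd_refl lam) (integralClosure ℤ ℂ ⧸ 𝔪) ((ℓ : ℕ) : ZMod lam)) := by
    rw [map_intCast, map_natCast, hcpτ, ha'eq, map_intCast]
  have key := s58gb_abs ρ.finrank_eq ρ.ρ
    (galoisRepModuleEnd (K := Qb) ℚ (W.map (Int.castRingHom ℚ)) lam)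
    (algebraMap (ZMod lam) (Module.End (ZMod lam)
      (Submodule.torsionBy ℤ ((W.map (Int.castRingHom ℚ))⁄Qb).Point lam))) hinj
    (fun c y => Algebra.commutes c y)
    (ZMod.castHom (dvd_refl lam) (integralClosure ℤ ℂ ⧸ 𝔪))
    τ σ b ((W.apOfModel ℓ : ℤ) : ZMod lam) ((ℓ : ℕ) : ZMod lam)
    ((W.apOfModel q : ℤ) : ZMod lam) ((q : ℕ) : ZMod lam)
    hcp hρeq hρEeq hrelτ hrelσ hcyc
  have htr := luc_trace_eq ρ.finrank_eq (ρ.ρ σ) _ _ hcpσ
  rw [htr, map_intCast] at key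
  rw [← Ideal.Quotient.eq_zero_iff_mem, map_sub, key, map_intCast, sub_self]

/-- **[M5], bounded form**: the coefficient of `g` at every good prime `q ∤ M` is `a_q(W)`; the
facts on the curve are only used at the primes `lam > B`. -/
theorem s58m5b_main (W : WeierstrassCurve ℤ) (B : ℕ)
    (hquad : ∀ l : ℕ, l.Prime → ¬ (l : ℤ) ∣ W.Δ → ∀ lam : ℕ, lam.Prime → B < lam → lam ≠ l →
      ∀ A : ValuationSubring Qb, A.LiesOverPrime l → ∀ τ : Qb ≃ₐ[ℚ] Qb, A.IsFrobeniusAt τ l →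
      ∀ T : ((W.map (Int.castRingHom ℚ))⁄Qb).Point, lam • T = 0 →
        τ • τ • T - W.apOfModel l • τ • T + (l : ℤ) • T = 0)
    (hord : ∀ lam : ℕ, lam.Prime → B < lam →
      ∃ T : ((W.map (Int.castRingHom ℚ))⁄Qb).Point, T ≠ 0 ∧ lam • T = 0)
    (hfield : ∀ lam : ℕ, lam.Prime → B < lam →
      ∃ L : IntermediateField ℚ Qb, FiniteDimensional ℚ L ∧
        ∀ σ σ' : Qb ≃ₐ[ℚ] Qb, (∀ x ∈ L, σ x = σ' x) →
          ∀ T : ((W.map (Int.castRingHom ℚ))⁄Qb).Point, lam • T = 0 → σ • T = σ' • T)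
    (S : Finset ℕ) {M : ℕ} (g : CuspForm (CongruenceSubgroup.Gamma0 M) 2)
    (hg : g.IsNormalizedEigenform)
    (hgW : ∀ ℓ : ℕ, ℓ.Prime → ℓ ∉ S → ¬ (ℓ : ℤ) ∣ W.Δ ∧ ¬ ℓ ∣ M ∧
      ModularFormClass.qCoeff g ℓ = (W.apOfModel ℓ : ℂ))
    (q : ℕ) (hq : q.Prime) (hqΔ : ¬ (q : ℤ) ∣ W.Δ) (hqM : ¬ q ∣ M) :
    ModularFormClass.qCoeff g q = (W.apOfModel q : ℂ) := by
  have hstep : ∀ n : ℕ, ∃ lam : ℕ, n < lam ∧ lam.Prime ∧
      ∃ 𝔪 : Ideal (integralClosure ℤ ℂ), 𝔪.IsMaximal ∧ (lam : integralClosure ℤ ℂ) ∈ 𝔪 ∧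
        ∃ a : integralClosure ℤ ℂ, (a : ℂ) = ModularFormClass.qCoeff g q ∧
          a - ((W.apOfModel q : ℤ) : integralClosure ℤ ℂ) ∈ 𝔪 := by
    intro n
    obtain ⟨lam, hlamn, hlam⟩ := Nat.exists_infinite_primes (max n (max q B) + 1)
    have hlam_B : B < lam := by omega
    have hlam_q : lam ≠ q := by omega
    obtain ⟨𝔪, h𝔪, hlam𝔪⟩ := FLTPrelim.exists_maximalIdeal_natCast_prime_mem hlam
    exact ⟨lam, by omega, hlam, 𝔪, h𝔪, hlam𝔪,
      s58m5b_congr W lam hlam (fun l hl hlΔ hne => hquad l hl hlΔ lam hlam hlam_B hne)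
        (hord lam hlam hlam_B) (hfield lam hlam hlam_B) S g hg hgW q hq hqΔ hqM hlam_q
        𝔪 h𝔪 hlam𝔪⟩
  obtain ⟨-, -, -, -, -, -, a, haq, -⟩ := hstep 0
  have hzero : a - ((W.apOfModel q : ℤ) : integralClosure ℤ ℂ) = 0 := by
    apply s58ga_zero
    intro n
    obtain ⟨lam, hlamn, hlam, 𝔪, h𝔪, hlam𝔪, a2, ha2q, ha2⟩ := hstep n
    have hEq : a2 = a := Subtype.ext (ha2q.trans haq.symm)
    exact ⟨lam, hlamn, hlam, 𝔪, h𝔪, hlam𝔪, hEq ▸ ha2⟩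
  rw [← haq]
  have h1 := congrArg (Subtype.val) (sub_eq_zero.mp hzero)
  simpa using h1

end Fermat.Agent.S58
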