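import Mathlib
import Fermat.Agent.S58.GoodAtNB

/-!
# S58, package M5: the hypothesis `h5` of the top

`s58m5f_h5`: the statement `h5` of `s58tf_main` (S58/TopFin.lean) VERBATIM, from the three
E-side hypotheses `hquad`, `hfix`, `hfield` of `s58tf_main` VERBATIM (and semistability, which
turns the bad prime `q0` handed over by the top into a prime of multiplicative reduction).
The points of exact order `lam` come from `hfix` at `q0` for the primes `lam > q0`.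
-/

set_option autoImplicit false

open WeierstrassCurve WeierstrassCurve.Affine WeierstrassCurve.Affine.Point
open Polynomial

namespace Fermat.Agent.S58

local notation "Qb" => AlgebraicClosure ℚ

/-- **[M5] in the shape of the top**: `h5` of `s58tf_main`. -/
theorem s58m5f_h5 (W : WeierstrassCurve ℤ) (hss : W.IsSemistableModel)
    (hquad : ∀ l : ℕ, l.Prime → ¬ (l : ℤ) ∣ W.Δ → ∀ m : ℕ, m.Coprime l →
      ∀ A : ValuationSubring Qb, A.LiesOverPrime l → ∀ τ : Qb ≃ₐ[ℚ] Qb, A.IsFrobeniusAt τ l →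
        ∀ T : ((W.map (Int.castRingHom ℚ))⁄Qb).Point, m • T = 0 →
          τ • τ • T - W.apOfModel l • τ • T + (l : ℤ) • T = 0)
    (hfix : ∀ q : ℕ, q.Prime → (q : ℤ) ∣ W.Δ → ¬ (q : ℤ) ∣ W.c₄ → ∀ lam : ℕ, lam.Prime →
      lam ≠ q → ∀ (n : ℕ) (A : ValuationSubring Qb), A.LiesOverPrime q →
        ∃ T : ((W.map (Int.castRingHom ℚ))⁄Qb).Point, addOrderOf T = lam ^ n ∧
          ∀ σ ∈ A.inertiaSubgroupIn ℚ, σ • T = T)
    (hfield : ∀ m : ℕ, 0 < m → ∃ L : IntermediateField ℚ Qb, FiniteDimensional ℚ L ∧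
      ∀ σ : Qb ≃ₐ[ℚ] Qb, (∀ x ∈ L, σ x = x) →
        ∀ T : ((W.map (Int.castRingHom ℚ))⁄Qb).Point, m • T = 0 → σ • T = T) :
    ∀ (q0 : ℕ), q0.Prime → (q0 : ℤ) ∣ W.Δ →
      ∀ (S : Finset ℕ) {M : ℕ} (g : CuspForm (CongruenceSubgroup.Gamma0 M) 2),
      g.IsNormalizedEigenform →
      (∀ ℓ : ℕ, ℓ.Prime → ℓ ∉ S →
        ¬ (ℓ : ℤ) ∣ W.Δ ∧ ¬ ℓ ∣ M ∧ ModularFormClass.qCoeff g ℓ = (W.apOfModel ℓ : ℂ)) →
      ∀ q : ℕ, q.Prime → ¬ (q : ℤ) ∣ W.Δ → ¬ q ∣ M →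
        ModularFormClass.qCoeff g q = (W.apOfModel q : ℂ) := by
  intro q0 hq0 hq0Δ S M g hg hgW q hq hqΔ hqM
  refine s58m5b_main W q0 ?_ ?_ ?_ S g hg hgW q hq hqΔ hqM
  · intro l hl hlΔ lam hlam _ hne A hA τ hτ T hT
    exact hquad l hl hlΔ lam ((Nat.coprime_primes hlam hl).mpr hne) A hA τ hτ T hT
  · intro lam hlam hB
    obtain ⟨A, hA⟩ := Fermat.Agent.S13.two_exists_liesOver q0 hq0
    obtain ⟨T, hT, -⟩ := hfix q0 hq0 hq0Δ (hss q0 hq0 hq0Δ) lam hlam (by omega) 1 A hA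
    rw [pow_one] at hT
    refine ⟨T, ?_, ?_⟩
    · rintro rfl
      rw [addOrderOf_zero] at hT
      exact hlam.one_lt.ne hT
    · rw [← hT]
      exact addOrderOf_nsmul_eq_zero T
  · intro lam hlam _
    obtain ⟨L, hL, h⟩ := hfield lam hlam.pos
    refine ⟨L, hL, fun σ σ' hσ T hT => ?_⟩
    have h1 := h (σ'⁻¹ * σ) (fun x hx => by
      show σ'⁻¹ (σ x) = x
      rw [hσ x hx]
      exact σ'.symm_apply_apply x) T hT
    rw [mul_smul] at h1
    exact inv_smul_eq_iff.mp h1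

end Fermat.Agent.S58
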