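import Mathlib

/-!
# S58, leaf [TATE] (prefix `s58ta_`)

There is no Weierstrass curve over `ℤ` with discriminant `±1`; hence a Weierstrass curve over
`ℤ` with `Δ ≠ 0` has a bad prime.

Proof.  `Δ ≡ ±1 (mod 8)` forces `a₁` odd, hence `c₄ = 8 K + 1`.  By `c_relation`,
`c₆² = (c₄ + e) (c₄² - e c₄ + 144)` with `e = ∓12`.  Put `L = c₄ + e`, `Q = c₄² - e c₄ + 144`:
`Q > 0`, `Q ≡ 5 (mod 8)`, `Q = L (c₄ - 2 e) + 432`, so `g = gcd(L, Q)` is an odd divisor of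
`432`, i.e. `g ∈ {1, 3, 9, 27}`; `L / g` and `Q / g` are coprime with product a square, so
`Q = g s²` with `s` odd and `Q ≡ 1` or `3 (mod 8)`: contradiction.
-/

set_option autoImplicit false

namespace Fermat.Agent.S58

/-- an odd square is `1` modulo `8` -/
theorem s58ta_sq_mod_eight (s : ℤ) (hs : s % 2 = 1) : s ^ 2 % 8 = 1 := by
  have h : s % 8 = 1 ∨ s % 8 = 3 ∨ s % 8 = 5 ∨ s % 8 = 7 := by omega
  rcases h with h | h | h | h <;> (rw [pow_two, Int.mul_emod, h]; norm_num)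

/-- the arithmetic core: `y² = (x + e)(x² - e x + 144)` has no solution with `x ≡ 1 (mod 8)`,
`e = ±12` -/
theorem s58ta_core (x y e K : ℤ) (hx : x = 8 * K + 1) (he : e = 12 ∨ e = -12)
    (h : y ^ 2 = (x + e) * (x ^ 2 - e * x + 144)) : False := by
  obtain ⟨L, hL⟩ : ∃ L : ℤ, L = x + e := ⟨_, rfl⟩
  obtain ⟨Q, hQ⟩ : ∃ Q : ℤ, Q = x ^ 2 - e * x + 144 := ⟨_, rfl⟩
  rw [← hL, ← hQ] at h
  have hQpos : 0 < Q := by
    rcases he with rfl | rfl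
    · rw [hQ]
      nlinarith [sq_nonneg (x - 6)]
    · rw [hQ]
      nlinarith [sq_nonneg (x + 6)]
  obtain ⟨M, hM⟩ : ∃ M : ℤ, Q = 8 * M + 5 := by
    rcases he with rfl | rfl
    · exact ⟨8 * K ^ 2 - 10 * K + 16, by rw [hQ, hx]; ring⟩
    · exact ⟨8 * K ^ 2 + 14 * K + 19, by rw [hQ, hx]; ring⟩
  have hrel : Q - L * (x - 2 * e) = 432 := by
    rcases he with rfl | rfl <;> (rw [hQ, hL]; ring)
  have hgQ : ((Int.gcd L Q : ℕ) : ℤ) ∣ Q := Int.gcd_dvd_right L Q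
  have hgL : ((Int.gcd L Q : ℕ) : ℤ) ∣ L := Int.gcd_dvd_left L Q
  have hgpos : 0 < Int.gcd L Q := Int.gcd_pos_of_ne_zero_right L hQpos.ne'
  have hcop0 := Int.gcd_div_gcd_div_gcd (i := L) (j := Q) hgpos
  obtain ⟨g, hg⟩ : ∃ g : ℕ, g = Int.gcd L Q := ⟨_, rfl⟩
  rw [← hg] at hgQ hgL hgpos hcop0
  have hg432 : (g : ℤ) ∣ 432 := by
    have h1 : (g : ℤ) ∣ Q - L * (x - 2 * e) := dvd_sub hgQ (Dvd.dvd.mul_right hgL _)
    rwa [hrel] at h1
  have hg432' : g ∣ 432 := by exact_mod_cast hg432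
  have hgodd : ¬ 2 ∣ g := by
    intro h2
    have h3 : (2 : ℤ) ∣ (g : ℤ) := by exact_mod_cast h2
    have h4 : (2 : ℤ) ∣ Q := dvd_trans h3 hgQ
    omega
  have hg27 : g ∣ 27 := by
    have hc : Nat.Coprime g 16 := by
      have h16 : (16 : ℕ) = 2 ^ 4 := by norm_num
      rw [h16]
      exact Nat.Coprime.pow_right 4
        (Nat.coprime_comm.mp ((Nat.Prime.coprime_iff_not_dvd Nat.prime_two).mpr hgodd))
    have h1 : g ∣ 16 * 27 := by
      have : (16 : ℕ) * 27 = 432 := by norm_num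
      rw [this]
      exact hg432'
    exact hc.dvd_of_dvd_mul_left h1
  have hgcases : g = 1 ∨ g = 3 ∨ g = 9 ∨ g = 27 := by
    have h1 : g ∈ Nat.divisors 27 := Nat.mem_divisors.mpr ⟨hg27, by norm_num⟩
    have hd : Nat.divisors 27 = {1, 3, 9, 27} := by decide
    rw [hd] at h1
    simpa using h1
  obtain ⟨L', hL'⟩ := hgL
  obtain ⟨Q', hQ'⟩ := hgQ
  have hg0 : (g : ℤ) ≠ 0 := by exact_mod_cast hgpos.ne'
  have hcop : Int.gcd Q' L' = 1 := by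
    rw [hL', hQ', Int.mul_ediv_cancel_left _ hg0, Int.mul_ediv_cancel_left _ hg0] at hcop0
    rw [Int.gcd_comm]
    exact hcop0
  have hgy : (g : ℤ) ∣ y := by
    have h1 : (g : ℤ) ^ 2 ∣ y ^ 2 := ⟨L' * Q', by rw [h, hL', hQ']; ring⟩
    exact (Int.pow_dvd_pow_iff two_ne_zero).mp h1
  obtain ⟨y', hy'⟩ := hgy
  have hsq : Q' * L' = y' ^ 2 := by
    have h1 : (g : ℤ) ^ 2 * (Q' * L') = (g : ℤ) ^ 2 * y' ^ 2 := by
      rw [hy', hL', hQ'] at h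
      linear_combination -h
    exact mul_left_cancel₀ (pow_ne_zero 2 hg0) h1
  have hQ'pos : 0 < Q' := by
    have h1 : 0 < (g : ℤ) * Q' := by rw [← hQ']; exact hQpos
    have h2 : (0 : ℤ) < (g : ℤ) := by exact_mod_cast hgpos
    by_contra hn
    have h3 : Q' ≤ 0 := not_lt.mp hn
    nlinarith [mul_nonneg h2.le (neg_nonneg.mpr h3)]
  obtain ⟨s, hs | hs⟩ := Int.sq_of_gcd_eq_one hcop hsq
  · -- `Q = g s²`
    have hsodd : s % 2 = 1 := by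
      by_contra hse
      have hs2 : s % 2 = 0 := by omega
      obtain ⟨w, hw⟩ : ∃ w : ℤ, s = 2 * w := ⟨s / 2, by omega⟩
      have : Q = 2 * ((g : ℤ) * (2 * w ^ 2)) := by rw [hQ', hs, hw]; ring
      omega
    have h8 := s58ta_sq_mod_eight s hsodd
    have hQs : Q = (g : ℤ) * s ^ 2 := by rw [hQ', hs]
    generalize s ^ 2 = t at h8 hQs
    rcases hgcases with rfl | rfl | rfl | rfl <;> (push_cast at hQs; omega)
  · have : Q' ≤ 0 := by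
      rw [hs]
      nlinarith [sq_nonneg s]
    omega

/-- **[TATE]** there is no Weierstrass curve over `ℤ` with discriminant `±1` -/
theorem s58ta_false (W : WeierstrassCurve ℤ) (h : W.Δ = 1 ∨ W.Δ = -1) : False := by
  have hΔ : W.Δ = -W.b₂ ^ 2 * W.b₈ - 8 * W.b₄ ^ 3 - 27 * W.b₆ ^ 2 + 9 * W.b₂ * W.b₄ * W.b₆ := rfl
  have hb6 : W.b₆ = W.a₃ ^ 2 + 4 * W.a₆ := rfl
  -- `a₁` is odd
  have ha1 : W.a₁ % 2 = 1 := by
    by_contra hodd
    obtain ⟨t, ht⟩ : ∃ t : ℤ, W.a₁ = 2 * t := ⟨W.a₁ / 2, by omega⟩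
    have hb2 : W.b₂ = 4 * (t ^ 2 + W.a₂) := by
      simp only [WeierstrassCurve.b₂, ht]
      ring
    have hb4 : W.b₄ = 2 * (W.a₄ + t * W.a₃) := by
      simp only [WeierstrassCurve.b₄, ht]
      ring
    have h1 : W.Δ = 8 * (-2 * (t ^ 2 + W.a₂) ^ 2 * W.b₈ - 8 * (W.a₄ + t * W.a₃) ^ 3
        + 9 * (t ^ 2 + W.a₂) * (W.a₄ + t * W.a₃) * W.b₆) - 27 * W.b₆ ^ 2 := by
      rw [hΔ, hb2, hb4]
      ring
    rcases Int.emod_two_eq_zero_or_one W.a₃ with h3 | h3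
    · obtain ⟨u, hu⟩ : ∃ u : ℤ, W.a₃ = 2 * u := ⟨W.a₃ / 2, by omega⟩
      have h2 : W.b₆ ^ 2 = 8 * (2 * (u ^ 2 + W.a₆) ^ 2) := by
        rw [hb6, hu]
        ring
      rw [h2] at h1
      omega
    · obtain ⟨u, hu⟩ : ∃ u : ℤ, W.a₃ = 2 * u + 1 := ⟨W.a₃ / 2, by omega⟩
      have h2 : W.b₆ ^ 2 = 8 * (2 * (u ^ 2 + u + W.a₆) ^ 2 + (u ^ 2 + u + W.a₆)) + 1 := by
        rw [hb6, hu]
        ring
      rw [h2] at h1
      omega
  obtain ⟨t, ht⟩ : ∃ t : ℤ, W.a₁ = 2 * t + 1 := ⟨W.a₁ / 2, by omega⟩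
  have hc4 : W.c₄ = 8 * (2 * (t ^ 2 + t + W.a₂) ^ 2 + (t ^ 2 + t + W.a₂) - 3 * W.b₄) + 1 := by
    have e : W.c₄ = W.b₂ ^ 2 - 24 * W.b₄ := rfl
    have hb2 : W.b₂ = 4 * (t ^ 2 + t + W.a₂) + 1 := by
      simp only [WeierstrassCurve.b₂, ht]
      ring
    rw [e, hb2]
    ring
  have hrel := W.c_relation
  rcases h with h1 | h1
  · refine s58ta_core W.c₄ W.c₆ (-12) _ hc4 (Or.inr rfl) ?_
    rw [h1] at hrel
    linear_combination hrel
  · refine s58ta_core W.c₄ W.c₆ 12 _ hc4 (Or.inl rfl) ?_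
    rw [h1] at hrel
    linear_combination hrel

/-- a Weierstrass curve over `ℤ` with non-zero discriminant has a bad prime -/
theorem s58ta_exists_bad (W : WeierstrassCurve ℤ) :
    ∃ q : ℕ, q.Prime ∧ (q : ℤ) ∣ W.Δ := by
  have h1 : W.Δ.natAbs ≠ 1 := by
    intro h
    rcases Int.natAbs_eq W.Δ with h2 | h2
    · rw [h] at h2
      exact s58ta_false W (Or.inl (by simpa using h2))
    · rw [h] at h2
      exact s58ta_false W (Or.inr (by simpa using h2))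
  obtain ⟨q, hq, hqd⟩ := Nat.exists_prime_and_dvd h1
  exact ⟨q, hq, Int.natCast_dvd.mpr hqd⟩

end Fermat.Agent.S58
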