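import Mathlib
import Fermat.Agent.S13.DivPolyGen

/-!
# S58, package NODE, part C1: lifting torsion of the reduced curve, integrality of torsion

`A` a valuation subring of an algebraically closed field `K`, `W0` a Weierstrass curve over `A`,
`WK = W0.map A.subtype` its generic fibre (`Δ ≠ 0`), `Wk = W0.map (residue A)` its reduction.

* `s58nfl_root_of_order`: the abscissa of a point of exact order `d ≥ 2` is a root of `ΨSq_d`;
* `s58nfl_order_le_of_root`: a root of `ΨSq_n` is the abscissa of a point of order `≤ n`;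
* `s58nfl_lift_root`: roots of the reduction of a polynomial over `A` with unit leading coefficient
  lift to roots in `A`;
* `s58nfl_lift`: a point of exact order `d` (prime to the residue characteristic) of the group of
  nonsingular points of `Wk` lifts to a point of `WK` of exact order `d`, with integral
  coordinates and nonsingular reduction;
* `s58nfl_int`: a nonzero point of `WK` killed by a unit integer has coordinates in `A`.
-/

set_option autoImplicit false

namespace Fermat.Agent.S58

open WeierstrassCurve WeierstrassCurve.Affine Polynomial Fermat.Agent.S13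

section Order

variable {F : Type*} [Field F] [DecidableEq F] {W : Affine F}

/-- the abscissa of a point of exact order `d ≥ 2` is a root of `ΨSq_d` -/
theorem s58nfl_root_of_order {x y : F} (h : W.Nonsingular x y) (d : ℕ) (hd : 2 ≤ d)
    (hord : addOrderOf (Point.some x y h : W.Point) = d) : (W.ΨSq (d : ℤ)).eval x = 0 := by
  have h1 : dpA W x y d = 0 := by
    refine dpA_eq_zero_of_order h d hd ?_ ?_
    · intro j hj1 hjd h0
      have := addOrderOf_le_of_nsmul_eq_zero (by omega : 0 < j) h0
      omega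
    · rw [← hord]
      exact addOrderOf_nsmul_eq_zero _
  rw [dpv_ΨSq h.1 d]
  have e : (W.Ψ (d : ℤ)).evalEval x y = dpA W x y d := rfl
  rw [e, h1]
  ring

/-- a root of `ΨSq_n` is the abscissa of a point of order at most `n` -/
theorem s58nfl_order_le_of_root {x y : F} (h : W.Nonsingular x y) (n : ℕ) (hn : 1 ≤ n)
    (hroot : (W.ΨSq (n : ℤ)).eval x = 0) :
    0 < addOrderOf (Point.some x y h : W.Point) ∧
      addOrderOf (Point.some x y h : W.Point) ≤ n := by
  by_contra hcon
  have hall : ∀ k : ℕ, 1 ≤ k → k ≤ n → k • (Point.some x y h : W.Point) ≠ 0 := by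
    intro k hk1 hkn h0
    apply hcon
    have hle := addOrderOf_le_of_nsmul_eq_zero (by omega : 0 < k) h0
    have hpos : 0 < addOrderOf (Point.some x y h : W.Point) :=
      (isOfFinAddOrder_iff_nsmul_eq_zero.mpr ⟨k, by omega, h0⟩).addOrderOf_pos
    exact ⟨hpos, by omega⟩
  exact (dp_genericFormula W x y h n hn hall).1 hroot

end Order

section Lift

variable {K : Type*} [Field K] [IsAlgClosed K] (A : ValuationSubring K)

/-- roots of the reduction of a polynomial over `A` with unit leading coefficient lift -/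
theorem s58nfl_lift_root (f : Polynomial ↥A) (hu : IsUnit f.leadingCoeff) (a : ↥A)
    (ha : f.eval a ∈ IsLocalRing.maximalIdeal ↥A) :
    ∃ r : ↥A, f.eval r = 0 ∧ a - r ∈ IsLocalRing.maximalIdeal ↥A := by
  classical
  have hinj : Function.Injective A.subtype := Subtype.val_injective
  have hf0 : f ≠ 0 := by
    rintro rfl
    simp at hu
  set g : Polynomial K := f.map A.subtype with hg
  have hsplit : g.Splits := IsAlgClosed.splits g
  have hlc : g.leadingCoeff = (f.leadingCoeff : K) := by
    rw [hg, leadingCoeff_map_of_injective hinj]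
    rfl
  -- the roots of `g` lie in `A`
  have hroots : ∀ r ∈ g.roots, r ∈ A := by
    intro r hr
    have hr0 : g.eval r = 0 := (mem_roots'.mp hr).2
    have hint : IsIntegral A r := by
      refine ⟨hu.unit⁻¹ • f, monic_of_isUnit_leadingCoeff_inv_smul hu, ?_⟩
      rw [Units.smul_def, eval₂_smul]
      have : eval₂ (algebraMap A K) r f = 0 := by
        rw [← eval_map]
        exact hr0
      rw [this, mul_zero]
    obtain ⟨b, hb⟩ := IsIntegrallyClosed.isIntegral_iff.mp hint
    rw [← hb]
    exact b.2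
  have heval : g.eval (a : K) = g.leadingCoeff * (g.roots.map ((a : K) - ·)).prod :=
    hsplit.eval_eq_prod_roots (a : K)
  have hga : g.eval (a : K) = ((f.eval a : ↥A) : K) := by
    rw [hg, eval_map]
    exact eval₂_at_apply A.subtype a
  by_contra hcon
  push Not at hcon
  have hall : ∀ r ∈ g.roots, A.valuation ((a : K) - r) = 1 := by
    intro r hr
    have hrA := hroots r hr
    have hr0 : f.eval (⟨r, hrA⟩ : ↥A) = 0 := by
      apply hinj
      have h1 : A.subtype (f.eval (⟨r, hrA⟩ : ↥A)) = g.eval r := by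
        rw [hg, eval_map]
        exact (eval₂_at_apply A.subtype (⟨r, hrA⟩ : ↥A)).symm
      rw [h1, (mem_roots'.mp hr).2, map_zero]
    have hnot := hcon ⟨r, hrA⟩ hr0
    have hle : A.valuation ((a : K) - r) ≤ 1 :=
      (A.valuation_le_one_iff _).mpr (A.sub_mem a.2 hrA)
    refine le_antisymm hle (not_lt.mp fun hlt => hnot ?_)
    exact (A.valuation_lt_one_iff (a - ⟨r, hrA⟩)).mpr hlt
  have hprod : A.valuation (g.roots.map ((a : K) - ·)).prod = 1 := by
    rw [map_multiset_prod, Multiset.map_map]
    apply Multiset.prod_eq_one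
    intro z hz
    obtain ⟨r, hr, rfl⟩ := Multiset.mem_map.mp hz
    exact hall r hr
  have h1 : A.valuation (g.eval (a : K)) = 1 := by
    rw [heval, map_mul, hprod, mul_one, hlc]
    exact (A.valuation_eq_one_iff _).mp hu
  have h2 : A.valuation (g.eval (a : K)) < 1 := by
    rw [hga]
    exact (A.valuation_lt_one_iff _).mp ha
  rw [h1] at h2
  exact lt_irrefl _ h2

omit [IsAlgClosed K] in
/-- an element of `K` which is a root of a monic quadratic over `A` lies in `A` -/
theorem s58nfl_quad_mem (b c : K) (hb : b ∈ A) (hc : c ∈ A) (y : K)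
    (hy : y ^ 2 + b * y - c = 0) : y ∈ A := by
  have hint : IsIntegral A y := by
    refine ⟨X ^ 2 + C (⟨b, hb⟩ : A) * X - C (⟨c, hc⟩ : A), by monicity!, ?_⟩
    simp only [eval₂_add, eval₂_sub, eval₂_mul, eval₂_pow, eval₂_X, eval₂_C]
    exact hy
  obtain ⟨a, ha⟩ := IsIntegrallyClosed.isIntegral_iff.mp hint
  rw [← ha]
  exact a.2

variable (W0 : WeierstrassCurve ↥A)

/-- **Lifting torsion.**  A point of exact order `d` (prime to the residue characteristic) of the
group of nonsingular points of the reduction lifts to a point of exact order `d` of the generic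
fibre with integral coordinates, one of whose partial derivatives is a unit. -/
theorem s58nfl_lift [DecidableEq K] [DecidableEq (IsLocalRing.ResidueField ↥A)]
    (hΔ : (W0.map A.subtype).Δ ≠ 0)
    (d : ℕ) (hd : 2 ≤ d) (hdk : (d : IsLocalRing.ResidueField ↥A) ≠ 0)
    (P : (W0.map (IsLocalRing.residue ↥A)).toAffine.Point) (hP : addOrderOf P = d) :
    ∃ (x y : ↥A) (h : (W0.map A.subtype).toAffine.Nonsingular (x : K) (y : K))
      (_ : (W0.map (IsLocalRing.residue ↥A)).toAffine.Nonsingular (IsLocalRing.residue ↥A x)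
        (IsLocalRing.residue ↥A y)),
      addOrderOf (Point.some (x : K) (y : K) h : (W0.map A.subtype).toAffine.Point) = d := by
  have hinj : Function.Injective A.subtype := Subtype.val_injective
  -- the point `P` is affine
  rcases P with _ | ⟨xP, yP, hP'⟩
  · exfalso
    have : addOrderOf (0 : (W0.map (IsLocalRing.residue ↥A)).toAffine.Point) = 1 :=
      addOrderOf_zero
    have h0 : addOrderOf (Point.zero : (W0.map (IsLocalRing.residue ↥A)).toAffine.Point) = 1 :=
      this
    omega
  have hrootk := s58nfl_root_of_order hP' d hd hP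
  obtain ⟨a, rfl⟩ := IsLocalRing.residue_surjective xP
  -- `d` is a unit of `A`
  have hdA : IsUnit ((d : ℤ) : ↥A) := by
    rw [← IsLocalRing.notMem_maximalIdeal, ← IsLocalRing.residue_eq_zero_iff]
    simpa using hdk
  have hdA0 : ((d : ℤ) : ↥A) ≠ 0 := hdA.ne_zero
  have hlead : (W0.ΨSq (d : ℤ)).leadingCoeff = ((d : ℤ) : ↥A) ^ 2 := W0.leadingCoeff_ΨSq hdA0
  have hu : IsUnit (W0.ΨSq (d : ℤ)).leadingCoeff := by
    rw [hlead]
    exact hdA.pow 2
  have ha : (W0.ΨSq (d : ℤ)).eval a ∈ IsLocalRing.maximalIdeal ↥A := by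
    rw [← IsLocalRing.residue_eq_zero_iff, ← eval₂_at_apply, ← eval_map, ← map_ΨSq]
    exact hrootk
  obtain ⟨r, hr0, hra⟩ := s58nfl_lift_root A (W0.ΨSq (d : ℤ)) hu a ha
  have hres : IsLocalRing.residue ↥A r = IsLocalRing.residue ↥A a := by
    have := (IsLocalRing.residue_eq_zero_iff _).mpr hra
    rw [map_sub, sub_eq_zero] at this
    exact this.symm
  -- the ordinate
  obtain ⟨y, hy⟩ := dpe_exists_point (W0.map A.subtype).toAffine hΔ (r : K)
  have hyA : y ∈ A := by
    have he := (equation_iff _ _).mp hy.1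
    simp only [map_a₁, map_a₂, map_a₃, map_a₄, map_a₆] at he
    refine s58nfl_quad_mem A (W0.a₁ * r + W0.a₃ : K)
      ((r : K) ^ 3 + W0.a₂ * (r : K) ^ 2 + W0.a₄ * r + W0.a₆)
      (add_mem (mul_mem W0.a₁.2 r.2) W0.a₃.2)
      (add_mem (add_mem (add_mem (pow_mem r.2 3) (mul_mem W0.a₂.2 (pow_mem r.2 2)))
        (mul_mem W0.a₄.2 r.2)) W0.a₆.2) y ?_
    have he' : y ^ 2 + (W0.a₁ : K) * (r : K) * y + (W0.a₃ : K) * y =
        (r : K) ^ 3 + (W0.a₂ : K) * (r : K) ^ 2 + (W0.a₄ : K) * (r : K) + (W0.a₆ : K) := he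
    linear_combination he'
  obtain ⟨y, rfl⟩ : ∃ y' : ↥A, (y' : K) = y := ⟨⟨y, hyA⟩, rfl⟩
  refine ⟨r, y, hy, ?_, ?_⟩
  swap
  · -- the order
    have hrootK : ((W0.map A.subtype).ΨSq (d : ℤ)).eval (r : K) = 0 := by
      rw [map_ΨSq, eval_map]
      have := eval₂_at_apply (p := W0.ΨSq (d : ℤ)) A.subtype r
      rw [show (r : K) = A.subtype r from rfl, this, hr0, map_zero]
    obtain ⟨hk0, hkd⟩ := s58nfl_order_le_of_root (W := (W0.map A.subtype).toAffine) hy d
      (by omega) hrootK
    set T : (W0.map A.subtype).toAffine.Point := Point.some (r : K) (y : K) hy with hT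
    have hk2 : 2 ≤ addOrderOf T := by
      by_contra hlt
      have h1 : addOrderOf T = 1 := by omega
      rw [AddMonoid.addOrderOf_eq_one_iff] at h1
      exact Point.some_ne_zero hy h1
    have hrootT := s58nfl_root_of_order (W := (W0.map A.subtype).toAffine) hy (addOrderOf T) hk2 rfl
    -- reduce
    have hrootA : (W0.ΨSq ((addOrderOf T : ℕ) : ℤ)).eval r = 0 := by
      apply hinj
      rw [map_zero, ← hrootT, map_ΨSq, eval_map]
      exact (eval₂_at_apply (p := W0.ΨSq ((addOrderOf T : ℕ) : ℤ)) A.subtype r).symm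
    have hrootk' : ((W0.map (IsLocalRing.residue ↥A)).ΨSq ((addOrderOf T : ℕ) : ℤ)).eval
        (IsLocalRing.residue ↥A a) = 0 := by
      rw [← hres, map_ΨSq, eval_map, eval₂_at_apply, hrootA, map_zero]
    obtain ⟨-, hle⟩ := s58nfl_order_le_of_root (W := (W0.map (IsLocalRing.residue ↥A)).toAffine)
      hP' (addOrderOf T) (by omega) hrootk'
    rw [hP] at hle
    omega
  · -- the reduction is a nonsingular point
    have hyA0 : W0.toAffine.Equation r y :=
      (WeierstrassCurve.Affine.map_equation W0.toAffine hinj r y).mp hy.1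
    have hyk : (W0.map (IsLocalRing.residue ↥A)).toAffine.Equation (IsLocalRing.residue ↥A r)
        (IsLocalRing.residue ↥A y) := Equation.map (IsLocalRing.residue ↥A) hyA0
    rcases Y_eq_of_X_eq hyk hP'.1 hres with h | h
    · rw [hres, h]
      exact hP'
    · rw [hres, h]
      exact (nonsingular_neg _ _).mpr hP'

omit [IsAlgClosed K] in
/-- **Integrality of torsion.**  A nonzero point of the generic fibre killed by an integer `m`
which is a unit of `A` has coordinates in `A`. -/
theorem s58nfl_int [DecidableEq K] (m : ℕ) (hm : IsUnit ((m : ℤ) : ↥A)) {x y : K}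
    (h : (W0.map A.subtype).toAffine.Nonsingular x y)
    (hP : m • (Point.some x y h : (W0.map A.subtype).toAffine.Point) = 0) : x ∈ A ∧ y ∈ A := by
  have hinj : Function.Injective A.subtype := Subtype.val_injective
  set T : (W0.map A.subtype).toAffine.Point := Point.some x y h with hT
  have hm0 : m ≠ 0 := by
    rintro rfl
    simp at hm
  have hdvd : addOrderOf T ∣ m := addOrderOf_dvd_of_nsmul_eq_zero hP
  have hd0 : addOrderOf T ≠ 0 := fun h0 => hm0 (by rw [h0] at hdvd; exact zero_dvd_iff.mp hdvd)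
  have hd1 : addOrderOf T ≠ 1 := by
    intro h1
    rw [AddMonoid.addOrderOf_eq_one_iff] at h1
    exact Point.some_ne_zero h h1
  have hd2 : 2 ≤ addOrderOf T := by omega
  have hdA : IsUnit (((addOrderOf T : ℕ) : ℤ) : ↥A) := by
    obtain ⟨e, he⟩ := hdvd
    have hm' : IsUnit (((addOrderOf T : ℕ) : ℤ) * ((e : ℕ) : ℤ) : ↥A) := by
      have h3 : (((addOrderOf T : ℕ) : ℤ) * ((e : ℕ) : ℤ) : ↥A) = ((m : ℤ) : ↥A) := by
        rw [he]
        push_cast
        ring
      rw [h3]
      exact hm
    exact isUnit_of_mul_isUnit_left hm'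
  have hroot := s58nfl_root_of_order (W := (W0.map A.subtype).toAffine) h (addOrderOf T) hd2 rfl
  have hlead : (W0.ΨSq ((addOrderOf T : ℕ) : ℤ)).leadingCoeff =
      (((addOrderOf T : ℕ) : ℤ) : ↥A) ^ 2 := W0.leadingCoeff_ΨSq hdA.ne_zero
  have hu : IsUnit (W0.ΨSq ((addOrderOf T : ℕ) : ℤ)).leadingCoeff := by
    rw [hlead]
    exact hdA.pow 2
  have hxA : x ∈ A := by
    have hint : IsIntegral A x := by
      refine ⟨hu.unit⁻¹ • W0.ΨSq ((addOrderOf T : ℕ) : ℤ),
        monic_of_isUnit_leadingCoeff_inv_smul hu, ?_⟩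
      rw [Units.smul_def, eval₂_smul]
      have : eval₂ (algebraMap A K) x (W0.ΨSq ((addOrderOf T : ℕ) : ℤ)) = 0 := by
        rw [← eval_map]
        have h2 := hroot
        rw [map_ΨSq] at h2
        exact h2
      rw [this, mul_zero]
    obtain ⟨b, hb⟩ := IsIntegrallyClosed.isIntegral_iff.mp hint
    rw [← hb]
    exact b.2
  refine ⟨hxA, ?_⟩
  have he := (equation_iff _ _).mp h.1
  simp only [map_a₁, map_a₂, map_a₃, map_a₄, map_a₆] at he
  refine s58nfl_quad_mem A (W0.a₁ * x + W0.a₃ : K)
    (x ^ 3 + W0.a₂ * x ^ 2 + W0.a₄ * x + W0.a₆)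
    (add_mem (mul_mem W0.a₁.2 hxA) W0.a₃.2)
    (add_mem (add_mem (add_mem (pow_mem hxA 3) (mul_mem W0.a₂.2 (pow_mem hxA 2)))
      (mul_mem W0.a₄.2 hxA)) W0.a₆.2) y ?_
  have he' : y ^ 2 + (W0.a₁ : K) * x * y + (W0.a₃ : K) * y =
      x ^ 3 + (W0.a₂ : K) * x ^ 2 + (W0.a₄ : K) * x + (W0.a₆ : K) := he
  linear_combination he'

end Lift

end Fermat.Agent.S58
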