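import Mathlib

/-!
# S58, package RED, [R-ADD]: reduction of points of a Weierstrass curve is additive

Abstract setting: `K` a field, `A` a valuation subring of `K`, `k` a field, `π : A →+* k` a ring
homomorphism killing the non-units of `A`; `W` a Weierstrass curve over `K` with coefficients in
`A`, `Wk` a Weierstrass curve over `k` whose coefficients are the images under `π`
(`S58raCompat`).  No assumption of good reduction is made in the core lemmas: the reduced curve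
may be singular, its point group is the group of nonsingular points.

* `s58raRel A π W Wk P P'`: the point `P` of `W` reduces to the point `P'` of `Wk` (both zero, or
  both affine with `P = (X, Y)`, `X Y ∈ A`, and `P' = (π X, π Y)`).
* `s58ra_rel_add`: if `P ↦ P'`, `Q ↦ Q'` and `P + Q` (when affine) has its abscissa in `A`, then
  `P + Q ↦ P' + Q'`.
* `s58ra_rel_neg`, `s58ra_rel_unique`, `s58ra_rel_zero_right`, `s58ra_rel_zero_left`,
  `s58ra_rel_mk`, `s58ra_rel_some_iff`, `s58ra_rel_sub`.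
* `s58ra_exists_rel`: with `Wk.Δ ≠ 0`, every affine point with coordinates in `A` reduces.
* `s58ra_hom`: with `Wk.Δ ≠ 0`, on a subgroup all of whose affine points have coordinates in `A`
  reduction is an injective group homomorphism.
-/

set_option autoImplicit false
set_option linter.unusedSectionVars false

open WeierstrassCurve WeierstrassCurve.Affine

namespace Fermat.Agent.S58

section Field

variable {F : Type*} [Field F] [DecidableEq F] (W : Affine F)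

/-- congruence for `Point.some` -/
theorem s58ra_some_congr {x y x' y' : F} (h : W.Nonsingular x y) (h' : W.Nonsingular x' y')
    (hx : x = x') (hy : y = y') : Point.some x y h = Point.some x' y' h' := by
  subst hx hy
  rfl

/-- The two slope relations: chord form and the second (tangent-like) form. -/
theorem s58ra_slope_rel {x₁ x₂ y₁ y₂ : F} (h₁ : W.Equation x₁ y₁) (h₂ : W.Equation x₂ y₂)
    (hxy : ¬(x₁ = x₂ ∧ y₁ = W.negY x₂ y₂)) :
    W.slope x₁ x₂ y₁ y₂ * (x₁ - x₂) = y₁ - y₂ ∧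
    W.slope x₁ x₂ y₁ y₂ * (y₁ - W.negY x₂ y₂) =
      x₁ ^ 2 + x₁ * x₂ + x₂ ^ 2 + W.a₂ * (x₁ + x₂) + W.a₄ - W.a₁ * y₁ := by
  by_cases hx : x₁ = x₂
  · have hy : y₁ ≠ W.negY x₂ y₂ := fun h => hxy ⟨hx, h⟩
    have hyy : y₁ = y₂ := (Y_eq_of_X_eq h₁ h₂ hx).resolve_right hy
    subst hx hyy
    rw [slope_of_Y_ne rfl hy]
    have hD : y₁ - W.negY x₁ y₁ ≠ 0 := sub_ne_zero.mpr hy
    refine ⟨by ring, ?_⟩
    rw [div_mul_cancel₀ _ hD]
    ring
  · rw [slope_of_X_ne hx]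
    have hD : x₁ - x₂ ≠ 0 := sub_ne_zero.mpr hx
    refine ⟨div_mul_cancel₀ _ hD, ?_⟩
    rw [equation_iff] at h₁ h₂
    rw [div_mul_eq_mul_div, div_eq_iff hD]
    simp only [negY]
    linear_combination h₁ - h₂

/-- The slope is determined by the two slope relations. -/
theorem s58ra_slope_unique {x₁ x₂ y₁ y₂ ℓ : F} (h₁ : W.Equation x₁ y₁) (h₂ : W.Equation x₂ y₂)
    (hxy : ¬(x₁ = x₂ ∧ y₁ = W.negY x₂ y₂))
    (e₁ : ℓ * (x₁ - x₂) = y₁ - y₂)
    (e₂ : ℓ * (y₁ - W.negY x₂ y₂) =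
      x₁ ^ 2 + x₁ * x₂ + x₂ ^ 2 + W.a₂ * (x₁ + x₂) + W.a₄ - W.a₁ * y₁) :
    ℓ = W.slope x₁ x₂ y₁ y₂ := by
  obtain ⟨s₁, s₂⟩ := s58ra_slope_rel W h₁ h₂ hxy
  by_cases hx : x₁ = x₂
  · have hy : y₁ ≠ W.negY x₂ y₂ := fun h => hxy ⟨hx, h⟩
    have hD : y₁ - W.negY x₂ y₂ ≠ 0 := sub_ne_zero.mpr hy
    exact mul_right_cancel₀ hD (e₂.trans s₂.symm)
  · have hD : x₁ - x₂ ≠ 0 := sub_ne_zero.mpr hx
    exact mul_right_cancel₀ hD (e₁.trans s₁.symm)

end Field

section Val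

variable {K : Type*} [Field K] (A : ValuationSubring K)

/-- a root of a monic quadratic with coefficients in a valuation ring lies in it -/
theorem s58ra_mem_of_quad {L b c : K} (hb : b ∈ A) (hc : c ∈ A) (h : L ^ 2 + b * L = c) :
    L ∈ A := by
  rcases A.mem_or_inv_mem L with hL | hL
  · exact hL
  · by_cases h0 : L = 0
    · rw [h0]
      exact zero_mem A
    · have e : L = c * L⁻¹ - b := by
        rw [← h]
        field_simp
        ring
      rw [e]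
      exact sub_mem (mul_mem hc hL) hb

/-- division by a unit of the valuation ring -/
theorem s58ra_mem_of_mul_unit {L : K} {d n : ↥A} (hd : IsUnit d) (h : L * (d : K) = (n : K)) :
    L ∈ A := by
  obtain ⟨u, rfl⟩ := hd
  have hu1 : ((u : ↥A) : K) * (((u⁻¹ : (↥A)ˣ) : ↥A) : K) = 1 := by
    rw [← MulMemClass.coe_mul, Units.mul_inv, OneMemClass.coe_one]
  have e : L = (n : K) * (((u⁻¹ : (↥A)ˣ) : ↥A) : K) := by
    rw [← h, mul_assoc, hu1, mul_one]
  rw [e]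
  exact mul_mem n.2 (((u⁻¹ : (↥A)ˣ) : ↥A)).2

end Val

section Red

variable {K : Type*} [Field K] [DecidableEq K] {k : Type*} [Field k] [DecidableEq k]
  (A : ValuationSubring K) (π : ↥A →+* k) (W : Affine K) (Wk : Affine k)

/-- Compatibility of the curve `W` over `K`, the curve `Wk` over `k` and the reduction map
`π : A →+* k`: `π` kills the non-units and the coefficients of `Wk` are the images of the
coefficients of `W`, which lie in `A`. -/
def S58raCompat : Prop :=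
  (∀ a : ↥A, ¬ IsUnit a → π a = 0) ∧
  ∃ α₁ α₂ α₃ α₄ α₆ : ↥A,
    ((α₁ : K) = W.a₁ ∧ π α₁ = Wk.a₁) ∧ ((α₂ : K) = W.a₂ ∧ π α₂ = Wk.a₂) ∧
    ((α₃ : K) = W.a₃ ∧ π α₃ = Wk.a₃) ∧ ((α₄ : K) = W.a₄ ∧ π α₄ = Wk.a₄) ∧
    ((α₆ : K) = W.a₆ ∧ π α₆ = Wk.a₆)

/-- The reduction relation: `P` reduces to `P'`. -/
def s58raRel (P : W.Point) (P' : Wk.Point) : Prop :=
  (P = 0 ∧ P' = 0) ∨
  ∃ (X Y : ↥A) (h : W.Nonsingular (X : K) (Y : K)) (h' : Wk.Nonsingular (π X) (π Y)),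
    P = Point.some _ _ h ∧ P' = Point.some _ _ h'

theorem s58ra_rel_zero : s58raRel A π W Wk 0 0 := Or.inl ⟨rfl, rfl⟩

theorem s58ra_rel_mk {x y : K} (h : W.Nonsingular x y) (hx : x ∈ A) (hy : y ∈ A)
    (h' : Wk.Nonsingular (π ⟨x, hx⟩) (π ⟨y, hy⟩)) :
    s58raRel A π W Wk (Point.some x y h) (Point.some _ _ h') :=
  Or.inr ⟨⟨x, hx⟩, ⟨y, hy⟩, h, h', rfl, rfl⟩

theorem s58ra_rel_some_iff {x y : K} (h : W.Nonsingular x y) (P' : Wk.Point) :
    s58raRel A π W Wk (Point.some x y h) P' ↔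
      ∃ (hx : x ∈ A) (hy : y ∈ A) (h' : Wk.Nonsingular (π ⟨x, hx⟩) (π ⟨y, hy⟩)),
        P' = Point.some _ _ h' := by
  constructor
  · rintro (⟨h0, -⟩ | ⟨X, Y, h₁, h₁', e, rfl⟩)
    · exact absurd h0 (Point.some_ne_zero h)
    · rw [Point.some.injEq] at e
      obtain ⟨rfl, rfl⟩ := e
      exact ⟨X.2, Y.2, h₁', rfl⟩
  · rintro ⟨hx, hy, h', rfl⟩
    exact s58ra_rel_mk A π W Wk h hx hy h'

/-- `P ↦ 0` only for `P = 0` -/
theorem s58ra_rel_zero_right {P : W.Point} (h : s58raRel A π W Wk P 0) : P = 0 := by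
  rcases h with ⟨h0, -⟩ | ⟨X, Y, h₁, h₁', -, e⟩
  · exact h0
  · exact absurd e.symm (Point.some_ne_zero h₁')

/-- `0 ↦ P'` only for `P' = 0` -/
theorem s58ra_rel_zero_left {P' : Wk.Point} (h : s58raRel A π W Wk 0 P') : P' = 0 := by
  rcases h with ⟨-, h0⟩ | ⟨X, Y, h₁, h₁', e, -⟩
  · exact h0
  · exact absurd e.symm (Point.some_ne_zero h₁)

/-- the reduction of a point is unique -/
theorem s58ra_rel_unique {P : W.Point} {P' P'' : Wk.Point} (h : s58raRel A π W Wk P P')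
    (h2 : s58raRel A π W Wk P P'') : P' = P'' := by
  rcases h with ⟨rfl, rfl⟩ | ⟨X, Y, h₁, h₁', rfl, rfl⟩
  · exact (s58ra_rel_zero_left A π W Wk h2).symm
  · rcases h2 with ⟨h0, -⟩ | ⟨X₂, Y₂, h₂, h₂', e, rfl⟩
    · exact absurd h0 (Point.some_ne_zero h₁)
    · rw [Point.some.injEq] at e
      have eX : X = X₂ := Subtype.ext e.1
      have eY : Y = Y₂ := Subtype.ext e.2
      subst eX eY
      rfl

/-- **Reduction is compatible with negation.** -/
theorem s58ra_rel_neg (hc : S58raCompat A π W Wk) {P : W.Point} {P' : Wk.Point}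
    (h : s58raRel A π W Wk P P') : s58raRel A π W Wk (-P) (-P') := by
  obtain ⟨-, α₁, α₂, α₃, α₄, α₆, ⟨c₁, r₁⟩, -, ⟨c₃, r₃⟩, -, -⟩ := hc
  rcases h with ⟨rfl, rfl⟩ | ⟨X, Y, h₁, h₁', rfl, rfl⟩
  · exact Or.inl ⟨rfl, rfl⟩
  · have eY : ((-Y - α₁ * X - α₃ : ↥A) : K) = W.negY (X : K) (Y : K) := by
      simp only [negY]
      push_cast
      rw [c₁, c₃]
    have eY' : π (-Y - α₁ * X - α₃) = Wk.negY (π X) (π Y) := by
      simp only [negY, map_sub, map_neg, map_mul, r₁, r₃]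
    have hn : W.Nonsingular (X : K) ((-Y - α₁ * X - α₃ : ↥A) : K) := by
      rw [eY]
      exact (nonsingular_neg ..).mpr h₁
    have hn' : Wk.Nonsingular (π X) (π (-Y - α₁ * X - α₃)) := by
      rw [eY']
      exact (nonsingular_neg ..).mpr h₁'
    refine Or.inr ⟨X, -Y - α₁ * X - α₃, hn, hn', ?_, ?_⟩
    · rw [Point.neg_some]
      exact s58ra_some_congr W _ _ rfl eY.symm
    · rw [Point.neg_some]
      exact s58ra_some_congr Wk _ _ rfl eY'.symm

/-- **Reduction is additive** (`(ii)` of RED): if `P ↦ P'`, `Q ↦ Q'` and the abscissa of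
`P + Q` (when `P + Q` is affine) lies in `A`, then `P + Q ↦ P' + Q'`.  In particular, if the
reductions are opposite then `P + Q = 0`. -/
theorem s58ra_rel_add (hc : S58raCompat A π W Wk) {P Q : W.Point} {P' Q' : Wk.Point}
    (hP : s58raRel A π W Wk P P') (hQ : s58raRel A π W Wk Q Q')
    (hint : ∀ (x y : K) (h : W.Nonsingular x y), P + Q = Point.some x y h → x ∈ A) :
    s58raRel A π W Wk (P + Q) (P' + Q') := by
  obtain ⟨hker, α₁, α₂, α₃, α₄, α₆, ⟨c₁, r₁⟩, ⟨c₂, r₂⟩, ⟨c₃, r₃⟩, ⟨c₄, r₄⟩, ⟨c₆, r₆⟩⟩ := hc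
  have hunit : ∀ a : ↥A, π a ≠ 0 → IsUnit a := fun a ha => by
    by_contra hn
    exact ha (hker a hn)
  rcases hP with ⟨rfl, rfl⟩ | ⟨X₁, Y₁, h₁, h₁', rfl, rfl⟩
  · rw [zero_add, zero_add]
    exact hQ
  rcases hQ with ⟨rfl, rfl⟩ | ⟨X₂, Y₂, h₂, h₂', rfl, rfl⟩
  · rw [add_zero, add_zero]
    exact Or.inr ⟨X₁, Y₁, h₁, h₁', rfl, rfl⟩
  -- the negated ordinate of the second point
  have eN : ((-Y₂ - α₁ * X₂ - α₃ : ↥A) : K) = W.negY (X₂ : K) (Y₂ : K) := by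
    simp only [negY]
    push_cast
    rw [c₁, c₃]
  have eN' : π (-Y₂ - α₁ * X₂ - α₃) = Wk.negY (π X₂) (π Y₂) := by
    simp only [negY, map_sub, map_neg, map_mul, r₁, r₃]
  -- the slope relations, transported to `A` and then to `k`
  have key : ∀ (hopp : ¬((X₁ : K) = X₂ ∧ (Y₁ : K) = W.negY (X₂ : K) (Y₂ : K)))
      (La : ↥A), (La : K) = W.slope (X₁ : K) (X₂ : K) (Y₁ : K) (Y₂ : K) →
      π La * (π X₁ - π X₂) = π Y₁ - π Y₂ ∧
      π La * (π Y₁ - Wk.negY (π X₂) (π Y₂)) =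
        π X₁ ^ 2 + π X₁ * π X₂ + π X₂ ^ 2 + Wk.a₂ * (π X₁ + π X₂) + Wk.a₄ - Wk.a₁ * π Y₁ := by
    intro hopp La hLa
    obtain ⟨s₁, s₂⟩ := s58ra_slope_rel W h₁.1 h₂.1 hopp
    have t₁ : La * (X₁ - X₂) = Y₁ - Y₂ := by
      apply Subtype.ext
      push_cast
      rw [hLa]
      exact s₁
    have t₂ : La * (Y₁ - (-Y₂ - α₁ * X₂ - α₃)) =
        X₁ ^ 2 + X₁ * X₂ + X₂ ^ 2 + α₂ * (X₁ + X₂) + α₄ - α₁ * Y₁ := by
      apply Subtype.ext
      have e := eN
      push_cast at e ⊢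
      rw [hLa, e, c₁, c₂, c₄]
      exact s₂
    refine ⟨?_, ?_⟩
    · have := congrArg π t₁
      simpa only [map_mul, map_sub] using this
    · have := congrArg π t₂
      rw [map_mul, map_sub, eN'] at this
      simpa only [map_mul, map_sub, map_add, map_pow, r₁, r₂, r₄] using this
  by_cases hopp' : π X₁ = π X₂ ∧ π Y₁ = Wk.negY (π X₂) (π Y₂)
  · -- opposite reductions: the sum is zero
    have hopp : (X₁ : K) = X₂ ∧ (Y₁ : K) = W.negY (X₂ : K) (Y₂ : K) := by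
      by_contra hopp
      have hx₃ : W.addX (X₁ : K) (X₂ : K) (W.slope (X₁ : K) (X₂ : K) (Y₁ : K) (Y₂ : K)) ∈ A :=
        hint _ _ (nonsingular_add h₁ h₂ hopp) (Point.add_some hopp)
      have hL : W.slope (X₁ : K) (X₂ : K) (Y₁ : K) (Y₂ : K) ∈ A := by
        refine s58ra_mem_of_quad A (b := W.a₁) (c := W.addX (X₁ : K) (X₂ : K)
          (W.slope (X₁ : K) (X₂ : K) (Y₁ : K) (Y₂ : K)) + W.a₂ + X₁ + X₂) ?_ ?_ ?_
        · rw [← c₁]
          exact α₁.2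
        · refine add_mem (add_mem (add_mem hx₃ ?_) X₁.2) X₂.2
          rw [← c₂]
          exact α₂.2
        · simp only [addX]
          ring
      obtain ⟨k₁, k₂⟩ := key hopp ⟨_, hL⟩ rfl
      rw [hopp'.1, sub_self, mul_zero] at k₁
      have hY : π Y₁ = π Y₂ := (sub_eq_zero.mp k₁.symm)
      have k₂' : π X₁ ^ 2 + π X₁ * π X₂ + π X₂ ^ 2 + Wk.a₂ * (π X₁ + π X₂) + Wk.a₄
          - Wk.a₁ * π Y₁ = 0 := by
        rw [← k₂, sub_eq_zero.mpr hopp'.2, mul_zero]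
      rw [← hopp'.1] at k₂'
      have h₁n := h₁'
      rw [nonsingular_iff] at h₁n
      rcases h₁n.2 with hA | hB
      · apply hA
        linear_combination -k₂'
      · apply hB
        have e := hopp'.2
        rw [negY, ← hY, ← hopp'.1] at e
        exact e
    have e0 : (Point.some _ _ h₁ + Point.some _ _ h₂ : W.Point) = 0 :=
      Point.add_of_Y_eq hopp.1 hopp.2
    have e0' : (Point.some _ _ h₁' + Point.some _ _ h₂' : Wk.Point) = 0 :=
      Point.add_of_Y_eq hopp'.1 hopp'.2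
    rw [e0, e0']
    exact Or.inl ⟨rfl, rfl⟩
  · -- non-opposite reductions
    have hopp : ¬((X₁ : K) = X₂ ∧ (Y₁ : K) = W.negY (X₂ : K) (Y₂ : K)) := by
      rintro ⟨e1, e2⟩
      apply hopp'
      have eX : X₁ = X₂ := Subtype.ext e1
      have eY : Y₁ = -Y₂ - α₁ * X₂ - α₃ := Subtype.ext (by rw [eN]; exact e2)
      exact ⟨by rw [eX], by rw [eY, eN']⟩
    obtain ⟨s₁, s₂⟩ := s58ra_slope_rel W h₁.1 h₂.1 hopp
    have hL : W.slope (X₁ : K) (X₂ : K) (Y₁ : K) (Y₂ : K) ∈ A := by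
      by_cases hx' : π X₁ = π X₂
      · have hy' : π Y₁ ≠ Wk.negY (π X₂) (π Y₂) := fun h => hopp' ⟨hx', h⟩
        have hu : IsUnit (Y₁ - (-Y₂ - α₁ * X₂ - α₃)) := by
          apply hunit
          rw [map_sub, eN']
          exact sub_ne_zero.mpr hy'
        refine s58ra_mem_of_mul_unit A hu
          (n := X₁ ^ 2 + X₁ * X₂ + X₂ ^ 2 + α₂ * (X₁ + X₂) + α₄ - α₁ * Y₁) ?_
        have e := eN
        push_cast at e ⊢
        rw [e, c₁, c₂, c₄]
        exact s₂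
      · have hu : IsUnit (X₁ - X₂) := by
          apply hunit
          rw [map_sub]
          exact sub_ne_zero.mpr hx'
        refine s58ra_mem_of_mul_unit A hu (n := Y₁ - Y₂) ?_
        push_cast
        exact s₁
    obtain ⟨La, hLa⟩ : ∃ La : ↥A, (La : K) = W.slope (X₁ : K) (X₂ : K) (Y₁ : K) (Y₂ : K) :=
      ⟨⟨_, hL⟩, rfl⟩
    obtain ⟨k₁, k₂⟩ := key hopp La hLa
    have hπL : π La = Wk.slope (π X₁) (π X₂) (π Y₁) (π Y₂) :=
      s58ra_slope_unique Wk h₁'.1 h₂'.1 hopp' k₁ k₂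
    -- the coordinates of the sum
    obtain ⟨X₃, hX₃def⟩ : ∃ X₃ : ↥A, X₃ = La ^ 2 + α₁ * La - α₂ - X₁ - X₂ := ⟨_, rfl⟩
    obtain ⟨Y₃, hY₃def⟩ : ∃ Y₃ : ↥A, Y₃ = -(La * (X₃ - X₁) + Y₁) - α₁ * X₃ - α₃ := ⟨_, rfl⟩
    have hX₃ : (X₃ : K) = W.addX (X₁ : K) (X₂ : K) (W.slope (X₁ : K) (X₂ : K) (Y₁ : K) (Y₂ : K)) := by
      rw [hX₃def]
      simp only [addX]
      push_cast
      rw [hLa, c₁, c₂]
    have hY₃ : (Y₃ : K) =
        W.addY (X₁ : K) (X₂ : K) (Y₁ : K) (W.slope (X₁ : K) (X₂ : K) (Y₁ : K) (Y₂ : K)) := by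
      rw [hY₃def, addY, negY, negAddY, ← hX₃]
      push_cast
      rw [hLa, c₁, c₃]
    have hX₃' : π X₃ = Wk.addX (π X₁) (π X₂) (Wk.slope (π X₁) (π X₂) (π Y₁) (π Y₂)) := by
      rw [hX₃def]
      simp only [addX, map_sub, map_add, map_mul, map_pow, r₁, r₂, hπL]
    have hY₃' : π Y₃ =
        Wk.addY (π X₁) (π X₂) (π Y₁) (Wk.slope (π X₁) (π X₂) (π Y₁) (π Y₂)) := by
      rw [hY₃def, addY, negY, negAddY, ← hX₃']
      simp only [map_sub, map_add, map_mul, map_neg, r₁, r₃, hπL]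
    have h₃ : W.Nonsingular (X₃ : K) (Y₃ : K) := by
      rw [hX₃, hY₃]
      exact nonsingular_add h₁ h₂ hopp
    have h₃' : Wk.Nonsingular (π X₃) (π Y₃) := by
      rw [hX₃', hY₃']
      exact nonsingular_add h₁' h₂' hopp'
    refine Or.inr ⟨X₃, Y₃, h₃, h₃', ?_, ?_⟩
    · rw [Point.add_some hopp]
      exact s58ra_some_congr W _ _ hX₃.symm hY₃.symm
    · rw [Point.add_some hopp']
      exact s58ra_some_congr Wk _ _ hX₃'.symm hY₃'.symm

/-- Reduction is compatible with subtraction. -/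
theorem s58ra_rel_sub (hc : S58raCompat A π W Wk) {P Q : W.Point} {P' Q' : Wk.Point}
    (hP : s58raRel A π W Wk P P') (hQ : s58raRel A π W Wk Q Q')
    (hint : ∀ (x y : K) (h : W.Nonsingular x y), P - Q = Point.some x y h → x ∈ A) :
    s58raRel A π W Wk (P - Q) (P' - Q') := by
  rw [sub_eq_add_neg, sub_eq_add_neg]
  refine s58ra_rel_add A π W Wk hc hP (s58ra_rel_neg A π W Wk hc hQ) ?_
  intro x y h e
  exact hint x y h (by rw [sub_eq_add_neg]; exact e)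

/-- With good reduction every affine point with coordinates in `A` reduces. -/
theorem s58ra_exists_rel (hc : S58raCompat A π W Wk) (hΔ : Wk.Δ ≠ 0) {x y : K}
    (h : W.Nonsingular x y) (hx : x ∈ A) (hy : y ∈ A) :
    ∃ P' : Wk.Point, s58raRel A π W Wk (Point.some x y h) P' := by
  obtain ⟨-, α₁, α₂, α₃, α₄, α₆, ⟨c₁, r₁⟩, ⟨c₂, r₂⟩, ⟨c₃, r₃⟩, ⟨c₄, r₄⟩, ⟨c₆, r₆⟩⟩ := hc
  obtain ⟨X, rfl⟩ : ∃ X : ↥A, (X : K) = x := ⟨⟨x, hx⟩, rfl⟩
  obtain ⟨Y, rfl⟩ : ∃ Y : ↥A, (Y : K) = y := ⟨⟨y, hy⟩, rfl⟩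
  have heq := h.1
  rw [equation_iff] at heq
  have t : Y ^ 2 + α₁ * X * Y + α₃ * Y = X ^ 3 + α₂ * X ^ 2 + α₄ * X + α₆ := by
    apply Subtype.ext
    push_cast
    rw [c₁, c₂, c₃, c₄, c₆]
    exact heq
  have t' := congrArg π t
  simp only [map_add, map_mul, map_pow, r₁, r₂, r₃, r₄, r₆] at t'
  have h' : Wk.Nonsingular (π X) (π Y) :=
    (equation_iff_nonsingular_of_Δ_ne_zero hΔ).mp ((equation_iff ..).mpr t')
  exact ⟨Point.some _ _ h', Or.inr ⟨X, Y, h, h', rfl, rfl⟩⟩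

/-- **Reduction as an injective group homomorphism** on a subgroup all of whose affine points
have coordinates in `A`, when the reduced curve is nonsingular. -/
theorem s58ra_hom (hc : S58raCompat A π W Wk) (hΔ : Wk.Δ ≠ 0) (G : AddSubgroup W.Point)
    (hG : ∀ P ∈ G, ∀ (x y : K) (h : W.Nonsingular x y), P = Point.some x y h → x ∈ A ∧ y ∈ A) :
    ∃ red : ↥G →+ Wk.Point, Function.Injective red ∧
      ∀ P : ↥G, s58raRel A π W Wk (P : W.Point) (red P) := by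
  have hex : ∀ P : ↥G, ∃ P' : Wk.Point, s58raRel A π W Wk (P : W.Point) P' := by
    rintro ⟨P, hP⟩
    rcases P with _ | ⟨x, y, h⟩
    · exact ⟨0, Or.inl ⟨rfl, rfl⟩⟩
    · obtain ⟨hx, hy⟩ := hG _ hP x y h rfl
      exact s58ra_exists_rel A π W Wk hc hΔ h hx hy
  choose f hf using hex
  have hadd : ∀ P Q : ↥G, f (P + Q) = f P + f Q := by
    intro P Q
    refine s58ra_rel_unique A π W Wk (hf (P + Q)) ?_
    refine s58ra_rel_add A π W Wk hc (hf P) (hf Q) ?_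
    intro x y h e
    exact (hG _ (G.add_mem P.2 Q.2) x y h e).1
  refine ⟨AddMonoidHom.mk' f hadd, ?_, hf⟩
  rw [injective_iff_map_eq_zero]
  intro P hP
  have h0 := hf P
  rw [show f P = 0 from hP] at h0
  exact Subtype.ext (s58ra_rel_zero_right A π W Wk h0)

end Red

end Fermat.Agent.S58
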