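import Mathlib

/-!
# S58, package RED: the reduction relation on the points of a Weierstrass curve

`F` a field, `A` a valuation subring of `F` with residue field `k`, `Wa` a Weierstrass curve over
`A`, `WF = Wa.map A.subtype` the curve over `F` and `Wk = Wa.map (residue A)` the reduced curve
(both given up to a propositional equality, so that no cast of point types is ever needed).

* `S58Int A WF P`: the point `P` is `0` or has coordinates in `A`;
* `S58Red A WF Wk P Q`: `Q` is the reduction of `P` (`0 ↦ 0`, `(x, y) ↦ (x̄, ȳ)` with `x, y ∈ A`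
  and `(x̄, ȳ)` a nonsingular point of the reduced curve);
* `S58Map W f P P'`: `P'` is the coordinatewise image of `P` under `f`.

Basic facts: `s58rd_zero`, `s58rd_eq_zero` (injectivity at `0`), `s58rd_unique`, `s58rd_neg`,
`s58rd_exists` (good reduction), `s58rd_inertia`, `s58rd_frob` (equivariance).
Names are prefixed `s58rd` / `S58`.
-/

set_option autoImplicit false

noncomputable section

open WeierstrassCurve WeierstrassCurve.Affine

namespace Fermat.Agent.S58

section Defs

variable {F : Type*} [Field F] (A : ValuationSubring F)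
  (WF : Affine F) (Wk : Affine (IsLocalRing.ResidueField A))

/-- the point is zero or has coordinates in `A` -/
def S58Int (P : WF.Point) : Prop :=
  P = 0 ∨ ∃ (x y : A) (h : WF.Nonsingular (x : F) (y : F)), P = Point.some (x : F) (y : F) h

/-- the reduction relation -/
def S58Red (P : WF.Point) (Q : Wk.Point) : Prop :=
  (P = 0 ∧ Q = 0) ∨ ∃ (x y : A) (h : WF.Nonsingular (x : F) (y : F))
    (h' : Wk.Nonsingular (IsLocalRing.residue A x) (IsLocalRing.residue A y)),
    P = Point.some (x : F) (y : F) h ∧ Q = Point.some _ _ h'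

end Defs

/-- coordinatewise image under a map of the coordinate field -/
def S58Map {K : Type*} [Field K] (W : Affine K) (f : K → K) (P P' : W.Point) : Prop :=
  (P = 0 ∧ P' = 0) ∨ ∃ (x y : K) (h : W.Nonsingular x y) (h' : W.Nonsingular (f x) (f y)),
    P = Point.some x y h ∧ P' = Point.some (f x) (f y) h'

section Basic

variable {F : Type*} [Field F] (A : ValuationSubring F)
  (WF : Affine F) (Wk : Affine (IsLocalRing.ResidueField A))

theorem s58rd_some_congr {K : Type*} [Field K] {W : Affine K} {x y x' y' : K}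
    (h : W.Nonsingular x y) (h' : W.Nonsingular x' y') (hx : x = x') (hy : y = y') :
    (Point.some x y h : W.Point) = Point.some x' y' h' := by
  subst hx; subst hy; rfl

theorem s58rd_zero : S58Red A WF Wk 0 0 := Or.inl ⟨rfl, rfl⟩

theorem s58rd_int_zero : S58Int A WF 0 := Or.inl rfl

/-- constructor with flexible coordinates -/
theorem s58rd_mk (x y : A) {xF yF : F} {xk yk : IsLocalRing.ResidueField A}
    (hx : (x : F) = xF) (hy : (y : F) = yF) (hxk : IsLocalRing.residue A x = xk)
    (hyk : IsLocalRing.residue A y = yk) (h : WF.Nonsingular xF yF) (h' : Wk.Nonsingular xk yk) :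
    S58Red A WF Wk (Point.some xF yF h) (Point.some xk yk h') := by
  subst hx; subst hy; subst hxk; subst hyk
  exact Or.inr ⟨x, y, h, h', rfl, rfl⟩

/-- constructor with flexible coordinates -/
theorem s58rd_int_mk (x y : A) {xF yF : F} (hx : (x : F) = xF) (hy : (y : F) = yF)
    (h : WF.Nonsingular xF yF) : S58Int A WF (Point.some xF yF h) := by
  subst hx; subst hy
  exact Or.inr ⟨x, y, h, rfl⟩

variable {A WF Wk}

/-- a point with a reduction is integral -/
theorem s58rd_int_of_red {P : WF.Point} {Q : Wk.Point} (h : S58Red A WF Wk P Q) :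
    S58Int A WF P := by
  rcases h with ⟨hP, -⟩ | ⟨x, y, h, -, hP, -⟩
  · exact Or.inl hP
  · exact Or.inr ⟨x, y, h, hP⟩

/-- injectivity at zero: only `0` reduces to `0` -/
theorem s58rd_eq_zero {P : WF.Point} (h : S58Red A WF Wk P 0) : P = 0 := by
  rcases h with ⟨hP, -⟩ | ⟨x, y, h, h', -, hQ⟩
  · exact hP
  · exact absurd hQ.symm (Point.some_ne_zero h')

/-- the reduction of zero is zero -/
theorem s58rd_zero_left {Q : Wk.Point} (h : S58Red A WF Wk 0 Q) : Q = 0 := by
  rcases h with ⟨-, hQ⟩ | ⟨x, y, h, h', hP, -⟩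
  · exact hQ
  · exact absurd hP.symm (Point.some_ne_zero h)

/-- the reduction is unique -/
theorem s58rd_unique {P : WF.Point} {Q Q' : Wk.Point} (h : S58Red A WF Wk P Q)
    (h' : S58Red A WF Wk P Q') : Q = Q' := by
  rcases h with ⟨hP, hQ⟩ | ⟨x, y, hn, hn', hP, hQ⟩
  · rw [hP] at h'
    rw [hQ, s58rd_zero_left h']
  · rcases h' with ⟨hP', -⟩ | ⟨x', y', hm, hm', hP', hQ'⟩
    · rw [hP] at hP'
      exact absurd hP' (Point.some_ne_zero hn)
    · rw [hP] at hP'
      have e := hP'
      rw [Point.some.injEq] at e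
      have ex : x = x' := Subtype.ext e.1
      have ey : y = y' := Subtype.ext e.2
      subst ex; subst ey
      rw [hQ, hQ']

end Basic

section Curve

variable {F : Type*} [Field F] {A : ValuationSubring F}
  {WF : Affine F} {Wk : Affine (IsLocalRing.ResidueField A)}
  (Wa : WeierstrassCurve A) (hF : Wa.map A.subtype = WF)
  (hk : Wa.map (IsLocalRing.residue A) = Wk)

include hF in
/-- the equation over `A` of an integral point -/
theorem s58rd_equation_A {x y : A} (h : WF.Equation (x : F) (y : F)) :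
    Wa.toAffine.Equation x y := by
  subst hF
  exact (Affine.map_equation Wa.toAffine (f := A.subtype) Subtype.val_injective x y).mp h

include hk in
/-- the reduced equation -/
theorem s58rd_equation_k {x y : A} (h : Wa.toAffine.Equation x y) :
    Wk.Equation (IsLocalRing.residue A x) (IsLocalRing.residue A y) := by
  subst hk
  exact Affine.Equation.map (IsLocalRing.residue A) h

include hF in
theorem s58rd_negY_F (x y : A) : ((Wa.toAffine.negY x y : A) : F) = WF.negY (x : F) (y : F) := by
  subst hF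
  exact (Affine.map_negY (W' := Wa.toAffine) A.subtype x y).symm

include hk in
theorem s58rd_negY_k (x y : A) : IsLocalRing.residue A (Wa.toAffine.negY x y) =
    Wk.negY (IsLocalRing.residue A x) (IsLocalRing.residue A y) := by
  subst hk
  exact (Affine.map_negY (W' := Wa.toAffine) (IsLocalRing.residue A) x y).symm

include hF hk in
/-- the reduction commutes with negation -/
theorem s58rd_neg {P : WF.Point} {Q : Wk.Point} (h : S58Red A WF Wk P Q) :
    S58Red A WF Wk (-P) (-Q) := by
  rcases h with ⟨hP, hQ⟩ | ⟨x, y, hn, hn', hP, hQ⟩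
  · rw [hP, hQ, Point.neg_zero, Point.neg_zero]
    exact s58rd_zero A WF Wk
  · rw [hP, hQ, Point.neg_some, Point.neg_some]
    exact s58rd_mk A WF Wk x (Wa.toAffine.negY x y) rfl (s58rd_negY_F Wa hF x y) rfl
      (s58rd_negY_k Wa hk x y) _ _

include hF in
/-- integrality is stable under negation -/
theorem s58rd_int_neg {P : WF.Point} (h : S58Int A WF P) : S58Int A WF (-P) := by
  rcases h with hP | ⟨x, y, hn, hP⟩
  · rw [hP, Point.neg_zero]
    exact s58rd_int_zero A WF
  · rw [hP, Point.neg_some]
    exact s58rd_int_mk A WF x (Wa.toAffine.negY x y) rfl (s58rd_negY_F Wa hF x y) _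

include hF hk in
/-- **good reduction**: every integral point has a reduction -/
theorem s58rd_exists (hΔ : Wk.Δ ≠ 0) {P : WF.Point} (h : S58Int A WF P) :
    ∃ Q : Wk.Point, S58Red A WF Wk P Q := by
  rcases h with hP | ⟨x, y, hn, hP⟩
  · exact ⟨0, hP ▸ s58rd_zero A WF Wk⟩
  · have h1 := s58rd_equation_k Wa hk (s58rd_equation_A Wa hF hn.1)
    have h2 : Wk.Nonsingular (IsLocalRing.residue A x) (IsLocalRing.residue A y) :=
      (Affine.equation_iff_nonsingular_of_Δ_ne_zero hΔ).mp h1
    exact ⟨Point.some _ _ h2, Or.inr ⟨x, y, hn, h2, hP, rfl⟩⟩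

omit Wa in
/-- equivariance for a residue-preserving map (inertia) -/
theorem s58rd_inertia (f : F → F)
    (hf : ∀ a : A, ∃ b : A, (b : F) = f a ∧ IsLocalRing.residue A b = IsLocalRing.residue A a)
    {P P' : WF.Point} {Q : Wk.Point} (h : S58Red A WF Wk P Q) (hm : S58Map WF f P P') :
    S58Red A WF Wk P' Q := by
  rcases h with ⟨hP, hQ⟩ | ⟨x, y, hn, hn', hP, hQ⟩
  · rcases hm with ⟨-, hP'⟩ | ⟨x1, y1, h1, h1', hP1, -⟩
    · rw [hP', hQ]
      exact s58rd_zero A WF Wk
    · rw [hP] at hP1
      exact absurd hP1.symm (Point.some_ne_zero h1)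
  · rcases hm with ⟨hP0, -⟩ | ⟨x1, y1, h1, h1', hP1, hP'⟩
    · rw [hP] at hP0
      exact absurd hP0 (Point.some_ne_zero hn)
    · rw [hP] at hP1
      have e := hP1
      rw [Point.some.injEq] at e
      obtain ⟨bx, hbx, hbx'⟩ := hf x
      obtain ⟨by', hby, hby'⟩ := hf y
      rw [hP', hQ]
      exact s58rd_mk A WF Wk bx by' (by rw [hbx, e.1]) (by rw [hby, e.2]) hbx' hby' _ _

include hF hk in
/-- equivariance for a map inducing the `n`-th power on the residue field (Frobenius),
good reduction -/
theorem s58rd_frob (hΔ : Wk.Δ ≠ 0) (f : F → F) (n : ℕ)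
    (hf : ∀ a : A, ∃ b : A, (b : F) = f a ∧
      IsLocalRing.residue A b = IsLocalRing.residue A a ^ n)
    {P P' : WF.Point} {Q : Wk.Point} (h : S58Red A WF Wk P Q) (hm : S58Map WF f P P') :
    ∃ Q' : Wk.Point, S58Map Wk (fun z => z ^ n) Q Q' ∧ S58Red A WF Wk P' Q' := by
  rcases h with ⟨hP, hQ⟩ | ⟨x, y, hn, hn', hP, hQ⟩
  · rcases hm with ⟨-, hP'⟩ | ⟨x1, y1, h1, h1', hP1, -⟩
    · refine ⟨0, Or.inl ⟨hQ, rfl⟩, ?_⟩
      rw [hP']
      exact s58rd_zero A WF Wk
    · rw [hP] at hP1
      exact absurd hP1.symm (Point.some_ne_zero h1)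
  · rcases hm with ⟨hP0, -⟩ | ⟨x1, y1, h1, h1', hP1, hP'⟩
    · rw [hP] at hP0
      exact absurd hP0 (Point.some_ne_zero hn)
    · rw [hP] at hP1
      have e := hP1
      rw [Point.some.injEq] at e
      obtain ⟨bx, hbx, hbx'⟩ := hf x
      obtain ⟨by', hby, hby'⟩ := hf y
      have hx1 : (bx : F) = f x1 := by rw [hbx, e.1]
      have hy1 : (by' : F) = f y1 := by rw [hby, e.2]
      have h1'' : WF.Nonsingular (bx : F) (by' : F) := by rw [hx1, hy1]; exact h1'
      have h2 := s58rd_equation_k Wa hk (s58rd_equation_A Wa hF h1''.1)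
      rw [hbx', hby'] at h2
      have h3 : Wk.Nonsingular (IsLocalRing.residue A x ^ n) (IsLocalRing.residue A y ^ n) :=
        (Affine.equation_iff_nonsingular_of_Δ_ne_zero hΔ).mp h2
      refine ⟨Point.some _ _ h3, Or.inr ⟨_, _, hn', h3, hQ, rfl⟩, ?_⟩
      rw [hP']
      exact s58rd_mk A WF Wk bx by' hx1 hy1 hbx' hby' _ _

end Curve

end Fermat.Agent.S58
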