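import Mathlib
import Fermat.Agent.S58.RedAdd
import Fermat.Agent.S58.RedDef

/-!
# S58, package RED, [R-ADD], second file: the two halves of additivity and the `S58Red` API

Complements `S58/RedAdd.lean` (prefix `s58ra_`):

* generic `π` (relation `s58raRel`): `s58rb_rel_add_of_ne` (non-opposite reductions: the sum
  reduces to the sum, no integrality hypothesis), `s58rb_rel_add_of_eq` (opposite reductions:
  the sum is zero or has a non-integral abscissa);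
* for the reduction relation `S58Red` / `S58Int` / `S58Map` of `S58/RedDef.lean`
  (`k = IsLocalRing.ResidueField A`, `Wa` a Weierstrass curve over `A` with
  `Wa.map A.subtype = WF`, `Wa.map (residue A) = Wk`): `s58rb_compat`, `s58rb_red_iff`,
  `s58rb_add`, `s58rb_add_of_ne`, `s58rb_add_of_eq`, `s58rb_sub`, `s58rb_hom`, `s58rb_fix`.
-/

set_option autoImplicit false
set_option linter.unusedSectionVars false
set_option linter.unusedVariables false

open WeierstrassCurve WeierstrassCurve.Affine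

namespace Fermat.Agent.S58

section Gen

variable {K : Type*} [Field K] [DecidableEq K] {k : Type*} [Field k] [DecidableEq k]
  (A : ValuationSubring K) (π : ↥A →+* k) (W : Affine K) (Wk : Affine k)

/-- **Additivity of reduction, non-opposite reductions**: no integrality hypothesis on the
sum is needed. -/
theorem s58rb_rel_add_of_ne (hc : S58raCompat A π W Wk) {P Q : W.Point} {P' Q' : Wk.Point}
    (hP : s58raRel A π W Wk P P') (hQ : s58raRel A π W Wk Q Q') (hne : P' + Q' ≠ 0) :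
    s58raRel A π W Wk (P + Q) (P' + Q') := by
  obtain ⟨hker, α₁, α₂, α₃, α₄, α₆, ⟨c₁, r₁⟩, ⟨c₂, r₂⟩, ⟨c₃, r₃⟩, ⟨c₄, r₄⟩, ⟨c₆, r₆⟩⟩ := hc
  have hunit : ∀ a : ↥A, π a ≠ 0 → IsUnit a := fun a ha => by
    by_contra hn
    exact ha (hker a hn)
  rcases hP with ⟨rfl, rfl⟩ | ⟨X₁, Y₁, h₁, h₁', rfl, rfl⟩
  · rw [zero_add, zero_add]
    exact hQ
  rcases hQ with ⟨rfl, rfl⟩ | ⟨X₂, Y₂, h₂, h₂', rfl, rfl⟩
  · rw [add_zero, add_zero]
    exact Or.inr ⟨X₁, Y₁, h₁, h₁', rfl, rfl⟩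
  -- the negated ordinate of the second point
  have eN : ((-Y₂ - α₁ * X₂ - α₃ : ↥A) : K) = W.negY (X₂ : K) (Y₂ : K) := by
    simp only [negY]
    push_cast
    rw [c₁, c₃]
  have eN' : π (-Y₂ - α₁ * X₂ - α₃) = Wk.negY (π X₂) (π Y₂) := by
    simp only [negY, map_sub, map_neg, map_mul, r₁, r₃]
  -- the slope relations, transported to `A` and then to `k`
  have key : ∀ (hopp : ¬((X₁ : K) = X₂ ∧ (Y₁ : K) = W.negY (X₂ : K) (Y₂ : K)))
      (La : ↥A), (La : K) = W.slope (X₁ : K) (X₂ : K) (Y₁ : K) (Y₂ : K) →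
      π La * (π X₁ - π X₂) = π Y₁ - π Y₂ ∧
      π La * (π Y₁ - Wk.negY (π X₂) (π Y₂)) =
        π X₁ ^ 2 + π X₁ * π X₂ + π X₂ ^ 2 + Wk.a₂ * (π X₁ + π X₂) + Wk.a₄ - Wk.a₁ * π Y₁ := by
    intro hopp La hLa
    obtain ⟨s₁, s₂⟩ := s58ra_slope_rel W h₁.1 h₂.1 hopp
    have t₁ : La * (X₁ - X₂) = Y₁ - Y₂ := by
      apply Subtype.ext
      push_cast
      rw [hLa]
      exact s₁
    have t₂ : La * (Y₁ - (-Y₂ - α₁ * X₂ - α₃)) =
        X₁ ^ 2 + X₁ * X₂ + X₂ ^ 2 + α₂ * (X₁ + X₂) + α₄ - α₁ * Y₁ := by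
      apply Subtype.ext
      have e := eN
      push_cast at e ⊢
      rw [hLa, e, c₁, c₂, c₄]
      exact s₂
    refine ⟨?_, ?_⟩
    · have := congrArg π t₁
      simpa only [map_mul, map_sub] using this
    · have := congrArg π t₂
      rw [map_mul, map_sub, eN'] at this
      simpa only [map_mul, map_sub, map_add, map_pow, r₁, r₂, r₄] using this
  have hopp' : ¬(π X₁ = π X₂ ∧ π Y₁ = Wk.negY (π X₂) (π Y₂)) := by
    intro h
    exact hne (Point.add_of_Y_eq h.1 h.2)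
  have hopp : ¬((X₁ : K) = X₂ ∧ (Y₁ : K) = W.negY (X₂ : K) (Y₂ : K)) := by
    rintro ⟨e1, e2⟩
    apply hopp'
    have eX : X₁ = X₂ := Subtype.ext e1
    have eY : Y₁ = -Y₂ - α₁ * X₂ - α₃ := Subtype.ext (by rw [eN]; exact e2)
    exact ⟨by rw [eX], by rw [eY, eN']⟩
  obtain ⟨s₁, s₂⟩ := s58ra_slope_rel W h₁.1 h₂.1 hopp
  have hL : W.slope (X₁ : K) (X₂ : K) (Y₁ : K) (Y₂ : K) ∈ A := by
    by_cases hx' : π X₁ = π X₂
    · have hy' : π Y₁ ≠ Wk.negY (π X₂) (π Y₂) := fun h => hopp' ⟨hx', h⟩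
      have hu : IsUnit (Y₁ - (-Y₂ - α₁ * X₂ - α₃)) := by
        apply hunit
        rw [map_sub, eN']
        exact sub_ne_zero.mpr hy'
      refine s58ra_mem_of_mul_unit A hu
        (n := X₁ ^ 2 + X₁ * X₂ + X₂ ^ 2 + α₂ * (X₁ + X₂) + α₄ - α₁ * Y₁) ?_
      have e := eN
      push_cast at e ⊢
      rw [e, c₁, c₂, c₄]
      exact s₂
    · have hu : IsUnit (X₁ - X₂) := by
        apply hunit
        rw [map_sub]
        exact sub_ne_zero.mpr hx'
      refine s58ra_mem_of_mul_unit A hu (n := Y₁ - Y₂) ?_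
      push_cast
      exact s₁
  obtain ⟨La, hLa⟩ : ∃ La : ↥A, (La : K) = W.slope (X₁ : K) (X₂ : K) (Y₁ : K) (Y₂ : K) :=
    ⟨⟨_, hL⟩, rfl⟩
  obtain ⟨k₁, k₂⟩ := key hopp La hLa
  have hπL : π La = Wk.slope (π X₁) (π X₂) (π Y₁) (π Y₂) :=
    s58ra_slope_unique Wk h₁'.1 h₂'.1 hopp' k₁ k₂
  -- the coordinates of the sum
  obtain ⟨X₃, hX₃def⟩ : ∃ X₃ : ↥A, X₃ = La ^ 2 + α₁ * La - α₂ - X₁ - X₂ := ⟨_, rfl⟩
  obtain ⟨Y₃, hY₃def⟩ : ∃ Y₃ : ↥A, Y₃ = -(La * (X₃ - X₁) + Y₁) - α₁ * X₃ - α₃ := ⟨_, rfl⟩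
  have hX₃ : (X₃ : K) = W.addX (X₁ : K) (X₂ : K) (W.slope (X₁ : K) (X₂ : K) (Y₁ : K) (Y₂ : K)) := by
    rw [hX₃def]
    simp only [addX]
    push_cast
    rw [hLa, c₁, c₂]
  have hY₃ : (Y₃ : K) =
      W.addY (X₁ : K) (X₂ : K) (Y₁ : K) (W.slope (X₁ : K) (X₂ : K) (Y₁ : K) (Y₂ : K)) := by
    rw [hY₃def, addY, negY, negAddY, ← hX₃]
    push_cast
    rw [hLa, c₁, c₃]
  have hX₃' : π X₃ = Wk.addX (π X₁) (π X₂) (Wk.slope (π X₁) (π X₂) (π Y₁) (π Y₂)) := by
    rw [hX₃def]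
    simp only [addX, map_sub, map_add, map_mul, map_pow, r₁, r₂, hπL]
  have hY₃' : π Y₃ =
      Wk.addY (π X₁) (π X₂) (π Y₁) (Wk.slope (π X₁) (π X₂) (π Y₁) (π Y₂)) := by
    rw [hY₃def, addY, negY, negAddY, ← hX₃']
    simp only [map_sub, map_add, map_mul, map_neg, r₁, r₃, hπL]
  have h₃ : W.Nonsingular (X₃ : K) (Y₃ : K) := by
    rw [hX₃, hY₃]
    exact nonsingular_add h₁ h₂ hopp
  have h₃' : Wk.Nonsingular (π X₃) (π Y₃) := by
    rw [hX₃', hY₃']
    exact nonsingular_add h₁' h₂' hopp'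
  refine Or.inr ⟨X₃, Y₃, h₃, h₃', ?_, ?_⟩
  · rw [Point.add_some hopp]
    exact s58ra_some_congr W _ _ hX₃.symm hY₃.symm
  · rw [Point.add_some hopp']
    exact s58ra_some_congr Wk _ _ hX₃'.symm hY₃'.symm


/-- **Additivity of reduction, opposite reductions**: the sum is zero or has a non-integral
abscissa. -/
theorem s58rb_rel_add_of_eq (hc : S58raCompat A π W Wk) {P Q : W.Point} {P' Q' : Wk.Point}
    (hP : s58raRel A π W Wk P P') (hQ : s58raRel A π W Wk Q Q') (heq : P' + Q' = 0) :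
    P + Q = 0 ∨ ∃ (x y : K) (h : W.Nonsingular x y), P + Q = Point.some x y h ∧ x ∉ A := by
  rcases hPQ : P + Q with _ | ⟨x, y, h⟩
  · exact Or.inl rfl
  · refine Or.inr ⟨x, y, h, rfl, ?_⟩
    intro hx
    have hrel := s58ra_rel_add A π W Wk hc hP hQ (fun x' y' h' e => by
      rw [hPQ, Point.some.injEq] at e
      rw [← e.1]
      exact hx)
    rw [heq] at hrel
    have h0 := s58ra_rel_zero_right A π W Wk hrel
    rw [hPQ] at h0
    exact Point.some_ne_zero h h0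

end Gen

section Res

variable {F : Type*} [Field F] [DecidableEq F] {A : ValuationSubring F}
  [DecidableEq (IsLocalRing.ResidueField A)]
  {WF : Affine F} {Wk : Affine (IsLocalRing.ResidueField A)}
  (Wa : WeierstrassCurve A) (hF : Wa.map A.subtype = WF)
  (hk : Wa.map (IsLocalRing.residue A) = Wk)

omit [DecidableEq F] [DecidableEq (IsLocalRing.ResidueField A)] in
/-- the two reduction relations coincide -/
theorem s58rb_red_iff (P : WF.Point) (Q : Wk.Point) :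
    S58Red A WF Wk P Q ↔ s58raRel A (IsLocalRing.residue A) WF Wk P Q := Iff.rfl

include hF hk in
omit [DecidableEq F] [DecidableEq (IsLocalRing.ResidueField A)] in
/-- the compatibility datum of `S58/RedAdd.lean` from a model over `A` -/
theorem s58rb_compat : S58raCompat A (IsLocalRing.residue A) WF Wk := by
  subst hF hk
  refine ⟨fun a ha => ?_, Wa.a₁, Wa.a₂, Wa.a₃, Wa.a₄, Wa.a₆,
    ⟨rfl, rfl⟩, ⟨rfl, rfl⟩, ⟨rfl, rfl⟩, ⟨rfl, rfl⟩, ⟨rfl, rfl⟩⟩
  rw [IsLocalRing.residue_eq_zero_iff, IsLocalRing.mem_maximalIdeal]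
  exact ha

include hF hk in
/-- **Additivity** (`S58Red` form): if the sum is integral, it reduces to the sum. -/
theorem s58rb_add {P₁ P₂ : WF.Point} {Q₁ Q₂ : Wk.Point} (h₁ : S58Red A WF Wk P₁ Q₁)
    (h₂ : S58Red A WF Wk P₂ Q₂) (hint : S58Int A WF (P₁ + P₂)) :
    S58Red A WF Wk (P₁ + P₂) (Q₁ + Q₂) := by
  refine s58ra_rel_add A (IsLocalRing.residue A) WF Wk (s58rb_compat Wa hF hk) h₁ h₂ ?_
  intro x y h e
  rcases hint with h0 | ⟨x', y', h', e'⟩
  · rw [h0] at e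
    exact absurd e.symm (Point.some_ne_zero h)
  · rw [e', Point.some.injEq] at e
    rw [← e.1]
    exact x'.2

include hF hk in
/-- **Additivity, non-opposite reductions** (`S58Red` form). -/
theorem s58rb_add_of_ne {P₁ P₂ : WF.Point} {Q₁ Q₂ : Wk.Point} (h₁ : S58Red A WF Wk P₁ Q₁)
    (h₂ : S58Red A WF Wk P₂ Q₂) (hne : Q₁ + Q₂ ≠ 0) :
    S58Red A WF Wk (P₁ + P₂) (Q₁ + Q₂) :=
  s58rb_rel_add_of_ne A (IsLocalRing.residue A) WF Wk (s58rb_compat Wa hF hk) h₁ h₂ hne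

include hF hk in
/-- **Additivity, opposite reductions** (`S58Red` form): the sum is zero or not integral. -/
theorem s58rb_add_of_eq {P₁ P₂ : WF.Point} {Q₁ Q₂ : Wk.Point} (h₁ : S58Red A WF Wk P₁ Q₁)
    (h₂ : S58Red A WF Wk P₂ Q₂) (heq : Q₁ + Q₂ = 0) :
    P₁ + P₂ = 0 ∨ ∃ (x y : F) (h : WF.Nonsingular x y), P₁ + P₂ = Point.some x y h ∧ x ∉ A :=
  s58rb_rel_add_of_eq A (IsLocalRing.residue A) WF Wk (s58rb_compat Wa hF hk) h₁ h₂ heq

include hF hk in
/-- opposite reductions and an integral sum: the sum is zero -/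
theorem s58rb_add_eq_zero {P₁ P₂ : WF.Point} {Q₁ Q₂ : Wk.Point} (h₁ : S58Red A WF Wk P₁ Q₁)
    (h₂ : S58Red A WF Wk P₂ Q₂) (heq : Q₁ + Q₂ = 0) (hint : S58Int A WF (P₁ + P₂)) :
    P₁ + P₂ = 0 := by
  have h := s58rb_add Wa hF hk h₁ h₂ hint
  rw [heq] at h
  exact s58rd_eq_zero h

include hF hk in
/-- **Subtraction** (`S58Red` form). -/
theorem s58rb_sub {P₁ P₂ : WF.Point} {Q₁ Q₂ : Wk.Point} (h₁ : S58Red A WF Wk P₁ Q₁)
    (h₂ : S58Red A WF Wk P₂ Q₂) (hint : S58Int A WF (P₁ - P₂)) :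
    S58Red A WF Wk (P₁ - P₂) (Q₁ - Q₂) := by
  rw [sub_eq_add_neg, sub_eq_add_neg]
  refine s58rb_add Wa hF hk h₁ (s58rd_neg Wa hF hk h₂) ?_
  rw [← sub_eq_add_neg]
  exact hint

include hF hk in
/-- **Reduction as an injective group homomorphism** on a subgroup all of whose points have a
reduction (good or bad reduction). -/
theorem s58rb_hom (G : AddSubgroup WF.Point) (hG : ∀ P ∈ G, ∃ Q : Wk.Point, S58Red A WF Wk P Q) :
    ∃ r : ↥G →+ Wk.Point, (∀ P : ↥G, S58Red A WF Wk (P : WF.Point) (r P)) ∧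
      Function.Injective r := by
  have hex : ∀ P : ↥G, ∃ Q : Wk.Point, S58Red A WF Wk (P : WF.Point) Q := fun P => hG P.1 P.2
  choose f hf using hex
  have hadd : ∀ P Q : ↥G, f (P + Q) = f P + f Q := by
    intro P Q
    refine s58rd_unique (hf (P + Q)) ?_
    exact s58rb_add Wa hF hk (hf P) (hf Q) (s58rd_int_of_red (hf (P + Q)))
  refine ⟨AddMonoidHom.mk' f hadd, hf, ?_⟩
  rw [injective_iff_map_eq_zero]
  intro P hP
  have h0 := hf P
  rw [show f P = 0 from hP] at h0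
  exact Subtype.ext (s58rd_eq_zero h0)

include hF hk in
/-- **Fixed points**: a residue-preserving coordinate map fixes every point with a reduction,
provided the difference is integral. -/
theorem s58rb_fix (f : F → F)
    (hf : ∀ a : A, ∃ b : A, (b : F) = f a ∧ IsLocalRing.residue A b = IsLocalRing.residue A a)
    {P P' : WF.Point} {Q : Wk.Point} (h : S58Red A WF Wk P Q) (hm : S58Map WF f P P')
    (hint : S58Int A WF (P' - P)) : P' = P := by
  have h' : S58Red A WF Wk P' Q := s58rd_inertia f hf h hm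
  have hs := s58rb_sub Wa hF hk h' h hint
  rw [sub_self] at hs
  exact sub_eq_zero.mp (s58rd_eq_zero hs)

end Res

end Fermat.Agent.S58
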