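import Mathlib
import Fermat.Prelude.Def_FLTPrelim_GaloisRep
import Fermat.Prelude.Def_FLTPrelim_Ramification
import Fermat.Agent.S05.Inertia
import Fermat.Agent.S58.RedAddB
import Fermat.Agent.S58.NodeFixLift

/-!
# S58, package NODE, part C2: inertia fixes a lift of a torsion point of the reduction

* `s58nfc_core`: abstract form over a valuation subring `A` of an algebraically closed field: a
  point of exact order `m` (a unit of `A`) of the reduced curve lifts to a point `T` of exact order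
  `m` which is fixed by every residue-preserving coordinate map `f` such that `f T - T` is killed
  by `m`;
* `s58nfc_fix_of`: for a Weierstrass curve over `ℤ` and a valuation subring `A` of the algebraic
  closure of `ℚ` over the prime `q`: if the reduction of the curve at `A` has a point of exact
  order `lam ^ n` (`lam ≠ q` prime), then the curve has a point of exact order `lam ^ n` fixed by
  the inertia subgroup of `A`.
-/

set_option autoImplicit false

namespace Fermat.Agent.S58

open WeierstrassCurve WeierstrassCurve.Affine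

/-- abstract core: lift of a torsion point of the reduction, fixed by residue-preserving maps -/
theorem s58nfc_core {F : Type*} [Field F] [IsAlgClosed F] [DecidableEq F]
    (A : ValuationSubring F) [DecidableEq (IsLocalRing.ResidueField A)]
    (Wa : WeierstrassCurve A) (WF : Affine F) (Wk : Affine (IsLocalRing.ResidueField A))
    (hF : Wa.map A.subtype = WF) (hk : Wa.map (IsLocalRing.residue A) = Wk)
    (hΔ : WF.Δ ≠ 0) (m : ℕ) (hm2 : 2 ≤ m) (hmA : IsUnit ((m : ℤ) : A))
    (P : Wk.Point) (hP : addOrderOf P = m) :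
    ∃ T : WF.Point, addOrderOf T = m ∧ (∃ Q : Wk.Point, S58Red A WF Wk T Q) ∧
      ∀ f : F → F, (∀ a : A, ∃ b : A, (b : F) = f a ∧
          IsLocalRing.residue A b = IsLocalRing.residue A a) →
        ∀ T' : WF.Point, S58Map WF f T T' → m • (T' - T) = 0 → T' = T := by
  subst hF hk
  have hmk : (m : IsLocalRing.ResidueField A) ≠ 0 := by
    have h1 : (m : IsLocalRing.ResidueField A) = IsLocalRing.residue A ((m : ℤ) : A) := by
      simp
    rw [h1]
    intro h0
    rw [IsLocalRing.residue_eq_zero_iff] at h0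
    exact (IsLocalRing.notMem_maximalIdeal.mpr hmA) h0
  obtain ⟨x, y, h, h', hord⟩ := s58nfl_lift A Wa hΔ m hm2 hmk P hP
  have hred : S58Red A (Wa.map A.subtype).toAffine (Wa.map (IsLocalRing.residue A)).toAffine
      (Point.some (x : F) (y : F) h) (Point.some _ _ h') := Or.inr ⟨x, y, h, h', rfl, rfl⟩
  refine ⟨Point.some (x : F) (y : F) h, hord, ⟨_, hred⟩, ?_⟩
  intro f hf T' hmap hD
  refine s58rb_fix Wa rfl rfl f hf hred hmap ?_
  rcases hDeq : T' - Point.some (x : F) (y : F) h with _ | ⟨xD, yD, hD'⟩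
  · exact Or.inl rfl
  · rw [hDeq] at hD
    obtain ⟨hx, hy⟩ := s58nfl_int A Wa m hmA hD' hD
    exact Or.inr ⟨⟨xD, hx⟩, ⟨yD, hy⟩, hD', rfl⟩

/-- the generic fibre of the model over `A` is the Prelude's curve -/
theorem s58nfc_hF (W : WeierstrassCurve ℤ) (A : ValuationSubring (AlgebraicClosure ℚ)) :
    (W.map (Int.castRingHom A)).map A.subtype =
      ((W.map (Int.castRingHom ℚ))⁄(AlgebraicClosure ℚ)) := by
  show (W.map (Int.castRingHom A)).map A.subtype =
    (W.map (Int.castRingHom ℚ)).map (algebraMap ℚ (AlgebraicClosure ℚ))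
  rw [WeierstrassCurve.map_map, WeierstrassCurve.map_map]
  congr 1

/-- an element of the inertia subgroup preserves `A` and residues -/
theorem s58nfc_inertia (A : ValuationSubring (AlgebraicClosure ℚ))
    (σ : AlgebraicClosure ℚ ≃ₐ[ℚ] AlgebraicClosure ℚ) (hσ : σ ∈ A.inertiaSubgroupIn ℚ) (a : A) :
    ∃ b : A, (b : AlgebraicClosure ℚ) = σ a ∧
      IsLocalRing.residue A b = IsLocalRing.residue A a := by
  have h1 := Fermat.Agent.S05.inertia_sub_mem_nonunits A σ hσ a a.2
  rw [ValuationSubring.mem_nonunits_iff_exists_mem_maximalIdeal] at h1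
  obtain ⟨hmem, hmax⟩ := h1
  refine ⟨⟨σ a - a, hmem⟩ + a, ?_, ?_⟩
  · simp
  · rw [map_add, (IsLocalRing.residue_eq_zero_iff _).mpr hmax, zero_add]

/-- integers prime to `q` are units of a valuation subring over `q` -/
theorem s58nfc_unit {K : Type*} [Field K] (A : ValuationSubring K) {q : ℕ} (hq : q.Prime)
    (hA : (q : K) ∈ A.nonunits) {z : ℤ} (hz : ¬ (q : ℤ) ∣ z) : IsUnit ((z : ℤ) : A) := by
  rw [ValuationSubring.valuation_eq_one_iff]
  have h1 := Fermat.Agent.S05.valuation_intCast_eq_one A hq hA hz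
  simpa using h1

/-- **Inertia fixes a lift of the torsion of the reduction.** -/
theorem s58nfc_fix_of (W : WeierstrassCurve ℤ) (hΔ : W.Δ ≠ 0) {q : ℕ} (hq : q.Prime)
    {lam : ℕ} (hlam : lam.Prime) (hlq : lam ≠ q) (n : ℕ)
    (A : ValuationSubring (AlgebraicClosure ℚ)) (hA : A.LiesOverPrime q)
    [DecidableEq (IsLocalRing.ResidueField A)]
    (hnode : ∃ P : ((W.map (Int.castRingHom A)).map (IsLocalRing.residue A)).toAffine.Point,
      addOrderOf P = lam ^ n) :
    ∃ T : ((W.map (Int.castRingHom ℚ))⁄(AlgebraicClosure ℚ)).Point,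
      addOrderOf T = lam ^ n ∧ ∀ σ ∈ A.inertiaSubgroupIn ℚ, σ • T = T := by
  rcases Nat.eq_zero_or_pos n with rfl | hn
  · exact ⟨0, by simp, fun σ _ => rfl⟩
  have h2 : 2 ≤ lam ^ n := by
    calc 2 ≤ lam := hlam.two_le
      _ = lam ^ 1 := (pow_one lam).symm
      _ ≤ lam ^ n := Nat.pow_le_pow_right hlam.pos hn
  have hql : ¬ (q : ℤ) ∣ ((lam ^ n : ℕ) : ℤ) := by
    intro hdvd
    have h3 : q ∣ lam ^ n := Int.natCast_dvd_natCast.mp hdvd
    have h4 : q ∣ lam := hq.dvd_of_dvd_pow h3
    exact hlq ((Nat.prime_dvd_prime_iff_eq hq hlam).mp h4).symm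
  have hunit : IsUnit (((lam ^ n : ℕ) : ℤ) : A) := s58nfc_unit A hq hA hql
  have hΔ' : ((W.map (Int.castRingHom ℚ))⁄(AlgebraicClosure ℚ)).Δ ≠ 0 := by
    show ((W.map (Int.castRingHom ℚ)).map (algebraMap ℚ (AlgebraicClosure ℚ))).Δ ≠ 0
    rw [WeierstrassCurve.map_Δ, WeierstrassCurve.map_Δ]
    simpa using hΔ
  obtain ⟨P, hP⟩ := hnode
  obtain ⟨T, hT, -, hfix⟩ := s58nfc_core A (W.map (Int.castRingHom A))
    ((W.map (Int.castRingHom ℚ))⁄(AlgebraicClosure ℚ)) _ (s58nfc_hF W A) rfl hΔ' (lam ^ n) h2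
    hunit P hP
  refine ⟨T, hT, fun σ hσ => hfix (fun a => σ a) (s58nfc_inertia A σ hσ) (σ • T) ?_ ?_⟩
  · rcases T with _ | ⟨x, y, h⟩
    · exact Or.inl ⟨rfl, rfl⟩
    · exact Or.inr ⟨x, y, h, _, rfl, rfl⟩
  · have h5 : σ • ((lam ^ n) • T) = (lam ^ n) • (σ • T) :=
      (Point.map σ.toAlgHom).map_nsmul (lam ^ n) T
    have h6 : (lam ^ n) • T = 0 := by
      rw [← hT]
      exact addOrderOf_nsmul_eq_zero T
    rw [nsmul_sub, ← h5, h6, smul_zero, sub_zero]

end Fermat.Agent.S58
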