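import Mathlib

/-!
# S58, package NODE, part N-B: normal form of a singular Weierstrass cubic with `c₄ ≠ 0`

Over an algebraically closed field `k`, a Weierstrass curve with `Δ = 0` and `c₄ ≠ 0` has a
singular point `(x0, y0)` (`s58ns_sing`), at which the two tangent slopes `α ≠ β` are distinct:
with `X = x - x0`, `Y = y - y0` the curve is `(Y - αX)(Y - βX) = X³` (`s58ns_exists_node`).

The singular point is explicit: in characteristic `≠ 2`, `x0 = (18 b₆ - b₂ b₄) / c₄` is the double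
root of `4x³ + b₂x² + 2b₄x + b₆` and `y0 = -(a₁x0 + a₃)/2`; in characteristic `2`,
`x0 = -a₃/a₁` and `y0 = (3x0² + 2a₂x0 + a₄)/a₁` (`a₁ ≠ 0` since `c₄ = a₁⁴`).
-/

set_option autoImplicit false

namespace Fermat.Agent.S58

open WeierstrassCurve

/-- The singular point in characteristic `2`. -/
theorem s58ns_sing_two {k : Type*} [Field k] (a1 a2 a3 a4 a6 : k) (h2 : (2 : k) = 0)
    (hΔ : -(a1 ^ 2 + 4 * a2) ^ 2 * (a1 ^ 2 * a6 + 4 * a2 * a6 - a1 * a3 * a4 + a2 * a3 ^ 2 - a4 ^ 2)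
      - 8 * (2 * a4 + a1 * a3) ^ 3 - 27 * (a3 ^ 2 + 4 * a6) ^ 2
      + 9 * (a1 ^ 2 + 4 * a2) * (2 * a4 + a1 * a3) * (a3 ^ 2 + 4 * a6) = 0)
    (hc4 : (a1 ^ 2 + 4 * a2) ^ 2 - 24 * (2 * a4 + a1 * a3) ≠ 0) :
    ∃ x0 y0 : k, y0 ^ 2 + a1 * x0 * y0 + a3 * y0 = x0 ^ 3 + a2 * x0 ^ 2 + a4 * x0 + a6 ∧
      2 * y0 + a1 * x0 + a3 = 0 ∧ a1 * y0 = 3 * x0 ^ 2 + 2 * a2 * x0 + a4 := by
  have ha1 : a1 ≠ 0 := by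
    intro h
    apply hc4
    rw [h]
    linear_combination (8 * a2 ^ 2 - 24 * a4) * h2
  obtain ⟨x0, hx⟩ : ∃ x0, a3 = -(a1 * x0) := ⟨-a3 / a1, by field_simp⟩
  obtain ⟨y0, hy⟩ : ∃ y0, a4 = a1 * y0 - 3 * x0 ^ 2 - 2 * a2 * x0 :=
    ⟨(a4 + 3 * x0 ^ 2 + 2 * a2 * x0) / a1, by field_simp; ring⟩
  subst hx
  subst hy
  refine ⟨x0, y0, ?_, by linear_combination y0 * h2, by ring⟩
  have key : a1 ^ 6 * (y0 ^ 2 + a1 * x0 * y0 + -(a1 * x0) * y0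
      - (x0 ^ 3 + a2 * x0 ^ 2 + (a1 * y0 - 3 * x0 ^ 2 - 2 * a2 * x0) * x0 + a6)) = 0 := by
    linear_combination hΔ - (-6 * a1 ^ 5 * a2 * x0 * y0 - 18 * a1 ^ 5 * x0 ^ 2 * y0 + 6 * a1 ^ 4 * a2 ^ 2 * x0 ^ 2 - 6 * a1 ^ 4 * a2 * a6 + 30 * a1 ^ 4 * a2 * x0 ^ 3 + 4 * a1 ^ 4 * a2 * y0 ^ 2 - 18 * a1 ^ 4 * a6 * x0 + 36 * a1 ^ 4 * x0 ^ 4 + 48 * a1 ^ 4 * x0 * y0 ^ 2 - 24 * a1 ^ 3 * a2 ^ 2 * x0 * y0 - 180 * a1 ^ 3 * a2 * x0 ^ 2 * y0 + 36 * a1 ^ 3 * a6 * y0 - 288 * a1 ^ 3 * x0 ^ 3 * y0 - 32 * a1 ^ 3 * y0 ^ 3 + 24 * a1 ^ 2 * a2 ^ 3 * x0 ^ 2 - 24 * a1 ^ 2 * a2 ^ 2 * a6 + 192 * a1 ^ 2 * a2 ^ 2 * x0 ^ 3 + 8 * a1 ^ 2 * a2 ^ 2 * y0 ^ 2 - 144 * a1 ^ 2 * a2 * a6 * x0 + 504 * a1 ^ 2 * a2 * x0 ^ 4 + 192 * a1 ^ 2 * a2 * x0 * y0 ^ 2 - 216 * a1 ^ 2 * a6 * x0 ^ 2 + 432 * a1 ^ 2 * x0 ^ 5 + 288 *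 a1 ^ 2 * x0 ^ 2 * y0 ^ 2 - 32 * a1 * a2 ^ 3 * x0 * y0 - 432 * a1 * a2 ^ 2 * x0 ^ 2 * y0 + 144 * a1 * a2 * a6 * y0 - 1152 * a1 * a2 * x0 ^ 3 * y0 - 864 * a1 * x0 ^ 4 * y0 + 32 * a2 ^ 4 * x0 ^ 2 - 32 * a2 ^ 3 * a6 + 352 * a2 ^ 3 * x0 ^ 3 - 288 * a2 ^ 2 * a6 * x0 + 1224 * a2 ^ 2 * x0 ^ 4 - 432 * a2 * a6 * x0 ^ 2 + 1728 * a2 * x0 ^ 5 - 216 * a6 ^ 2 + 864 * x0 ^ 6) * h2
  have h0 := (mul_eq_zero.mp key).resolve_left (pow_ne_zero 6 ha1)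
  linear_combination h0

/-- The singular point in characteristic `≠ 2`. -/
theorem s58ns_sing_odd {k : Type*} [Field k] (a1 a2 a3 a4 a6 : k) (h2 : (2 : k) ≠ 0)
    (hΔ : -(a1 ^ 2 + 4 * a2) ^ 2 * (a1 ^ 2 * a6 + 4 * a2 * a6 - a1 * a3 * a4 + a2 * a3 ^ 2 - a4 ^ 2)
      - 8 * (2 * a4 + a1 * a3) ^ 3 - 27 * (a3 ^ 2 + 4 * a6) ^ 2
      + 9 * (a1 ^ 2 + 4 * a2) * (2 * a4 + a1 * a3) * (a3 ^ 2 + 4 * a6) = 0)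
    (hc4 : (a1 ^ 2 + 4 * a2) ^ 2 - 24 * (2 * a4 + a1 * a3) ≠ 0) :
    ∃ x0 y0 : k, y0 ^ 2 + a1 * x0 * y0 + a3 * y0 = x0 ^ 3 + a2 * x0 ^ 2 + a4 * x0 + a6 ∧
      2 * y0 + a1 * x0 + a3 = 0 ∧ a1 * y0 = 3 * x0 ^ 2 + 2 * a2 * x0 + a4 := by
  obtain ⟨x0, hx0⟩ : ∃ x0, ((a1 ^ 2 + 4 * a2) ^ 2 - 24 * (2 * a4 + a1 * a3)) * x0 = (18 * (a3 ^ 2 + 4 * a6) - (a1 ^ 2 + 4 * a2) * (2 * a4 + a1 * a3)) :=
    ⟨(18 * (a3 ^ 2 + 4 * a6) - (a1 ^ 2 + 4 * a2) * (2 * a4 + a1 * a3)) / ((a1 ^ 2 + 4 * a2) ^ 2 - 24 * (2 * a4 + a1 * a3)), mul_div_cancel₀ _ hc4⟩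
  obtain ⟨y0, hy0⟩ : ∃ y0, 2 * y0 = -(a1 * x0 + a3) :=
    ⟨-(a1 * x0 + a3) / 2, mul_div_cancel₀ _ h2⟩
  have h4 : (4 : k) ≠ 0 := by
    have : (4 : k) = 2 * 2 := by norm_num
    rw [this]
    exact mul_ne_zero h2 h2
  -- the derivative of the 2-torsion polynomial vanishes at `x0`
  have P1 : 12 * x0 ^ 2 + 2 * (a1 ^ 2 + 4 * a2) * x0 + 2 * (2 * a4 + a1 * a3) = 0 := by
    have h : ((a1 ^ 2 + 4 * a2) ^ 2 - 24 * (2 * a4 + a1 * a3)) ^ 2 * (12 * x0 ^ 2 + 2 * (a1 ^ 2 + 4 * a2) * x0 + 2 * (2 * a4 + a1 * a3)) = 0 := by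
      linear_combination (-144) * hΔ + (12 * (((a1 ^ 2 + 4 * a2) ^ 2 - 24 * (2 * a4 + a1 * a3)) * x0 + (18 * (a3 ^ 2 + 4 * a6) - (a1 ^ 2 + 4 * a2) * (2 * a4 + a1 * a3))) + 2 * (a1 ^ 2 + 4 * a2) * ((a1 ^ 2 + 4 * a2) ^ 2 - 24 * (2 * a4 + a1 * a3))) * hx0
    exact (mul_eq_zero.mp h).resolve_left (pow_ne_zero 2 hc4)
  -- the 2-torsion polynomial vanishes at `x0`
  have P2 : 4 * x0 ^ 3 + (a1 ^ 2 + 4 * a2) * x0 ^ 2 + 2 * (2 * a4 + a1 * a3) * x0 + (a3 ^ 2 + 4 * a6) = 0 := by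
    have h : ((a1 ^ 2 + 4 * a2) ^ 2 - 24 * (2 * a4 + a1 * a3)) ^ 3 * (4 * x0 ^ 3 + (a1 ^ 2 + 4 * a2) * x0 ^ 2 + 2 * (2 * a4 + a1 * a3) * x0 + (a3 ^ 2 + 4 * a6)) = 0 := by
      linear_combination (-864 * (a3 ^ 2 + 4 * a6) + 144 * (a1 ^ 2 + 4 * a2) * (2 * a4 + a1 * a3) - 4 * (a1 ^ 2 + 4 * a2) ^ 3) * hΔ
        + (4 * ((((a1 ^ 2 + 4 * a2) ^ 2 - 24 * (2 * a4 + a1 * a3)) * x0) ^ 2 + ((a1 ^ 2 + 4 * a2) ^ 2 - 24 * (2 * a4 + a1 * a3)) * x0 * (18 * (a3 ^ 2 + 4 * a6) - (a1 ^ 2 + 4 * a2) * (2 * a4 + a1 * a3)) + (18 * (a3 ^ 2 + 4 * a6) - (a1 ^ 2 + 4 * a2) * (2 * a4 + a1 * a3)) ^ 2) + (a1 ^ 2 + 4 * a2) * ((a1 ^ 2 + 4 * a2) ^ 2 - 24 * (2 * a4 + a1 * a3)) * (((a1 ^ 2 + 4 * a2) ^ 2 - 24 * (2 * a4 + a1 * a3)) * x0 + (18 * (a3 ^ 2 + 4 * a6) - (a1 ^ 2 + 4 * a2) * (2 * a4 + a1 * a3)))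
          + 2 * (2 * a4 + a1 * a3) * ((a1 ^ 2 + 4 * a2) ^ 2 - 24 * (2 * a4 + a1 * a3)) ^ 2) * hx0
    exact (mul_eq_zero.mp h).resolve_left (pow_ne_zero 3 hc4)
  refine ⟨x0, y0, ?_, by linear_combination hy0, ?_⟩
  · have h : 4 * (y0 ^ 2 + a1 * x0 * y0 + a3 * y0 - (x0 ^ 3 + a2 * x0 ^ 2 + a4 * x0 + a6)) = 0 := by
      linear_combination (-1 : k) * P2 + (2 * y0 + a1 * x0 + a3) * hy0
    have h0 := (mul_eq_zero.mp h).resolve_left h4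
    linear_combination h0
  · have h : 4 * (a1 * y0 - (3 * x0 ^ 2 + 2 * a2 * x0 + a4)) = 0 := by
      linear_combination (-1 : k) * P1 + (2 * a1) * hy0
    have h0 := (mul_eq_zero.mp h).resolve_left h4
    linear_combination h0

/-- **A singular point** of a Weierstrass curve with `Δ = 0`, `c₄ ≠ 0`. -/
theorem s58ns_sing {k : Type*} [Field k] (W : WeierstrassCurve k) (hΔ : W.Δ = 0)
    (hc4 : W.c₄ ≠ 0) :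
    ∃ x0 y0 : k, y0 ^ 2 + W.a₁ * x0 * y0 + W.a₃ * y0 = x0 ^ 3 + W.a₂ * x0 ^ 2 + W.a₄ * x0 + W.a₆ ∧
      2 * y0 + W.a₁ * x0 + W.a₃ = 0 ∧ W.a₁ * y0 = 3 * x0 ^ 2 + 2 * W.a₂ * x0 + W.a₄ := by
  simp only [Δ, c₄, b₂, b₄, b₆, b₈] at hΔ hc4
  by_cases h2 : (2 : k) = 0
  · exact s58ns_sing_two W.a₁ W.a₂ W.a₃ W.a₄ W.a₆ h2 hΔ hc4
  · exact s58ns_sing_odd W.a₁ W.a₂ W.a₃ W.a₄ W.a₆ h2 hΔ hc4

/-- **Normal form of a nodal cubic**: `(Y - αX)(Y - βX) = X³` with `X = x - x0`, `Y = y - y0`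
and `α ≠ β`. -/
theorem s58ns_exists_node {k : Type*} [Field k] [IsAlgClosed k] (W : WeierstrassCurve k)
    (hΔ : W.Δ = 0) (hc4 : W.c₄ ≠ 0) :
    ∃ α β x0 y0 : k, α ≠ β ∧ W.a₁ = -(α + β) ∧ W.a₂ = -(α * β + 3 * x0) ∧
      W.a₃ = (α + β) * x0 - 2 * y0 ∧
      W.a₄ = 2 * α * β * x0 + 3 * x0 ^ 2 - (α + β) * y0 ∧
      W.a₆ = -(y0 ^ 2 - (α + β) * x0 * y0 + α * β * x0 ^ 2 + x0 ^ 3) := by
  obtain ⟨x0, y0, hE1, hE2, hE3⟩ := s58ns_sing W hΔ hc4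
  -- a root of `s² + a₁ s - (a₂ + 3 x0)`
  obtain ⟨α, hα⟩ : ∃ α : k, α ^ 2 + W.a₁ * α - (W.a₂ + 3 * x0) = 0 := by
    have hdeg : (Polynomial.X ^ 2 + Polynomial.C W.a₁ * Polynomial.X
        - Polynomial.C (W.a₂ + 3 * x0) : Polynomial k).degree ≠ 0 := by
      have : (Polynomial.X ^ 2 + Polynomial.C W.a₁ * Polynomial.X
          - Polynomial.C (W.a₂ + 3 * x0) : Polynomial k).degree = 2 := by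
        compute_degree!
      rw [this]
      norm_num
    obtain ⟨α, hα⟩ := IsAlgClosed.exists_root _ hdeg
    refine ⟨α, ?_⟩
    have h1 : Polynomial.eval α (Polynomial.X ^ 2 + Polynomial.C W.a₁ * Polynomial.X
        - Polynomial.C (W.a₂ + 3 * x0) : Polynomial k) = 0 := hα
    simpa using h1
  have h1 : W.a₁ = -(α + (-W.a₁ - α)) := by ring
  have h2 : W.a₂ = -(α * (-W.a₁ - α) + 3 * x0) := by linear_combination (-1 : k) * hα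
  have h3 : W.a₃ = (α + (-W.a₁ - α)) * x0 - 2 * y0 := by linear_combination hE2
  have h4 : W.a₄ = 2 * α * (-W.a₁ - α) * x0 + 3 * x0 ^ 2 - (α + (-W.a₁ - α)) * y0 := by
    linear_combination (-1 : k) * hE3 + (2 * x0) * hα
  have h6 : W.a₆ = -(y0 ^ 2 - (α + (-W.a₁ - α)) * x0 * y0 + α * (-W.a₁ - α) * x0 ^ 2 + x0 ^ 3) := by
    linear_combination (-1 : k) * hE1 + y0 * hE2 + x0 * hE3 + (-x0 ^ 2) * hα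
  refine ⟨α, -W.a₁ - α, x0, y0, ?_, h1, h2, h3, h4, h6⟩
  intro hαβ
  apply hc4
  have hc : W.c₄ = (α - (-W.a₁ - α)) ^ 4 := by
    simp only [c₄, b₂, b₄]
    rw [h3, h4, h2]
    ring
  rw [hc, ← hαβ, sub_self]
  ring

end Fermat.Agent.S58
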