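import Mathlib
import Fermat.Agent.S18.IfaceRed
import Fermat.Agent.S58.NodeFixCore
import Fermat.Agent.S58.NodeSing

/-!
# S58, package NODE, part C3: `[EI-FIX]` from the group of the nodal cubic

`s58nfo_fix`: for a Weierstrass curve `W` over `ℤ` with `Δ ≠ 0`, a prime `q ∣ Δ` with `q ∤ c₄`
(multiplicative reduction), a prime `lam ≠ q` and a valuation subring `A` of the algebraic closure
of `ℚ` over `q`, there is a point of exact order `lam ^ n` of `W` fixed by the inertia subgroup
of `A` -- given the existence of points of every order prime to the characteristic on a nodal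
cubic in normal form (hypothesis `hNA`, the statement of package `[N-A]`).

The reduction of `W` at `A` is a nodal cubic over the algebraically closed residue field
(`s58ns_exists_node`), `hNA` gives a point of exact order `lam ^ n` on it, and `s58nfc_fix_of`
lifts it to an inertia-fixed point.
-/

set_option autoImplicit false

namespace Fermat.Agent.S58

open WeierstrassCurve WeierstrassCurve.Affine

/-- `[EI-FIX]` modulo the existence of points of given order on a nodal cubic in normal form -/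
theorem s58nfo_fix
    (hNA : ∀ {k : Type} [Field k] [DecidableEq k] [IsAlgClosed k] (W : WeierstrassCurve k)
      (α β x0 y0 : k), α ≠ β → W.a₁ = -(α + β) → W.a₂ = -(α * β + 3 * x0) →
      W.a₃ = (α + β) * x0 - 2 * y0 →
      W.a₄ = 2 * α * β * x0 + 3 * x0 ^ 2 - (α + β) * y0 →
      W.a₆ = -(y0 ^ 2 - (α + β) * x0 * y0 + α * β * x0 ^ 2 + x0 ^ 3) → ∀ m : ℕ,
      (m : k) ≠ 0 → ∃ P : W.toAffine.Point, addOrderOf P = m)
    (W : WeierstrassCurve ℤ) (hΔ : W.Δ ≠ 0) {q : ℕ} (hq : q.Prime)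
    (hqΔ : (q : ℤ) ∣ W.Δ) (hqc : ¬ (q : ℤ) ∣ W.c₄) {lam : ℕ} (hlam : lam.Prime) (hlq : lam ≠ q)
    (n : ℕ) (A : ValuationSubring (AlgebraicClosure ℚ)) (hA : A.LiesOverPrime q) :
    ∃ T : ((W.map (Int.castRingHom ℚ))⁄(AlgebraicClosure ℚ)).Point,
      addOrderOf T = lam ^ n ∧ ∀ σ ∈ A.inertiaSubgroupIn ℚ, σ • T = T := by
  classical
  have hcl : IsAlgClosed (IsLocalRing.ResidueField A) :=
    Fermat.Agent.S18.ifr_residue_isAlgClosed A
  refine s58nfc_fix_of W hΔ hq hlam hlq n A hA ?_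
  have hqm : IsLocalRing.residue A ((q : ℤ) : A) = 0 := by
    rw [IsLocalRing.residue_eq_zero_iff]
    have h1 : (q : AlgebraicClosure ℚ) ∈ A.nonunits := hA
    rw [ValuationSubring.mem_nonunits_iff_exists_mem_maximalIdeal] at h1
    obtain ⟨hmem, hmax⟩ := h1
    have h2 : ((q : ℤ) : A) = ⟨(q : AlgebraicClosure ℚ), hmem⟩ := by
      apply Subtype.ext
      simp
    rw [h2]
    exact hmax
  have hΔk : ((W.map (Int.castRingHom A)).map (IsLocalRing.residue A)).Δ = 0 := by
    rw [WeierstrassCurve.map_Δ, WeierstrassCurve.map_Δ]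
    obtain ⟨t, ht⟩ := hqΔ
    rw [ht, eq_intCast, Int.cast_mul, map_mul, hqm, zero_mul]
  have hc4k : ((W.map (Int.castRingHom A)).map (IsLocalRing.residue A)).c₄ ≠ 0 := by
    rw [WeierstrassCurve.map_c₄, WeierstrassCurve.map_c₄, eq_intCast]
    have hu := s58nfc_unit A hq hA hqc
    intro h0
    exact (IsLocalRing.notMem_maximalIdeal.mpr hu) ((IsLocalRing.residue_eq_zero_iff _).mp h0)
  obtain ⟨α, β, x0, y0, hαβ, h1, h2, h3, h4, h6⟩ := s58ns_exists_node _ hΔk hc4k
  have hmk : ((lam ^ n : ℕ) : IsLocalRing.ResidueField A) ≠ 0 := by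
    have hql : ¬ (q : ℤ) ∣ ((lam ^ n : ℕ) : ℤ) := by
      intro hdvd
      have h3 : q ∣ lam ^ n := Int.natCast_dvd_natCast.mp hdvd
      have h4 : q ∣ lam := hq.dvd_of_dvd_pow h3
      exact hlq ((Nat.prime_dvd_prime_iff_eq hq hlam).mp h4).symm
    have hu := s58nfc_unit A hq hA hql
    have h5 : ((lam ^ n : ℕ) : IsLocalRing.ResidueField A) =
        IsLocalRing.residue A (((lam ^ n : ℕ) : ℤ) : A) := by
      simp
    rw [h5]
    intro h0
    exact (IsLocalRing.notMem_maximalIdeal.mpr hu) ((IsLocalRing.residue_eq_zero_iff _).mp h0)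
  exact hNA _ α β x0 y0 hαβ h1 h2 h3 h4 h6 (lam ^ n) hmk

end Fermat.Agent.S58
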