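import Mathlib

set_option autoImplicit false
set_option linter.unusedSectionVars false
set_option linter.unusedVariables false

open WeierstrassCurve WeierstrassCurve.Affine

namespace Fermat.Agent.S58

section NodeQ

variable {k : Type*} [Field k] (W : WeierstrassCurve k) (α β x0 y0 : k)

/-- abscissa of the point with multiplicative parameter `u` on the nodal cubic -/
def s58nrX (u : k) : k := x0 + u * (β - α) ^ 2 / (u - 1) ^ 2

/-- ordinate of the point with multiplicative parameter `u` on the nodal cubic -/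
def s58nrY (u : k) : k := y0 + u * (β - α) ^ 2 * (β * u - α) / (u - 1) ^ 3

theorem s58nr_equation (h1 : W.a₁ = -(α + β)) (h2 : W.a₂ = -(α * β + 3 * x0))
    (h3 : W.a₃ = (α + β) * x0 - 2 * y0)
    (h4 : W.a₄ = 2 * α * β * x0 + 3 * x0 ^ 2 - (α + β) * y0)
    (h6 : W.a₆ = -(y0 ^ 2 - (α + β) * x0 * y0 + α * β * x0 ^ 2 + x0 ^ 3))
    (u : k) (hu1 : u ≠ 1) :
    W.toAffine.Equation (s58nrX α β x0 u) (s58nrY α β y0 u) := by
  have hd : u - 1 ≠ 0 := sub_ne_zero.mpr hu1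
  rw [equation_iff, h1, h2, h3, h4, h6]
  unfold s58nrX s58nrY
  field_simp
  ring

theorem s58nr_FY (h1 : W.a₁ = -(α + β)) (h3 : W.a₃ = (α + β) * x0 - 2 * y0)
    (u : k) (hu1 : u ≠ 1) :
    s58nrY α β y0 u - W.toAffine.negY (s58nrX α β x0 u) (s58nrY α β y0 u) =
      (β - α) ^ 3 * u * (u + 1) / (u - 1) ^ 3 := by
  have hd : u - 1 ≠ 0 := sub_ne_zero.mpr hu1
  simp only [negY]
  rw [h1, h3]
  unfold s58nrX s58nrY
  field_simp
  ring

theorem s58nr_FX (h1 : W.a₁ = -(α + β)) (h2 : W.a₂ = -(α * β + 3 * x0))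
    (h4 : W.a₄ = 2 * α * β * x0 + 3 * x0 ^ 2 - (α + β) * y0)
    (u : k) (hu1 : u ≠ 1) :
    3 * (s58nrX α β x0 u) ^ 2 + 2 * W.a₂ * (s58nrX α β x0 u) + W.a₄ -
        W.a₁ * (s58nrY α β y0 u) =
      u * (β - α) ^ 3 * ((α + β * u) * (u - 1) + 3 * u * (β - α)) / (u - 1) ^ 4 := by
  have hd : u - 1 ≠ 0 := sub_ne_zero.mpr hu1
  rw [h1, h2, h4]
  unfold s58nrX s58nrY
  field_simp
  ring

theorem s58nr_nonsingular (hαβ : α ≠ β) (h1 : W.a₁ = -(α + β)) (h2 : W.a₂ = -(α * β + 3 * x0))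
    (h3 : W.a₃ = (α + β) * x0 - 2 * y0)
    (h4 : W.a₄ = 2 * α * β * x0 + 3 * x0 ^ 2 - (α + β) * y0)
    (h6 : W.a₆ = -(y0 ^ 2 - (α + β) * x0 * y0 + α * β * x0 ^ 2 + x0 ^ 3))
    (u : k) (hu0 : u ≠ 0) (hu1 : u ≠ 1) :
    W.toAffine.Nonsingular (s58nrX α β x0 u) (s58nrY α β y0 u) := by
  have hd : u - 1 ≠ 0 := sub_ne_zero.mpr hu1
  have hδ : β - α ≠ 0 := sub_ne_zero.mpr (Ne.symm hαβ)
  rw [nonsingular_iff]
  refine ⟨s58nr_equation W α β x0 y0 h1 h2 h3 h4 h6 u hu1, ?_⟩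
  by_cases hu : u + 1 = 0
  · left
    intro h
    have hFX := s58nr_FX W α β x0 y0 h1 h2 h4 u hu1
    rw [← h, sub_self] at hFX
    have hu' : u = -1 := by linear_combination hu
    have h2k : (2 : k) ≠ 0 := by
      intro h2
      apply hu1
      rw [hu']
      linear_combination -h2
    rw [hu'] at hFX
    have e : (-1 : k) * (β - α) ^ 3 * ((α + β * -1) * (-1 - 1) + 3 * -1 * (β - α)) / (-1 - 1) ^ 4 =
        (β - α) ^ 4 / 16 := by
      have h16 : (16 : k) ≠ 0 := by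
        have : (16 : k) = 2 ^ 4 := by norm_num
        rw [this]
        exact pow_ne_zero 4 h2k
      have h4' : ((-1 - 1 : k)) ^ 4 = 16 := by norm_num
      rw [h4']
      field_simp
      ring
    rw [e] at hFX
    have h16 : (16 : k) ≠ 0 := by
      have : (16 : k) = 2 ^ 4 := by norm_num
      rw [this]
      exact pow_ne_zero 4 h2k
    exact div_ne_zero (pow_ne_zero 4 hδ) h16 hFX.symm
  · right
    intro h
    have hFY := s58nr_FY W α β x0 y0 h1 h3 u hu1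
    have h' : s58nrY α β y0 u - W.toAffine.negY (s58nrX α β x0 u) (s58nrY α β y0 u) = 0 := by
      rw [sub_eq_zero]
      simp only [negY]
      exact h
    rw [h'] at hFY
    exact div_ne_zero (mul_ne_zero (mul_ne_zero (pow_ne_zero 3 hδ) hu0) hu) (pow_ne_zero 3 hd)
      hFY.symm

theorem s58nr_inv_X (u : k) (hu0 : u ≠ 0) (hu1 : u ≠ 1) :
    s58nrX α β x0 u⁻¹ = s58nrX α β x0 u := by
  have hd : u - 1 ≠ 0 := sub_ne_zero.mpr hu1
  have hd' : u⁻¹ - 1 ≠ 0 := by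
    intro h
    apply hu1
    have : u⁻¹ = 1 := sub_eq_zero.mp h
    rw [inv_eq_one] at this
    exact this
  have hd'' : 1 - u ≠ 0 := sub_ne_zero.mpr (Ne.symm hu1)
  unfold s58nrX
  have e : u⁻¹ - 1 = (1 - u) / u := by field_simp
  rw [e]
  field_simp
  ring

theorem s58nr_inv_Y (h1 : W.a₁ = -(α + β)) (h3 : W.a₃ = (α + β) * x0 - 2 * y0)
    (u : k) (hu0 : u ≠ 0) (hu1 : u ≠ 1) :
    s58nrY α β y0 u⁻¹ = W.toAffine.negY (s58nrX α β x0 u) (s58nrY α β y0 u) := by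
  have hd : u - 1 ≠ 0 := sub_ne_zero.mpr hu1
  have hd'' : 1 - u ≠ 0 := sub_ne_zero.mpr (Ne.symm hu1)
  simp only [negY]
  rw [h1, h3]
  unfold s58nrX s58nrY
  have e : u⁻¹ - 1 = (1 - u) / u := by field_simp
  rw [e]
  field_simp
  ring

theorem s58nr_X_sub (u v : k) (hu1 : u ≠ 1) (hv1 : v ≠ 1) :
    s58nrX α β x0 u - s58nrX α β x0 v =
      (β - α) ^ 2 * (v - u) * (u * v - 1) / ((u - 1) ^ 2 * (v - 1) ^ 2) := by
  have hd : u - 1 ≠ 0 := sub_ne_zero.mpr hu1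
  have hd' : v - 1 ≠ 0 := sub_ne_zero.mpr hv1
  unfold s58nrX
  field_simp
  ring

theorem s58nr_X_ne (hαβ : α ≠ β) (u v : k) (hu1 : u ≠ 1) (hv1 : v ≠ 1) (huv : u ≠ v)
    (huv1 : u * v ≠ 1) : s58nrX α β x0 u ≠ s58nrX α β x0 v := by
  have hd : u - 1 ≠ 0 := sub_ne_zero.mpr hu1
  have hd' : v - 1 ≠ 0 := sub_ne_zero.mpr hv1
  have hδ : β - α ≠ 0 := sub_ne_zero.mpr (Ne.symm hαβ)
  intro h
  have e := s58nr_X_sub α β x0 u v hu1 hv1
  rw [h, sub_self] at e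
  exact div_ne_zero (mul_ne_zero (mul_ne_zero (pow_ne_zero 2 hδ) (sub_ne_zero.mpr (Ne.symm huv)))
    (sub_ne_zero.mpr huv1)) (mul_ne_zero (pow_ne_zero 2 hd) (pow_ne_zero 2 hd')) e.symm

/-- the slope of the chord through the points with parameters `u ≠ v` -/
def s58nrL (u v : k) : k :=
  ((β - α) * (u * (v - 1) ^ 2 + v * (u - 1) ^ 2) + (β * u * v - α) * (u - 1) * (v - 1)) /
    ((u - 1) * (v - 1) * (u * v - 1))

theorem s58nr_slope [DecidableEq k] (hαβ : α ≠ β) (u v : k) (hu1 : u ≠ 1) (hv1 : v ≠ 1)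
    (huv : u ≠ v) (huv1 : u * v ≠ 1) :
    W.toAffine.slope (s58nrX α β x0 u) (s58nrX α β x0 v) (s58nrY α β y0 u) (s58nrY α β y0 v) =
      s58nrL α β u v := by
  have hd : u - 1 ≠ 0 := sub_ne_zero.mpr hu1
  have hd' : v - 1 ≠ 0 := sub_ne_zero.mpr hv1
  have hd'' : u * v - 1 ≠ 0 := sub_ne_zero.mpr huv1
  have hd3 : v - u ≠ 0 := sub_ne_zero.mpr (Ne.symm huv)
  have hδ : β - α ≠ 0 := sub_ne_zero.mpr (Ne.symm hαβ)
  rw [slope_of_X_ne (s58nr_X_ne α β x0 hαβ u v hu1 hv1 huv huv1), s58nr_X_sub α β x0 u v hu1 hv1]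
  unfold s58nrY s58nrL
  field_simp
  ring

theorem s58nr_addX (h1 : W.a₁ = -(α + β)) (h2 : W.a₂ = -(α * β + 3 * x0))
    (u v : k) (hu1 : u ≠ 1) (hv1 : v ≠ 1) (huv1 : u * v ≠ 1) :
    W.toAffine.addX (s58nrX α β x0 u) (s58nrX α β x0 v) (s58nrL α β u v) =
      s58nrX α β x0 (u * v) := by
  have hd : u - 1 ≠ 0 := sub_ne_zero.mpr hu1
  have hd' : v - 1 ≠ 0 := sub_ne_zero.mpr hv1
  have hd'' : u * v - 1 ≠ 0 := sub_ne_zero.mpr huv1
  simp only [addX]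
  rw [h1, h2]
  unfold s58nrX s58nrL
  field_simp
  ring

theorem s58nr_addY (h1 : W.a₁ = -(α + β)) (h2 : W.a₂ = -(α * β + 3 * x0))
    (h3 : W.a₃ = (α + β) * x0 - 2 * y0)
    (u v : k) (hu1 : u ≠ 1) (hv1 : v ≠ 1) (huv1 : u * v ≠ 1) :
    W.toAffine.addY (s58nrX α β x0 u) (s58nrX α β x0 v) (s58nrY α β y0 u) (s58nrL α β u v) =
      s58nrY α β y0 (u * v) := by
  have hd : u - 1 ≠ 0 := sub_ne_zero.mpr hu1
  have hd' : v - 1 ≠ 0 := sub_ne_zero.mpr hv1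
  have hd'' : u * v - 1 ≠ 0 := sub_ne_zero.mpr huv1
  rw [addY, s58nr_addX W α β x0 h1 h2 u v hu1 hv1 huv1]
  simp only [negY, negAddY]
  rw [s58nr_addX W α β x0 h1 h2 u v hu1 hv1 huv1, h1, h3]
  unfold s58nrX s58nrY s58nrL
  field_simp
  ring

theorem s58nr_slope_self [DecidableEq k] (hαβ : α ≠ β) (h1 : W.a₁ = -(α + β))
    (h2 : W.a₂ = -(α * β + 3 * x0)) (h3 : W.a₃ = (α + β) * x0 - 2 * y0)
    (h4 : W.a₄ = 2 * α * β * x0 + 3 * x0 ^ 2 - (α + β) * y0)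
    (u : k) (hu0 : u ≠ 0) (hu1 : u ≠ 1) (huu : u * u ≠ 1) :
    W.toAffine.slope (s58nrX α β x0 u) (s58nrX α β x0 u) (s58nrY α β y0 u) (s58nrY α β y0 u) =
      s58nrL α β u u := by
  have hd : u - 1 ≠ 0 := sub_ne_zero.mpr hu1
  have hd'' : u * u - 1 ≠ 0 := sub_ne_zero.mpr huu
  have hδ : β - α ≠ 0 := sub_ne_zero.mpr (Ne.symm hαβ)
  have hp : u + 1 ≠ 0 := by
    intro h
    apply hd''
    have : u * u - 1 = (u + 1) * (u - 1) := by ring
    rw [this, h, zero_mul]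
  have hFY := s58nr_FY W α β x0 y0 h1 h3 u hu1
  have hFX := s58nr_FX W α β x0 y0 h1 h2 h4 u hu1
  have hne : s58nrY α β y0 u ≠ W.toAffine.negY (s58nrX α β x0 u) (s58nrY α β y0 u) := by
    intro h
    rw [← sub_eq_zero, hFY] at h
    exact div_ne_zero (mul_ne_zero (mul_ne_zero (pow_ne_zero 3 hδ) hu0) hp) (pow_ne_zero 3 hd) h
  have hd2 : u ^ 2 - 1 ≠ 0 := by
    rw [pow_two]
    exact hd''
  rw [slope_of_Y_ne rfl hne, hFY, hFX]
  unfold s58nrL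
  have e : (u - 1) * (u - 1) * (u * u - 1) = (u - 1) ^ 3 * (u + 1) := by ring
  rw [e]
  field_simp
  ring

theorem s58nr_slope_all [DecidableEq k] (hαβ : α ≠ β) (h1 : W.a₁ = -(α + β))
    (h2 : W.a₂ = -(α * β + 3 * x0)) (h3 : W.a₃ = (α + β) * x0 - 2 * y0)
    (h4 : W.a₄ = 2 * α * β * x0 + 3 * x0 ^ 2 - (α + β) * y0)
    (u v : k) (hu0 : u ≠ 0) (hu1 : u ≠ 1) (hv1 : v ≠ 1) (huv1 : u * v ≠ 1) :
    W.toAffine.slope (s58nrX α β x0 u) (s58nrX α β x0 v) (s58nrY α β y0 u) (s58nrY α β y0 v) =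
      s58nrL α β u v := by
  by_cases huv : u = v
  · subst huv
    exact s58nr_slope_self W α β x0 y0 hαβ h1 h2 h3 h4 u hu0 hu1 huv1
  · exact s58nr_slope W α β x0 y0 hαβ u v hu1 hv1 huv huv1

theorem s58nr_some_congr {x y x' y' : k} (h : W.toAffine.Nonsingular x y)
    (h' : W.toAffine.Nonsingular x' y') (hx : x = x') (hy : y = y') :
    (Point.some x y h : W.toAffine.Point) = Point.some x' y' h' := by
  subst hx
  subst hy
  rfl

/-- the point with multiplicative parameter `u` (`0` for `u = 0, 1`) -/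
noncomputable def s58nrP [DecidableEq k]
    (hns : ∀ u : k, u ≠ 0 → u ≠ 1 →
      W.toAffine.Nonsingular (s58nrX α β x0 u) (s58nrY α β y0 u)) (u : k) :
    W.toAffine.Point :=
  if h : u ≠ 0 ∧ u ≠ 1 then Point.some _ _ (hns u h.1 h.2) else 0

theorem s58nrP_one [DecidableEq k]
    (hns : ∀ u : k, u ≠ 0 → u ≠ 1 →
      W.toAffine.Nonsingular (s58nrX α β x0 u) (s58nrY α β y0 u)) :
    s58nrP W α β x0 y0 hns 1 = 0 := by
  unfold s58nrP
  rw [dif_neg]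
  intro h
  exact h.2 rfl

theorem s58nrP_of [DecidableEq k]
    (hns : ∀ u : k, u ≠ 0 → u ≠ 1 →
      W.toAffine.Nonsingular (s58nrX α β x0 u) (s58nrY α β y0 u)) (u : k) (hu0 : u ≠ 0)
    (hu1 : u ≠ 1) :
    s58nrP W α β x0 y0 hns u = Point.some _ _ (hns u hu0 hu1) := by
  unfold s58nrP
  rw [dif_pos ⟨hu0, hu1⟩]

theorem s58nrP_ne_zero [DecidableEq k]
    (hns : ∀ u : k, u ≠ 0 → u ≠ 1 →
      W.toAffine.Nonsingular (s58nrX α β x0 u) (s58nrY α β y0 u)) (u : k) (hu0 : u ≠ 0)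
    (hu1 : u ≠ 1) :
    s58nrP W α β x0 y0 hns u ≠ 0 := by
  rw [s58nrP_of W α β x0 y0 hns u hu0 hu1]
  exact Point.some_ne_zero _

theorem s58nrP_add [DecidableEq k] (hαβ : α ≠ β) (h1 : W.a₁ = -(α + β))
    (h2 : W.a₂ = -(α * β + 3 * x0)) (h3 : W.a₃ = (α + β) * x0 - 2 * y0)
    (h4 : W.a₄ = 2 * α * β * x0 + 3 * x0 ^ 2 - (α + β) * y0)
    (hns : ∀ u : k, u ≠ 0 → u ≠ 1 →
      W.toAffine.Nonsingular (s58nrX α β x0 u) (s58nrY α β y0 u))
    (u v : k) (hu0 : u ≠ 0) (hv0 : v ≠ 0) :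
    s58nrP W α β x0 y0 hns u + s58nrP W α β x0 y0 hns v = s58nrP W α β x0 y0 hns (u * v) := by
  by_cases hu1 : u = 1
  · subst hu1
    rw [s58nrP_one, zero_add, one_mul]
  by_cases hv1 : v = 1
  · subst hv1
    rw [s58nrP_one, add_zero, mul_one]
  rw [s58nrP_of W α β x0 y0 hns u hu0 hu1, s58nrP_of W α β x0 y0 hns v hv0 hv1]
  by_cases huv1 : u * v = 1
  · rw [huv1, s58nrP_one]
    have hu : u = v⁻¹ := eq_inv_of_mul_eq_one_left huv1
    apply Point.add_of_Y_eq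
    · rw [hu]
      exact s58nr_inv_X α β x0 v hv0 hv1
    · rw [hu]
      exact s58nr_inv_Y W α β x0 y0 h1 h3 v hv0 hv1
  · have huv0 : u * v ≠ 0 := mul_ne_zero hu0 hv0
    rw [s58nrP_of W α β x0 y0 hns (u * v) huv0 huv1]
    have hxy : ¬(s58nrX α β x0 u = s58nrX α β x0 v ∧
        s58nrY α β y0 u = W.toAffine.negY (s58nrX α β x0 v) (s58nrY α β y0 v)) := by
      rintro ⟨hx, hy⟩
      rw [← s58nr_inv_Y W α β x0 y0 h1 h3 v hv0 hv1] at hy
      by_cases huv : u = v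
      · subst huv
        have hFY := s58nr_FY W α β x0 y0 h1 h3 u hu1
        rw [← s58nr_inv_Y W α β x0 y0 h1 h3 u hu0 hu1, hy, sub_self] at hFY
        have hd : u - 1 ≠ 0 := sub_ne_zero.mpr hu1
        have hδ : β - α ≠ 0 := sub_ne_zero.mpr (Ne.symm hαβ)
        have hp : u + 1 ≠ 0 := by
          intro h
          apply huv1
          have : u * u - 1 = (u + 1) * (u - 1) := by ring
          rw [← sub_eq_zero, this, h, zero_mul]
        exact div_ne_zero (mul_ne_zero (mul_ne_zero (pow_ne_zero 3 hδ) hu0) hp)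
          (pow_ne_zero 3 hd) hFY.symm
      · exact s58nr_X_ne α β x0 hαβ u v hu1 hv1 huv huv1 hx
    rw [Point.add_some hxy]
    apply s58nr_some_congr
    · rw [s58nr_slope_all W α β x0 y0 hαβ h1 h2 h3 h4 u v hu0 hu1 hv1 huv1]
      exact s58nr_addX W α β x0 h1 h2 u v hu1 hv1 huv1
    · rw [s58nr_slope_all W α β x0 y0 hαβ h1 h2 h3 h4 u v hu0 hu1 hv1 huv1]
      exact s58nr_addY W α β x0 y0 h1 h2 h3 u v hu1 hv1 huv1

theorem s58nrP_nsmul [DecidableEq k] (hαβ : α ≠ β) (h1 : W.a₁ = -(α + β))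
    (h2 : W.a₂ = -(α * β + 3 * x0)) (h3 : W.a₃ = (α + β) * x0 - 2 * y0)
    (h4 : W.a₄ = 2 * α * β * x0 + 3 * x0 ^ 2 - (α + β) * y0)
    (hns : ∀ u : k, u ≠ 0 → u ≠ 1 →
      W.toAffine.Nonsingular (s58nrX α β x0 u) (s58nrY α β y0 u))
    (ζ : k) (hζ : ζ ≠ 0) (j : ℕ) :
    j • s58nrP W α β x0 y0 hns ζ = s58nrP W α β x0 y0 hns (ζ ^ j) := by
  induction j with
  | zero => rw [zero_nsmul, pow_zero, s58nrP_one]
  | succ j ih =>
    rw [succ_nsmul, ih, pow_succ]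
    exact s58nrP_add W α β x0 y0 hαβ h1 h2 h3 h4 hns (ζ ^ j) ζ (pow_ne_zero j hζ) hζ

end NodeQ

/-- **[N-A]** a nodal cubic in normal form over an algebraically closed field has a point of
exact order `m` for every `m` invertible in the field. -/
theorem s58nr_exists_order {k : Type*} [Field k] [DecidableEq k] [IsAlgClosed k]
    (W : WeierstrassCurve k) (α β x0 y0 : k) (hαβ : α ≠ β)
    (h1 : W.a₁ = -(α + β)) (h2 : W.a₂ = -(α * β + 3 * x0))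
    (h3 : W.a₃ = (α + β) * x0 - 2 * y0)
    (h4 : W.a₄ = 2 * α * β * x0 + 3 * x0 ^ 2 - (α + β) * y0)
    (h6 : W.a₆ = -(y0 ^ 2 - (α + β) * x0 * y0 + α * β * x0 ^ 2 + x0 ^ 3))
    (m : ℕ) (hm : (m : k) ≠ 0) : ∃ P : W.toAffine.Point, addOrderOf P = m := by
  have hm0 : m ≠ 0 := by
    rintro rfl
    exact hm Nat.cast_zero
  have : NeZero (m : k) := ⟨hm⟩
  have hns : ∀ u : k, u ≠ 0 → u ≠ 1 →
      W.toAffine.Nonsingular (s58nrX α β x0 u) (s58nrY α β y0 u) :=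
    fun u hu0 hu1 => s58nr_nonsingular W α β x0 y0 hαβ h1 h2 h3 h4 h6 u hu0 hu1
  have hdeg : (Polynomial.cyclotomic m k).degree ≠ 0 := by
    rw [Polynomial.degree_cyclotomic]
    have : 0 < Nat.totient m := Nat.totient_pos.mpr (Nat.pos_of_ne_zero hm0)
    exact_mod_cast this.ne'
  obtain ⟨ζ, hζ⟩ := IsAlgClosed.exists_root (Polynomial.cyclotomic m k) hdeg
  rw [Polynomial.isRoot_cyclotomic_iff] at hζ
  have hζ0 : ζ ≠ 0 := hζ.ne_zero hm0
  refine ⟨s58nrP W α β x0 y0 hns ζ, ?_⟩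
  rw [addOrderOf_eq_iff (Nat.pos_of_ne_zero hm0)]
  refine ⟨?_, ?_⟩
  · rw [s58nrP_nsmul W α β x0 y0 hαβ h1 h2 h3 h4 hns ζ hζ0 m, hζ.pow_eq_one, s58nrP_one]
  · intro j hjm hj0
    rw [s58nrP_nsmul W α β x0 y0 hαβ h1 h2 h3 h4 hns ζ hζ0 j]
    exact s58nrP_ne_zero W α β x0 y0 hns (ζ ^ j) (pow_ne_zero j hζ0)
      (hζ.pow_ne_one_of_pos_of_lt hj0.ne' hjm)

end Fermat.Agent.S58
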