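import Mathlib

/-!
# S58 (D4), model-independent: the evaluation homomorphisms `ev_A`

`W` a Weierstrass curve over a ring `R`, `k` an algebraically closed field over `R`, `K` a field
over `k` (the function field of `W` over `k` in the application), `(X, Y)` a point of `W(K)`
(the generic point) with the universal property `huniv`: every nonsingular point `(x, y)` of
`W(K)` with `x` transcendental over `k` is the image of `(X, Y)` under a `k`-algebra endomorphism
of `K`.

For a point `A` of `W(K)` we define the group endomorphism `s58eaHom … A` of `W(K)`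
("substitute `A` for the generic point"), and prove, for `A` non-constant:

* `s58ea_gen`   : `ev_A (X, Y) = A`;
* `s58ea_const` : `ev_A c = c` for every constant point `c` (image of `W(k)`);
* `s58ea_comm`  : `ev_A` commutes with `Point.map fr` for every `R`-algebra endomorphism `fr` of
  `K` commuting with the `k`-algebra endomorphisms (e.g. a Frobenius `z ↦ z ^ n`:
  `s58ea_comm_pow`);
* `s58ea_deg`   : `d (ev_A B) = d A * d B` when the `x`-coordinates of `A`, `B` are rational
  functions of `X` and `d` is their degree, given the multiplicativity of the degree under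
  composition of rational functions (hypothesis `hcomp`).

Names are prefixed `s58ea`.  Mathlib only.
-/

set_option autoImplicit false
set_option linter.unusedSectionVars false

namespace Fermat.Agent.S58

open WeierstrassCurve WeierstrassCurve.Affine

section EvHom

variable {R k K : Type*} [CommRing R] [Field k] [Field K] [DecidableEq k] [DecidableEq K]
  [Algebra R k] [Algebra R K] [Algebra k K] [IsScalarTower R k K]
  (W : WeierstrassCurve R)

variable (k K) in
/-- the constant points: the image of `W(k)` in `W(K)` -/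
noncomputable def s58eaConst : AddSubgroup (W⁄K).Point :=
  (Point.baseChange (W' := W) k K).range

theorem s58ea_some_congr {x y x' y' : K} (h : (W⁄K).Nonsingular x y)
    (h' : (W⁄K).Nonsingular x' y') (hx : x = x') (hy : y = y') :
    Point.some x y h = Point.some x' y' h' := by
  subst hx
  subst hy
  rfl

theorem s58ea_mem_range_of_isIntegral [IsAlgClosed k] {z : K} (hz : IsIntegral k z) :
    ∃ a : k, algebraMap k K a = z := by
  have hdeg := IsAlgClosed.degree_eq_one_of_irreducible k (minpoly.irreducible hz)
  exact minpoly.mem_range_of_degree_eq_one k z hdeg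

/-- a point of `W(K)` whose `x`-coordinate is algebraic over `k` is constant -/
theorem s58ea_const_of_algebraic [IsAlgClosed k] {x y : K} (h : (W⁄K).Nonsingular x y)
    (hx : IsAlgebraic k x) : Point.some x y h ∈ s58eaConst k K W := by
  obtain ⟨a, rfl⟩ := s58ea_mem_range_of_isIntegral hx.isIntegral
  have heq := (Affine.equation_iff _ _).mp h.1
  have hy : IsIntegral k y := by
    refine ⟨Polynomial.X ^ 2
      + Polynomial.C (algebraMap R k W.a₁ * a + algebraMap R k W.a₃) * Polynomial.X
      - Polynomial.C (a ^ 3 + algebraMap R k W.a₂ * a ^ 2 + algebraMap R k W.a₄ * a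
          + algebraMap R k W.a₆), ?_, ?_⟩
    · have h2 : (Polynomial.X ^ 2 : Polynomial k).Monic := Polynomial.monic_X_pow 2
      have h1 : (Polynomial.C (algebraMap R k W.a₁ * a + algebraMap R k W.a₃) * Polynomial.X
          - Polynomial.C (a ^ 3 + algebraMap R k W.a₂ * a ^ 2 + algebraMap R k W.a₄ * a
          + algebraMap R k W.a₆) : Polynomial k).degree < (Polynomial.X ^ 2 : Polynomial k).degree := by
        rw [Polynomial.degree_X_pow]
        refine lt_of_le_of_lt (Polynomial.degree_sub_le _ _) ?_
        refine max_lt ?_ ?_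
        · refine lt_of_le_of_lt (Polynomial.degree_C_mul_X_le _) ?_
          norm_num
        · refine lt_of_le_of_lt Polynomial.degree_C_le ?_
          norm_num
      have := h2.add_of_left h1
      rw [add_sub_assoc]
      exact this
    · simp only [Polynomial.eval₂_sub, Polynomial.eval₂_add, Polynomial.eval₂_mul,
        Polynomial.eval₂_pow, Polynomial.eval₂_X, Polynomial.eval₂_C, map_add, map_mul, map_pow]
      simp only [Affine.baseChange_a₁, Affine.baseChange_a₂, Affine.baseChange_a₃,
        Affine.baseChange_a₄, Affine.baseChange_a₆] at heq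
      rw [IsScalarTower.algebraMap_apply R k K W.a₁, IsScalarTower.algebraMap_apply R k K W.a₂,
        IsScalarTower.algebraMap_apply R k K W.a₃, IsScalarTower.algebraMap_apply R k K W.a₄,
        IsScalarTower.algebraMap_apply R k K W.a₆] at heq
      linear_combination heq
  obtain ⟨b, rfl⟩ := s58ea_mem_range_of_isIntegral hy
  have h0 : (W⁄k).Nonsingular a b :=
    (Affine.baseChange_nonsingular (W := W) (f := Algebra.ofId k K)
      (Algebra.ofId k K).injective a b).mp h
  exact ⟨Point.some a b h0, rfl⟩

theorem s58ea_transcendental [IsAlgClosed k] {x y : K} (h : (W⁄K).Nonsingular x y)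
    (hA : Point.some x y h ∉ s58eaConst k K W) : Transcendental k x :=
  fun hx => hA (s58ea_const_of_algebraic W h hx)


/-! ### The evaluation homomorphisms -/

variable (X Y : K)
  (huniv : ∀ x y : K, (W⁄K).Nonsingular x y → Transcendental k x →
    ∃ f : K →ₐ[k] K, f X = x ∧ f Y = y)

/-- the `k`-algebra endomorphism of `K` sending the generic point to `(x, y)` -/
noncomputable def s58eaAlg {x y : K} (h : (W⁄K).Nonsingular x y) (hx : Transcendental k x) :
    K →ₐ[k] K :=
  Classical.choose (huniv x y h hx)

theorem s58eaAlg_X {x y : K} (h : (W⁄K).Nonsingular x y) (hx : Transcendental k x) :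
    s58eaAlg W X Y huniv h hx X = x :=
  (Classical.choose_spec (huniv x y h hx)).1

theorem s58eaAlg_Y {x y : K} (h : (W⁄K).Nonsingular x y) (hx : Transcendental k x) :
    s58eaAlg W X Y huniv h hx Y = y :=
  (Classical.choose_spec (huniv x y h hx)).2

open Classical in
/-- `ev_A`: substitute the point `A` for the generic point (zero map when `A` is constant) -/
noncomputable def s58eaHom (A : (W⁄K).Point) : (W⁄K).Point →+ (W⁄K).Point :=
  match A with
  | .zero => 0
  | .some _ _ h =>
    if hx : Transcendental k _ then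
      Point.map (W' := W) ((s58eaAlg W X Y huniv h hx).restrictScalars R)
    else 0

theorem s58eaHom_some {x y : K} (h : (W⁄K).Nonsingular x y) (hx : Transcendental k x) :
    s58eaHom W X Y huniv (Point.some x y h)
      = Point.map (W' := W) ((s58eaAlg W X Y huniv h hx).restrictScalars R) := by
  unfold s58eaHom
  exact dif_pos hx

/-- non-constant points are affine with transcendental `x`-coordinate -/
theorem s58ea_cases [IsAlgClosed k] (A : (W⁄K).Point) (hA : A ∉ s58eaConst k K W) :
    ∃ (x y : K) (h : (W⁄K).Nonsingular x y), A = Point.some x y h ∧ Transcendental k x := by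
  match A, hA with
  | .zero, hA => exact absurd (zero_mem _) hA
  | .some x y h, hA => exact ⟨x, y, h, rfl, s58ea_transcendental W h hA⟩

/-- `ev_A` in coordinates -/
theorem s58ea_apply_some {x y : K} (h : (W⁄K).Nonsingular x y) (hx : Transcendental k x)
    {x' y' : K} (h' : (W⁄K).Nonsingular x' y') :
    ∃ h'' : (W⁄K).Nonsingular (s58eaAlg W X Y huniv h hx x') (s58eaAlg W X Y huniv h hx y'),
      s58eaHom W X Y huniv (Point.some x y h) (Point.some x' y' h') = Point.some _ _ h'' := by
  rw [s58eaHom_some W X Y huniv h hx]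
  exact ⟨_, rfl⟩

/-- (hevP) `ev_A` maps the generic point to `A` -/
theorem s58ea_gen [IsAlgClosed k] (hXY : (W⁄K).Nonsingular X Y) (A : (W⁄K).Point)
    (hA : A ∉ s58eaConst k K W) :
    s58eaHom W X Y huniv A (Point.some X Y hXY) = A := by
  obtain ⟨x, y, h, rfl, hx⟩ := s58ea_cases W A hA
  obtain ⟨h'', he⟩ := s58ea_apply_some W X Y huniv h hx hXY
  rw [he]
  exact s58ea_some_congr W _ _ (s58eaAlg_X W X Y huniv h hx) (s58eaAlg_Y W X Y huniv h hx)

/-- (hevC) `ev_A` fixes the constant points -/
theorem s58ea_const [IsAlgClosed k] (A : (W⁄K).Point) (hA : A ∉ s58eaConst k K W)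
    (c : (W⁄K).Point) (hc : c ∈ s58eaConst k K W) :
    s58eaHom W X Y huniv A c = c := by
  obtain ⟨x, y, h, rfl, hx⟩ := s58ea_cases W A hA
  obtain ⟨c₀, rfl⟩ := hc
  match c₀ with
  | .zero => exact map_zero _
  | .some a b h₀ =>
    rw [s58eaHom_some W X Y huniv h hx]
    show Point.map (W' := W) _ (Point.map (W' := W) (Algebra.ofId k K) (Point.some a b h₀)) = _
    rw [Point.map_some, Point.map_some]
    exact s58ea_some_congr W _ _ (AlgHom.commutes _ a) (AlgHom.commutes _ b)

/-- (hevφ) `ev_A` commutes with the map induced by an `R`-algebra endomorphism of `K` which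
commutes with the `k`-algebra endomorphisms -/
theorem s58ea_comm [IsAlgClosed k] (fr : K →ₐ[R] K)
    (hfr : ∀ (g : K →ₐ[k] K) (z : K), g (fr z) = fr (g z))
    (A : (W⁄K).Point) (hA : A ∉ s58eaConst k K W) (B : (W⁄K).Point) :
    s58eaHom W X Y huniv A (Point.map (W' := W) fr B)
      = Point.map (W' := W) fr (s58eaHom W X Y huniv A B) := by
  obtain ⟨x, y, h, rfl, hx⟩ := s58ea_cases W A hA
  have hcomp : ((s58eaAlg W X Y huniv h hx).restrictScalars R).comp fr
      = fr.comp ((s58eaAlg W X Y huniv h hx).restrictScalars R) := by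
    ext z
    exact hfr _ z
  rw [s58eaHom_some W X Y huniv h hx, Point.map_map, Point.map_map, hcomp]

/-- (hevφ) for a Frobenius `z ↦ z ^ n` -/
theorem s58ea_comm_pow [IsAlgClosed k] (fr : K →ₐ[R] K) (n : ℕ) (hfr : ∀ z : K, fr z = z ^ n)
    (A : (W⁄K).Point) (hA : A ∉ s58eaConst k K W) (B : (W⁄K).Point) :
    s58eaHom W X Y huniv A (Point.map (W' := W) fr B)
      = Point.map (W' := W) fr (s58eaHom W X Y huniv A B) :=
  s58ea_comm W X Y huniv fr (fun g z => by rw [hfr, hfr, map_pow]) A hA B

/-- (hevd) `d (ev_A B) = d A * d B` on the points whose `x`-coordinate is a rational function of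
`X` (image of `j`), `d` being the degree `deg` of that rational function; `hcomp` is the
multiplicativity of `deg` under composition of rational functions, in relative form. -/
theorem s58ea_deg [IsAlgClosed k] (j : RatFunc k →+* K)
    (hjC : ∀ c : k, j (RatFunc.C c) = algebraMap k K c) (hjX : j RatFunc.X = X)
    (deg : RatFunc k → ℕ)
    (hcomp : ∀ (φ : K →+* K) (a : RatFunc k),
      (∀ c : k, φ (j (RatFunc.C c)) = j (RatFunc.C c)) → φ (j RatFunc.X) = j a →
      ∀ r : RatFunc k, ∃ r' : RatFunc k, φ (j r) = j r' ∧ deg r' = deg r * deg a)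
    (G : AddSubgroup (W⁄K).Point)
    (hG : ∀ (x y : K) (h : (W⁄K).Nonsingular x y), Point.some x y h ∈ G →
      ∃ r : RatFunc k, j r = x)
    (d : (W⁄K).Point → ℤ) (hd0 : d 0 = 0)
    (hd : ∀ (x y : K) (h : (W⁄K).Nonsingular x y) (r : RatFunc k), j r = x →
      d (Point.some x y h) = (deg r : ℤ))
    (A : (W⁄K).Point) (hAG : A ∈ G) (hA : A ∉ s58eaConst k K W)
    (B : (W⁄K).Point) (hBG : B ∈ G) :
    d (s58eaHom W X Y huniv A B) = d A * d B := by
  obtain ⟨x, y, h, rfl, hx⟩ := s58ea_cases W A hA
  obtain ⟨a, ha⟩ := hG x y h hAG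
  match B, hBG with
  | .zero, _ =>
    have h1 : s58eaHom W X Y huniv (Point.some x y h) Point.zero = 0 := map_zero _
    have h2 : d Point.zero = 0 := hd0
    rw [h1, hd0, h2, mul_zero]
  | .some x' y' h', hBG =>
    obtain ⟨b, hb⟩ := hG x' y' h' hBG
    obtain ⟨h'', he⟩ := s58ea_apply_some W X Y huniv h hx h'
    obtain ⟨r', hr', hdeg⟩ := hcomp (s58eaAlg W X Y huniv h hx : K →+* K) a
      (fun c => by
        rw [hjC]
        exact AlgHom.commutes _ c)
      (by
        rw [hjX, ha]
        exact s58eaAlg_X W X Y huniv h hx) b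
    rw [he, hd _ _ h'' r' (by rw [← hr', hb]; rfl), hd x y h a ha, hd x' y' h' b hb, hdeg]
    push_cast
    ring

/-- `ev_A` preserves the subgroup `G = {B | ι B = -B}` when `A ∈ G`, for an `R`-algebra
endomorphism `ι` of `K` fixing `k` with `ι X = X`, `ι Y = negY X Y`, given uniqueness in the
universal property. -/
theorem s58ea_mem [IsAlgClosed k]
    (hext : ∀ f g : K →ₐ[k] K, f X = g X → f Y = g Y → f = g)
    (ι : K →ₐ[R] K) (hιk : ∀ c : k, ι (algebraMap k K c) = algebraMap k K c)
    (hιX : ι X = X) (hιY : ι Y = (W⁄K).negY X Y)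
    (A : (W⁄K).Point) (hAι : Point.map (W' := W) ι A = -A)
    (hA : A ∉ s58eaConst k K W)
    (B : (W⁄K).Point) (hBι : Point.map (W' := W) ι B = -B) :
    Point.map (W' := W) ι (s58eaHom W X Y huniv A B) = -(s58eaHom W X Y huniv A B) := by
  obtain ⟨x, y, h, rfl, hx⟩ := s58ea_cases W A hA
  rw [Point.map_some, Point.neg_some] at hAι
  have hιx : ι x = x := (Point.some.inj hAι).1
  have hιy : ι y = (W⁄K).negY x y := (Point.some.inj hAι).2
  have hneg : s58eaAlg W X Y huniv h hx ((W⁄K).negY X Y) = (W⁄K).negY x y := by
    have := Affine.baseChange_negY (W' := W) ((s58eaAlg W X Y huniv h hx).restrictScalars R) X Y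
    have e1 : ((s58eaAlg W X Y huniv h hx).restrictScalars R) X = x := s58eaAlg_X W X Y huniv h hx
    have e2 : ((s58eaAlg W X Y huniv h hx).restrictScalars R) Y = y := s58eaAlg_Y W X Y huniv h hx
    rw [e1, e2] at this
    exact this.symm
  let ιk : K →ₐ[k] K := { (ι : K →+* K) with commutes' := hιk }
  have hιk_apply : ∀ z : K, ιk z = ι z := fun _ => rfl
  have hcomm : ιk.comp (s58eaAlg W X Y huniv h hx) = (s58eaAlg W X Y huniv h hx).comp ιk := by
    apply hext
    · rw [AlgHom.comp_apply, AlgHom.comp_apply, s58eaAlg_X, hιk_apply, hιk_apply, hιX,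
        s58eaAlg_X, hιx]
    · rw [AlgHom.comp_apply, AlgHom.comp_apply, s58eaAlg_Y, hιk_apply, hιk_apply, hιY, hιy,
        hneg]
  have hcomm' : ι.comp ((s58eaAlg W X Y huniv h hx).restrictScalars R)
      = ((s58eaAlg W X Y huniv h hx).restrictScalars R).comp ι := by
    ext z
    exact congrArg (fun f : K →ₐ[k] K => f z) hcomm
  rw [s58eaHom_some W X Y huniv h hx, Point.map_map, hcomm', ← Point.map_map, hBι, map_neg]

end EvHom

end Fermat.Agent.S58
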