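import Mathlib

/-!
# S58, [EV-UNIV]: the universal property of `AdjoinRoot p` over `RatFunc k`

For a field `k`, a polynomial `p : (RatFunc k)[X]`, a field `L` over `k`, an element `x : L`
transcendental over `k` and a root `y : L` of the image of `p` under `X ↦ x`, there is a unique
`k`-algebra homomorphism `AdjoinRoot p →ₐ[k] L` with `X ↦ x`, `root ↦ y`.

* `s58elRat x hx : RatFunc k →ₐ[k] L` : the embedding `X ↦ x`;
* `s58el_lift`, `s58el_ext` : existence and uniqueness.
-/

set_option autoImplicit false

namespace Fermat.Agent.S58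

open Polynomial

section

variable {k : Type*} [Field k] {L : Type*} [Field L] [Algebra k L]

/-- the embedding `k(X) → L`, `X ↦ x`, for `x` transcendental over `k` -/
noncomputable def s58elRat (x : L) (hx : Transcendental k x) : RatFunc k →ₐ[k] L :=
  RatFunc.liftAlgHom (Polynomial.aeval x)
    (nonZeroDivisors_le_comap_nonZeroDivisors_of_injective _
      (transcendental_iff_injective.mp hx))

theorem s58elRat_algebraMap (x : L) (hx : Transcendental k x) (q : k[X]) :
    s58elRat x hx (algebraMap k[X] (RatFunc k) q) = Polynomial.aeval x q := by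
  rw [s58elRat, RatFunc.liftAlgHom_apply, RatFunc.num_algebraMap, RatFunc.denom_algebraMap,
    map_one, div_one]

theorem s58elRat_X (x : L) (hx : Transcendental k x) : s58elRat x hx RatFunc.X = x := by
  rw [← RatFunc.algebraMap_X, s58elRat_algebraMap, Polynomial.aeval_X]

theorem s58elRat_C (x : L) (hx : Transcendental k x) (c : k) :
    s58elRat x hx (RatFunc.C c) = algebraMap k L c := by
  rw [← RatFunc.algebraMap_eq_C]
  exact (s58elRat x hx).commutes c

theorem s58elRat_injective (x : L) (hx : Transcendental k x) :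
    Function.Injective (s58elRat x hx) :=
  (s58elRat x hx).toRingHom.injective

/-- two ring homomorphisms out of `RatFunc k` which agree on constants and on `X` are equal -/
theorem s58elRat_ext {T : Type*} [Semiring T] (f g : RatFunc k →+* T)
    (hC : ∀ c : k, f (RatFunc.C c) = g (RatFunc.C c)) (hX : f RatFunc.X = g RatFunc.X) :
    f = g := by
  apply IsLocalization.ringHom_ext (nonZeroDivisors k[X])
  apply Polynomial.ringHom_ext
  · intro c
    simpa [RatFunc.algebraMap_C] using hC c
  · simpa [RatFunc.algebraMap_X] using hX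

/-- **[EV-UNIV], existence.** -/
theorem s58el_lift (p : (RatFunc k)[X]) (x y : L) (hx : Transcendental k x)
    (hy : p.eval₂ (s58elRat x hx) y = 0) :
    ∃ f : AdjoinRoot p →ₐ[k] L, f (AdjoinRoot.of p RatFunc.X) = x ∧
      f (AdjoinRoot.root p) = y := by
  refine ⟨AdjoinRoot.liftAlgHom p (s58elRat x hx) y hy, ?_, ?_⟩
  · have h : AdjoinRoot.liftAlgHom p (s58elRat x hx) y hy (AdjoinRoot.of p RatFunc.X) =
        s58elRat x hx RatFunc.X := by
      simp
    rw [h, s58elRat_X]
  · simp

/-- the lift restricted to `RatFunc k` is `s58elRat` -/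
theorem s58el_lift' (p : (RatFunc k)[X]) (x y : L) (hx : Transcendental k x)
    (hy : p.eval₂ (s58elRat x hx) y = 0) :
    ∃ f : AdjoinRoot p →ₐ[k] L, (∀ r : RatFunc k, f (AdjoinRoot.of p r) = s58elRat x hx r) ∧
      f (AdjoinRoot.of p RatFunc.X) = x ∧ f (AdjoinRoot.root p) = y := by
  refine ⟨AdjoinRoot.liftAlgHom p (s58elRat x hx) y hy, ?_, ?_, ?_⟩
  · intro r
    simp
  · have h : AdjoinRoot.liftAlgHom p (s58elRat x hx) y hy (AdjoinRoot.of p RatFunc.X) =
        s58elRat x hx RatFunc.X := by
      simp
    rw [h, s58elRat_X]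
  · simp

/-- **[EV-UNIV], uniqueness.** -/
theorem s58el_ext (p : (RatFunc k)[X]) (f g : AdjoinRoot p →ₐ[k] L)
    (hX : f (AdjoinRoot.of p RatFunc.X) = g (AdjoinRoot.of p RatFunc.X))
    (hY : f (AdjoinRoot.root p) = g (AdjoinRoot.root p)) : f = g := by
  apply AlgHom.coe_ringHom_injective
  refine AdjoinRoot.ringHom_ext ?_ hY
  apply s58elRat_ext
  · intro c
    have h1 : AdjoinRoot.of p (RatFunc.C c) = algebraMap k (AdjoinRoot p) c := by
      rw [← RatFunc.algebraMap_eq_C]
      rfl
    simp only [RingHom.comp_apply, RingHom.coe_coe, h1, AlgHom.commutes]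
  · simpa using hX

/-- uniqueness for ring homomorphisms into an arbitrary semiring -/
theorem s58el_ringHom_ext {T : Type*} [Semiring T] (p : (RatFunc k)[X])
    (f g : AdjoinRoot p →+* T)
    (hC : ∀ c : k, f (AdjoinRoot.of p (RatFunc.C c)) = g (AdjoinRoot.of p (RatFunc.C c)))
    (hX : f (AdjoinRoot.of p RatFunc.X) = g (AdjoinRoot.of p RatFunc.X))
    (hY : f (AdjoinRoot.root p) = g (AdjoinRoot.root p)) : f = g := by
  refine AdjoinRoot.ringHom_ext ?_ hY
  apply s58elRat_ext
  · intro c
    simpa using hC c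
  · simpa using hX

end

end Fermat.Agent.S58
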