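import Mathlib

/-!
# S58, package GENERIC: the function field of a Weierstrass curve and its generic point

For a Weierstrass curve `W` over a commutative ring `R` and a field `k` over `R` we define
* `s58ffK W k` : the function field `k(X)[Y] / (W(X, Y))` (as `AdjoinRoot` over `RatFunc k`);
* `s58ffX`, `s58ffY`, `s58ffGen` : the generic point of `W` over `s58ffK W k`;
* `s58ffIota` : the involution `Y ↦ -Y - a₁ X - a₃` of the function field;
* `s58ffG` : the subgroup of points `A` of `W` over the function field with `ι A = -A`;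
* `s58ffD` : the degree of the `x`-coordinate (an element of `k(X)` for the points of `s58ffG`).
-/

set_option autoImplicit false

namespace Fermat.Agent.S58

open Polynomial WeierstrassCurve
open scoped WeierstrassCurve.Affine

universe u v

variable {R : Type u} [CommRing R] (W : WeierstrassCurve R) (k : Type v) [Field k] [Algebra R k]

/-- a coefficient of `W`, read in `k(X)` -/
noncomputable def s58ffC (a : R) : RatFunc k := RatFunc.C (algebraMap R k a)

/-- the Weierstrass polynomial of `W`, as a polynomial in `Y` over `k(X)` -/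
noncomputable def s58ffPoly : (RatFunc k)[X] :=
  X ^ 2 + C (s58ffC k W.a₁ * RatFunc.X + s58ffC k W.a₃) * X
    - C (RatFunc.X ^ 3 + s58ffC k W.a₂ * RatFunc.X ^ 2 + s58ffC k W.a₄ * RatFunc.X
      + s58ffC k W.a₆)

theorem s58ffPoly_eq :
    s58ffPoly W k = (W.toAffine⁄k).polynomial.map (algebraMap k[X] (RatFunc k)) := by
  simp [s58ffPoly, s58ffC, Affine.polynomial, Polynomial.map_sub, Polynomial.map_add,
    Polynomial.map_mul, Polynomial.map_pow, RatFunc.algebraMap_C, RatFunc.algebraMap_X]

theorem s58ff_irreducible : Irreducible (s58ffPoly W k) := by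
  rw [s58ffPoly_eq]
  exact (Polynomial.Monic.irreducible_iff_irreducible_map_fraction_map
    (Affine.monic_polynomial (W := W.toAffine⁄k))).mp Affine.irreducible_polynomial

instance s58ff_fact : Fact (Irreducible (s58ffPoly W k)) := ⟨s58ff_irreducible W k⟩

theorem s58ffPoly_monic : (s58ffPoly W k).Monic := by
  rw [s58ffPoly_eq]
  exact (Affine.monic_polynomial (W := W.toAffine⁄k)).map _

theorem s58ffPoly_natDegree : (s58ffPoly W k).natDegree = 2 := by
  rw [s58ffPoly_eq, (Affine.monic_polynomial (W := W.toAffine⁄k)).natDegree_map,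
    Affine.natDegree_polynomial]

/-- the function field of `W` over `k` -/
abbrev s58ffK : Type v := AdjoinRoot (s58ffPoly W k)

noncomputable example : Field (s58ffK W k) := inferInstance
noncomputable example : Algebra (RatFunc k) (s58ffK W k) := inferInstance
noncomputable example : Algebra k (s58ffK W k) := inferInstance
noncomputable example : Algebra R (s58ffK W k) := inferInstance
example : IsScalarTower R k (s58ffK W k) := inferInstance
example : IsScalarTower R (RatFunc k) (s58ffK W k) := inferInstance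
example : IsScalarTower k (RatFunc k) (s58ffK W k) := inferInstance
example : IsScalarTower R k (RatFunc k) := inferInstance

/-- the coordinate function `X` -/
noncomputable def s58ffX : s58ffK W k := algebraMap (RatFunc k) (s58ffK W k) RatFunc.X

/-- the coordinate function `Y` -/
noncomputable def s58ffY : s58ffK W k := AdjoinRoot.root (s58ffPoly W k)

noncomputable instance s58ffDecEq : DecidableEq (s58ffK W k) := Classical.decEq _

theorem s58ff_algebraMap_C (a : R) :
    algebraMap (RatFunc k) (s58ffK W k) (RatFunc.C (algebraMap R k a))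
      = algebraMap R (s58ffK W k) a := by
  rw [← RatFunc.algebraMap_eq_C, ← IsScalarTower.algebraMap_apply,
    ← IsScalarTower.algebraMap_apply]

/-- the value of the Weierstrass polynomial along a `k`-algebra map from `k(X)` -/
theorem s58ff_eval₂ {T : Type*} [CommRing T] [Algebra R T] [Algebra k T] [IsScalarTower R k T]
    (i : RatFunc k →+* T) (hi : ∀ c : k, i (RatFunc.C c) = algebraMap k T c) (y : T) :
    (s58ffPoly W k).eval₂ i y
      = y ^ 2 + algebraMap R T W.a₁ * i RatFunc.X * y + algebraMap R T W.a₃ * y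
        - (i RatFunc.X ^ 3 + algebraMap R T W.a₂ * i RatFunc.X ^ 2
          + algebraMap R T W.a₄ * i RatFunc.X + algebraMap R T W.a₆) := by
  have hC : ∀ a : R, i (s58ffC k a) = algebraMap R T a := fun a => by
    rw [s58ffC, hi, ← IsScalarTower.algebraMap_apply]
  simp only [s58ffPoly, eval₂_sub, eval₂_add, eval₂_mul, eval₂_pow, eval₂_X, eval₂_C, map_add,
    map_mul, map_pow, hC]
  ring

/-- a root of the Weierstrass polynomial along `i` is a point of `W` with `x`-coordinate `i X` -/
theorem s58ff_eval₂_iff {T : Type*} [CommRing T] [Algebra R T] [Algebra k T] [IsScalarTower R k T]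
    (i : RatFunc k →+* T) (hi : ∀ c : k, i (RatFunc.C c) = algebraMap k T c) (y : T) :
    (s58ffPoly W k).eval₂ i y = 0 ↔ (W.toAffine⁄T).Equation (i RatFunc.X) y := by
  rw [s58ff_eval₂ W k i hi, Affine.equation_iff']
  simp

theorem s58ff_algebraMap_ratC (c : k) :
    algebraMap (RatFunc k) (s58ffK W k) (RatFunc.C c) = algebraMap k (s58ffK W k) c := by
  rw [← RatFunc.algebraMap_eq_C, ← IsScalarTower.algebraMap_apply]

theorem s58ff_equation : (W.toAffine⁄(s58ffK W k)).Equation (s58ffX W k) (s58ffY W k) := by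
  have h := AdjoinRoot.eval₂_root (s58ffPoly W k)
  rw [← AdjoinRoot.algebraMap_eq] at h
  exact (s58ff_eval₂_iff W k _ (s58ff_algebraMap_ratC W k) _).mp h

theorem s58ff_nonsingular (hΔ : algebraMap R k W.Δ ≠ 0) :
    (W.toAffine⁄(s58ffK W k)).Nonsingular (s58ffX W k) (s58ffY W k) := by
  refine (Affine.equation_iff_nonsingular_of_Δ_ne_zero ?_).mp (s58ff_equation W k)
  have h : (W.toAffine⁄(s58ffK W k)).Δ = algebraMap k (s58ffK W k) (algebraMap R k W.Δ) := by
    rw [← IsScalarTower.algebraMap_apply]
    exact WeierstrassCurve.map_Δ W _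
  rw [h]
  exact (_root_.map_ne_zero _).mpr hΔ

/-- the generic point of `W` -/
noncomputable def s58ffGen (hΔ : algebraMap R k W.Δ ≠ 0) : (W.toAffine⁄(s58ffK W k)).Point :=
  .some _ _ (s58ff_nonsingular W k hΔ)

/-- the involution `Y ↦ -Y - a₁ X - a₃` of the function field (over `k(X)`) -/
noncomputable def s58ffIota : s58ffK W k →ₐ[R] s58ffK W k :=
  AdjoinRoot.liftAlgHom (s58ffPoly W k) (IsScalarTower.toAlgHom R (RatFunc k) (s58ffK W k))
    ((W.toAffine⁄(s58ffK W k)).negY (s58ffX W k) (s58ffY W k))
    (by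
      rw [IsScalarTower.coe_toAlgHom]
      exact (s58ff_eval₂_iff W k _ (s58ff_algebraMap_ratC W k) _).mpr
        ((Affine.equation_neg _ _).mpr (s58ff_equation W k)))

theorem s58ffIota_algebraMap (r : RatFunc k) :
    s58ffIota W k (algebraMap (RatFunc k) (s58ffK W k) r) = algebraMap (RatFunc k) (s58ffK W k) r := by
  unfold s58ffIota
  rw [AdjoinRoot.algebraMap_eq, AdjoinRoot.liftAlgHom_of]
  rfl

theorem s58ffIota_X : s58ffIota W k (s58ffX W k) = s58ffX W k :=
  s58ffIota_algebraMap W k _

theorem s58ffIota_Y : s58ffIota W k (s58ffY W k)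
    = (W.toAffine⁄(s58ffK W k)).negY (s58ffX W k) (s58ffY W k) := by
  unfold s58ffIota
  exact AdjoinRoot.liftAlgHom_root (s58ffPoly W k) _ _ _

/-- the points `A` over the function field with `ι A = -A` -/
noncomputable def s58ffG : AddSubgroup (W.toAffine⁄(s58ffK W k)).Point :=
  (Affine.Point.map (W' := W.toAffine) (s58ffIota W k) + AddMonoidHom.id _).ker

theorem s58ff_mem_G (A : (W.toAffine⁄(s58ffK W k)).Point) :
    A ∈ s58ffG W k ↔ Affine.Point.map (W' := W.toAffine) (s58ffIota W k) A = -A := by
  rw [s58ffG, AddMonoidHom.mem_ker, AddMonoidHom.add_apply, AddMonoidHom.id_apply,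
    add_eq_zero_iff_eq_neg]

theorem s58ffGen_mem (hΔ : algebraMap R k W.Δ ≠ 0) : s58ffGen W k hΔ ∈ s58ffG W k := by
  rw [s58ff_mem_G, s58ffGen, Affine.Point.map_some, Affine.Point.neg_some]
  simp only [s58ffIota_X, s58ffIota_Y]

/-- `Y` is not fixed by the involution (the curve is not singular) -/
theorem s58ffY_ne_negY (hΔ : algebraMap R k W.Δ ≠ 0) :
    s58ffY W k ≠ (W.toAffine⁄(s58ffK W k)).negY (s58ffX W k) (s58ffY W k) := by
  intro h0
  have heq := s58ff_equation W k
  rw [Affine.equation_iff] at heq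
  have hpsi : (s58ffY W k - (W.toAffine⁄(s58ffK W k)).negY (s58ffX W k) (s58ffY W k)) ^ 2
      = 4 * s58ffX W k ^ 3 + algebraMap R (s58ffK W k) W.b₂ * s58ffX W k ^ 2
        + 2 * algebraMap R (s58ffK W k) W.b₄ * s58ffX W k + algebraMap R (s58ffK W k) W.b₆ := by
    simp only [Affine.negY, WeierstrassCurve.b₂, WeierstrassCurve.b₄, WeierstrassCurve.b₆,
      map_add, map_mul, map_pow, map_ofNat]
    simp only [Affine.baseChange_a₁, Affine.baseChange_a₂, Affine.baseChange_a₃,
      Affine.baseChange_a₄, Affine.baseChange_a₆] at heq ⊢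
    linear_combination 4 * heq
  rw [← h0, sub_self, zero_pow two_ne_zero] at hpsi
  set ψ : k[X] := C 4 * X ^ 3 + C (algebraMap R k W.b₂) * X ^ 2
    + C (2 * algebraMap R k W.b₄) * X + C (algebraMap R k W.b₆) with hψ
  have h2 : algebraMap (RatFunc k) (s58ffK W k) (algebraMap k[X] (RatFunc k) ψ) = 0 := by
    rw [hpsi, hψ]
    simp only [map_add, map_mul, map_pow, RatFunc.algebraMap_C, RatFunc.algebraMap_X,
      s58ff_algebraMap_C, map_ofNat, s58ffX]
  have h3 : ψ = 0 := by
    have h4 := (algebraMap (RatFunc k) (s58ffK W k)).injective (h2.trans (map_zero _).symm)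
    exact RatFunc.algebraMap_injective k (h4.trans (map_zero _).symm)
  have h5 : (Cubic.mk (4 : k) (algebraMap R k W.b₂) (2 * algebraMap R k W.b₄)
      (algebraMap R k W.b₆)) = 0 := (Cubic.toPoly_eq_zero_iff _).mp h3
  have ha : (4 : k) = 0 := congrArg Cubic.a h5
  have hb : algebraMap R k W.b₂ = 0 := congrArg Cubic.b h5
  have hc : 2 * algebraMap R k W.b₄ = 0 := congrArg Cubic.c h5
  have hd : algebraMap R k W.b₆ = 0 := congrArg Cubic.d h5
  apply hΔ
  simp only [WeierstrassCurve.Δ, map_sub, map_add, map_mul, map_pow, map_neg, map_ofNat]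
  linear_combination (-(algebraMap R k W.b₂) * algebraMap R k W.b₈
    + 9 * algebraMap R k W.b₄ * algebraMap R k W.b₆) * hb
    - 4 * (algebraMap R k W.b₄) ^ 2 * hc - 27 * algebraMap R k W.b₆ * hd

/-- the fixed field of the involution is `k(X)` -/
theorem s58ff_fixed (hΔ : algebraMap R k W.Δ ≠ 0) (z : s58ffK W k)
    (hz : s58ffIota W k z = z) :
    ∃ r : RatFunc k, algebraMap (RatFunc k) (s58ffK W k) r = z := by
  obtain ⟨g, rfl⟩ := AdjoinRoot.mk_surjective z
  have hmonic := s58ffPoly_monic W k
  have hmod : AdjoinRoot.mk (s58ffPoly W k) g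
      = AdjoinRoot.mk (s58ffPoly W k) (g %ₘ s58ffPoly W k) := by
    rw [AdjoinRoot.mk_eq_mk, Polynomial.modByMonic_eq_sub_mul_div]
    simp
  have hdeg : (g %ₘ s58ffPoly W k).natDegree ≤ 1 := by
    have h1 := Polynomial.natDegree_modByMonic_lt g hmonic (fun h => by
      have h2 := s58ffPoly_natDegree W k
      rw [h, natDegree_one] at h2
      exact absurd h2 (by norm_num))
    rw [s58ffPoly_natDegree] at h1
    omega
  obtain ⟨a, b, hab⟩ := Polynomial.exists_eq_X_add_C_of_natDegree_le_one hdeg
  have hz' : AdjoinRoot.mk (s58ffPoly W k) g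
      = algebraMap (RatFunc k) (s58ffK W k) a * s58ffY W k
        + algebraMap (RatFunc k) (s58ffK W k) b := by
    rw [hmod, hab, map_add, map_mul, AdjoinRoot.mk_C, AdjoinRoot.mk_C, AdjoinRoot.mk_X,
      AdjoinRoot.algebraMap_eq]
    rfl
  rw [hz', map_add, map_mul, s58ffIota_algebraMap, s58ffIota_algebraMap, s58ffIota_Y] at hz
  have h0 : algebraMap (RatFunc k) (s58ffK W k) a
      * (s58ffY W k - (W.toAffine⁄(s58ffK W k)).negY (s58ffX W k) (s58ffY W k)) = 0 := by
    linear_combination -hz
  rcases mul_eq_zero.mp h0 with h1 | h1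
  · exact ⟨b, by rw [hz', h1, zero_mul, zero_add]⟩
  · exact absurd (sub_eq_zero.mp h1) (s58ffY_ne_negY W k hΔ)

/-- the `x`-coordinate of a point of `s58ffG` lies in `k(X)` -/
theorem s58ff_x_mem (hΔ : algebraMap R k W.Δ ≠ 0) {x y : s58ffK W k}
    (h : (W.toAffine⁄(s58ffK W k)).Nonsingular x y)
    (hG : Affine.Point.some x y h ∈ s58ffG W k) :
    ∃ r : RatFunc k, algebraMap (RatFunc k) (s58ffK W k) r = x := by
  rw [s58ff_mem_G, Affine.Point.map_some, Affine.Point.neg_some] at hG
  exact s58ff_fixed W k hΔ x (Affine.Point.some.inj hG).1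

open Classical in
/-- the degree of the `x`-coordinate (`0` at the origin and outside `k(X)`) -/
noncomputable def s58ffD : (W.toAffine⁄(s58ffK W k)).Point → ℕ
  | .zero => 0
  | .some x _ _ => if h : ∃ r : RatFunc k, algebraMap (RatFunc k) (s58ffK W k) r = x then
      max h.choose.num.natDegree h.choose.denom.natDegree else 0

@[simp] theorem s58ffD_zero : s58ffD W k 0 = 0 := rfl

theorem s58ffD_some (r : RatFunc k) {y : s58ffK W k}
    (h : (W.toAffine⁄(s58ffK W k)).Nonsingular (algebraMap (RatFunc k) (s58ffK W k) r) y) :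
    s58ffD W k (.some _ _ h) = max r.num.natDegree r.denom.natDegree := by
  have hex : ∃ r' : RatFunc k, algebraMap (RatFunc k) (s58ffK W k) r'
      = algebraMap (RatFunc k) (s58ffK W k) r := ⟨r, rfl⟩
  have hr : hex.choose = r := (algebraMap (RatFunc k) (s58ffK W k)).injective hex.choose_spec
  simp only [s58ffD, dif_pos hex, hr]

theorem s58ffD_some' {x y : s58ffK W k} (r : RatFunc k)
    (hx : algebraMap (RatFunc k) (s58ffK W k) r = x)
    (h : (W.toAffine⁄(s58ffK W k)).Nonsingular x y) :
    s58ffD W k (.some _ _ h) = max r.num.natDegree r.denom.natDegree := by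
  subst hx
  exact s58ffD_some W k r h

theorem s58ffD_gen (hΔ : algebraMap R k W.Δ ≠ 0) : s58ffD W k (s58ffGen W k hΔ) = 1 := by
  have h := s58ffD_some' W k RatFunc.X rfl (s58ff_nonsingular W k hΔ)
  exact h.trans (by simp)

end Fermat.Agent.S58
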