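import Mathlib
import Fermat.Agent.S58.FunField
import Fermat.Agent.S58.EvLift

/-!
# S58, [EV-UNIV] on the function field `s58ffK W k`

The universal property of the function field of a Weierstrass curve: for a field `L` over `k`
and a point `(x, y)` of `W` over `L` with `x` transcendental over `k` there is a unique
`k`-algebra homomorphism `s58ffK W k →ₐ[k] L` with `X ↦ x`, `Y ↦ y`.

* `s58elf_lift` / `s58elf_ext` : existence and uniqueness, any `L`;
* `s58elf_univ`, `s58elf_univ_ns` : the case `L = s58ffK W k` (`huniv` of `EvAbs`).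
-/

set_option autoImplicit false

namespace Fermat.Agent.S58

open Polynomial WeierstrassCurve
open scoped WeierstrassCurve.Affine

universe u v w

variable {R : Type u} [CommRing R] (W : WeierstrassCurve R) (k : Type v) [Field k] [Algebra R k]

theorem s58elf_X_eq : s58ffX W k = AdjoinRoot.of (s58ffPoly W k) RatFunc.X := rfl

theorem s58elf_Y_eq : s58ffY W k = AdjoinRoot.root (s58ffPoly W k) := rfl

/-- **[EV-UNIV] for the function field, existence** (any target field `L`) -/
theorem s58elf_lift {L : Type w} [Field L] [Algebra R L] [Algebra k L] [IsScalarTower R k L]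
    (x y : L) (h : (W.toAffine⁄L).Equation x y) (hx : Transcendental k x) :
    ∃ f : s58ffK W k →ₐ[k] L,
      (∀ r : RatFunc k, f (algebraMap (RatFunc k) (s58ffK W k) r) = s58elRat x hx r) ∧
      f (s58ffX W k) = x ∧ f (s58ffY W k) = y := by
  have hy : (s58ffPoly W k).eval₂ (s58elRat x hx) y = 0 := by
    rw [s58ff_eval₂_iff W k (s58elRat x hx : RatFunc k →+* L) (s58elRat_C x hx) y]
    rw [RingHom.coe_coe, s58elRat_X]
    exact h
  obtain ⟨f, hf, hfX, hfY⟩ := s58el_lift' (s58ffPoly W k) x y hx hy
  exact ⟨f, hf, hfX, hfY⟩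

/-- **[EV-UNIV] for the function field, uniqueness** -/
theorem s58elf_ext {L : Type w} [Field L] [Algebra k L]
    (f g : s58ffK W k →ₐ[k] L) (hX : f (s58ffX W k) = g (s58ffX W k))
    (hY : f (s58ffY W k) = g (s58ffY W k)) : f = g :=
  s58el_ext (s58ffPoly W k) f g hX hY

/-- uniqueness for ring homomorphisms -/
theorem s58elf_ringHom_ext {T : Type w} [Semiring T] (f g : s58ffK W k →+* T)
    (hC : ∀ c : k, f (algebraMap k (s58ffK W k) c) = g (algebraMap k (s58ffK W k) c))
    (hX : f (s58ffX W k) = g (s58ffX W k)) (hY : f (s58ffY W k) = g (s58ffY W k)) : f = g := by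
  refine s58el_ringHom_ext (s58ffPoly W k) f g (fun c => ?_) hX hY
  have h := hC c
  rw [← s58ff_algebraMap_ratC W k c] at h
  exact h

/-- `huniv`: every point of `W` over the function field with transcendental `x`-coordinate is
the image of the generic point under a `k`-algebra endomorphism of the function field -/
theorem s58elf_univ (x y : s58ffK W k) (h : (W.toAffine⁄(s58ffK W k)).Equation x y)
    (hx : Transcendental k x) :
    ∃ f : s58ffK W k →ₐ[k] s58ffK W k, f (s58ffX W k) = x ∧ f (s58ffY W k) = y := by
  obtain ⟨f, -, hfX, hfY⟩ := s58elf_lift W k x y h hx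
  exact ⟨f, hfX, hfY⟩

/-- `huniv` in the `Nonsingular` form -/
theorem s58elf_univ_ns (x y : s58ffK W k) (h : (W.toAffine⁄(s58ffK W k)).Nonsingular x y)
    (hx : Transcendental k x) :
    ∃ f : s58ffK W k →ₐ[k] s58ffK W k, f (s58ffX W k) = x ∧ f (s58ffY W k) = y :=
  s58elf_univ W k x y h.1 hx

/-- the endomorphism attached to a point, together with its value on `k(X)` -/
theorem s58elf_univ' (x y : s58ffK W k) (h : (W.toAffine⁄(s58ffK W k)).Equation x y)
    (hx : Transcendental k x) :
    ∃ f : s58ffK W k →ₐ[k] s58ffK W k,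
      (∀ r : RatFunc k, f (algebraMap (RatFunc k) (s58ffK W k) r) = s58elRat x hx r) ∧
      f (s58ffX W k) = x ∧ f (s58ffY W k) = y :=
  s58elf_lift W k x y h hx

end Fermat.Agent.S58
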