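import Mathlib

/-!
# S58, E-side: the points of degree `0` are the constant points (Mathlib only, model independent)

`F` a field, `W` a Weierstrass curve over `F`, `k` an algebraically closed field over `F`, `K` a
field over `F`, `f : k →ₐ[F] K` and `j : RatFunc k →+* K` a ring homomorphism extending `f`
(`j (C c) = f c`).  For a function `d` on the points of `W` over `K` computing the degree
`max (deg num) (deg denom)` of the `x`-coordinate (`d 0 = 0`, `d (x, y) = deg r` when `x = j r`)
and a point `A` whose `x`-coordinate lies in the image of `j`: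

* `s58fc_const` : `d A = 0 ↔ A ∈ (Point.map f).range` (the points coming from `k`);
* `s58fc_const_G` : the same for the elements of a subgroup `G` all of whose affine points have
  their `x`-coordinate in `j (RatFunc k)` (this is the hypothesis `hdC` of `s58f5_main'`);
* `s58fc_deg_zero` : a rational function of degree `0` is a constant;
* `s58fc_lift` : an affine point over `K` whose `x`-coordinate comes from `k` comes from `k`.

Names are prefixed `s58fc`.
-/

set_option autoImplicit false

open WeierstrassCurve WeierstrassCurve.Affine Polynomial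

namespace Fermat.Agent.S58

/-- a rational function of degree `0` is a constant -/
theorem s58fc_deg_zero {k : Type*} [Field k] (r : RatFunc k)
    (h : max r.num.natDegree r.denom.natDegree = 0) : ∃ c : k, r = RatFunc.C c := by
  have h1 : r.num.natDegree = 0 := Nat.le_zero.mp (h ▸ le_max_left _ _)
  have h2 : r.denom.natDegree = 0 := Nat.le_zero.mp (h ▸ le_max_right _ _)
  obtain ⟨a, ha⟩ : ∃ a : k, r.num = Polynomial.C a := ⟨_, Polynomial.eq_C_of_natDegree_eq_zero h1⟩
  obtain ⟨b, hb⟩ : ∃ b : k, r.denom = Polynomial.C b :=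
    ⟨_, Polynomial.eq_C_of_natDegree_eq_zero h2⟩
  refine ⟨a / b, ?_⟩
  rw [← RatFunc.num_div_denom r, ha, hb, RatFunc.algebraMap_C, RatFunc.algebraMap_C, map_div₀]

/-- the degree of a constant is `0` -/
theorem s58fc_deg_C {k : Type*} [Field k] (c : k) :
    max (RatFunc.C c).num.natDegree (RatFunc.C c).denom.natDegree = 0 := by
  rw [RatFunc.num_C, RatFunc.denom_C, Polynomial.natDegree_C, Polynomial.natDegree_one, max_self]

section Const

variable {F k K : Type*} [Field F] [Field k] [Field K] [DecidableEq k] [DecidableEq K]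
  [Algebra F k] [Algebra F K] (W : Affine F)

/-- an affine point over `K` whose `x`-coordinate comes from the algebraically closed field `k`
comes from `k` -/
theorem s58fc_lift [IsAlgClosed k] (f : k →ₐ[F] K) (c : k) (y : K)
    (h : (W⁄K).Nonsingular (f c) y) :
    Point.some (f c) y h ∈ (Point.map (W' := W) f).range := by
  -- a point over `k` above `c`
  obtain ⟨y₁, hy₁⟩ : ∃ y₁ : k, (W⁄k).Equation c y₁ := by
    set p : k[X] := Polynomial.C 1 * X ^ 2 + Polynomial.C ((W⁄k).a₁ * c + (W⁄k).a₃) * X +
      Polynomial.C (-(c ^ 3 + (W⁄k).a₂ * c ^ 2 + (W⁄k).a₄ * c + (W⁄k).a₆)) with hp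
    have hdeg : p.degree ≠ 0 := by
      rw [hp, Polynomial.degree_quadratic one_ne_zero]
      norm_num
    obtain ⟨y₁, hy₁⟩ := IsAlgClosed.exists_root p hdeg
    refine ⟨y₁, ?_⟩
    rw [Polynomial.IsRoot.def, hp] at hy₁
    simp only [Polynomial.eval_add, Polynomial.eval_mul, Polynomial.eval_C, Polynomial.eval_pow,
      Polynomial.eval_X] at hy₁
    rw [Affine.equation_iff]
    linear_combination hy₁
  have hy₁K : (W⁄K).Equation (f c) (f y₁) := (W.baseChange_equation f.injective c y₁).mpr hy₁
  -- `y` is `f y₁` or the image of the other root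
  obtain ⟨y₀, rfl⟩ : ∃ y₀ : k, f y₀ = y := by
    rcases Affine.Y_eq_of_X_eq h.1 hy₁K rfl with h1 | h1
    · exact ⟨y₁, h1.symm⟩
    · exact ⟨(W⁄k).negY c y₁, by rw [h1, W.baseChange_negY]⟩
  have h0 : (W⁄k).Nonsingular c y₀ := (W.baseChange_nonsingular f.injective c y₀).mp h
  exact ⟨Point.some c y₀ h0, Point.map_some f h0⟩

variable (f : k →ₐ[F] K) (j : RatFunc k →+* K) (hjC : ∀ c : k, j (RatFunc.C c) = f c)
  (d : (W⁄K).Point → ℤ) (hd0 : d 0 = 0)
  (hd : ∀ (x y : K) (h : (W⁄K).Nonsingular x y) (r : RatFunc k), j r = x →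
    d (Point.some x y h) = ((max r.num.natDegree r.denom.natDegree : ℕ) : ℤ))

include hjC hd0 hd in
/-- the points coming from `k` have degree `0` -/
theorem s58fc_range (A : (W⁄K).Point) (hA : A ∈ (Point.map (W' := W) f).range) : d A = 0 := by
  obtain ⟨B, rfl⟩ := hA
  rcases B with _ | ⟨x₀, y₀, h0⟩
  · exact hd0
  · rw [Point.map_some f h0, hd _ _ _ (RatFunc.C x₀) (hjC x₀), s58fc_deg_C, Nat.cast_zero]

include hjC hd0 hd in
/-- **the points of degree `0` are the constant points** -/
theorem s58fc_const [IsAlgClosed k] (A : (W⁄K).Point)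
    (hA : ∀ (x y : K) (h : (W⁄K).Nonsingular x y), A = Point.some x y h →
      ∃ r : RatFunc k, j r = x) :
    d A = 0 ↔ A ∈ (Point.map (W' := W) f).range := by
  refine ⟨fun h0 => ?_, s58fc_range W f j hjC d hd0 hd A⟩
  rcases A with _ | ⟨x, y, h⟩
  · exact zero_mem _
  · obtain ⟨r, hr⟩ := hA x y h rfl
    rw [hd x y h r hr] at h0
    obtain ⟨c, rfl⟩ := s58fc_deg_zero r (by exact_mod_cast h0)
    subst hr
    have key := s58fc_lift W f c y (by rw [← hjC c]; exact h)
    convert key using 2
    exact hjC c

include hjC hd0 hd in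
/-- the same for the elements of a subgroup all of whose affine points have their
`x`-coordinate in the image of `j` -/
theorem s58fc_const_G [IsAlgClosed k] (G : AddSubgroup (W⁄K).Point)
    (hG : ∀ (x y : K) (h : (W⁄K).Nonsingular x y), Point.some x y h ∈ G →
      ∃ r : RatFunc k, j r = x) :
    ∀ A ∈ G, (d A = 0 ↔ A ∈ (Point.map (W' := W) f).range) := by
  intro A hAG
  exact s58fc_const W f j hjC d hd0 hd A (fun x y h hA => hG x y h (hA ▸ hAG))

end Const

end Fermat.Agent.S58
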