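import Mathlib

/-!
# S58, E-side, step (D3): the Frobenius endomorphism on the points of a Weierstrass curve over
`𝔽_ℓ` (Mathlib only, model independent)

`W` a Weierstrass curve over `ZMod ℓ`, `K` a field over `ZMod ℓ`.  The Frobenius of `K` is the
`ZMod ℓ`-algebra endomorphism `FiniteField.frobeniusAlgHom (ZMod ℓ) K`, and `s58f3Frob W K` is the
induced endomorphism of the group of points over `K`.

* `s58f3_frob_comm`, `s58f3_map_comm`: Frobenius commutes with every `ZMod ℓ`-algebra
  homomorphism, also on points;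
* `s58f3_frob_some`: `φ (x, y) = (x ^ ℓ, y ^ ℓ)`;
* `s58f3_deg_of_coprime`, `s58f3_deg_pow`: the degree `max (deg num) (deg denom)` of a rational
  function, of a quotient of coprime polynomials and of a power;
* `s58f3_deg`: `d (φ A) = ℓ * d A` for a function `d` on points computing the degree of the
  `x`-coordinate (`x` in the image of a ring homomorphism `j : RatFunc k →+* K`);
* `s58f3_anti`, `s58f3_range`: the anti-invariants of an involution and the points coming from a
  subfield are stable under Frobenius.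
-/

set_option autoImplicit false

open WeierstrassCurve WeierstrassCurve.Affine Polynomial

namespace Fermat.Agent.S58

section Frob

variable {ℓ : ℕ} [Fact ℓ.Prime]

/-- Frobenius commutes with every algebra homomorphism -/
theorem s58f3_frob_comm {F K : Type*} [Field F] [Field K] [Algebra (ZMod ℓ) F]
    [Algebra (ZMod ℓ) K] (f : F →ₐ[ZMod ℓ] K) :
    (FiniteField.frobeniusAlgHom (ZMod ℓ) K).comp f =
      f.comp (FiniteField.frobeniusAlgHom (ZMod ℓ) F) := by
  ext x
  simp [FiniteField.coe_frobeniusAlgHom]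

variable (W : Affine (ZMod ℓ))

/-- the Frobenius endomorphism of the group of points over `K` -/
noncomputable def s58f3Frob (K : Type*) [Field K] [DecidableEq K] [Algebra (ZMod ℓ) K] :
    (W⁄K).Point →+ (W⁄K).Point :=
  Point.map (W' := W) (FiniteField.frobeniusAlgHom (ZMod ℓ) K)

/-- Frobenius commutes with the maps on points induced by algebra homomorphisms -/
theorem s58f3_map_comm {F K : Type*} [Field F] [Field K] [DecidableEq F] [DecidableEq K]
    [Algebra (ZMod ℓ) F] [Algebra (ZMod ℓ) K] (f : F →ₐ[ZMod ℓ] K) (A : (W⁄F).Point) :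
    s58f3Frob W K (Point.map (W' := W) f A) = Point.map (W' := W) f (s58f3Frob W F A) := by
  unfold s58f3Frob
  rw [Point.map_map, Point.map_map, s58f3_frob_comm]

/-- Frobenius on an affine point -/
theorem s58f3_frob_some {K : Type*} [Field K] [DecidableEq K] [Algebra (ZMod ℓ) K] {x y : K}
    (h : (W⁄K).Nonsingular x y) :
    ∃ h' : (W⁄K).Nonsingular (x ^ ℓ) (y ^ ℓ),
      s58f3Frob W K (Point.some x y h) = Point.some (x ^ ℓ) (y ^ ℓ) h' := by
  have h1 := Point.map_some (W' := W) (FiniteField.frobeniusAlgHom (ZMod ℓ) K) h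
  have hx : FiniteField.frobeniusAlgHom (ZMod ℓ) K x = x ^ ℓ := by
    rw [FiniteField.coe_frobeniusAlgHom, ZMod.card]
  have hy : FiniteField.frobeniusAlgHom (ZMod ℓ) K y = y ^ ℓ := by
    rw [FiniteField.coe_frobeniusAlgHom, ZMod.card]
  have h2 := (W.baseChange_nonsingular (FiniteField.frobeniusAlgHom (ZMod ℓ) K).injective
    x y).mpr h
  rw [hx, hy] at h2
  refine ⟨h2, ?_⟩
  unfold s58f3Frob
  rw [h1]
  congr 1

/-- the anti-invariants of an endomorphism `ι` are stable under Frobenius -/
theorem s58f3_anti {K : Type*} [Field K] [DecidableEq K] [Algebra (ZMod ℓ) K]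
    (ι : K →ₐ[ZMod ℓ] K) (A : (W⁄K).Point) (hA : Point.map (W' := W) ι A = -A) :
    Point.map (W' := W) ι (s58f3Frob W K A) = -(s58f3Frob W K A) := by
  rw [← s58f3_map_comm, hA, map_neg]

/-- the points coming from a subfield are stable under Frobenius -/
theorem s58f3_range {F K : Type*} [Field F] [Field K] [DecidableEq F] [DecidableEq K]
    [Algebra (ZMod ℓ) F] [Algebra (ZMod ℓ) K] (f : F →ₐ[ZMod ℓ] K) (A : (W⁄K).Point)
    (hA : A ∈ (Point.map (W' := W) f).range) :
    s58f3Frob W K A ∈ (Point.map (W' := W) f).range := by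
  obtain ⟨c, rfl⟩ := hA
  exact ⟨s58f3Frob W F c, (s58f3_map_comm W f c).symm⟩

end Frob

section Deg

variable {k : Type*} [Field k]

/-- the degree of a quotient of coprime polynomials -/
theorem s58f3_deg_of_coprime (p q : k[X]) (hq : q ≠ 0) (h : IsCoprime p q) :
    max (algebraMap k[X] (RatFunc k) p / algebraMap k[X] (RatFunc k) q).num.natDegree
      (algebraMap k[X] (RatFunc k) p / algebraMap k[X] (RatFunc k) q).denom.natDegree =
      max p.natDegree q.natDegree := by
  set x := algebraMap k[X] (RatFunc k) p / algebraMap k[X] (RatFunc k) q with hx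
  have h1 : x.num * q = p * x.denom := (RatFunc.num_mul_eq_mul_denom_iff hq).mpr hx
  have hc : IsCoprime x.num x.denom := RatFunc.isCoprime_num_denom x
  have hd1 : x.num ∣ p := hc.dvd_of_dvd_mul_right ⟨q, by rw [h1]⟩
  have hd2 : p ∣ x.num := h.dvd_of_dvd_mul_right ⟨x.denom, by rw [h1]⟩
  have hd3 : x.denom ∣ q := hc.symm.dvd_of_dvd_mul_left ⟨p, by rw [h1, mul_comm]⟩
  have hd4 : q ∣ x.denom := h.symm.dvd_of_dvd_mul_left ⟨x.num, by rw [← h1, mul_comm]⟩
  have e1 : x.num.natDegree = p.natDegree :=
    natDegree_eq_of_degree_eq (degree_eq_degree_of_associated (associated_of_dvd_dvd hd1 hd2))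
  have e2 : x.denom.natDegree = q.natDegree :=
    natDegree_eq_of_degree_eq (degree_eq_degree_of_associated (associated_of_dvd_dvd hd3 hd4))
  rw [e1, e2]

/-- the degree of a power of a rational function -/
theorem s58f3_deg_pow (r : RatFunc k) (n : ℕ) :
    max (r ^ n).num.natDegree (r ^ n).denom.natDegree =
      n * max r.num.natDegree r.denom.natDegree := by
  have hr : r ^ n = algebraMap k[X] (RatFunc k) (r.num ^ n) /
      algebraMap k[X] (RatFunc k) (r.denom ^ n) := by
    conv_lhs => rw [← RatFunc.num_div_denom r]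
    rw [div_pow, map_pow, map_pow]
  rw [hr, s58f3_deg_of_coprime _ _ (pow_ne_zero _ (RatFunc.denom_ne_zero r))
    ((RatFunc.isCoprime_num_denom r).pow), natDegree_pow, natDegree_pow, Nat.mul_max_mul_left]

end Deg

section DegFrob

variable {ℓ : ℕ} [Fact ℓ.Prime] (W : Affine (ZMod ℓ)) {k K : Type*} [Field k] [Field K]
  [DecidableEq K] [Algebra (ZMod ℓ) K]

/-- **(D3)**: the degree of the `x`-coordinate is multiplied by `ℓ` under Frobenius. -/
theorem s58f3_deg (j : RatFunc k →+* K) (d : (W⁄K).Point → ℤ) (hd0 : d 0 = 0)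
    (hd : ∀ (x y : K) (h : (W⁄K).Nonsingular x y) (r : RatFunc k), j r = x →
      d (Point.some x y h) = ((max r.num.natDegree r.denom.natDegree : ℕ) : ℤ))
    (A : (W⁄K).Point)
    (hA : A = 0 ∨ ∃ (x y : K) (h : (W⁄K).Nonsingular x y) (r : RatFunc k),
      j r = x ∧ A = Point.some x y h) :
    d (s58f3Frob W K A) = (ℓ : ℤ) * d A := by
  rcases hA with rfl | ⟨x, y, h, r, hr, rfl⟩
  · rw [map_zero, hd0, mul_zero]
  · obtain ⟨h', e⟩ := s58f3_frob_some W h
    rw [e, hd _ _ h' (r ^ ℓ) (by rw [map_pow, hr]), hd _ _ h r hr, s58f3_deg_pow]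
    push_cast
    ring

end DegFrob

end Fermat.Agent.S58
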