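import Mathlib

/-!
# S58, E-side, steps (D5) and (D6): the characteristic equation of Frobenius from the degree
quadratic form (abstract form, Mathlib only)

`E` an abelian group (the points of the curve over its function field `K`), `G ≤ E` the subgroup
of points anti-invariant under the hyperelliptic involution, `C ≤ E` the constant points,
`d : E → ℤ` the degree of the `x`-coordinate (only its values on `G` matter), `φ` the Frobenius
endomorphism, `P` the generic point, `ev A` the specialisation endomorphism `P ↦ A` attached to a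
non-constant point `A`.

* `s58f5_three`, `s58f5B_add_left`, `s58f5_comb`: a function with the parallelogram law is a
  quadratic form (what is needed of it);
* `s58f5_key`: `d (φ (φ P) - P) = d (φ P - P) * d (φ P + P)`;
* `s58f5_deg_zero`: `d (φ (φ P) - a • φ P + ℓ • P) = 0` for `a = d (φ P + P) - d (φ P) - d P`;
* `s58f5_psi_zero`: `φ (φ P) - a • φ P + ℓ • P = 0`;
* `s58f5_main`: `φ (φ T) - a • φ T + ℓ • T = 0` for every constant point `T`;
* `s58f5_a`, `s58f5_main'`: the same with `a = ℓ + 1 - d (φ P - P)`.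
-/

set_option autoImplicit false

namespace Fermat.Agent.S58

section Quad

variable {G : Type*} [AddCommGroup G] (d : G → ℤ)

/-- the polar form of `d` -/
def s58f5B (d : G → ℤ) (A B : G) : ℤ := d (A + B) - d A - d B

variable (hpar : ∀ A B : G, d (A + B) + d (A - B) = 2 * d A + 2 * d B)

include hpar

theorem s58f5_zero : d 0 = 0 := by
  have h := hpar 0 0
  rw [add_zero, sub_zero] at h
  linarith

theorem s58f5_three (x y z : G) :
    d (x + y + z) = d (x + y) + d (y + z) + d (x + z) - d x - d y - d z := by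
  have h1 := hpar (x + z) y
  have h2 := hpar (y + z) x
  have h3 := hpar z (x - y)
  have h4 := hpar x y
  have e1 : x + z + y = x + y + z := by abel
  have e2 : y + z + x = x + y + z := by abel
  have e3 : z + (x - y) = x + z - y := by abel
  have e4 : z - (x - y) = y + z - x := by abel
  rw [e1] at h1
  rw [e2] at h2
  rw [e3, e4] at h3
  linarith

omit hpar in
theorem s58f5B_comm (x y : G) : s58f5B d x y = s58f5B d y x := by
  unfold s58f5B
  rw [add_comm x y]
  ring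

theorem s58f5B_add_left (x y z : G) :
    s58f5B d (x + y) z = s58f5B d x z + s58f5B d y z := by
  unfold s58f5B
  rw [s58f5_three d hpar x y z]
  ring

theorem s58f5B_add_right (x y z : G) :
    s58f5B d x (y + z) = s58f5B d x y + s58f5B d x z := by
  rw [s58f5B_comm d x (y + z), s58f5B_add_left d hpar, s58f5B_comm d y x, s58f5B_comm d z x]

theorem s58f5B_self (x : G) : s58f5B d x x = 2 * d x := by
  unfold s58f5B
  have h := hpar x x
  rw [sub_self, s58f5_zero d hpar] at h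
  linarith

/-- the polar form as a biadditive map -/
noncomputable def s58f5Bhom : G →+ G →+ ℤ :=
  AddMonoidHom.mk' (fun x => AddMonoidHom.mk' (fun y => s58f5B d x y)
    (fun y z => s58f5B_add_right d hpar x y z))
    (fun x y => by
      ext z
      exact s58f5B_add_left d hpar x y z)

theorem s58f5Bhom_apply (x y : G) : s58f5Bhom d hpar x y = s58f5B d x y := rfl

/-- the value of `d` on a combination `X - a Y + b Z` -/
theorem s58f5_comb (X Y Z : G) (a b : ℤ) :
    d (X - a • Y + b • Z) = d X + a ^ 2 * d Y + b ^ 2 * d Z - a * s58f5B d X Y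
      + b * s58f5B d X Z - a * b * s58f5B d Y Z := by
  have h := s58f5B_self d hpar (X - a • Y + b • Z)
  rw [← s58f5Bhom_apply d hpar] at h
  simp only [map_sub, map_add, map_zsmul, AddMonoidHom.sub_apply, AddMonoidHom.add_apply,
    AddMonoidHom.smul_apply, smul_eq_mul, s58f5Bhom_apply] at h
  rw [s58f5B_self d hpar X, s58f5B_self d hpar Y, s58f5B_self d hpar Z, s58f5B_comm d Y X,
    s58f5B_comm d Z X, s58f5B_comm d Z Y] at h
  linarith

end Quad

section Main

variable {E : Type*} [AddCommGroup E] (G C : AddSubgroup E) (d : E → ℤ)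
  (hpar : ∀ A ∈ G, ∀ B ∈ G, d (A + B) + d (A - B) = 2 * d A + 2 * d B)
  (hdC : ∀ A ∈ G, (d A = 0 ↔ A ∈ C))
  (φ : E →+ E) (hφG : ∀ A ∈ G, φ A ∈ G) (hφC : ∀ c ∈ C, φ c ∈ C)
  (ℓ : ℤ) (hφd : ∀ A ∈ G, d (φ A) = ℓ * d A)
  (P : E) (hP : P ∈ G) (hdP : d P = 1)
  (ev : E → E →+ E)
  (hevP : ∀ A, A ∉ C → ev A P = A)
  (hevφ : ∀ A, A ∉ C → ∀ B, ev A (φ B) = φ (ev A B))
  (hevC : ∀ A, A ∉ C → ∀ c ∈ C, ev A c = c)
  (hevd : ∀ A ∈ G, A ∉ C → ∀ B ∈ G, d (ev A B) = d A * d B)

include hpar in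
theorem s58f5_parG : ∀ A B : ↥G, (fun A : ↥G => d (A : E)) (A + B) +
    (fun A : ↥G => d (A : E)) (A - B) =
    2 * (fun A : ↥G => d (A : E)) A + 2 * (fun A : ↥G => d (A : E)) B :=
  fun A B => hpar A A.2 B B.2

include hdC hφG hφC hP hevP hevφ hevd in
/-- `d (φ² P - P) = d (φ P - P) * d (φ P + P)` -/
theorem s58f5_key : d (φ (φ P) - P) = d (φ P - P) * d (φ P + P) := by
  have hΦ : φ P ∈ G := hφG P hP
  have hΦ2 : φ (φ P) ∈ G := hφG _ hΦ
  have hm : φ P - P ∈ G := G.sub_mem hΦ hP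
  have hp : φ P + P ∈ G := G.add_mem hΦ hP
  have e : φ (φ P) - P = φ (φ P - P) + (φ P - P) := by
    rw [map_sub]
    abel
  by_cases hc : φ P - P ∈ C
  · have h1 : d (φ P - P) = 0 := (hdC _ hm).mpr hc
    have h2 : φ (φ P) - P ∈ C := by
      rw [e]
      exact C.add_mem (hφC _ hc) hc
    rw [(hdC _ (G.sub_mem hΦ2 hP)).mpr h2, h1, zero_mul]
  · have h1 := hevd _ hm hc _ hp
    have h2 : ev (φ P - P) (φ P + P) = φ (φ P) - P := by
      rw [map_add, hevφ _ hc, hevP _ hc, e]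
    rw [h2] at h1
    exact h1

include hpar hdC hφG hφC hφd hP hdP hevP hevφ hevd in
/-- the point `φ² P - a φ P + ℓ P` has degree zero -/
theorem s58f5_deg_zero :
    d (φ (φ P) - (d (φ P + P) - d (φ P) - d P) • φ P + ℓ • P) = 0 := by
  have hΦ : φ P ∈ G := hφG P hP
  have hΦ2 : φ (φ P) ∈ G := hφG _ hΦ
  have hparG := s58f5_parG G d hpar
  have hcomb := s58f5_comb (fun A : ↥G => d (A : E)) hparG ⟨φ (φ P), hΦ2⟩ ⟨φ P, hΦ⟩ ⟨P, hP⟩
    (d (φ P + P) - d (φ P) - d P) ℓ
  have hkey := s58f5_key G C d hdC φ hφG hφC P hP ev hevP hevφ hevd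
  have hdΦ : d (φ P) = ℓ := by rw [hφd P hP, hdP, mul_one]
  have hdΦ2 : d (φ (φ P)) = ℓ ^ 2 := by rw [hφd _ hΦ, hdΦ, sq]
  have hsum : d (φ (φ P) + φ P) = ℓ * d (φ P + P) := by
    rw [← map_add]
    exact hφd _ (G.add_mem hΦ hP)
  have h1 := hpar _ hΦ _ hP
  have h2 := hpar _ hΦ2 _ hP
  have hB1 : s58f5B (fun A : ↥G => d (A : E)) ⟨φ (φ P), hΦ2⟩ ⟨φ P, hΦ⟩ =
      d (φ (φ P) + φ P) - d (φ (φ P)) - d (φ P) := rfl
  have hB2 : s58f5B (fun A : ↥G => d (A : E)) ⟨φ (φ P), hΦ2⟩ ⟨P, hP⟩ =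
      d (φ (φ P) + P) - d (φ (φ P)) - d P := rfl
  have hB3 : s58f5B (fun A : ↥G => d (A : E)) ⟨φ P, hΦ⟩ ⟨P, hP⟩ =
      d (φ P + P) - d (φ P) - d P := rfl
  have hcoe : ((⟨φ (φ P), hΦ2⟩ - (d (φ P + P) - d (φ P) - d P) • (⟨φ P, hΦ⟩ : ↥G) +
      ℓ • (⟨P, hP⟩ : ↥G) : ↥G) : E) =
      φ (φ P) - (d (φ P + P) - d (φ P) - d P) • φ P + ℓ • P := rfl
  have hcomb' : d (φ (φ P) - (d (φ P + P) - d (φ P) - d P) • φ P + ℓ • P) =
      d (φ (φ P)) + (d (φ P + P) - d (φ P) - d P) ^ 2 * d (φ P) + ℓ ^ 2 * d P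
        - (d (φ P + P) - d (φ P) - d P) * (d (φ (φ P) + φ P) - d (φ (φ P)) - d (φ P))
        + ℓ * (d (φ (φ P) + P) - d (φ (φ P)) - d P)
        - (d (φ P + P) - d (φ P) - d P) * ℓ * (d (φ P + P) - d (φ P) - d P) := by
    rw [← hcoe, ← hB1, ← hB2, ← hB3]
    exact hcomb
  rw [hcomb', hsum, hdΦ2, hdΦ, hdP]
  have h3 : d (φ (φ P) + P) = 2 * ℓ ^ 2 + 2 - d (φ P - P) * d (φ P + P) := by
    rw [← hkey]
    rw [hdΦ2, hdP] at h2
    linarith
  have h4 : d (φ P - P) = 2 * ℓ + 2 - d (φ P + P) := by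
    rw [hdΦ, hdP] at h1
    linarith
  rw [h3, h4]
  ring

include hpar hdC hφG hφC hφd hP hdP hevP hevφ hevC hevd in
/-- the generic point satisfies the characteristic equation -/
theorem s58f5_psi_zero :
    φ (φ P) - (d (φ P + P) - d (φ P) - d P) • φ P + ℓ • P = 0 := by
  have hΦ : φ P ∈ G := hφG P hP
  have hΦ2 : φ (φ P) ∈ G := hφG _ hΦ
  have hψG : φ (φ P) - (d (φ P + P) - d (φ P) - d P) • φ P + ℓ • P ∈ G :=
    G.add_mem (G.sub_mem hΦ2 (G.zsmul_mem hΦ _)) (G.zsmul_mem hP _)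
  have hψC : φ (φ P) - (d (φ P + P) - d (φ P) - d P) • φ P + ℓ • P ∈ C :=
    (hdC _ hψG).mp (s58f5_deg_zero G C d hpar hdC φ hφG hφC ℓ hφd P hP hdP ev hevP hevφ hevd)
  -- the point `2 P` is not constant
  have h2P : P + P ∉ C := by
    intro hc
    have h0 := (hdC _ (G.add_mem hP hP)).mpr hc
    have h1 := hpar P hP P hP
    have hz : d 0 = 0 := by
      have h := hpar 0 G.zero_mem 0 G.zero_mem
      rw [add_zero, sub_zero] at h
      linarith
    rw [sub_self, hz, h0, hdP] at h1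
    norm_num at h1
  have h1 := hevC _ h2P _ hψC
  rw [map_add, map_sub, map_zsmul, map_zsmul, hevφ _ h2P, hevφ _ h2P, hevP _ h2P] at h1
  have h2 : φ (φ (P + P)) - (d (φ P + P) - d (φ P) - d P) • φ (P + P) + ℓ • (P + P) =
      (φ (φ P) - (d (φ P + P) - d (φ P) - d P) • φ P + ℓ • P) +
      (φ (φ P) - (d (φ P + P) - d (φ P) - d P) • φ P + ℓ • P) := by
    rw [map_add, map_add, smul_add, smul_add]
    abel
  rw [h2] at h1
  exact add_eq_right.mp h1

include hpar hdC hφG hφC hφd hP hdP hevP hevφ hevC hevd in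
/-- **(D5) + (D6), abstract form**: every constant point satisfies the characteristic equation
`φ² - a φ + ℓ = 0` with `a = d (φ P + P) - d (φ P) - d P`. -/
theorem s58f5_main (T : E) (hT : T ∈ C) :
    φ (φ T) - (d (φ P + P) - d (φ P) - d P) • φ T + ℓ • T = 0 := by
  have hψ := s58f5_psi_zero G C d hpar hdC φ hφG hφC ℓ hφd P hP hdP ev hevP hevφ hevC hevd
  have hPT : P + T ∉ C := by
    intro hc
    have hPC : P ∈ C := by
      have := C.sub_mem hc hT
      rwa [add_sub_cancel_right] at this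
    have h0 := (hdC _ hP).mpr hPC
    rw [hdP] at h0
    exact one_ne_zero h0
  have h1 : ev (P + T) (φ (φ P) - (d (φ P + P) - d (φ P) - d P) • φ P + ℓ • P) = 0 := by
    rw [hψ, map_zero]
  rw [map_add, map_sub, map_zsmul, map_zsmul, hevφ _ hPT, hevφ _ hPT, hevP _ hPT] at h1
  have h2 : φ (φ (P + T)) - (d (φ P + P) - d (φ P) - d P) • φ (P + T) + ℓ • (P + T) =
      (φ (φ P) - (d (φ P + P) - d (φ P) - d P) • φ P + ℓ • P) +
      (φ (φ T) - (d (φ P + P) - d (φ P) - d P) • φ T + ℓ • T) := by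
    rw [map_add, map_add, smul_add, smul_add]
    abel
  rw [h2, hψ, zero_add] at h1
  exact h1

include hpar hφG hφd hP hdP in
/-- the coefficient `a` in terms of the degree of `φ P - P` -/
theorem s58f5_a : d (φ P + P) - d (φ P) - d P = ℓ + 1 - d (φ P - P) := by
  have hΦ : φ P ∈ G := hφG P hP
  have hdΦ : d (φ P) = ℓ := by rw [hφd P hP, hdP, mul_one]
  have h1 := hpar _ hΦ _ hP
  rw [hdΦ, hdP] at h1 ⊢
  linarith

include hpar hdC hφG hφC hφd hP hdP hevP hevφ hevC hevd in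
/-- **(D5) + (D6)** with `a = ℓ + 1 - d (φ P - P)`. -/
theorem s58f5_main' (T : E) (hT : T ∈ C) :
    φ (φ T) - (ℓ + 1 - d (φ P - P)) • φ T + ℓ • T = 0 := by
  rw [← s58f5_a G d hpar φ hφG ℓ hφd P hP hdP]
  exact s58f5_main G C d hpar hdC φ hφG hφC ℓ hφd P hP hdP ev hevP hevφ hevC hevd T hT

end Main

end Fermat.Agent.S58
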