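import Mathlib

/-!
# S58 (G-COMP): degree of a composite of rational functions

`k` an algebraically closed field.  For `r : RatFunc k` write
`deg r = max r.num.natDegree r.denom.natDegree`.  If a field endomorphism `φ` of an
extension `L` of `RatFunc k` (`ι : RatFunc k →+* L`) fixes the constants and sends `X` to
`ι f`, then `φ (ι r) = ι r'` with `deg r' = deg r * deg f`.

Proof: `r = R1/R2`, `f = p/q` in lowest terms, `n = deg r`, `m = deg f`;
`r' = H(R1)/H(R2)` with the homogenisations `H(R) = ∑_{j ≤ n} R_j p^j q^(n-j)`; the binary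
forms `h(R1), h(R2)` have no common zero, so `H(R1), H(R2)` have no common root and their
coefficients of degree `n * m` (the values of the forms at the top coefficients of `p, q`)
do not both vanish.  Mathlib only.
-/

set_option autoImplicit false

namespace Fermat.Agent.S58

open Polynomial

section

variable {k : Type*} [Field k]

/-- Two coprime representations of the same fraction have the same degrees. -/
theorem s58rc_unique {p q p' q' : k[X]} (h : IsCoprime p q) (h' : IsCoprime p' q')
    (hpq : p * q' = p' * q) : p.natDegree = p'.natDegree ∧ q.natDegree = q'.natDegree := by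
  obtain ⟨a, b, hab⟩ := h
  obtain ⟨a', b', hab'⟩ := h'
  have e1 : p' = p * (a * p' + b * q') := by
    calc p' = p' * (a * p + b * q) := by rw [hab, mul_one]
      _ = a * p * p' + b * (p' * q) := by ring
      _ = a * p * p' + b * (p * q') := by rw [hpq]
      _ = p * (a * p' + b * q') := by ring
  have e2 : q' = q * (a * p' + b * q') := by
    calc q' = q' * (a * p + b * q) := by rw [hab, mul_one]
      _ = a * (p * q') + b * q * q' := by ring
      _ = a * (p' * q) + b * q * q' := by rw [hpq]
      _ = q * (a * p' + b * q') := by ring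
  have e3 : p = p' * (a' * p + b' * q) := by
    calc p = p * (a' * p' + b' * q') := by rw [hab', mul_one]
      _ = a' * p' * p + b' * (p * q') := by ring
      _ = a' * p' * p + b' * (p' * q) := by rw [hpq]
      _ = p' * (a' * p + b' * q) := by ring
  have e4 : q = q' * (a' * p + b' * q) := by
    calc q = q * (a' * p' + b' * q') := by rw [hab', mul_one]
      _ = a' * (p' * q) + b' * q' * q := by ring
      _ = a' * (p * q') + b' * q' * q := by rw [hpq]
      _ = q' * (a' * p + b' * q) := by ring
  have key : ∀ u v : k[X], u ∣ v → v ∣ u → u.natDegree = v.natDegree := by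
    intro u v huv hvu
    by_cases hv : v = 0
    · subst hv
      have : u = 0 := zero_dvd_iff.mp hvu
      rw [this]
    · have hu : u ≠ 0 := by
        rintro rfl
        exact hv (zero_dvd_iff.mp huv)
      exact le_antisymm (natDegree_le_of_dvd huv hv) (natDegree_le_of_dvd hvu hu)
  exact ⟨key p p' ⟨_, e1⟩ ⟨_, e3⟩, key q q' ⟨_, e2⟩ ⟨_, e4⟩⟩

/-- A coprime pair has no common root. -/
theorem s58rc_eval_ne {p q : k[X]} (h : IsCoprime p q) (x : k) :
    p.eval x ≠ 0 ∨ q.eval x ≠ 0 := by
  obtain ⟨a, b, hab⟩ := h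
  by_contra hcon
  rw [not_or, not_not, not_not] at hcon
  have h1 := congrArg (eval x) hab
  simp [eval_add, eval_mul, hcon.1, hcon.2] at h1

/-- One of two polynomials (the second nonzero) has a nonzero coefficient at the maximum of
the two degrees. -/
theorem s58rc_top (a b : k[X]) (hb : b ≠ 0) :
    a.coeff (max a.natDegree b.natDegree) ≠ 0 ∨ b.coeff (max a.natDegree b.natDegree) ≠ 0 := by
  rcases le_total a.natDegree b.natDegree with h | h
  · right
    rw [max_eq_right h, coeff_natDegree]
    exact leadingCoeff_ne_zero.mpr hb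
  · by_cases ha : a = 0
    · right
      subst ha
      rw [natDegree_zero] at h ⊢
      rw [max_eq_right (Nat.zero_le _), coeff_natDegree]
      exact leadingCoeff_ne_zero.mpr hb
    · left
      rw [max_eq_left h, coeff_natDegree]
      exact leadingCoeff_ne_zero.mpr ha

/-- Homogenisation at level `n`: `∑_{j ≤ n} R_j p^j q^(n-j)`. -/
noncomputable def s58rcH (n : ℕ) (R p q : k[X]) : k[X] :=
  ∑ j ∈ Finset.range (n + 1), C (R.coeff j) * p ^ j * q ^ (n - j)

/-- The binary form of level `n` attached to `R`. -/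
def s58rch (n : ℕ) (R : k[X]) (a b : k) : k :=
  ∑ j ∈ Finset.range (n + 1), R.coeff j * a ^ j * b ^ (n - j)

theorem s58rc_eval_H (n : ℕ) (R p q : k[X]) (x : k) :
    (s58rcH n R p q).eval x = s58rch n R (p.eval x) (q.eval x) := by
  simp [s58rcH, s58rch, eval_finsetSum]

theorem s58rc_h_of_ne (n : ℕ) (R : k[X]) (hR : R.natDegree ≤ n) (a b : k) (hb : b ≠ 0) :
    s58rch n R a b = b ^ n * R.eval (a / b) := by
  rw [eval_eq_sum_range' (Nat.lt_succ_of_le hR), Finset.mul_sum]
  apply Finset.sum_congr rfl
  intro j hj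
  have hj' : j ≤ n := Nat.lt_succ_iff.mp (Finset.mem_range.mp hj)
  have e : b ^ n = b ^ j * b ^ (n - j) := by rw [← pow_add, Nat.add_sub_cancel' hj']
  rw [e, div_pow]
  field_simp

theorem s58rc_h_zero (n : ℕ) (R : k[X]) (a : k) :
    s58rch n R a 0 = R.coeff n * a ^ n := by
  unfold s58rch
  rw [Finset.sum_eq_single n]
  · simp
  · intro j hj hjn
    have hj' : j < n := lt_of_le_of_ne (Nat.lt_succ_iff.mp (Finset.mem_range.mp hj)) hjn
    have hne : n - j ≠ 0 := by omega
    simp [zero_pow hne]
  · intro h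
    exact absurd (Finset.mem_range.mpr (Nat.lt_succ_self n)) h

/-- The two binary forms attached to a coprime pair `(R1, R2)` of maximal degree `n` have no
common zero. -/
theorem s58rc_h_ne (n : ℕ) (R1 R2 : k[X]) (hcop : IsCoprime R1 R2) (h1 : R1.natDegree ≤ n)
    (h2 : R2.natDegree ≤ n) (htop : R1.coeff n ≠ 0 ∨ R2.coeff n ≠ 0) (a b : k)
    (hab : a ≠ 0 ∨ b ≠ 0) : s58rch n R1 a b ≠ 0 ∨ s58rch n R2 a b ≠ 0 := by
  by_cases hb : b = 0
  · subst hb
    have ha : a ≠ 0 := by tauto
    rw [s58rc_h_zero, s58rc_h_zero]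
    rcases htop with h | h
    · left; exact mul_ne_zero h (pow_ne_zero _ ha)
    · right; exact mul_ne_zero h (pow_ne_zero _ ha)
  · rw [s58rc_h_of_ne n R1 h1 a b hb, s58rc_h_of_ne n R2 h2 a b hb]
    rcases s58rc_eval_ne hcop (a / b) with h | h
    · left; exact mul_ne_zero (pow_ne_zero _ hb) h
    · right; exact mul_ne_zero (pow_ne_zero _ hb) h

theorem s58rc_natDegree_H (n m : ℕ) (R p q : k[X]) (hp : p.natDegree ≤ m)
    (hq : q.natDegree ≤ m) : (s58rcH n R p q).natDegree ≤ n * m := by
  unfold s58rcH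
  apply natDegree_sum_le_of_forall_le
  intro j hj
  have hj' : j ≤ n := Nat.lt_succ_iff.mp (Finset.mem_range.mp hj)
  have h1 : (p ^ j).natDegree ≤ j * m := natDegree_pow_le_of_le j hp
  have h2 : (q ^ (n - j)).natDegree ≤ (n - j) * m := natDegree_pow_le_of_le (n - j) hq
  have h3 : (C (R.coeff j) * p ^ j).natDegree ≤ j * m := (natDegree_C_mul_le _ _).trans h1
  have h4 := natDegree_mul_le_of_le h3 h2
  have e : j * m + (n - j) * m = n * m := by rw [← Nat.add_mul, Nat.add_sub_cancel' hj']
  rw [e] at h4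
  exact h4

theorem s58rc_coeff_H (n m : ℕ) (R p q : k[X]) (hp : p.natDegree ≤ m)
    (hq : q.natDegree ≤ m) :
    (s58rcH n R p q).coeff (n * m) = s58rch n R (p.coeff m) (q.coeff m) := by
  unfold s58rcH s58rch
  rw [finsetSum_coeff]
  apply Finset.sum_congr rfl
  intro j hj
  have hj' : j ≤ n := Nat.lt_succ_iff.mp (Finset.mem_range.mp hj)
  have h1 : (p ^ j).natDegree ≤ j * m := natDegree_pow_le_of_le j hp
  have h2 : (q ^ (n - j)).natDegree ≤ (n - j) * m := natDegree_pow_le_of_le (n - j) hq
  have e : n * m = j * m + (n - j) * m := by rw [← Nat.add_mul, Nat.add_sub_cancel' hj']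
  rw [mul_assoc, coeff_C_mul, e, coeff_mul_add_eq_of_natDegree_le h1 h2,
    coeff_pow_of_natDegree_le hp, coeff_pow_of_natDegree_le hq, mul_assoc]

/-- The value of `φ ∘ ι` on a polynomial, in terms of the image of `X`. -/
theorem s58rc_hom_poly {L : Type*} [Field L] (ι : RatFunc k →+* L) (φ : L →+* L)
    (hφC : ∀ c : k, φ (ι (RatFunc.C c)) = ι (RatFunc.C c)) (n : ℕ) (R : k[X])
    (hR : R.natDegree ≤ n) :
    φ (ι (algebraMap k[X] (RatFunc k) R)) =
      ∑ j ∈ Finset.range (n + 1), ι (RatFunc.C (R.coeff j)) * φ (ι RatFunc.X) ^ j := by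
  conv_lhs => rw [as_sum_range_C_mul_X_pow' R (Nat.lt_succ_of_le hR)]
  simp only [map_sum, map_mul, map_pow, RatFunc.algebraMap_C, RatFunc.algebraMap_X, hφC]

theorem s58rc_sum_eq (f : RatFunc k) (n : ℕ) (R : k[X]) :
    (∑ j ∈ Finset.range (n + 1), RatFunc.C (R.coeff j) * f ^ j) =
      algebraMap k[X] (RatFunc k) (s58rcH n R f.num f.denom) /
        algebraMap k[X] (RatFunc k) f.denom ^ n := by
  have hq : algebraMap k[X] (RatFunc k) f.denom ≠ 0 :=
    RatFunc.algebraMap_ne_zero (RatFunc.denom_ne_zero f)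
  have hf : f = algebraMap k[X] (RatFunc k) f.num / algebraMap k[X] (RatFunc k) f.denom :=
    (RatFunc.num_div_denom f).symm
  unfold s58rcH
  rw [map_sum, Finset.sum_div]
  apply Finset.sum_congr rfl
  intro j hj
  have hj' : j ≤ n := Nat.lt_succ_iff.mp (Finset.mem_range.mp hj)
  rw [map_mul, map_mul, map_pow, map_pow, RatFunc.algebraMap_C]
  conv_lhs => rw [hf]
  rw [div_pow, eq_div_iff (pow_ne_zero _ hq)]
  have e : algebraMap k[X] (RatFunc k) f.denom ^ n =
      algebraMap k[X] (RatFunc k) f.denom ^ j * algebraMap k[X] (RatFunc k) f.denom ^ (n - j) := by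
    rw [← pow_add, Nat.add_sub_cancel' hj']
  rw [e]
  field_simp

theorem s58rc_hom_poly' {L : Type*} [Field L] (ι : RatFunc k →+* L) (φ : L →+* L)
    (hφC : ∀ c : k, φ (ι (RatFunc.C c)) = ι (RatFunc.C c)) (f : RatFunc k)
    (hφX : φ (ι RatFunc.X) = ι f) (n : ℕ) (R : k[X]) (hR : R.natDegree ≤ n) :
    φ (ι (algebraMap k[X] (RatFunc k) R)) =
      ι (algebraMap k[X] (RatFunc k) (s58rcH n R f.num f.denom) /
        algebraMap k[X] (RatFunc k) f.denom ^ n) := by
  rw [s58rc_hom_poly ι φ hφC n R hR, hφX, ← s58rc_sum_eq]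
  simp only [map_sum, map_mul, map_pow]

/-- **Degree of a composite**, relative form. -/
theorem s58rc_comp [IsAlgClosed k] {L : Type*} [Field L] (ι : RatFunc k →+* L) (φ : L →+* L)
    (hφC : ∀ c : k, φ (ι (RatFunc.C c)) = ι (RatFunc.C c)) (f : RatFunc k)
    (hφX : φ (ι RatFunc.X) = ι f) (r : RatFunc k) :
    ∃ r' : RatFunc k, φ (ι r) = ι r' ∧
      max r'.num.natDegree r'.denom.natDegree =
        max r.num.natDegree r.denom.natDegree * max f.num.natDegree f.denom.natDegree := by
  have hR1 : r.num.natDegree ≤ max r.num.natDegree r.denom.natDegree := le_max_left _ _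
  have hR2 : r.denom.natDegree ≤ max r.num.natDegree r.denom.natDegree := le_max_right _ _
  have hp : f.num.natDegree ≤ max f.num.natDegree f.denom.natDegree := le_max_left _ _
  have hq : f.denom.natDegree ≤ max f.num.natDegree f.denom.natDegree := le_max_right _ _
  have hR2ne : r.denom ≠ 0 := RatFunc.denom_ne_zero r
  have hqne : f.denom ≠ 0 := RatFunc.denom_ne_zero f
  have hRtop := s58rc_top r.num r.denom hR2ne
  have hptop := s58rc_top f.num f.denom hqne
  have hcopR : IsCoprime r.num r.denom := RatFunc.isCoprime_num_denom r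
  have hcopf : IsCoprime f.num f.denom := RatFunc.isCoprime_num_denom f
  generalize hn : max r.num.natDegree r.denom.natDegree = n at hR1 hR2 hRtop ⊢
  generalize hm : max f.num.natDegree f.denom.natDegree = m at hp hq hptop ⊢
  have hroot : ∀ x : k, (s58rcH n r.num f.num f.denom).eval x ≠ 0 ∨
      (s58rcH n r.denom f.num f.denom).eval x ≠ 0 := by
    intro x
    rw [s58rc_eval_H, s58rc_eval_H]
    exact s58rc_h_ne n r.num r.denom hcopR hR1 hR2 hRtop _ _ (s58rc_eval_ne hcopf x)
  have hcopH : IsCoprime (s58rcH n r.num f.num f.denom) (s58rcH n r.denom f.num f.denom) := by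
    refine (Polynomial.isCoprime_iff_aeval_ne_zero_of_isAlgClosed k k _ _).mpr ?_
    intro a
    simpa [coe_aeval_eq_eval] using hroot a
  have hdeg1 := s58rc_natDegree_H n m r.num f.num f.denom hp hq
  have hdeg2 := s58rc_natDegree_H n m r.denom f.num f.denom hp hq
  have htopH : (s58rcH n r.num f.num f.denom).coeff (n * m) ≠ 0 ∨
      (s58rcH n r.denom f.num f.denom).coeff (n * m) ≠ 0 := by
    rw [s58rc_coeff_H n m _ _ _ hp hq, s58rc_coeff_H n m _ _ _ hp hq]
    exact s58rc_h_ne n r.num r.denom hcopR hR1 hR2 hRtop _ _ hptop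
  have hmax : max (s58rcH n r.num f.num f.denom).natDegree
      (s58rcH n r.denom f.num f.denom).natDegree = n * m := by
    apply le_antisymm (max_le hdeg1 hdeg2)
    rcases htopH with h | h
    · exact (le_natDegree_of_ne_zero h).trans (le_max_left _ _)
    · exact (le_natDegree_of_ne_zero h).trans (le_max_right _ _)
  have hQ : algebraMap k[X] (RatFunc k) f.denom ≠ 0 := RatFunc.algebraMap_ne_zero hqne
  have e1 := s58rc_hom_poly' ι φ hφC f hφX n r.num hR1
  have e2 := s58rc_hom_poly' ι φ hφC f hφX n r.denom hR2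
  have hinj : Function.Injective (φ.comp ι) := (φ.comp ι).injective
  have hH2 : s58rcH n r.denom f.num f.denom ≠ 0 := by
    intro h0
    have h1 : (φ.comp ι) (algebraMap k[X] (RatFunc k) r.denom) = (φ.comp ι) 0 := by
      rw [RingHom.comp_apply, e2, h0]
      simp
    exact RatFunc.algebraMap_ne_zero hR2ne (hinj h1)
  refine ⟨algebraMap k[X] (RatFunc k) (s58rcH n r.num f.num f.denom) /
    algebraMap k[X] (RatFunc k) (s58rcH n r.denom f.num f.denom), ?_, ?_⟩
  · have hr : r = algebraMap k[X] (RatFunc k) r.num / algebraMap k[X] (RatFunc k) r.denom :=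
      (RatFunc.num_div_denom r).symm
    have hιQ : ι (algebraMap k[X] (RatFunc k) f.denom ^ n) ≠ 0 := by
      rw [Ne, map_eq_zero]
      exact pow_ne_zero _ hQ
    conv_lhs => rw [hr]
    rw [map_div₀, map_div₀, e1, e2, map_div₀, map_div₀, map_div₀]
    field_simp
  · have hu := s58rc_unique
      (RatFunc.isCoprime_num_denom (algebraMap k[X] (RatFunc k) (s58rcH n r.num f.num f.denom) /
        algebraMap k[X] (RatFunc k) (s58rcH n r.denom f.num f.denom))) hcopH
      ((RatFunc.num_mul_eq_mul_denom_iff hH2).mpr rfl)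
    rw [hu.1, hu.2, hmax]

/-- **Degree of a composite**, absolute form: a field endomorphism of `RatFunc k` fixing
the constants multiplies degrees by the degree of the image of `X`. -/
theorem s58rc_comp_self [IsAlgClosed k] (ψ : RatFunc k →+* RatFunc k)
    (hψC : ∀ c : k, ψ (RatFunc.C c) = RatFunc.C c) (r : RatFunc k) :
    max (ψ r).num.natDegree (ψ r).denom.natDegree =
      max r.num.natDegree r.denom.natDegree *
        max (ψ RatFunc.X).num.natDegree (ψ RatFunc.X).denom.natDegree := by
  obtain ⟨r', h1, h2⟩ := s58rc_comp (RingHom.id (RatFunc k)) ψ hψC (ψ RatFunc.X) rfl r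
  have : ψ r = r' := h1
  rw [this, h2]

end

end Fermat.Agent.S58
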