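import Mathlib
import Fermat.Prelude.Def_FLTPrelim_Modularity
import Fermat.Agent.S58.FrobPsi
import Fermat.Agent.S58.FrobDeg
import Fermat.Agent.S58.FrobConst
import Fermat.Agent.S58.FunField
import Fermat.Agent.S58.EvAbs
import Fermat.Agent.S58.EvLiftFF
import Fermat.Agent.S58.RatComp

/-!
# S58, E-side, (Q): the characteristic equation of Frobenius, on the function-field carrier

`W` a Weierstrass curve over `ZMod l` with `Δ ≠ 0`, `k` an algebraically closed field over
`ZMod l`.  On the function field `s58ffK W k` of `W` over `k` we put together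

* the abstract argument `s58f5_main'` (FrobPsi),
* the Frobenius endomorphism and its degree (FrobDeg),
* the characterisation of the constant points (FrobConst),
* the evaluation homomorphisms (EvAbs, EvLiftFF, RatComp),

and obtain the equation `φ² - a φ + l = 0` on the points of `W` over `k`
(`a = W.traceOfFrobenius`), with two inputs left as hypotheses: the parallelogram law for the
degree on the function-field carrier (`hpar`) and the degree of `φ P - P` for the generic point
`P` (`hD7`).

Names are prefixed `s58fk`.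
-/

set_option autoImplicit false
set_option linter.unusedSectionVars false

open WeierstrassCurve WeierstrassCurve.Affine Polynomial

namespace Fermat.Agent.S58

section Core

variable (l : ℕ) [Fact l.Prime] (W : WeierstrassCurve (ZMod l))
  (k : Type*) [Field k] [Algebra (ZMod l) k] [DecidableEq k]

/-- the inclusion of the constants, as a `ZMod l`-algebra homomorphism -/
noncomputable def s58fkIncl : k →ₐ[ZMod l] s58ffK W k :=
  IsScalarTower.toAlgHom (ZMod l) k (s58ffK W k)

theorem s58fkIncl_apply (c : k) : s58fkIncl l W k c = algebraMap k (s58ffK W k) c := rfl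

/-- the two descriptions of the constant points agree -/
theorem s58fk_const_eq :
    s58eaConst k (s58ffK W k) W = (Point.map (W' := W) (s58fkIncl l W k)).range := by
  ext A
  constructor
  · rintro ⟨B, rfl⟩
    refine ⟨B, ?_⟩
    rcases B with _ | ⟨x, y, h⟩
    · rfl
    · rfl
  · rintro ⟨B, rfl⟩
    refine ⟨B, ?_⟩
    rcases B with _ | ⟨x, y, h⟩
    · rfl
    · rfl

/-- the generic point has degree `1`, etc.: the degree function on the carrier -/
theorem s58fk_hd (x y : s58ffK W k) (h : (W⁄(s58ffK W k)).Nonsingular x y) (r : RatFunc k)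
    (hr : algebraMap (RatFunc k) (s58ffK W k) r = x) :
    ((s58ffD W k (Point.some x y h) : ℕ) : ℤ)
      = ((max r.num.natDegree r.denom.natDegree : ℕ) : ℤ) := by
  rw [s58ffD_some' W k r hr h]

/-- **(Q) on the function-field carrier**, with the parallelogram law (`hpar`) and the degree of
`φ P - P` (`hD7`) as hypotheses. -/
theorem s58fk_core [IsAlgClosed k] (hΔ : algebraMap (ZMod l) k W.Δ ≠ 0)
    (hpar : ∀ A ∈ s58ffG W k, ∀ B ∈ s58ffG W k,
      (s58ffD W k (A + B) : ℤ) + (s58ffD W k (A - B) : ℤ)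
        = 2 * (s58ffD W k A : ℤ) + 2 * (s58ffD W k B : ℤ))
    (hD7 : (s58ffD W k (s58f3Frob W (s58ffK W k) (s58ffGen W k hΔ) - s58ffGen W k hΔ) : ℤ)
      = (Nat.card W.toAffine.Point : ℤ))
    (T : (W⁄k).Point) :
    Point.map (W' := W) (FiniteField.frobeniusAlgHom (ZMod l) k)
        (Point.map (W' := W) (FiniteField.frobeniusAlgHom (ZMod l) k) T)
      - W.traceOfFrobenius • Point.map (W' := W) (FiniteField.frobeniusAlgHom (ZMod l) k) T
      + l • T = 0 := by
  -- notation
  let j : RatFunc k →+* s58ffK W k := algebraMap (RatFunc k) (s58ffK W k)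
  have hjC : ∀ c : k, j (RatFunc.C c) = algebraMap k (s58ffK W k) c := s58ff_algebraMap_ratC W k
  let f : k →ₐ[ZMod l] s58ffK W k := s58fkIncl l W k
  let d : (W⁄(s58ffK W k)).Point → ℤ := fun A => (s58ffD W k A : ℤ)
  have hd0 : d 0 = 0 := by simp [d]
  have hd : ∀ (x y : s58ffK W k) (h : (W⁄(s58ffK W k)).Nonsingular x y) (r : RatFunc k),
      j r = x → d (Point.some x y h) = ((max r.num.natDegree r.denom.natDegree : ℕ) : ℤ) :=
    fun x y h r hr => s58fk_hd l W k x y h r hr
  have hG : ∀ (x y : s58ffK W k) (h : (W⁄(s58ffK W k)).Nonsingular x y),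
      Point.some x y h ∈ s58ffG W k → ∃ r : RatFunc k, j r = x :=
    fun x y h hA => s58ff_x_mem W k hΔ h hA
  -- the hypotheses of `s58f5_main'`
  have hdC : ∀ A ∈ s58ffG W k, (d A = 0 ↔ A ∈ (Point.map (W' := W) f).range) :=
    s58fc_const_G W f j hjC d hd0 hd (s58ffG W k) hG
  have hφG : ∀ A ∈ s58ffG W k, s58f3Frob W (s58ffK W k) A ∈ s58ffG W k := fun A hA =>
    (s58ff_mem_G W k _).mpr (s58f3_anti W (s58ffIota W k) A ((s58ff_mem_G W k A).mp hA))
  have hφC : ∀ c ∈ (Point.map (W' := W) f).range,
      s58f3Frob W (s58ffK W k) c ∈ (Point.map (W' := W) f).range :=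
    fun c hc => s58f3_range W f c hc
  have hφd : ∀ A ∈ s58ffG W k, d (s58f3Frob W (s58ffK W k) A) = (l : ℤ) * d A := by
    intro A hA
    refine s58f3_deg W j d hd0 hd A ?_
    rcases A with _ | ⟨x, y, h⟩
    · exact Or.inl rfl
    · obtain ⟨r, hr⟩ := hG x y h hA
      exact Or.inr ⟨x, y, h, r, hr, rfl⟩
  have hP : s58ffGen W k hΔ ∈ s58ffG W k := s58ffGen_mem W k hΔ
  have hdP : d (s58ffGen W k hΔ) = 1 := by
    simp only [d]
    rw [s58ffD_gen]
    rfl
  -- the evaluation homomorphisms
  have huniv := s58elf_univ_ns W k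
  have hCeq := s58fk_const_eq l W k
  have hevP : ∀ A, A ∉ (Point.map (W' := W) f).range →
      s58eaHom W (s58ffX W k) (s58ffY W k) huniv A (s58ffGen W k hΔ) = A := fun A hA =>
    s58ea_gen W _ _ huniv (s58ff_nonsingular W k hΔ) A (by rw [hCeq]; exact hA)
  have hevφ : ∀ A, A ∉ (Point.map (W' := W) f).range → ∀ B,
      s58eaHom W (s58ffX W k) (s58ffY W k) huniv A (s58f3Frob W (s58ffK W k) B)
        = s58f3Frob W (s58ffK W k) (s58eaHom W (s58ffX W k) (s58ffY W k) huniv A B) :=
    fun A hA B => s58ea_comm_pow W _ _ huniv (FiniteField.frobeniusAlgHom (ZMod l) (s58ffK W k)) l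
      (fun z => by rw [FiniteField.coe_frobeniusAlgHom, ZMod.card]) A (by rw [hCeq]; exact hA) B
  have hevC : ∀ A, A ∉ (Point.map (W' := W) f).range → ∀ c ∈ (Point.map (W' := W) f).range,
      s58eaHom W (s58ffX W k) (s58ffY W k) huniv A c = c := fun A hA c hc =>
    s58ea_const W _ _ huniv A (by rw [hCeq]; exact hA) c (by rw [hCeq]; exact hc)
  have hevd : ∀ A ∈ s58ffG W k, A ∉ (Point.map (W' := W) f).range → ∀ B ∈ s58ffG W k,
      d (s58eaHom W (s58ffX W k) (s58ffY W k) huniv A B) = d A * d B :=
    fun A hAG hA B hBG => s58ea_deg W _ _ huniv j hjC rfl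
      (fun r => max r.num.natDegree r.denom.natDegree)
      (fun φ a h1 h2 r => s58rc_comp j φ h1 a h2 r) (s58ffG W k) hG d hd0 hd A hAG
      (by rw [hCeq]; exact hA) B hBG
  have main := s58f5_main' (s58ffG W k) (Point.map (W' := W) f).range d hpar hdC
    (s58f3Frob W (s58ffK W k)) hφG hφC (l : ℤ) hφd (s58ffGen W k hΔ) hP hdP
    (s58eaHom W (s58ffX W k) (s58ffY W k) huniv) hevP hevφ hevC hevd
    (Point.map (W' := W) f T) ⟨T, rfl⟩
  -- descend to `k`
  have hd7 : d (s58f3Frob W (s58ffK W k) (s58ffGen W k hΔ) - s58ffGen W k hΔ)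
      = (Nat.card W.toAffine.Point : ℤ) := hD7
  have htr : (l : ℤ) + 1 - (Nat.card W.toAffine.Point : ℤ) = W.traceOfFrobenius := by
    rw [WeierstrassCurve.traceOfFrobenius, WeierstrassCurve.card, Nat.card_zmod]
  rw [hd7, htr] at main
  have h1 : Point.map (W' := W) f (s58f3Frob W k (s58f3Frob W k T)
      - W.traceOfFrobenius • s58f3Frob W k T + (l : ℤ) • T) = 0 := by
    rw [map_add, map_sub, map_zsmul, map_zsmul, ← s58f3_map_comm W f, ← s58f3_map_comm W f]
    exact main
  have h0 := Point.map_injective (W' := W) f (h1.trans (map_zero _).symm)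
  rw [natCast_zsmul] at h0
  exact h0

end Core

end Fermat.Agent.S58
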