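import Mathlib

/-!
# S58, E-side, step (D7a): the explicit numerator of `x(φ P - P)`

`W` a Weierstrass curve over `ZMod l`, `l` prime.  For a point `(x, y)` of `W` over any commutative
`ZMod l`-algebra, with `ȳ := negY x y`, `A := y ^ l - ȳ`, `D := x ^ l - x`,

`A ^ 2 + a₁ * A * D - (a₂ + x ^ l + x) * D ^ 2 = N(x)`

for the explicit monic polynomial `N = s58fnN W` of degree `2 * l + 1` over `ZMod l`:

`N = X^(2l+1) + X^(l+2) + 2 a₂ X^(l+1) + a₄ X^l + a₄ X + 2 a₆ + t_(l+1)`,

`t_n` the Lucas sequence `t₀ = 2`, `t₁ = -(a₁ X + a₃)`, `t_(n+2) = -(a₁ X + a₃) t_(n+1) + f t_n`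
(`f = X^3 + a₂ X^2 + a₄ X + a₆`), so that `t_n(x) = y ^ n + ȳ ^ n`.

* `s58fnT_eval`, `s58fnT_natDegree_le`;
* `s58fn_monic`, `s58fn_natDegree`;
* `s58fn_frob_point`, `s58fn_frob_negY`: the Frobenius image of a point;
* `s58fn_eval`: the identity above;
* `s58fn_addX`: over a field, `x(φ P - P) = N(x) / (x ^ l - x) ^ 2` when `x ^ l ≠ x`.
-/

set_option autoImplicit false

namespace Fermat.Agent.S58

open Polynomial

section Defs

variable {l : ℕ} (W : WeierstrassCurve (ZMod l))

/-- the cubic `f = X^3 + a₂ X^2 + a₄ X + a₆` -/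
noncomputable def s58fnF : (ZMod l)[X] := X ^ 3 + C W.a₂ * X ^ 2 + C W.a₄ * X + C W.a₆

/-- the linear polynomial `g = a₁ X + a₃` -/
noncomputable def s58fnG : (ZMod l)[X] := C W.a₁ * X + C W.a₃

/-- the Lucas sequence `t_n`, with `t_n(x) = y ^ n + (negY x y) ^ n` on the curve -/
noncomputable def s58fnT : ℕ → (ZMod l)[X]
  | 0 => C 2
  | 1 => - s58fnG W
  | (n + 2) => - s58fnG W * s58fnT (n + 1) + s58fnF W * s58fnT n

/-- the numerator of `x(φ P - P)` -/
noncomputable def s58fnN : (ZMod l)[X] :=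
  X ^ (2 * l + 1) + X ^ (l + 2) + C (2 * W.a₂) * X ^ (l + 1) + C W.a₄ * X ^ l + C W.a₄ * X
    + C (2 * W.a₆) + s58fnT W (l + 1)

theorem s58fnT_zero : s58fnT W 0 = C 2 := rfl

theorem s58fnT_one : s58fnT W 1 = - s58fnG W := rfl

theorem s58fnT_succ_succ (n : ℕ) :
    s58fnT W (n + 2) = - s58fnG W * s58fnT W (n + 1) + s58fnF W * s58fnT W n := rfl

theorem s58fnF_natDegree_le : (s58fnF W).natDegree ≤ 3 := by
  unfold s58fnF
  compute_degree

theorem s58fnG_natDegree_le : (s58fnG W).natDegree ≤ 1 := by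
  unfold s58fnG
  compute_degree

theorem s58fnT_natDegree_le (n : ℕ) : 2 * (s58fnT W n).natDegree ≤ 3 * n := by
  induction n using Nat.strong_induction_on with
  | _ n ih =>
    match n, ih with
    | 0, _ =>
      rw [s58fnT_zero, natDegree_C]
    | 1, _ =>
      rw [s58fnT_one, natDegree_neg]
      have := s58fnG_natDegree_le W
      omega
    | (n + 2), ih =>
      rw [s58fnT_succ_succ]
      have h1 := ih (n + 1) (by omega)
      have h0 := ih n (by omega)
      have hG := s58fnG_natDegree_le W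
      have hF := s58fnF_natDegree_le W
      have e1 : (- s58fnG W * s58fnT W (n + 1)).natDegree ≤ 1 + (s58fnT W (n + 1)).natDegree := by
        refine natDegree_mul_le.trans ?_
        rw [natDegree_neg]
        omega
      have e2 : (s58fnF W * s58fnT W n).natDegree ≤ 3 + (s58fnT W n).natDegree := by
        refine natDegree_mul_le.trans ?_
        omega
      have e3 := natDegree_add_le (- s58fnG W * s58fnT W (n + 1)) (s58fnF W * s58fnT W n)
      rcases max_cases (- s58fnG W * s58fnT W (n + 1)).natDegree (s58fnF W * s58fnT W n).natDegree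
        with ⟨hm, _⟩ | ⟨hm, _⟩ <;> rw [hm] at e3 <;> omega

end Defs

section Degree

variable {l : ℕ} [Fact l.Prime] (W : WeierstrassCurve (ZMod l))

/-- the lower-order part of `s58fnN` -/
noncomputable def s58fnRest : (ZMod l)[X] :=
  X ^ (l + 2) + C (2 * W.a₂) * X ^ (l + 1) + C W.a₄ * X ^ l + C W.a₄ * X
    + C (2 * W.a₆) + s58fnT W (l + 1)

theorem s58fnN_eq : s58fnN W = X ^ (2 * l + 1) + s58fnRest W := by
  unfold s58fnN s58fnRest
  ring

theorem s58fnRest_natDegree_le : (s58fnRest W).natDegree ≤ 2 * l := by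
  have hl : 2 ≤ l := (Fact.out : l.Prime).two_le
  have hT := s58fnT_natDegree_le W (l + 1)
  have hT' : (s58fnT W (l + 1)).natDegree ≤ 2 * l := by omega
  unfold s58fnRest
  refine natDegree_add_le_of_degree_le (natDegree_add_le_of_degree_le
    (natDegree_add_le_of_degree_le (natDegree_add_le_of_degree_le
    (natDegree_add_le_of_degree_le ?_ ?_) ?_) ?_) ?_) hT'
  · exact (natDegree_X_pow_le _).trans (by omega)
  · exact (natDegree_C_mul_le _ _).trans ((natDegree_X_pow_le _).trans (by omega))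
  · exact (natDegree_C_mul_le _ _).trans ((natDegree_X_pow_le _).trans (by omega))
  · exact (natDegree_C_mul_le _ _).trans (natDegree_X_le.trans (by omega))
  · rw [natDegree_C]; omega

theorem s58fnRest_degree_lt : (s58fnRest W).degree < ((2 * l + 1 : ℕ) : WithBot ℕ) := by
  refine lt_of_le_of_lt degree_le_natDegree ?_
  exact_mod_cast Nat.lt_succ_of_le (s58fnRest_natDegree_le W)

theorem s58fn_monic : (s58fnN W).Monic := by
  rw [s58fnN_eq]
  exact monic_X_pow_add (s58fnRest_degree_lt W)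

theorem s58fn_natDegree : (s58fnN W).natDegree = 2 * l + 1 := by
  have hl : 2 ≤ l := (Fact.out : l.Prime).two_le
  have hnt : Nontrivial (ZMod l) := ZMod.nontrivial_iff.mpr (by omega)
  rw [s58fnN_eq, natDegree_add_eq_left_of_natDegree_lt, natDegree_X_pow]
  rw [natDegree_X_pow]
  exact Nat.lt_succ_of_le (s58fnRest_natDegree_le W)

theorem s58fn_ne_zero : s58fnN W ≠ 0 := (s58fn_monic W).ne_zero

end Degree

section Eval

variable {l : ℕ} [Fact l.Prime] (W : WeierstrassCurve (ZMod l))
variable {R : Type*} [CommRing R] [Algebra (ZMod l) R]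

theorem s58fn_equation_iff (x y : R) :
    (W.baseChange R).toAffine.Equation x y ↔
      y ^ 2 + algebraMap (ZMod l) R W.a₁ * x * y + algebraMap (ZMod l) R W.a₃ * y
        = x ^ 3 + algebraMap (ZMod l) R W.a₂ * x ^ 2 + algebraMap (ZMod l) R W.a₄ * x
          + algebraMap (ZMod l) R W.a₆ :=
  WeierstrassCurve.Affine.equation_iff (W := (W.baseChange R).toAffine) x y

theorem s58fn_negY (x y : R) :
    (W.baseChange R).toAffine.negY x y
      = - y - algebraMap (ZMod l) R W.a₁ * x - algebraMap (ZMod l) R W.a₃ := rfl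

theorem s58fnF_aeval (x : R) :
    aeval x (s58fnF W) = x ^ 3 + algebraMap (ZMod l) R W.a₂ * x ^ 2
      + algebraMap (ZMod l) R W.a₄ * x + algebraMap (ZMod l) R W.a₆ := by
  unfold s58fnF
  simp only [map_add, map_mul, map_pow, aeval_X, aeval_C]

theorem s58fnG_aeval (x : R) :
    aeval x (s58fnG W) = algebraMap (ZMod l) R W.a₁ * x + algebraMap (ZMod l) R W.a₃ := by
  unfold s58fnG
  simp only [map_add, map_mul, aeval_X, aeval_C]

/-- `t_n(x) = y ^ n + ȳ ^ n` on the curve -/
theorem s58fnT_eval (x y : R) (h : (W.baseChange R).toAffine.Equation x y) (n : ℕ) :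
    aeval x (s58fnT W n) = y ^ n + ((W.baseChange R).toAffine.negY x y) ^ n := by
  rw [s58fn_equation_iff] at h
  rw [s58fn_negY]
  induction n using Nat.strong_induction_on with
  | _ n ih =>
    match n, ih with
    | 0, _ =>
      rw [s58fnT_zero, aeval_C, pow_zero, pow_zero, map_ofNat]
      norm_num
    | 1, _ =>
      rw [s58fnT_one, map_neg, s58fnG_aeval]
      ring
    | (n + 2), ih =>
      rw [s58fnT_succ_succ, map_add, map_mul, map_mul, map_neg, s58fnG_aeval, s58fnF_aeval,
        ih (n + 1) (by omega), ih n (by omega)]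
      linear_combination
        (- (y ^ n + (- y - algebraMap (ZMod l) R W.a₁ * x - algebraMap (ZMod l) R W.a₃) ^ n)) * h

/-- the general two-point identity behind `s58fn_eval` -/
theorem s58fn_two_points {S : Type*} [CommRing S] (a₁ a₂ a₃ a₄ a₆ x₁ y₁ x₂ y₂ : S)
    (h₁ : y₁ ^ 2 + a₁ * x₁ * y₁ + a₃ * y₁ = x₁ ^ 3 + a₂ * x₁ ^ 2 + a₄ * x₁ + a₆)
    (h₂ : y₂ ^ 2 + a₁ * x₂ * y₂ + a₃ * y₂ = x₂ ^ 3 + a₂ * x₂ ^ 2 + a₄ * x₂ + a₆) :
    (y₁ - y₂) ^ 2 + a₁ * (y₁ - y₂) * (x₁ - x₂) - (a₂ + x₁ + x₂) * (x₁ - x₂) ^ 2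
      = x₁ ^ 2 * x₂ + x₁ * x₂ ^ 2 + 2 * a₂ * (x₁ * x₂) + a₄ * (x₁ + x₂) + 2 * a₆
        - (2 * y₁ * y₂ + a₁ * (x₁ * y₂ + x₂ * y₁) + a₃ * (y₁ + y₂)) := by
  linear_combination h₁ + h₂

end Eval

section Frob

variable {l : ℕ} [Fact l.Prime] (W : WeierstrassCurve (ZMod l))
variable {R : Type*} [CommRing R] [Algebra (ZMod l) R]

theorem s58fn_algebraMap_pow (a : ZMod l) :
    (algebraMap (ZMod l) R a) ^ l = algebraMap (ZMod l) R a := by
  rw [← map_pow, ZMod.pow_card]

/-- additivity of the `l`-th power map on a `ZMod l`-algebra -/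
theorem s58fn_add_pow (a b : R) : (a + b) ^ l = a ^ l + b ^ l := by
  rcases subsingleton_or_nontrivial R with hR | hR
  · exact Subsingleton.elim _ _
  · have hc : CharP R l := charP_of_injective_algebraMap (algebraMap (ZMod l) R).injective l
    exact add_pow_char a b l

theorem s58fn_neg_pow (a : R) : (- a) ^ l = - a ^ l := by
  have h := s58fn_add_pow (l := l) a (- a)
  rw [add_neg_cancel, zero_pow (Fact.out : l.Prime).ne_zero] at h
  exact eq_neg_of_add_eq_zero_right h.symm

/-- the Frobenius image of a point of the curve is a point of the curve -/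
theorem s58fn_frob_point (x y : R) (h : (W.baseChange R).toAffine.Equation x y) :
    (W.baseChange R).toAffine.Equation (x ^ l) (y ^ l) := by
  rw [s58fn_equation_iff] at h ⊢
  have h' := congrArg (· ^ l) h
  simp only [s58fn_add_pow, mul_pow, s58fn_algebraMap_pow] at h'
  linear_combination h'

/-- Frobenius commutes with the negation of the curve -/
theorem s58fn_frob_negY (x y : R) :
    ((W.baseChange R).toAffine.negY x y) ^ l = (W.baseChange R).toAffine.negY (x ^ l) (y ^ l) := by
  rw [s58fn_negY, s58fn_negY, sub_eq_add_neg, sub_eq_add_neg, s58fn_add_pow, s58fn_add_pow,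
    s58fn_neg_pow, s58fn_neg_pow, s58fn_neg_pow, mul_pow, s58fn_algebraMap_pow,
    s58fn_algebraMap_pow]
  ring

theorem s58fnN_aeval (x : R) :
    aeval x (s58fnN W) = x ^ (2 * l + 1) + x ^ (l + 2)
      + algebraMap (ZMod l) R (2 * W.a₂) * x ^ (l + 1) + algebraMap (ZMod l) R W.a₄ * x ^ l
      + algebraMap (ZMod l) R W.a₄ * x + algebraMap (ZMod l) R (2 * W.a₆)
      + aeval x (s58fnT W (l + 1)) := by
  unfold s58fnN
  simp only [map_add, map_mul, map_pow, aeval_X, aeval_C]

/-- **the numerator identity**: on the curve, with `A = y ^ l - ȳ` and `D = x ^ l - x`,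
`N(x) = A ^ 2 + a₁ A D - (a₂ + x ^ l + x) D ^ 2`. -/
theorem s58fn_eval (x y : R) (h : (W.baseChange R).toAffine.Equation x y) :
    aeval x (s58fnN W)
      = (y ^ l - (W.baseChange R).toAffine.negY x y) ^ 2
        + (W.baseChange R).toAffine.a₁ * (y ^ l - (W.baseChange R).toAffine.negY x y)
            * (x ^ l - x)
        - ((W.baseChange R).toAffine.a₂ + x ^ l + x) * (x ^ l - x) ^ 2 := by
  have hT := s58fnT_eval W x y h (l + 1)
  have hfrob := s58fn_frob_point W x y h
  have hneg := s58fn_frob_negY W x y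
  have hnegpt : (W.baseChange R).toAffine.Equation x ((W.baseChange R).toAffine.negY x y) :=
    (WeierstrassCurve.Affine.equation_neg (W' := (W.baseChange R).toAffine) x y).mpr h
  rw [s58fn_equation_iff] at hfrob hnegpt
  have key := s58fn_two_points (algebraMap (ZMod l) R W.a₁) (algebraMap (ZMod l) R W.a₂)
    (algebraMap (ZMod l) R W.a₃) (algebraMap (ZMod l) R W.a₄) (algebraMap (ZMod l) R W.a₆)
    (x ^ l) (y ^ l) x ((W.baseChange R).toAffine.negY x y) hfrob hnegpt
  have ha₁ : (W.baseChange R).toAffine.a₁ = algebraMap (ZMod l) R W.a₁ := rfl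
  have ha₂ : (W.baseChange R).toAffine.a₂ = algebraMap (ZMod l) R W.a₂ := rfl
  rw [ha₁, ha₂, key, s58fnN_aeval, hT, pow_succ ((W.baseChange R).toAffine.negY x y) l, hneg,
    s58fn_negY W (x ^ l) (y ^ l)]
  rw [s58fn_negY]
  simp only [map_mul, map_ofNat]
  ring

end Frob

section Field

variable {l : ℕ} [Fact l.Prime] (W : WeierstrassCurve (ZMod l))
variable {K : Type*} [Field K] [Algebra (ZMod l) K] [DecidableEq K]

/-- over a field: the `x`-coordinate of `φ P - P` for `P = (x, y)` with `x ^ l ≠ x` -/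
theorem s58fn_addX (x y : K) (h : (W.baseChange K).toAffine.Equation x y) (hx : x ^ l ≠ x) :
    (W.baseChange K).toAffine.addX (x ^ l) x
        ((W.baseChange K).toAffine.slope (x ^ l) x (y ^ l) ((W.baseChange K).toAffine.negY x y))
      = aeval x (s58fnN W) / (x ^ l - x) ^ 2 := by
  have hD : x ^ l - x ≠ 0 := sub_ne_zero.mpr hx
  rw [s58fn_eval W x y h, WeierstrassCurve.Affine.slope_of_X_ne hx]
  unfold WeierstrassCurve.Affine.addX
  field_simp
  ring

end Field

end Fermat.Agent.S58
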