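import Mathlib
import Fermat.Agent.S58.FrobNum
import Fermat.Agent.S58.FrobDeg

/-!
# S58, (D7) counting core: the degree of `x(φ T - T)` is the number of Frobenius-fixed points

Let `k` be an algebraically closed field, `V` a Weierstrass curve over `k` with `Δ ≠ 0`, and
`φ` an additive endomorphism of `V.Point` acting as the coordinatewise `l`-th power.  Suppose the
abscissa of `φ T - T` is `N(x_T) / (x_T ^ l - x_T) ^ 2` for a monic polynomial `N` of degree
`2 l + 1`.  Then for the reduced fraction `num / den` of `N / (X ^ l - X) ^ 2`: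
`natDegree den < natDegree num` and `natDegree num` is the number of fixed points of `φ`.

Proof (fibre count): for a generic `x₁` the polynomial `num - x₁ den` has `natDegree num` distinct
roots, none fixed by the `l`-th power; the points over these roots are exactly the `T` with
`φ T - T = ± Q₁` (`Q₁` a point with abscissa `x₁`), i.e. two disjoint cosets of the fixed points.
-/

set_option autoImplicit false
set_option linter.unusedSectionVars false
set_option linter.unusedVariables false

open Polynomial WeierstrassCurve WeierstrassCurve.Affine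

namespace Fermat.Agent.S58

section Poly

variable {k : Type*} [Field k]

/-- degrees in a reduced fraction `num / den = N / D` with `N`, `D` monic, `deg N = deg D + 1` -/
theorem s58f7_deg (N D num den : k[X]) (hNm : N.Monic) (hDm : D.Monic)
    (hdeg : N.natDegree = D.natDegree + 1) (hcop : IsCoprime num den)
    (hfrac : num * D = N * den) : num ≠ 0 ∧ den ≠ 0 ∧ num.natDegree = den.natDegree + 1 := by
  have hden : den ≠ 0 := by
    rintro rfl
    rw [mul_zero] at hfrac
    have h0 : num = 0 := by
      rcases mul_eq_zero.mp hfrac with h | h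
      · exact h
      · exact absurd h hDm.ne_zero
    rw [h0] at hcop
    exact not_isCoprime_zero_zero hcop
  have hnum : num ≠ 0 := by
    rintro rfl
    rw [zero_mul] at hfrac
    rcases mul_eq_zero.mp hfrac.symm with h | h
    · exact hNm.ne_zero h
    · exact hden h
  refine ⟨hnum, hden, ?_⟩
  have h1 := congrArg natDegree hfrac
  rw [natDegree_mul hnum hDm.ne_zero, natDegree_mul hNm.ne_zero hden, hdeg] at h1
  omega

/-- the Wronskian of a reduced fraction with `deg num = deg den + 1` is nonzero (any
characteristic) -/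
theorem s58f7_wr_ne (num den : k[X]) (hcop : IsCoprime num den) (hden : den ≠ 0)
    (hdeg : num.natDegree = den.natDegree + 1) :
    derivative num * den - num * derivative den ≠ 0 := by
  intro h0
  have h1 : derivative num * den = num * derivative den := sub_eq_zero.mp h0
  have hnum : num ≠ 0 := by
    rintro rfl
    simp at hdeg
  have hd1 : derivative num = 0 := by
    have hdvd : num ∣ derivative num := by
      apply hcop.dvd_of_dvd_mul_right
      rw [h1]
      exact dvd_mul_right _ _
    exact eq_zero_of_dvd_of_natDegree_lt hdvd (natDegree_derivative_lt (by omega))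
  have hd2 : derivative den = 0 := by
    rw [hd1, zero_mul] at h1
    rcases mul_eq_zero.mp h1.symm with h | h
    · exact absurd h hnum
    · exact h
  have c1 := coeff_derivative num den.natDegree
  rw [hd1, coeff_zero, ← hdeg] at c1
  have hlc : num.coeff num.natDegree ≠ 0 := by
    rw [coeff_natDegree]
    exact leadingCoeff_ne_zero.mpr hnum
  have e1 : ((den.natDegree : k) + 1) = 0 := by
    rcases mul_eq_zero.mp c1.symm with h | h
    · exact absurd h hlc
    · exact h
  by_cases hd0 : den.natDegree = 0
  · rw [hd0] at e1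
    simp at e1
  · obtain ⟨e, he⟩ := Nat.exists_eq_succ_of_ne_zero hd0
    have c2 := coeff_derivative den e
    rw [hd2, coeff_zero] at c2
    have hlc2 : den.coeff (e + 1) ≠ 0 := by
      rw [← Nat.succ_eq_add_one, ← he, coeff_natDegree]
      exact leadingCoeff_ne_zero.mpr hden
    have e2 : ((e : k) + 1) = 0 := by
      rcases mul_eq_zero.mp c2.symm with h | h
      · exact absurd h hlc2
      · exact h
    rw [he] at e1
    push_cast at e1
    have h10 : (1 : k) = 0 := by linear_combination e1 - e2
    exact one_ne_zero h10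

/-- `num - c den` is separable when `c` avoids the values of `num / den` at the roots of the
Wronskian -/
theorem s58f7_sep [IsAlgClosed k] (num den : k[X]) (c : k)
    (hc : ∀ x : k, (derivative num * den - num * derivative den).IsRoot x →
      num.eval x ≠ c * den.eval x) :
    (num - C c * den).Separable := by
  rw [separable_def, isCoprime_iff_aeval_ne_zero_of_isAlgClosed k k]
  intro x
  by_contra hcon
  obtain ⟨h1, h2⟩ := not_or.mp hcon
  rw [not_not] at h1 h2
  simp only [coe_aeval_eq_eval, eval_sub, eval_mul, eval_C, derivative_sub, derivative_mul,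
    derivative_C, zero_mul, zero_add] at h1 h2
  have h1' : num.eval x = c * den.eval x := sub_eq_zero.mp h1
  have h2' : (derivative num).eval x = c * (derivative den).eval x := sub_eq_zero.mp h2
  apply hc x _ h1'
  rw [IsRoot.def, eval_sub, eval_mul, eval_mul, h1', h2']
  ring

/-- a separable polynomial over an algebraically closed field has `natDegree` distinct roots -/
theorem s58f7_card_roots [IsAlgClosed k] [DecidableEq k] (p : k[X]) (hp : p.Separable) :
    p.roots.toFinset.card = p.natDegree := by
  rw [Multiset.toFinset_card_of_nodup (nodup_roots hp), IsAlgClosed.card_roots_eq_natDegree]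

/-- coprime polynomials have no common root -/
theorem s58f7_no_common (num den : k[X]) (hcop : IsCoprime num den) (x : k)
    (h1 : num.eval x = 0) (h2 : den.eval x = 0) : False := by
  obtain ⟨u, v, huv⟩ := hcop
  have h := congrArg (eval x) huv
  rw [eval_add, eval_mul, eval_mul, h1, h2, mul_zero, mul_zero, add_zero, eval_one] at h
  exact zero_ne_one h

end Poly

section Curve

variable {k : Type*} [Field k] (V : Affine k)

/-- over an algebraically closed field every abscissa carries a point of the curve -/
theorem s58f7_exists_y [IsAlgClosed k] (x : k) : ∃ y, V.Equation x y := by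
  have hdeg : (X ^ 2 + C (V.a₁ * x + V.a₃) * X -
      C (x ^ 3 + V.a₂ * x ^ 2 + V.a₄ * x + V.a₆) : k[X]).degree = 2 := by
    compute_degree!
  obtain ⟨y, hy⟩ := IsAlgClosed.exists_root (X ^ 2 + C (V.a₁ * x + V.a₃) * X -
      C (x ^ 3 + V.a₂ * x ^ 2 + V.a₄ * x + V.a₆) : k[X]) (by rw [hdeg]; norm_num)
  refine ⟨y, ?_⟩
  rw [equation_iff]
  simp only [IsRoot.def, eval_sub, eval_add, eval_mul, eval_pow, eval_X, eval_C] at hy
  linear_combination hy

/-- a point equal to its negative has abscissa a root of `Ψ₂Sq` -/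
theorem s58f7_two_tors (x y : k) (h : V.Equation x y) (hy : y = V.negY x y) :
    4 * x ^ 3 + V.b₂ * x ^ 2 + 2 * V.b₄ * x + V.b₆ = 0 := by
  rw [equation_iff] at h
  simp only [negY] at hy
  have hy' : 2 * y + V.a₁ * x + V.a₃ = 0 := by linear_combination hy
  simp only [WeierstrassCurve.b₂, WeierstrassCurve.b₄, WeierstrassCurve.b₆]
  linear_combination (-4) * h + (2 * y + V.a₁ * x + V.a₃) * hy'

/-- the polynomial `Ψ₂Sq` is nonzero when `Δ ≠ 0` -/
theorem s58f7_q2_ne (hΔ : V.Δ ≠ 0) :
    (C 4 * X ^ 3 + C V.b₂ * X ^ 2 + C (2 * V.b₄) * X + C V.b₆ : k[X]) ≠ 0 := by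
  intro h0
  have c2 := congrArg (fun p => coeff p 2) h0
  have c1 := congrArg (fun p => coeff p 1) h0
  have c0 := congrArg (fun p => coeff p 0) h0
  simp [coeff_X, coeff_C, coeff_X_pow] at c2 c1 c0
  have c1' : 2 * V.b₄ = 0 := by
    rcases c1 with h | h
    · rw [h, zero_mul]
    · rw [h, mul_zero]
  apply hΔ
  rw [WeierstrassCurve.Δ]
  linear_combination (-V.b₂ * V.b₈ + 9 * V.b₄ * V.b₆) * c2 - 27 * V.b₆ * c0 -
    4 * V.b₄ ^ 2 * c1'

end Curve

section Core

variable {k : Type*} [Field k] [DecidableEq k] (V : Affine k)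

/-- the abscissa of a point (`0` at infinity) -/
def s58f7X : V.Point → k
  | .zero => 0
  | .some x _ _ => x

/-- a point with a prescribed abscissa -/
noncomputable def s58f7Pt [IsAlgClosed k] (hΔ : V.Δ ≠ 0) (x : k) : V.Point :=
  .some x (s58f7_exists_y V x).choose
    ((equation_iff_nonsingular_of_Δ_ne_zero hΔ).mp (s58f7_exists_y V x).choose_spec)

theorem s58f7_pt_or [IsAlgClosed k] (hΔ : V.Δ ≠ 0) {x y : k} (h : V.Nonsingular x y) :
    Point.some x y h = s58f7Pt V hΔ x ∨ Point.some x y h = -s58f7Pt V hΔ x :=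
  Point.X_eq_iff.mp rfl

/-- a nonempty fibre of `φ - 1` is a coset of the fixed points -/
theorem s58f7_fibre (φ : V.Point →+ V.Point) (Q T0 : V.Point) (h0 : φ T0 - T0 = Q) :
    {T : V.Point | φ T - T = Q} = (fun F => T0 + F) '' {F : V.Point | φ F = F} := by
  ext T
  simp only [Set.mem_ofPred_eq, Set.mem_image]
  constructor
  · intro hT
    refine ⟨T - T0, ?_, by abel⟩
    rw [map_sub]
    have h1 : φ T - T = φ T0 - T0 := by rw [hT, h0]
    exact sub_eq_sub_iff_sub_eq_sub.mp h1
  · rintro ⟨F, hF, rfl⟩
    rw [map_add, hF, add_sub_add_right_eq_sub]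
    exact h0

/-- **(D7), counting core.** -/
theorem s58f7_core [IsAlgClosed k] (hΔ : V.Δ ≠ 0) (l : ℕ) (hl : 2 ≤ l) (φ : V.Point →+ V.Point)
    (hφ : ∀ (x y : k) (h : V.Nonsingular x y),
      ∃ h', φ (Point.some x y h) = Point.some (x ^ l) (y ^ l) h')
    (N : k[X]) (hNm : N.Monic) (hNd : N.natDegree = 2 * l + 1)
    (hN : ∀ x y : k, V.Equation x y → x ^ l ≠ x →
      V.addX (x ^ l) x (V.slope (x ^ l) x (y ^ l) (V.negY x y)) = N.eval x / (x ^ l - x) ^ 2)
    (num den : k[X]) (hcop : IsCoprime num den) (hfrac : num * (X ^ l - X) ^ 2 = N * den) :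
    den.natDegree < num.natDegree ∧ num.natDegree = Nat.card {T : V.Point // φ T = T} := by
  classical
  -- the denominator polynomial
  have hD1 : (X ^ l - X : k[X]).Monic :=
    monic_X_pow_sub (by rw [degree_X]; exact_mod_cast hl)
  have hDne : (X ^ l - X : k[X]) ≠ 0 := hD1.ne_zero
  have hDd : (X ^ l - X : k[X]).natDegree = l :=
    FiniteField.X_pow_card_sub_X_natDegree_eq k (by omega)
  have hD2 : ((X ^ l - X) ^ 2 : k[X]).Monic := hD1.pow 2
  have hD2d : ((X ^ l - X) ^ 2 : k[X]).natDegree = 2 * l := by
    rw [hD1.natDegree_pow, hDd]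
  obtain ⟨hnum, hden, hdeg⟩ := s58f7_deg N ((X ^ l - X) ^ 2) num den hNm hD2
    (by rw [hNd, hD2d]) hcop hfrac
  refine ⟨by omega, ?_⟩
  -- evaluation of the fraction
  have hev : ∀ x : k, num.eval x * (x ^ l - x) ^ 2 = N.eval x * den.eval x := by
    intro x
    have h := congrArg (eval x) hfrac
    simpa only [eval_mul, eval_pow, eval_sub, eval_X] using h
  -- the Wronskian and the bad set
  have hWrne : derivative num * den - num * derivative den ≠ 0 :=
    s58f7_wr_ne num den hcop hden hdeg
  have hq2ne : (C 4 * X ^ 3 + C V.b₂ * X ^ 2 + C (2 * V.b₄) * X + C V.b₆ : k[X]) ≠ 0 :=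
    s58f7_q2_ne V hΔ
  obtain ⟨x1, hx1⟩ := Infinite.exists_notMem_finset
    ((C 4 * X ^ 3 + C V.b₂ * X ^ 2 + C (2 * V.b₄) * X + C V.b₆ : k[X]).roots.toFinset ∪
      (X ^ l - X : k[X]).roots.toFinset ∪
      (((derivative num * den - num * derivative den) * (X ^ l - X)).roots.toFinset.image
        (fun x => num.eval x / den.eval x)))
  rw [Finset.mem_union, Finset.mem_union, not_or, not_or] at hx1
  obtain ⟨⟨hx1a, hx1b⟩, hx1c⟩ := hx1
  have hX3 : 4 * x1 ^ 3 + V.b₂ * x1 ^ 2 + 2 * V.b₄ * x1 + V.b₆ ≠ 0 := by
    intro h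
    apply hx1a
    rw [Multiset.mem_toFinset, mem_roots hq2ne, IsRoot.def]
    simp only [eval_add, eval_mul, eval_C, eval_pow, eval_X]
    exact h
  have hX4 : x1 ^ l ≠ x1 := by
    intro h
    apply hx1b
    rw [Multiset.mem_toFinset, mem_roots hDne, IsRoot.def, eval_sub, eval_pow, eval_X, h,
      sub_self]
  have hX12 : ∀ x : k, ((derivative num * den - num * derivative den) * (X ^ l - X)).IsRoot x →
      num.eval x ≠ x1 * den.eval x := by
    intro x hx h
    apply hx1c
    rw [Finset.mem_image]
    refine ⟨x, ?_, ?_⟩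
    · rw [Multiset.mem_toFinset, mem_roots (mul_ne_zero hWrne hDne)]
      exact hx
    · have hd : den.eval x ≠ 0 := by
        intro hd
        rw [hd, mul_zero] at h
        exact s58f7_no_common num den hcop x h hd
      rw [h, mul_div_assoc, div_self hd, mul_one]
  have hX1 : ∀ x : k, (derivative num * den - num * derivative den).IsRoot x →
      num.eval x ≠ x1 * den.eval x := by
    intro x hx
    apply hX12
    rw [IsRoot.def] at hx
    rw [IsRoot.def, eval_mul, hx, zero_mul]
  have hX2 : ∀ x : k, x ^ l = x → num.eval x ≠ x1 * den.eval x := by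
    intro x hx
    apply hX12
    have h0 : eval x (X ^ l - X : k[X]) = 0 := by
      rw [eval_sub, eval_pow, eval_X, hx, sub_self]
    rw [IsRoot.def, eval_mul, h0, mul_zero]
  -- the point `Q1`
  obtain ⟨Q1, y1, hy1, hQ1'⟩ : ∃ (Q1 : V.Point) (y1 : k) (hy1 : V.Nonsingular x1 y1),
      Q1 = Point.some x1 y1 hy1 := ⟨s58f7Pt V hΔ x1, _, _, rfl⟩
  have hQ1neg : Q1 ≠ -Q1 := by
    rw [hQ1', Point.neg_some]
    intro h
    rw [Point.some.injEq] at h
    exact hX3 (s58f7_two_tors V x1 y1 hy1.1 h.2)
  have hQ1ne0 : Q1 ≠ 0 := by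
    rw [hQ1']
    exact Point.some_ne_zero hy1
  -- the polynomial `p`
  have hpsep : (num - C x1 * den).Separable := s58f7_sep num den x1 hX1
  have hpd : (num - C x1 * den).natDegree = num.natDegree := by
    apply natDegree_sub_eq_left_of_natDegree_lt
    calc (C x1 * den).natDegree ≤ den.natDegree := natDegree_C_mul_le _ _
      _ < num.natDegree := by omega
  have hpne : (num - C x1 * den) ≠ 0 := by
    intro h
    rw [h, natDegree_zero] at hpd
    omega
  have hRcard : (num - C x1 * den).roots.toFinset.card = num.natDegree := by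
    rw [s58f7_card_roots _ hpsep, hpd]
  have hRmem : ∀ x : k, x ∈ (num - C x1 * den).roots.toFinset ↔
      num.eval x = x1 * den.eval x := by
    intro x
    rw [Multiset.mem_toFinset, mem_roots hpne, IsRoot.def, eval_sub, eval_mul, eval_C,
      sub_eq_zero]
  -- abscissa of `φ T - T`
  have key : ∀ (a b : k) (hab : V.Nonsingular a b) (c : k), a = c →
      ∃ (y' : k) (h' : V.Nonsingular c y'), Point.some a b hab = Point.some c y' h' := by
    rintro a b hab c rfl
    exact ⟨b, hab, rfl⟩
  have hL1 : ∀ (x y : k) (h : V.Nonsingular x y), x ^ l ≠ x →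
      ∃ (y' : k) (h' : V.Nonsingular (N.eval x / (x ^ l - x) ^ 2) y'),
        φ (Point.some x y h) - Point.some x y h = Point.some _ y' h' := by
    intro x y h hx
    obtain ⟨h1, e1⟩ := hφ x y h
    have e3 : φ (Point.some x y h) - Point.some x y h =
        Point.some (x ^ l) (y ^ l) h1 + Point.some x (V.negY x y) ((nonsingular_neg ..).mpr h) := by
      rw [e1, sub_eq_add_neg, Point.neg_some]
    rw [e3, Point.add_of_X_ne hx]
    exact key _ _ _ _ (hN x y h.1 hx)
  -- points over the roots
  have hA1 : ∀ (x y : k) (h : V.Nonsingular x y), x ∈ (num - C x1 * den).roots.toFinset →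
      φ (Point.some x y h) - Point.some x y h = Q1 ∨
        φ (Point.some x y h) - Point.some x y h = -Q1 := by
    intro x y h hxR
    rw [hRmem] at hxR
    have hx : x ^ l ≠ x := fun hx => hX2 x hx hxR
    obtain ⟨y', h', e⟩ := hL1 x y h hx
    have hd : den.eval x ≠ 0 := by
      intro hd
      rw [hd, mul_zero] at hxR
      exact s58f7_no_common num den hcop x hxR hd
    have hDx : (x ^ l - x) ^ 2 ≠ 0 := pow_ne_zero 2 (sub_ne_zero.mpr hx)
    have hval : N.eval x / (x ^ l - x) ^ 2 = x1 := by
      rw [div_eq_iff hDx]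
      have h2 := hev x
      rw [hxR] at h2
      have h3 : (N.eval x - x1 * (x ^ l - x) ^ 2) * den.eval x = 0 := by
        linear_combination -h2
      rcases mul_eq_zero.mp h3 with h4 | h4
      · exact sub_eq_zero.mp h4
      · exact absurd h4 hd
    rw [e, hQ1']
    exact Point.X_eq_iff.mp hval
  have hA2 : ∀ T : V.Point, (φ T - T = Q1 ∨ φ T - T = -Q1) →
      ∃ (x y : k) (h : V.Nonsingular x y), T = Point.some x y h ∧
        x ∈ (num - C x1 * den).roots.toFinset := by
    intro T hT
    rcases T with _ | ⟨x, y, h⟩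
    · exfalso
      have h00 : φ (Point.zero : V.Point) - Point.zero = 0 := by
        rw [← Point.zero_def, map_zero, sub_zero]
      rw [h00] at hT
      rcases hT with h | h
      · exact hQ1ne0 h.symm
      · exact hQ1ne0 (neg_eq_zero.mp h.symm)
    · refine ⟨x, y, h, rfl, ?_⟩
      rw [hRmem]
      by_cases hx : x ^ l = x
      · exfalso
        obtain ⟨h1, e1⟩ := hφ x y h
        have hpm : φ (Point.some x y h) = Point.some x y h ∨
            φ (Point.some x y h) = -Point.some x y h := by
          rw [e1]
          exact Point.X_eq_iff.mp hx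
        rcases hpm with hfix | hneg
        · rw [hfix, sub_self] at hT
          rcases hT with h | h
          · exact hQ1ne0 h.symm
          · exact hQ1ne0 (neg_eq_zero.mp h.symm)
        · have hφQ : φ Q1 = -Q1 := by
            rcases hT with h' | h'
            · rw [← h', map_sub, hneg, map_neg, hneg]
              abel
            · have h'' : Q1 = -(φ (Point.some x y h) - Point.some x y h) := by
                rw [h', neg_neg]
              rw [h'', map_neg, map_sub, hneg, map_neg, hneg]
              abel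
          obtain ⟨h2, e2⟩ := hφ x1 y1 hy1
          rw [hQ1', e2, Point.neg_some, Point.some.injEq] at hφQ
          exact hX4 hφQ.1
      · obtain ⟨y', h', e⟩ := hL1 x y h hx
        have hval : N.eval x / (x ^ l - x) ^ 2 = x1 := by
          rcases hT with h'' | h''
          · rw [e, hQ1', Point.some.injEq] at h''
            exact h''.1
          · rw [e, hQ1', Point.neg_some, Point.some.injEq] at h''
            exact h''.1
        have hDx : (x ^ l - x) ^ 2 ≠ 0 := pow_ne_zero 2 (sub_ne_zero.mpr hx)
        rw [div_eq_iff hDx] at hval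
        have h2 := hev x
        rw [hval] at h2
        have h3 : (num.eval x - x1 * den.eval x) * (x ^ l - x) ^ 2 = 0 := by
          linear_combination h2
        rcases mul_eq_zero.mp h3 with h4 | h4
        · exact sub_eq_zero.mp h4
        · exact absurd h4 hDx
  -- the two fibres
  have hdisj : Disjoint {T : V.Point | φ T - T = Q1} {T : V.Point | φ T - T = -Q1} := by
    rw [Set.disjoint_left]
    intro T h1 h2
    rw [Set.mem_ofPred_eq] at h1 h2
    exact hQ1neg (h1.symm.trans h2)
  have hnegpt : ∀ P : V.Point, φ (-P) - (-P) = -(φ P - P) := by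
    intro P
    rw [map_neg]
    abel
  -- the finite set of points over the roots
  have hSF : ((((num - C x1 * den).roots.toFinset.biUnion
      (fun x => ({s58f7Pt V hΔ x, -s58f7Pt V hΔ x} : Finset V.Point))) : Finset V.Point) :
        Set V.Point) = {T : V.Point | φ T - T = Q1} ∪ {T : V.Point | φ T - T = -Q1} := by
    ext T
    rw [Finset.mem_coe, Finset.mem_biUnion, Set.mem_union, Set.mem_ofPred_eq, Set.mem_ofPred_eq]
    constructor
    · rintro ⟨x, hxR, hT⟩
      rw [Finset.mem_insert, Finset.mem_singleton] at hT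
      have hpt : φ (s58f7Pt V hΔ x) - s58f7Pt V hΔ x = Q1 ∨
          φ (s58f7Pt V hΔ x) - s58f7Pt V hΔ x = -Q1 := hA1 x _ _ hxR
      rcases hT with rfl | rfl
      · exact hpt
      · rw [hnegpt]
        rcases hpt with h | h
        · right
          rw [h]
        · left
          rw [h, neg_neg]
    · intro hT
      obtain ⟨x, y, h, rfl, hxR⟩ := hA2 T hT
      refine ⟨x, hxR, ?_⟩
      rw [Finset.mem_insert, Finset.mem_singleton]
      exact s58f7_pt_or V hΔ h
  have hSFcard : (((num - C x1 * den).roots.toFinset.biUnion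
      (fun x => ({s58f7Pt V hΔ x, -s58f7Pt V hΔ x} : Finset V.Point))) : Finset V.Point).card =
        2 * num.natDegree := by
    rw [Finset.card_biUnion]
    · rw [Finset.sum_const_nat (m := 2), hRcard, mul_comm]
      intro x hxR
      apply Finset.card_pair
      intro hneg
      have hpt : φ (s58f7Pt V hΔ x) - s58f7Pt V hΔ x = Q1 ∨
          φ (s58f7Pt V hΔ x) - s58f7Pt V hΔ x = -Q1 := hA1 x _ _ hxR
      have e : φ (s58f7Pt V hΔ x) - s58f7Pt V hΔ x =
          -(φ (s58f7Pt V hΔ x) - s58f7Pt V hΔ x) := by
        conv_lhs => rw [hneg]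
        exact hnegpt _
      rcases hpt with h | h
      · rw [h] at e
        exact hQ1neg e
      · rw [h, neg_neg] at e
        exact hQ1neg e.symm
    · intro x hx x' hx' hne
      rw [Function.onFun, Finset.disjoint_left]
      intro T hT hT'
      rw [Finset.mem_insert, Finset.mem_singleton] at hT hT'
      apply hne
      have hX : s58f7X V T = x := by
        rcases hT with rfl | rfl <;> rfl
      have hX' : s58f7X V T = x' := by
        rcases hT' with rfl | rfl <;> rfl
      rw [← hX, hX']
  have hSncard : ({T : V.Point | φ T - T = Q1} ∪ {T : V.Point | φ T - T = -Q1}).ncard =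
      2 * num.natDegree := by
    rw [← hSF, Set.ncard_coe_finset, hSFcard]
  -- nonempty fibres
  have hRne : (num - C x1 * den).roots.toFinset.Nonempty := by
    rw [← Finset.card_pos, hRcard]
    omega
  obtain ⟨x0, hx0⟩ := hRne
  obtain ⟨T0, hT0⟩ : ∃ T0 : V.Point, φ T0 - T0 = Q1 := by
    have hpt : φ (s58f7Pt V hΔ x0) - s58f7Pt V hΔ x0 = Q1 ∨
        φ (s58f7Pt V hΔ x0) - s58f7Pt V hΔ x0 = -Q1 := hA1 x0 _ _ hx0
    rcases hpt with h | h
    · exact ⟨_, h⟩
    · refine ⟨-s58f7Pt V hΔ x0, ?_⟩
      rw [hnegpt, h, neg_neg]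
  have hT0' : φ (-T0) - (-T0) = -Q1 := by
    rw [hnegpt, hT0]
  have hfinS : ({T : V.Point | φ T - T = Q1} ∪ {T : V.Point | φ T - T = -Q1}).Finite := by
    rw [← hSF]
    exact Finset.finite_toSet _
  have hf1 : {T : V.Point | φ T - T = Q1}.Finite := hfinS.subset Set.subset_union_left
  have hf2 : {T : V.Point | φ T - T = -Q1}.Finite := hfinS.subset Set.subset_union_right
  have hn1 : {T : V.Point | φ T - T = Q1}.ncard = {F : V.Point | φ F = F}.ncard := by
    rw [s58f7_fibre V φ Q1 T0 hT0]
    exact Set.ncard_image_of_injective _ (add_right_injective T0)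
  have hn2 : {T : V.Point | φ T - T = -Q1}.ncard = {F : V.Point | φ F = F}.ncard := by
    rw [s58f7_fibre V φ (-Q1) (-T0) hT0']
    exact Set.ncard_image_of_injective _ (add_right_injective (-T0))
  have htot := Set.ncard_union_eq hdisj hf1 hf2
  rw [hSncard, hn1, hn2] at htot
  have hcard : Nat.card {T : V.Point // φ T = T} = {F : V.Point | φ F = F}.ncard :=
    Nat.card_coe_set_eq {F : V.Point | φ F = F}
  omega

end Core

section Carrier

variable {l : ℕ} [Fact l.Prime] (W : WeierstrassCurve (ZMod l))
variable {k : Type*} [Field k] [Algebra (ZMod l) k] [IsAlgClosed k] [DecidableEq k]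

/-- **(D7) at the carrier**: for the reduced fraction `num / den` of `N / (X ^ l - X) ^ 2`
(`N = s58fnN W` the numerator of `x(φ T - T)`), `natDegree den < natDegree num` and
`natDegree num` is the number of points of `W` over `k` fixed by Frobenius. -/
theorem s58f7_count (hΔ : W.Δ ≠ 0) (num den : k[X]) (hcop : IsCoprime num den)
    (hfrac : num * (X ^ l - X) ^ 2 = (s58fnN W).map (algebraMap (ZMod l) k) * den) :
    den.natDegree < num.natDegree ∧
      num.natDegree = Nat.card {T : (W⁄k).Point //
        Point.map (W' := W) (FiniteField.frobeniusAlgHom (ZMod l) k) T = T} := by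
  have hΔk : (W⁄k).Δ ≠ 0 := by
    have e : (W⁄k).Δ = algebraMap (ZMod l) k W.Δ := WeierstrassCurve.map_Δ W _
    rw [e]
    exact (_root_.map_ne_zero _).mpr hΔ
  refine s58f7_core (W⁄k) hΔk l (Fact.out : l.Prime).two_le
    (Point.map (W' := W) (FiniteField.frobeniusAlgHom (ZMod l) k))
    (fun x y h => s58f3_frob_some W h)
    ((s58fnN W).map (algebraMap (ZMod l) k)) ((s58fn_monic W).map _) ?_ ?_ num den hcop hfrac
  · rw [(s58fn_monic W).natDegree_map, s58fn_natDegree]
  · intro x y h hx
    rw [eval_map_algebraMap]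
    exact s58fn_addX W x y h hx

/-- **(D7), rational-function form**: the degree (max of the degrees of numerator and
denominator) of `N / (X ^ l - X) ^ 2 ∈ k(X)` is the number of Frobenius-fixed points. -/
theorem s58f7_ratfunc (hΔ : W.Δ ≠ 0) :
    max (algebraMap k[X] (RatFunc k) ((s58fnN W).map (algebraMap (ZMod l) k)) /
          algebraMap k[X] (RatFunc k) ((X ^ l - X) ^ 2)).num.natDegree
        (algebraMap k[X] (RatFunc k) ((s58fnN W).map (algebraMap (ZMod l) k)) /
          algebraMap k[X] (RatFunc k) ((X ^ l - X) ^ 2)).denom.natDegree =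
      Nat.card {T : (W⁄k).Point //
        Point.map (W' := W) (FiniteField.frobeniusAlgHom (ZMod l) k) T = T} := by
  have hl : 2 ≤ l := (Fact.out : l.Prime).two_le
  have hD1 : (X ^ l - X : k[X]).Monic :=
    monic_X_pow_sub (by rw [degree_X]; exact_mod_cast hl)
  have hD2 : ((X ^ l - X) ^ 2 : k[X]) ≠ 0 := (hD1.pow 2).ne_zero
  obtain ⟨r, hr⟩ : ∃ r : RatFunc k,
      r = algebraMap k[X] (RatFunc k) ((s58fnN W).map (algebraMap (ZMod l) k)) /
          algebraMap k[X] (RatFunc k) ((X ^ l - X) ^ 2) := ⟨_, rfl⟩
  rw [← hr]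
  have hinj : Function.Injective (algebraMap k[X] (RatFunc k)) :=
    IsFractionRing.injective k[X] (RatFunc k)
  have hfrac : r.num * (X ^ l - X) ^ 2 = (s58fnN W).map (algebraMap (ZMod l) k) * r.denom := by
    apply hinj
    have h1 : algebraMap k[X] (RatFunc k) r.num / algebraMap k[X] (RatFunc k) r.denom =
        algebraMap k[X] (RatFunc k) ((s58fnN W).map (algebraMap (ZMod l) k)) /
          algebraMap k[X] (RatFunc k) ((X ^ l - X) ^ 2) := by
      rw [RatFunc.num_div_denom r]
      exact hr
    have hd1 : algebraMap k[X] (RatFunc k) r.denom ≠ 0 :=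
      (map_ne_zero_iff _ hinj).mpr (RatFunc.denom_ne_zero r)
    have hd2 : algebraMap k[X] (RatFunc k) ((X ^ l - X) ^ 2) ≠ 0 :=
      (map_ne_zero_iff _ hinj).mpr hD2
    have h2 := (div_eq_div_iff hd1 hd2).mp h1
    rw [map_mul, map_mul]
    exact h2
  obtain ⟨h1, h2⟩ := s58f7_count W hΔ r.num r.denom (RatFunc.isCoprime_num_denom r) hfrac
  rw [max_eq_left (le_of_lt h1)]
  exact h2

end Carrier

end Fermat.Agent.S58
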