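import Mathlib

/-!
# S58, (D7): the fixed points of Frobenius

`W` a Weierstrass curve over `ZMod l`, `k` a field over `ZMod l`, `φ` the map induced on the
points of `W` over `k` by the `l`-th power Frobenius of `k`.

* `s58fx_pow_eq` : the elements of `k` fixed by the `l`-th power are the elements of `ZMod l`;
* `s58fx_mem` : `φ T = T` iff `T` comes from a point over `ZMod l`;
* `s58fx_card` : the fixed points of `φ` are counted by `Nat.card W.toAffine.Point`;
* `s58fx_fibre` : so is every nonempty fibre of `φ - 1`.
-/

set_option autoImplicit false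

open WeierstrassCurve WeierstrassCurve.Affine

namespace Fermat.Agent.S58

section

variable (l : ℕ) [Fact l.Prime] (k : Type*) [Field k] [Algebra (ZMod l) k]

/-- the elements of a field over `ZMod l` fixed by the `l`-th power lie in `ZMod l` -/
theorem s58fx_pow_eq (x : k) (hx : x ^ l = x) : ∃ a : ZMod l, algebraMap (ZMod l) k a = x := by
  have hl : l.Prime := Fact.out
  have hinj : Function.Injective (algebraMap (ZMod l) k) := (algebraMap (ZMod l) k).injective
  have h1 : (Polynomial.X ^ l - Polynomial.X : Polynomial (ZMod l)).roots = Finset.univ.val := by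
    have h := FiniteField.roots_X_pow_card_sub_X (ZMod l)
    rwa [ZMod.card] at h
  have hdeg : (Polynomial.X ^ l - Polynomial.X : Polynomial (ZMod l)).natDegree = l :=
    FiniteField.X_pow_card_sub_X_natDegree_eq (ZMod l) hl.one_lt
  have hne : (Polynomial.X ^ l - Polynomial.X : Polynomial (ZMod l)) ≠ 0 :=
    FiniteField.X_pow_card_sub_X_ne_zero (ZMod l) hl.one_lt
  have h2 := Polynomial.roots_map_of_injective_of_card_eq_natDegree hinj
    (p := (Polynomial.X ^ l - Polynomial.X : Polynomial (ZMod l)))
    (by rw [h1, hdeg]; simp [ZMod.card])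
  have hx' : x ∈ ((Polynomial.X ^ l - Polynomial.X : Polynomial (ZMod l)).map
      (algebraMap (ZMod l) k)).roots := by
    rw [Polynomial.mem_roots (Polynomial.map_ne_zero hne), Polynomial.IsRoot, Polynomial.eval_map]
    simp [hx]
  rw [← h2, h1] at hx'
  obtain ⟨a, -, ha⟩ := Multiset.mem_map.mp hx'
  exact ⟨a, ha⟩

variable (W : WeierstrassCurve (ZMod l)) [DecidableEq k]

/-- the fixed points of Frobenius are the points over `ZMod l` -/
theorem s58fx_mem (T : (W⁄k).Point) :
    Point.map (FiniteField.frobeniusAlgHom (ZMod l) k) T = T ↔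
      T ∈ Set.range (Point.baseChange (W' := W) (ZMod l) k) := by
  constructor
  · intro hT
    rcases T with _ | ⟨x, y, h⟩
    · exact ⟨0, rfl⟩
    · rw [Point.map_some] at hT
      have hxy := Point.some.inj hT
      have hx : x ^ l = x := by
        have h1 := hxy.1
        rw [FiniteField.coe_frobeniusAlgHom, ZMod.card] at h1
        exact h1
      have hy : y ^ l = y := by
        have h1 := hxy.2
        rw [FiniteField.coe_frobeniusAlgHom, ZMod.card] at h1
        exact h1
      obtain ⟨a, rfl⟩ := s58fx_pow_eq l k x hx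
      obtain ⟨b, rfl⟩ := s58fx_pow_eq l k y hy
      have h' : (W⁄(ZMod l)).Nonsingular a b :=
        (WeierstrassCurve.Affine.baseChange_nonsingular W (f := Algebra.ofId (ZMod l) k)
          (Algebra.ofId (ZMod l) k).injective a b).mp h
      exact ⟨Point.some a b h', rfl⟩
  · rintro ⟨T0, rfl⟩
    exact Point.map_baseChange (FiniteField.frobeniusAlgHom (ZMod l) k) T0

/-- the fixed points of Frobenius are counted by the points over `ZMod l` -/
theorem s58fx_card :
    Nat.card {T : (W⁄k).Point // Point.map (FiniteField.frobeniusAlgHom (ZMod l) k) T = T} =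
      Nat.card W.toAffine.Point := by
  have hinj : Function.Injective (Point.baseChange (W' := W) (ZMod l) k) :=
    Point.map_injective _
  have e : {T : (W⁄k).Point // Point.map (FiniteField.frobeniusAlgHom (ZMod l) k) T = T} ≃
      (W⁄(ZMod l)).Point :=
    ((Equiv.subtypeEquivRight (fun T => s58fx_mem l k W T)).trans
      (Equiv.ofInjective _ hinj).symm)
  rw [Nat.card_congr e]
  rfl

/-- every nonempty fibre of `φ - 1` is counted by the points over `ZMod l` -/
theorem s58fx_fibre (Q T0 : (W⁄k).Point)
    (h0 : Point.map (FiniteField.frobeniusAlgHom (ZMod l) k) T0 - T0 = Q) :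
    Nat.card {T : (W⁄k).Point // Point.map (FiniteField.frobeniusAlgHom (ZMod l) k) T - T = Q} =
      Nat.card W.toAffine.Point := by
  rw [← s58fx_card l k W]
  refine Nat.card_congr ⟨fun T => ⟨T.1 - T0, ?_⟩, fun S => ⟨S.1 + T0, ?_⟩, fun T => ?_, fun S => ?_⟩
  · have hT := T.2
    rw [map_sub]
    rw [sub_eq_iff_eq_add] at h0 hT
    rw [h0, hT]
    abel
  · have hS := S.2
    rw [map_add, hS]
    rw [sub_eq_iff_eq_add] at h0
    rw [h0]
    abel
  · ext
    simp
  · ext
    simp

end

end Fermat.Agent.S58
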