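import Mathlib
import Fermat.Agent.S58.FrobCount
import Fermat.Agent.S58.FrobFix

/-!
# S58, (D7) final form: the degree of `x(φ T - T)` is `#W(𝔽_l)`

`s58f7_count` / `s58f7_ratfunc` (S58/FrobCount.lean) composed with the count of the
Frobenius-fixed points `s58fx_card` (S58/FrobFix.lean).
-/

set_option autoImplicit false
set_option linter.unusedSectionVars false

open Polynomial WeierstrassCurve WeierstrassCurve.Affine

namespace Fermat.Agent.S58

variable {l : ℕ} [Fact l.Prime] (W : WeierstrassCurve (ZMod l))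
variable {k : Type*} [Field k] [Algebra (ZMod l) k] [IsAlgClosed k] [DecidableEq k]

/-- **(D7)**: for the reduced fraction `num / den` of `N / (X ^ l - X) ^ 2`, `N = s58fnN W`:
`natDegree den < natDegree num = #W(𝔽_l)`. -/
theorem s58fg_count (hΔ : W.Δ ≠ 0) (num den : k[X]) (hcop : IsCoprime num den)
    (hfrac : num * (X ^ l - X) ^ 2 = (s58fnN W).map (algebraMap (ZMod l) k) * den) :
    den.natDegree < num.natDegree ∧ num.natDegree = Nat.card W.toAffine.Point := by
  obtain ⟨h1, h2⟩ := s58f7_count W hΔ num den hcop hfrac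
  exact ⟨h1, h2.trans (s58fx_card l k W)⟩

/-- **(D7), rational-function form**: the degree of `N / (X ^ l - X) ^ 2 ∈ k(X)` (max of the
degrees of numerator and denominator) is `#W(𝔽_l)`. -/
theorem s58fg_ratfunc (hΔ : W.Δ ≠ 0) :
    max (algebraMap k[X] (RatFunc k) ((s58fnN W).map (algebraMap (ZMod l) k)) /
          algebraMap k[X] (RatFunc k) ((X ^ l - X) ^ 2)).num.natDegree
        (algebraMap k[X] (RatFunc k) ((s58fnN W).map (algebraMap (ZMod l) k)) /
          algebraMap k[X] (RatFunc k) ((X ^ l - X) ^ 2)).denom.natDegree =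
      Nat.card W.toAffine.Point :=
  (s58f7_ratfunc W hΔ).trans (s58fx_card l k W)

end Fermat.Agent.S58
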