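import Mathlib
import Fermat.Agent.S58.FrobNum
import Fermat.Agent.S58.FrobDeg

/-!
# S58, E-side, the seam of step (D7): `x(φ P - P) = N / (X ^ l - X) ^ 2` at the generic point

`W` a Weierstrass curve over `ZMod l`, `k` a field over `ZMod l`, `K` a field over `k` with a ring
homomorphism `j : RatFunc k →+* K` extending `k → K`, and `P = (j X, Y)` a point of `W` over `K`
(the generic point).  With `φ` the Frobenius of `K` over `ZMod l`, the point `φ P - P` is affine
and its `x`-coordinate is `j r` for every `r : RatFunc k` with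
`r * (X ^ l - X) ^ 2 = N` (`N = s58fnN W`, mapped to `k`); so a degree function `d` on points
computing the degree of the `x`-coordinate satisfies `d (φ P - P) = deg r`.

* `s58fsc_aeval`: evaluation of a polynomial over `ZMod l` at `j X` factors through `j`;
* `s58fsc_X_pow_ne`: `X ^ l ≠ X` in `RatFunc k` for `2 ≤ l`;
* `s58fsc_sub_some`: `φ P - P` as an explicit affine point;
* `s58fsc_x`: its `x`-coordinate is `j r`;
* `s58fsc_seam`: `d (φ P - P) = max (deg num r) (deg denom r)`.
-/

set_option autoImplicit false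

open WeierstrassCurve WeierstrassCurve.Affine Polynomial

namespace Fermat.Agent.S58

section Aeval

variable {l : ℕ} [Fact l.Prime] {k K : Type*} [Field k] [Field K] [Algebra (ZMod l) k]
  [Algebra (ZMod l) K] [Algebra k K] [IsScalarTower (ZMod l) k K]

/-- evaluating a polynomial over `ZMod l` at `j X` factors through `j` -/
theorem s58fsc_aeval (j : RatFunc k →+* K) (hjC : ∀ c : k, j (RatFunc.C c) = algebraMap k K c)
    (p : (ZMod l)[X]) :
    aeval (j RatFunc.X) p = j (algebraMap k[X] (RatFunc k) (p.map (algebraMap (ZMod l) k))) := by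
  induction p using Polynomial.induction_on' with
  | add p q hp hq => rw [map_add, Polynomial.map_add, map_add, map_add, hp, hq]
  | monomial n a =>
    rw [aeval_monomial, Polynomial.map_monomial, ← C_mul_X_pow_eq_monomial, map_mul, map_pow,
      map_mul, map_pow, RatFunc.algebraMap_C, RatFunc.algebraMap_X, hjC,
      ← IsScalarTower.algebraMap_apply]

omit [Fact l.Prime] [Algebra (ZMod l) k] in
/-- `X ^ l ≠ X` in `RatFunc k` -/
theorem s58fsc_X_pow_ne (l : ℕ) (hl : 2 ≤ l) : (RatFunc.X : RatFunc k) ^ l ≠ RatFunc.X := by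
  intro h
  have h2 : algebraMap k[X] (RatFunc k) (X ^ l) = algebraMap k[X] (RatFunc k) X := by
    rw [map_pow, RatFunc.algebraMap_X, h]
  have h3 := congrArg natDegree (IsFractionRing.injective k[X] (RatFunc k) h2)
  rw [natDegree_X_pow, natDegree_X] at h3
  omega

end Aeval

section Seam

variable (l : ℕ) [Fact l.Prime] (W : WeierstrassCurve (ZMod l))
  (k : Type*) [Field k] [Algebra (ZMod l) k]
  (K : Type*) [Field K] [DecidableEq K] [Algebra (ZMod l) K] [Algebra k K]
  [IsScalarTower (ZMod l) k K]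
  (j : RatFunc k →+* K)

omit [Algebra (ZMod l) k] [Algebra k K] [IsScalarTower (ZMod l) k K] [DecidableEq K]
  [Algebra (ZMod l) K] in
/-- `(j X) ^ l ≠ j X` -/
theorem s58fsc_x_ne : (j RatFunc.X) ^ l ≠ j RatFunc.X := by
  intro h
  rw [← map_pow] at h
  exact s58fsc_X_pow_ne l (Fact.out : l.Prime).two_le (j.injective h)

omit [Algebra (ZMod l) k] [Algebra k K] [IsScalarTower (ZMod l) k K] in
/-- `φ P - P` is the affine point with `x`-coordinate `addX ..` -/
theorem s58fsc_sub_some (Y : K) (hXY : (W⁄K).Nonsingular (j RatFunc.X) Y) :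
    ∃ (h'' : (W⁄K).Nonsingular
        ((W⁄K).addX ((j RatFunc.X) ^ l) (j RatFunc.X)
          ((W⁄K).slope ((j RatFunc.X) ^ l) (j RatFunc.X) (Y ^ l) ((W⁄K).negY (j RatFunc.X) Y)))
        ((W⁄K).addY ((j RatFunc.X) ^ l) (j RatFunc.X) (Y ^ l)
          ((W⁄K).slope ((j RatFunc.X) ^ l) (j RatFunc.X) (Y ^ l) ((W⁄K).negY (j RatFunc.X) Y)))),
      Point.map (FiniteField.frobeniusAlgHom (ZMod l) K) (Point.some _ _ hXY) - Point.some _ _ hXY
        = Point.some _ _ h'' := by
  obtain ⟨h', e⟩ := s58f3_frob_some W hXY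
  have e' : Point.map (W' := W) (FiniteField.frobeniusAlgHom (ZMod l) K) (Point.some _ _ hXY)
      = Point.some _ _ h' := e
  have hxne := s58fsc_x_ne l k K j
  rw [e', sub_eq_add_neg, Point.neg_some, Point.add_some (fun hh => hxne hh.1)]
  exact ⟨_, rfl⟩

/-- the `x`-coordinate of `φ P - P` is `j r` for `r = N / (X ^ l - X) ^ 2` -/
theorem s58fsc_x (hjC : ∀ c : k, j (RatFunc.C c) = algebraMap k K c) (Y : K)
    (hXY : (W⁄K).Nonsingular (j RatFunc.X) Y) (r : RatFunc k)
    (hr : r * (RatFunc.X ^ l - RatFunc.X) ^ 2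
      = algebraMap k[X] (RatFunc k) ((s58fnN W).map (algebraMap (ZMod l) k))) :
    j r = (W⁄K).addX ((j RatFunc.X) ^ l) (j RatFunc.X)
          ((W⁄K).slope ((j RatFunc.X) ^ l) (j RatFunc.X) (Y ^ l) ((W⁄K).negY (j RatFunc.X) Y)) := by
  have hxne := s58fsc_x_ne l k K j
  have hD : ((j RatFunc.X) ^ l - j RatFunc.X) ^ 2 ≠ 0 := pow_ne_zero 2 (sub_ne_zero.mpr hxne)
  rw [s58fn_addX W (j RatFunc.X) Y hXY.1 hxne, s58fsc_aeval j hjC, ← hr, map_mul, map_pow,
    map_sub, map_pow, mul_div_cancel_right₀ _ hD]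

/-- **the seam of (D7)**: `d (φ P - P)` is the degree of `r = N / (X ^ l - X) ^ 2`. -/
theorem s58fsc_seam (hjC : ∀ c : k, j (RatFunc.C c) = algebraMap k K c) (Y : K)
    (hXY : (W⁄K).Nonsingular (j RatFunc.X) Y) (d : (W⁄K).Point → ℤ)
    (hd : ∀ (x y : K) (h : (W⁄K).Nonsingular x y) (r : RatFunc k), j r = x →
      d (Point.some x y h) = ((max r.num.natDegree r.denom.natDegree : ℕ) : ℤ))
    (r : RatFunc k)
    (hr : r * (RatFunc.X ^ l - RatFunc.X) ^ 2
      = algebraMap k[X] (RatFunc k) ((s58fnN W).map (algebraMap (ZMod l) k))) :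
    d (Point.map (FiniteField.frobeniusAlgHom (ZMod l) K) (Point.some _ _ hXY)
        - Point.some _ _ hXY)
      = ((max r.num.natDegree r.denom.natDegree : ℕ) : ℤ) := by
  obtain ⟨h'', e⟩ := s58fsc_sub_some l W k K j Y hXY
  rw [e]
  exact hd _ _ h'' r (s58fsc_x l W k K j hjC Y hXY r hr)

/-- the canonical rational function `N / (X ^ l - X) ^ 2` of the seam -/
noncomputable def s58fscR : RatFunc k :=
  algebraMap k[X] (RatFunc k) ((s58fnN W).map (algebraMap (ZMod l) k))
    / algebraMap k[X] (RatFunc k) ((X ^ l - X) ^ 2)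

theorem s58fscR_def : s58fscR l W k =
    algebraMap k[X] (RatFunc k) ((s58fnN W).map (algebraMap (ZMod l) k))
      / algebraMap k[X] (RatFunc k) ((X ^ l - X) ^ 2) := rfl

theorem s58fscR_spec :
    s58fscR l W k * (RatFunc.X ^ l - RatFunc.X) ^ 2
      = algebraMap k[X] (RatFunc k) ((s58fnN W).map (algebraMap (ZMod l) k)) := by
  have h : (RatFunc.X ^ l - RatFunc.X : RatFunc k) ^ 2 ≠ 0 :=
    pow_ne_zero 2 (sub_ne_zero.mpr (s58fsc_X_pow_ne l (Fact.out : l.Prime).two_le))
  rw [s58fscR_def, map_pow, map_sub, map_pow, RatFunc.algebraMap_X, div_mul_cancel₀ _ h]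

/-- the seam with the count of the degree of `N / (X ^ l - X) ^ 2` as a hypothesis -/
theorem s58fsc_seam_of_count (hjC : ∀ c : k, j (RatFunc.C c) = algebraMap k K c) (Y : K)
    (hXY : (W⁄K).Nonsingular (j RatFunc.X) Y) (d : (W⁄K).Point → ℤ)
    (hd : ∀ (x y : K) (h : (W⁄K).Nonsingular x y) (r : RatFunc k), j r = x →
      d (Point.some x y h) = ((max r.num.natDegree r.denom.natDegree : ℕ) : ℤ))
    (n : ℕ)
    (hcount : max (s58fscR l W k).num.natDegree (s58fscR l W k).denom.natDegree = n) :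
    d (Point.map (FiniteField.frobeniusAlgHom (ZMod l) K) (Point.some _ _ hXY)
        - Point.some _ _ hXY) = (n : ℤ) := by
  rw [s58fsc_seam l W k K j hjC Y hXY d hd _ (s58fscR_spec l W k), hcount]

end Seam

end Fermat.Agent.S58
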