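import Mathlib

/-!
# S58, E-side: the polynomial identities of the degree argument

`W` a Weierstrass curve, `ψ = 4X³ + b₂X² + 2b₄X + b₆` (`= W.Ψ₂Sq`), `φ = X⁴ - b₄X² - 2b₆X - b₈`
(`= W.Φ 2`, the numerator of the duplication formula).

* `s58pi_bezout_eval`, `s58pi_bezout`, `s58pi_bezout_phi` : the explicit Bezout identity
  `(12X³ - b₂X² - 10b₄X + b₂b₄ - 27b₆) ψ + (-48X² - 8b₂X + b₂² - 32b₄) φ = Δ`;
* `s58pi_no_common_root` : `ψ` and `φ` have no common root when `Δ ≠ 0`;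
* `s58pi_forms` : the three quadratic forms `u² - 4tv`, `2uv + b₂tv + b₄tu + b₆t²`,
  `v² - b₄tv - b₆tu - b₈t²` have no common projective zero when `Δ ≠ 0` (algebraically closed
  field);
* `s58pi_sum`, `s58pi_prod` : for two affine points with `x₁ ≠ x₂`, `s = x(P + Q)`,
  `t = x(P - Q)`, `u = x₁ + x₂`, `v = x₁x₂`:
  `(x₁ - x₂)² (s + t) = 2uv + b₂v + b₄u + b₆` and `(x₁ - x₂)² s t = v² - b₄v - b₆u - b₈`;
* `s58pi_psi`, `s58pi_dbl` : `(y - negY)² = ψ(x)` and `ψ(x) x(2P) = φ(x)`.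
-/

set_option autoImplicit false

open Polynomial

namespace Fermat.Agent.S58

section Ring

variable {R : Type*} [CommRing R] (W : WeierstrassCurve R)

/-- the Bezout identity for `ψ₂²` and the duplication numerator, evaluated -/
theorem s58pi_bezout_eval (x : R) :
    (12 * x ^ 3 - W.b₂ * x ^ 2 - 10 * W.b₄ * x + (W.b₂ * W.b₄ - 27 * W.b₆)) *
        (4 * x ^ 3 + W.b₂ * x ^ 2 + 2 * W.b₄ * x + W.b₆) +
      (-48 * x ^ 2 - 8 * W.b₂ * x + (W.b₂ ^ 2 - 32 * W.b₄)) *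
        (x ^ 4 - W.b₄ * x ^ 2 - 2 * W.b₆ * x - W.b₈) = W.Δ := by
  simp only [WeierstrassCurve.Δ, WeierstrassCurve.b₂, WeierstrassCurve.b₄, WeierstrassCurve.b₆,
    WeierstrassCurve.b₈]
  ring

/-- the Bezout identity for `ψ₂²` and the duplication numerator, in `R[X]` -/
theorem s58pi_bezout :
    (12 * X ^ 3 - C W.b₂ * X ^ 2 - 10 * C W.b₄ * X + C (W.b₂ * W.b₄ - 27 * W.b₆)) * W.Ψ₂Sq +
      (-48 * X ^ 2 - 8 * C W.b₂ * X + C (W.b₂ ^ 2 - 32 * W.b₄)) *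
        (X ^ 4 - C W.b₄ * X ^ 2 - C (2 * W.b₆) * X - C W.b₈) = C W.Δ := by
  have h := s58pi_bezout_eval (W.map (C : R →+* R[X])) (X : R[X])
  simp only [WeierstrassCurve.map_b₂, WeierstrassCurve.map_b₄, WeierstrassCurve.map_b₆,
    WeierstrassCurve.map_b₈, WeierstrassCurve.map_Δ] at h
  rw [← h, WeierstrassCurve.Ψ₂Sq]
  simp only [map_mul, map_sub, map_pow, map_ofNat]

/-- the Bezout identity for `W.ΨSq 2` and `W.Φ 2` -/
theorem s58pi_bezout_phi :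
    (12 * X ^ 3 - C W.b₂ * X ^ 2 - 10 * C W.b₄ * X + C (W.b₂ * W.b₄ - 27 * W.b₆)) * W.ΨSq 2 +
      (-48 * X ^ 2 - 8 * C W.b₂ * X + C (W.b₂ ^ 2 - 32 * W.b₄)) * W.Φ 2 = C W.Δ := by
  rw [WeierstrassCurve.ΨSq_two, WeierstrassCurve.Φ_two]
  exact s58pi_bezout W

end Ring

section Field

variable {F : Type*} [Field F] (W : WeierstrassCurve F)

/-- `ψ₂²` and the duplication numerator have no common root when `Δ ≠ 0` -/
theorem s58pi_no_common_root (hΔ : W.Δ ≠ 0) (x : F)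
    (h1 : 4 * x ^ 3 + W.b₂ * x ^ 2 + 2 * W.b₄ * x + W.b₆ = 0)
    (h2 : x ^ 4 - W.b₄ * x ^ 2 - 2 * W.b₆ * x - W.b₈ = 0) : False := by
  apply hΔ
  rw [← s58pi_bezout_eval W x, h1, h2, mul_zero, mul_zero, add_zero]

/-- the three quadratic forms of the parallelogram law have no common projective zero when
`Δ ≠ 0` -/
theorem s58pi_forms [IsAlgClosed F] (hΔ : W.Δ ≠ 0) (t u v : F)
    (h0 : u ^ 2 - 4 * t * v = 0)
    (h1 : 2 * u * v + W.b₂ * t * v + W.b₄ * t * u + W.b₆ * t ^ 2 = 0)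
    (h2 : v ^ 2 - W.b₄ * t * v - W.b₆ * t * u - W.b₈ * t ^ 2 = 0) :
    t = 0 ∧ u = 0 ∧ v = 0 := by
  by_cases ht : t = 0
  · subst ht
    have hu : u = 0 := by
      have : u ^ 2 = 0 := by linear_combination h0
      exact pow_eq_zero_iff (two_ne_zero) |>.mp this
    subst hu
    have hv : v = 0 := by
      have : v ^ 2 = 0 := by linear_combination h2
      exact pow_eq_zero_iff (two_ne_zero) |>.mp this
    exact ⟨rfl, rfl, hv⟩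
  · exfalso
    obtain ⟨x₀, hx₀⟩ := IsAlgClosed.exists_pow_nat_eq (v / t) (n := 2) (by norm_num)
    -- choose the sign of the square root so that `2 x = u / t`
    obtain ⟨x, hx2, hxu⟩ : ∃ x : F, x ^ 2 = v / t ∧ 2 * x = u / t := by
      have h : (u / t - 2 * x₀) * (u / t + 2 * x₀) = 0 := by
        have e : (u / t - 2 * x₀) * (u / t + 2 * x₀) = (u ^ 2 - 4 * t * v) / t ^ 2 := by
          have hx₀' : x₀ ^ 2 * t = v := by rw [hx₀]; field_simp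
          field_simp
          linear_combination (-4 * t) * hx₀'
        rw [e, h0, zero_div]
      rcases mul_eq_zero.mp h with h | h
      · exact ⟨x₀, hx₀, by linear_combination -h⟩
      · exact ⟨-x₀, by rw [neg_pow_two, hx₀], by linear_combination -h⟩
    have hv : v = x ^ 2 * t := by rw [hx2]; field_simp
    have hu : u = 2 * x * t := by rw [hxu]; field_simp
    refine s58pi_no_common_root W hΔ x ?_ ?_
    · have e : (4 * x ^ 3 + W.b₂ * x ^ 2 + 2 * W.b₄ * x + W.b₆) * t ^ 2 = 0 := by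
        rw [← h1, hv, hu]
        ring
      exact (mul_eq_zero.mp e).resolve_right (pow_ne_zero 2 ht)
    · have e : (x ^ 4 - W.b₄ * x ^ 2 - 2 * W.b₆ * x - W.b₈) * t ^ 2 = 0 := by
        rw [← h2, hv, hu]
        ring
      exact (mul_eq_zero.mp e).resolve_right (pow_ne_zero 2 ht)

variable {x₁ x₂ y₁ y₂ : F}

/-- `(x₁ - x₂)² (x(P + Q) + x(P - Q)) = 2uv + b₂v + b₄u + b₆` -/
theorem s58pi_sum [DecidableEq F] (h₁ : W.toAffine.Equation x₁ y₁) (h₂ : W.toAffine.Equation x₂ y₂)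
    (hx : x₁ ≠ x₂) :
    (x₁ - x₂) ^ 2 * (W.toAffine.addX x₁ x₂ (W.toAffine.slope x₁ x₂ y₁ y₂) +
      W.toAffine.addX x₁ x₂ (W.toAffine.slope x₁ x₂ y₁ (W.toAffine.negY x₂ y₂))) =
      2 * (x₁ + x₂) * (x₁ * x₂) + W.b₂ * (x₁ * x₂) + W.b₄ * (x₁ + x₂) + W.b₆ := by
  have hd : x₁ - x₂ ≠ 0 := sub_ne_zero.mpr hx
  rw [WeierstrassCurve.Affine.equation_iff] at h₁ h₂
  rw [WeierstrassCurve.Affine.slope_of_X_ne hx, WeierstrassCurve.Affine.slope_of_X_ne hx]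
  simp only [WeierstrassCurve.Affine.addX, WeierstrassCurve.Affine.negY, WeierstrassCurve.b₂,
    WeierstrassCurve.b₄, WeierstrassCurve.b₆]
  field_simp
  linear_combination 2 * h₁ + 2 * h₂

/-- `(x₁ - x₂)² x(P + Q) x(P - Q) = v² - b₄v - b₆u - b₈` -/
theorem s58pi_prod [DecidableEq F] (h₁ : W.toAffine.Equation x₁ y₁) (h₂ : W.toAffine.Equation x₂ y₂)
    (hx : x₁ ≠ x₂) :
    (x₁ - x₂) ^ 2 * (W.toAffine.addX x₁ x₂ (W.toAffine.slope x₁ x₂ y₁ y₂) *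
      W.toAffine.addX x₁ x₂ (W.toAffine.slope x₁ x₂ y₁ (W.toAffine.negY x₂ y₂))) =
      (x₁ * x₂) ^ 2 - W.b₄ * (x₁ * x₂) - W.b₆ * (x₁ + x₂) - W.b₈ := by
  have hd : x₁ - x₂ ≠ 0 := sub_ne_zero.mpr hx
  rw [WeierstrassCurve.Affine.equation_iff] at h₁ h₂
  rw [WeierstrassCurve.Affine.slope_of_X_ne hx, WeierstrassCurve.Affine.slope_of_X_ne hx]
  simp only [WeierstrassCurve.Affine.addX, WeierstrassCurve.Affine.negY, WeierstrassCurve.b₄,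
    WeierstrassCurve.b₆, WeierstrassCurve.b₈]
  have key : ((y₁ - y₂) ^ 2 + W.a₁ * (y₁ - y₂) * (x₁ - x₂) - (W.a₂ + x₁ + x₂) * (x₁ - x₂) ^ 2) *
      ((y₁ - (-y₂ - W.a₁ * x₂ - W.a₃)) ^ 2 + W.a₁ * (y₁ - (-y₂ - W.a₁ * x₂ - W.a₃)) * (x₁ - x₂) -
        (W.a₂ + x₁ + x₂) * (x₁ - x₂) ^ 2) =
      (x₁ - x₂) ^ 2 * ((x₁ * x₂) ^ 2 - (2 * W.a₄ + W.a₁ * W.a₃) * (x₁ * x₂) -
        (W.a₃ ^ 2 + 4 * W.a₆) * (x₁ + x₂) -
        (W.a₁ ^ 2 * W.a₆ + 4 * W.a₂ * W.a₆ - W.a₁ * W.a₃ * W.a₄ + W.a₂ * W.a₃ ^ 2 - W.a₄ ^ 2)) := by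
    linear_combination
      (-x₁^3 + 2*x₁^2*x₂ - x₁^2*W.a₂ + 2*x₁*x₂^2 + x₁*x₂*W.a₁^2 + 4*x₁*x₂*W.a₂ + x₁*y₁*W.a₁
        + x₁*W.a₁*W.a₃ + x₁*W.a₄ - 2*x₂^3 - x₂^2*W.a₁^2 - 2*x₂^2*W.a₂ - 2*x₂*y₂*W.a₁
        - x₂*W.a₁*W.a₃ + y₁^2 + y₁*W.a₃ - 2*y₂^2 - 2*y₂*W.a₃ + W.a₆) * h₁ +
      (-4*x₁^3 + 2*x₁^2*x₂ - x₁^2*W.a₁^2 - 4*x₁^2*W.a₂ + 2*x₁*x₂^2 + x₁*x₂*W.a₁^2
        + 4*x₁*x₂*W.a₂ - x₁*W.a₁*W.a₃ - 2*x₁*W.a₄ - x₂^3 - x₂^2*W.a₂ + x₂*y₂*W.a₁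
        + x₂*W.a₁*W.a₃ + x₂*W.a₄ + y₂^2 + y₂*W.a₃ - W.a₆) * h₂
  have e : ∀ ℓ : F, ℓ ^ 2 + W.a₁ * ℓ - W.a₂ - x₁ - x₂ =
      ((ℓ * (x₁ - x₂)) ^ 2 + W.a₁ * (ℓ * (x₁ - x₂)) * (x₁ - x₂) -
        (W.a₂ + x₁ + x₂) * (x₁ - x₂) ^ 2) / (x₁ - x₂) ^ 2 := by
    intro ℓ
    field_simp
    ring
  rw [e, e, div_mul_cancel₀ _ hd, div_mul_cancel₀ _ hd, div_mul_div_comm, key]
  field_simp

/-- `(y - negY x y)² = ψ₂²(x)` on the curve -/
theorem s58pi_psi {x y : F} (h : W.toAffine.Equation x y) :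
    (y - W.toAffine.negY x y) ^ 2 = 4 * x ^ 3 + W.b₂ * x ^ 2 + 2 * W.b₄ * x + W.b₆ := by
  rw [WeierstrassCurve.Affine.equation_iff] at h
  simp only [WeierstrassCurve.Affine.negY, WeierstrassCurve.b₂, WeierstrassCurve.b₄,
    WeierstrassCurve.b₆]
  linear_combination 4 * h

/-- the duplication formula: `ψ₂²(x) x(2P) = x⁴ - b₄x² - 2b₆x - b₈` -/
theorem s58pi_dbl [DecidableEq F] {x y : F} (h : W.toAffine.Equation x y) (hy : y ≠ W.toAffine.negY x y) :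
    (4 * x ^ 3 + W.b₂ * x ^ 2 + 2 * W.b₄ * x + W.b₆) *
      W.toAffine.addX x x (W.toAffine.slope x x y y) =
      x ^ 4 - W.b₄ * x ^ 2 - 2 * W.b₆ * x - W.b₈ := by
  have hd : y - W.toAffine.negY x y ≠ 0 := sub_ne_zero.mpr hy
  rw [← s58pi_psi W h, WeierstrassCurve.Affine.slope_of_Y_ne rfl hy]
  rw [WeierstrassCurve.Affine.equation_iff] at h
  simp only [WeierstrassCurve.Affine.addX, WeierstrassCurve.Affine.negY, WeierstrassCurve.b₄,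
    WeierstrassCurve.b₆, WeierstrassCurve.b₈] at hd ⊢
  field_simp
  linear_combination (-8 * x - W.a₁ ^ 2 - 4 * W.a₂) * h

end Field

end Fermat.Agent.S58
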