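import Mathlib
import Fermat.Agent.S58.PolyId

/-!
# S58 (D1), model-independent core: the exact parallelogram law for the degree of `x`

`k` a field, `W_k` a Weierstrass curve over `k`, `K` a field with a ring hom
`j : RatFunc k → K`, `W'` a Weierstrass curve over `K` whose `b`-invariants are the images of
those of `W_k`.  `G` is a subgroup of the points of `W'` over `K` all of whose affine points have
their `x`-coordinate in `j (RatFunc k)`, and `d` is the function "degree of the `x`-coordinate"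
(`d 0 = 0`, `d (x, y) = deg r` when `x = j r`), for a degree function `deg : RatFunc k → ℕ` with
the three properties

* `hroot` : `deg r = 0` when `ψ(r) = 0` (`ψ = 4X³ + b₂X² + 2b₄X + b₆`);
* `hpar`  : `deg s + deg t = 2 deg a + 2 deg b` when `a ≠ b`, `(a-b)²(s+t) = 2uv + b₂v + b₄u + b₆`,
  `(a-b)² s t = v² - b₄v - b₆u - b₈` (`u = a + b`, `v = a b`);
* `hdup`  : `deg s = 4 deg a` when `ψ(a) ≠ 0`, `ψ(a) s = a⁴ - b₄a² - 2b₆a - b₈`.

Then `d (A + B) + d (A - B) = 2 d A + 2 d B` for `A, B ∈ G` (`s58pb_core`), including all the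
degenerate cases.

Names are prefixed `s58pb`.
-/

set_option autoImplicit false

open WeierstrassCurve WeierstrassCurve.Affine

namespace Fermat.Agent.S58

section Core

variable {k K : Type*} [Field k] [Field K] [DecidableEq K]
  (Wk : WeierstrassCurve k) (j : RatFunc k →+* K) (W' : WeierstrassCurve K)
  (hb₂ : W'.b₂ = j (RatFunc.C Wk.b₂)) (hb₄ : W'.b₄ = j (RatFunc.C Wk.b₄))
  (hb₆ : W'.b₆ = j (RatFunc.C Wk.b₆)) (hb₈ : W'.b₈ = j (RatFunc.C Wk.b₈))
  (deg : RatFunc k → ℕ)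
  (hroot : ∀ r : RatFunc k,
    4 * r ^ 3 + RatFunc.C Wk.b₂ * r ^ 2 + 2 * RatFunc.C Wk.b₄ * r + RatFunc.C Wk.b₆ = 0 →
      deg r = 0)
  (hpar : ∀ a b s t : RatFunc k, a ≠ b →
    (a - b) ^ 2 * (s + t) = 2 * (a + b) * (a * b) + RatFunc.C Wk.b₂ * (a * b) +
      RatFunc.C Wk.b₄ * (a + b) + RatFunc.C Wk.b₆ →
    (a - b) ^ 2 * (s * t) = (a * b) ^ 2 - RatFunc.C Wk.b₄ * (a * b) -
      RatFunc.C Wk.b₆ * (a + b) - RatFunc.C Wk.b₈ →
    deg s + deg t = 2 * deg a + 2 * deg b)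
  (hdup : ∀ a s : RatFunc k,
    4 * a ^ 3 + RatFunc.C Wk.b₂ * a ^ 2 + 2 * RatFunc.C Wk.b₄ * a + RatFunc.C Wk.b₆ ≠ 0 →
    (4 * a ^ 3 + RatFunc.C Wk.b₂ * a ^ 2 + 2 * RatFunc.C Wk.b₄ * a + RatFunc.C Wk.b₆) * s =
      a ^ 4 - RatFunc.C Wk.b₄ * a ^ 2 - 2 * RatFunc.C Wk.b₆ * a - RatFunc.C Wk.b₈ →
    deg s = 4 * deg a)
  (G : AddSubgroup W'.toAffine.Point)
  (hG : ∀ (x y : K) (h : W'.toAffine.Nonsingular x y), Point.some x y h ∈ G →
    ∃ r : RatFunc k, j r = x)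
  (d : W'.toAffine.Point → ℤ) (hd0 : d 0 = 0)
  (hd : ∀ (x y : K) (h : W'.toAffine.Nonsingular x y) (r : RatFunc k), j r = x →
    d (Point.some x y h) = (deg r : ℤ))

include hG hd in
/-- `d (-P) = d P` -/
theorem s58pb_neg (P : W'.toAffine.Point) (hP : P ∈ G) : d (-P) = d P := by
  rcases P with _ | ⟨x, y, h⟩
  · rfl
  · obtain ⟨r, hr⟩ := hG x y h hP
    rw [Point.neg_some, hd _ _ _ r hr, hd _ _ _ r hr]

omit [DecidableEq K] in
include hb₂ hb₄ hb₆ in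
/-- `j (ψ(r)) = (y - negY)²` -/
theorem s58pb_psi {x y : K} (h : W'.toAffine.Nonsingular x y) (r : RatFunc k) (hr : j r = x) :
    j (4 * r ^ 3 + RatFunc.C Wk.b₂ * r ^ 2 + 2 * RatFunc.C Wk.b₄ * r + RatFunc.C Wk.b₆) =
      (y - W'.toAffine.negY x y) ^ 2 := by
  rw [s58pi_psi W' h.1]
  simp only [map_add, map_mul, map_pow, map_ofNat, hr, hb₂, hb₄, hb₆]

include hb₂ hb₄ hb₆ hb₈ hroot hdup hG hd hd0 in
/-- the duplication case: `d (A + A) = 4 d A` -/
theorem s58pb_dbl {x y : K} (h : W'.toAffine.Nonsingular x y) (hA : Point.some x y h ∈ G)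
    (r : RatFunc k) (hr : j r = x) :
    d (Point.some x y h + Point.some x y h) = 4 * (deg r : ℤ) := by
  have hψ := s58pb_psi Wk j W' hb₂ hb₄ hb₆ h r hr
  by_cases hy : y = W'.toAffine.negY x y
  · -- `2A = 0`
    rw [Point.add_self_of_Y_eq hy, hd0]
    have h0 : 4 * r ^ 3 + RatFunc.C Wk.b₂ * r ^ 2 + 2 * RatFunc.C Wk.b₄ * r + RatFunc.C Wk.b₆
        = 0 := by
      apply j.injective
      rw [hψ, map_zero, sub_eq_zero.mpr hy]
      ring
    rw [hroot r h0]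
    simp
  · have h2A : Point.some x y h + Point.some x y h ∈ G := G.add_mem hA hA
    rw [Point.add_self_of_Y_ne hy] at h2A ⊢
    obtain ⟨s, hs⟩ := hG _ _ _ h2A
    rw [hd _ _ _ s hs]
    have hne : 4 * r ^ 3 + RatFunc.C Wk.b₂ * r ^ 2 + 2 * RatFunc.C Wk.b₄ * r + RatFunc.C Wk.b₆
        ≠ 0 := by
      intro h0
      rw [h0, map_zero] at hψ
      exact hy (sub_eq_zero.mp ((pow_eq_zero_iff two_ne_zero).mp hψ.symm))
    have hdbl := s58pi_dbl W' h.1 hy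
    have e : (4 * r ^ 3 + RatFunc.C Wk.b₂ * r ^ 2 + 2 * RatFunc.C Wk.b₄ * r + RatFunc.C Wk.b₆) * s
        = r ^ 4 - RatFunc.C Wk.b₄ * r ^ 2 - 2 * RatFunc.C Wk.b₆ * r - RatFunc.C Wk.b₈ := by
      apply j.injective
      simp only [map_add, map_sub, map_mul, map_pow, map_ofNat, hr, hs, ← hb₂, ← hb₄, ← hb₆,
        ← hb₈]
      exact hdbl
    rw [hdup r s hne e]
    push_cast
    ring

include hb₂ hb₄ hb₆ hb₈ hroot hpar hdup hG hd hd0 in
/-- **(D1)**: the exact parallelogram law on `G`. -/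
theorem s58pb_core (A B : W'.toAffine.Point) (hA : A ∈ G) (hB : B ∈ G) :
    d (A + B) + d (A - B) = 2 * d A + 2 * d B := by
  have hz : (Point.zero : W'.toAffine.Point) = 0 := rfl
  rcases A with _ | ⟨x₁, y₁, h₁⟩
  · rw [hz, zero_add, zero_sub, s58pb_neg j W' deg G hG d hd B hB, hd0]
    ring
  rcases B with _ | ⟨x₂, y₂, h₂⟩
  · rw [hz, add_zero, sub_zero, hd0]
    ring
  obtain ⟨ra, hra⟩ := hG x₁ y₁ h₁ hA
  obtain ⟨rb, hrb⟩ := hG x₂ y₂ h₂ hB
  by_cases hx : x₁ = x₂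
  · -- `B = ± A`
    have hab : ra = rb := j.injective (by rw [hra, hrb, hx])
    have hdB : d (Point.some x₂ y₂ h₂) = d (Point.some x₁ y₁ h₁) := by
      rw [hd _ _ _ rb hrb, hd _ _ _ ra hra, hab]
    have h4 := s58pb_dbl Wk j W' hb₂ hb₄ hb₆ hb₈ deg hroot hdup G hG d hd0 hd h₁ hA ra hra
    rcases (Point.X_eq_iff (h₁ := h₁) (h₂ := h₂)).mp hx with hAB | hAB
    · rw [← hAB, sub_self, hd0, h4, hd _ _ _ ra hra]
      ring
    · have e1 : Point.some x₁ y₁ h₁ + Point.some x₂ y₂ h₂ = 0 := by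
        rw [hAB, neg_add_cancel]
      have e2 : Point.some x₁ y₁ h₁ - Point.some x₂ y₂ h₂
          = Point.some x₁ y₁ h₁ + Point.some x₁ y₁ h₁ := by
        have : Point.some x₂ y₂ h₂ = - Point.some x₁ y₁ h₁ := by rw [hAB, neg_neg]
        rw [this, sub_neg_eq_add]
      rw [e1, e2, hd0, h4, hdB, hd _ _ _ ra hra]
      ring
  · -- the generic case
    have hsumG : Point.some x₁ y₁ h₁ + Point.some x₂ y₂ h₂ ∈ G := G.add_mem hA hB
    have hsubG : Point.some x₁ y₁ h₁ - Point.some x₂ y₂ h₂ ∈ G := G.sub_mem hA hB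
    rw [sub_eq_add_neg, Point.neg_some] at hsubG ⊢
    rw [Point.add_of_X_ne hx] at hsumG hsubG ⊢
    rw [Point.add_of_X_ne hx]
    obtain ⟨s, hs⟩ := hG _ _ _ hsumG
    obtain ⟨t, ht⟩ := hG _ _ _ hsubG
    rw [hd _ _ _ s hs, hd _ _ _ t ht, hd _ _ _ ra hra, hd _ _ _ rb hrb]
    have hne : ra ≠ rb := fun h => hx (by rw [← hra, ← hrb, h])
    have hsum := s58pi_sum W' h₁.1 h₂.1 hx
    have hprod := s58pi_prod W' h₁.1 h₂.1 hx
    have e1 : (ra - rb) ^ 2 * (s + t) = 2 * (ra + rb) * (ra * rb) + RatFunc.C Wk.b₂ * (ra * rb) +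
        RatFunc.C Wk.b₄ * (ra + rb) + RatFunc.C Wk.b₆ := by
      apply j.injective
      simp only [map_add, map_sub, map_mul, map_pow, map_ofNat, hra, hrb, hs, ht, ← hb₂, ← hb₄,
        ← hb₆]
      exact hsum
    have e2 : (ra - rb) ^ 2 * (s * t) = (ra * rb) ^ 2 - RatFunc.C Wk.b₄ * (ra * rb) -
        RatFunc.C Wk.b₆ * (ra + rb) - RatFunc.C Wk.b₈ := by
      apply j.injective
      simp only [map_add, map_sub, map_mul, map_pow, hra, hrb, hs, ht, ← hb₄, ← hb₆, ← hb₈]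
      exact hprod
    have := hpar ra rb s t hne e1 e2
    have h' : ((deg s : ℤ) + deg t) = 2 * deg ra + 2 * deg rb := by exact_mod_cast this
    linarith

end Core

end Fermat.Agent.S58
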