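import Mathlib
import Fermat.Agent.S58.RatComp
import Fermat.Agent.S58.PolyId

/-!
# S58 (G-COMP, second half): degree of `R1(f)/R2(f)` and the duplication degree

`k` algebraically closed, `R1, R2 : k[X]` coprime, `f : RatFunc k` with `R2(f) ≠ 0`:
the rational function `R1(f)/R2(f)` has degree `max (deg R1) (deg R2) * deg f`
(`s58rv_aeval`; degree of a rational function = max of the degrees of numerator and
denominator, i.e. `s58rhDeg`).  Corollary (`s58rv_dup`): the duplication degree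
`deg s = 4 deg a` when `ψ₂²(a) s = a⁴ - b₄ a² - 2 b₆ a - b₈`, `ψ₂²(a) ≠ 0`, `Δ ≠ 0`.
-/

set_option autoImplicit false

namespace Fermat.Agent.S58

open Polynomial

section

variable {k : Type*} [Field k]

/-- The common core: the pair of homogenisations is a lowest-terms representation of
degree `n * m`. -/
theorem s58rv_core [IsAlgClosed k] (R1 R2 p q : k[X]) (hcopR : IsCoprime R1 R2) (hR2ne : R2 ≠ 0)
    (hcopf : IsCoprime p q) (hqne : q ≠ 0)
    (hH2 : s58rcH (max R1.natDegree R2.natDegree) R2 p q ≠ 0) :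
    max (algebraMap k[X] (RatFunc k) (s58rcH (max R1.natDegree R2.natDegree) R1 p q) /
          algebraMap k[X] (RatFunc k)
            (s58rcH (max R1.natDegree R2.natDegree) R2 p q)).num.natDegree
        (algebraMap k[X] (RatFunc k) (s58rcH (max R1.natDegree R2.natDegree) R1 p q) /
          algebraMap k[X] (RatFunc k)
            (s58rcH (max R1.natDegree R2.natDegree) R2 p q)).denom.natDegree =
      max R1.natDegree R2.natDegree * max p.natDegree q.natDegree := by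
  have hR1 : R1.natDegree ≤ max R1.natDegree R2.natDegree := le_max_left _ _
  have hR2 : R2.natDegree ≤ max R1.natDegree R2.natDegree := le_max_right _ _
  have hp : p.natDegree ≤ max p.natDegree q.natDegree := le_max_left _ _
  have hq : q.natDegree ≤ max p.natDegree q.natDegree := le_max_right _ _
  have hRtop := s58rc_top R1 R2 hR2ne
  have hptop := s58rc_top p q hqne
  generalize max R1.natDegree R2.natDegree = n at hR1 hR2 hRtop hH2 ⊢
  generalize max p.natDegree q.natDegree = m at hp hq hptop ⊢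
  have hroot : ∀ x : k, (s58rcH n R1 p q).eval x ≠ 0 ∨ (s58rcH n R2 p q).eval x ≠ 0 := by
    intro x
    rw [s58rc_eval_H, s58rc_eval_H]
    exact s58rc_h_ne n R1 R2 hcopR hR1 hR2 hRtop _ _ (s58rc_eval_ne hcopf x)
  have hcopH : IsCoprime (s58rcH n R1 p q) (s58rcH n R2 p q) := by
    refine (Polynomial.isCoprime_iff_aeval_ne_zero_of_isAlgClosed k k _ _).mpr ?_
    intro a
    simpa [coe_aeval_eq_eval] using hroot a
  have hdeg1 := s58rc_natDegree_H n m R1 p q hp hq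
  have hdeg2 := s58rc_natDegree_H n m R2 p q hp hq
  have htopH : (s58rcH n R1 p q).coeff (n * m) ≠ 0 ∨ (s58rcH n R2 p q).coeff (n * m) ≠ 0 := by
    rw [s58rc_coeff_H n m _ _ _ hp hq, s58rc_coeff_H n m _ _ _ hp hq]
    exact s58rc_h_ne n R1 R2 hcopR hR1 hR2 hRtop _ _ hptop
  have hmax : max (s58rcH n R1 p q).natDegree (s58rcH n R2 p q).natDegree = n * m := by
    apply le_antisymm (max_le hdeg1 hdeg2)
    rcases htopH with h | h
    · exact (le_natDegree_of_ne_zero h).trans (le_max_left _ _)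
    · exact (le_natDegree_of_ne_zero h).trans (le_max_right _ _)
  have hu := s58rc_unique
    (RatFunc.isCoprime_num_denom (algebraMap k[X] (RatFunc k) (s58rcH n R1 p q) /
      algebraMap k[X] (RatFunc k) (s58rcH n R2 p q))) hcopH
    ((RatFunc.num_mul_eq_mul_denom_iff hH2).mpr rfl)
  rw [hu.1, hu.2, hmax]

theorem s58rv_aeval_eq (f : RatFunc k) (n : ℕ) (R : k[X]) (hR : R.natDegree ≤ n) :
    aeval f R = algebraMap k[X] (RatFunc k) (s58rcH n R f.num f.denom) /
      algebraMap k[X] (RatFunc k) f.denom ^ n := by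
  rw [← s58rc_sum_eq, aeval_eq_sum_range' (Nat.lt_succ_of_le hR)]
  apply Finset.sum_congr rfl
  intro j _
  rw [Algebra.smul_def, RatFunc.algebraMap_eq_C]

/-- **Degree of `R1(f)/R2(f)`** for coprime `R1, R2`. -/
theorem s58rv_aeval [IsAlgClosed k] (R1 R2 : k[X]) (hcop : IsCoprime R1 R2) (f : RatFunc k)
    (h2 : aeval f R2 ≠ 0) :
    max (aeval f R1 / aeval f R2).num.natDegree (aeval f R1 / aeval f R2).denom.natDegree =
      max R1.natDegree R2.natDegree * max f.num.natDegree f.denom.natDegree := by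
  have hR2 : R2 ≠ 0 := by
    rintro rfl
    simp at h2
  have e1 := s58rv_aeval_eq f (max R1.natDegree R2.natDegree) R1 (le_max_left _ _)
  have e2 := s58rv_aeval_eq f (max R1.natDegree R2.natDegree) R2 (le_max_right _ _)
  have hQ : algebraMap k[X] (RatFunc k) f.denom ≠ 0 :=
    RatFunc.algebraMap_ne_zero (RatFunc.denom_ne_zero f)
  have hH2 : s58rcH (max R1.natDegree R2.natDegree) R2 f.num f.denom ≠ 0 := by
    intro h0
    rw [e2, h0] at h2
    simp at h2
  have hH2' : algebraMap k[X] (RatFunc k)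
      (s58rcH (max R1.natDegree R2.natDegree) R2 f.num f.denom) ≠ 0 :=
    RatFunc.algebraMap_ne_zero hH2
  have e : aeval f R1 / aeval f R2 =
      algebraMap k[X] (RatFunc k) (s58rcH (max R1.natDegree R2.natDegree) R1 f.num f.denom) /
        algebraMap k[X] (RatFunc k) (s58rcH (max R1.natDegree R2.natDegree) R2 f.num f.denom) := by
    rw [e1, e2]
    field_simp
  rw [e]
  exact s58rv_core R1 R2 f.num f.denom hcop hR2 (RatFunc.isCoprime_num_denom f)
    (RatFunc.denom_ne_zero f) hH2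

/-- **Duplication degree**: `deg x(2A) = 4 deg x(A)`. -/
theorem s58rv_dup [IsAlgClosed k] (W : WeierstrassCurve k) (hΔ : W.Δ ≠ 0) (a s : RatFunc k)
    (hψ : 4 * a ^ 3 + RatFunc.C W.b₂ * a ^ 2 + 2 * RatFunc.C W.b₄ * a + RatFunc.C W.b₆ ≠ 0)
    (hdup : (4 * a ^ 3 + RatFunc.C W.b₂ * a ^ 2 + 2 * RatFunc.C W.b₄ * a + RatFunc.C W.b₆) * s =
      a ^ 4 - RatFunc.C W.b₄ * a ^ 2 - 2 * RatFunc.C W.b₆ * a - RatFunc.C W.b₈) :
    max s.num.natDegree s.denom.natDegree = 4 * max a.num.natDegree a.denom.natDegree := by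
  have hcop : IsCoprime (X ^ 4 - C W.b₄ * X ^ 2 - C (2 * W.b₆) * X - C W.b₈ : k[X]) W.Ψ₂Sq := by
    have hb := s58pi_bezout W
    refine ⟨C W.Δ⁻¹ * (-48 * X ^ 2 - 8 * C W.b₂ * X + C (W.b₂ ^ 2 - 32 * W.b₄)),
      C W.Δ⁻¹ * (12 * X ^ 3 - C W.b₂ * X ^ 2 - 10 * C W.b₄ * X + C (W.b₂ * W.b₄ - 27 * W.b₆)), ?_⟩
    calc _ = C W.Δ⁻¹ * ((12 * X ^ 3 - C W.b₂ * X ^ 2 - 10 * C W.b₄ * X
              + C (W.b₂ * W.b₄ - 27 * W.b₆)) * W.Ψ₂Sq +
            (-48 * X ^ 2 - 8 * C W.b₂ * X + C (W.b₂ ^ 2 - 32 * W.b₄)) *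
              (X ^ 4 - C W.b₄ * X ^ 2 - C (2 * W.b₆) * X - C W.b₈)) := by ring
      _ = C W.Δ⁻¹ * C W.Δ := by rw [hb]
      _ = 1 := by rw [← C_mul, inv_mul_cancel₀ hΔ, C_1]
  have hd1 : (X ^ 4 - C W.b₄ * X ^ 2 - C (2 * W.b₆) * X - C W.b₈ : k[X]).natDegree = 4 := by
    compute_degree!
  have hd2 : (W.Ψ₂Sq).natDegree ≤ 3 := by
    rw [WeierstrassCurve.Ψ₂Sq]
    compute_degree
  have hC2 : (RatFunc.C (2 : k) : RatFunc k) = 2 := map_ofNat _ 2
  have hC4 : (RatFunc.C (4 : k) : RatFunc k) = 4 := map_ofNat _ 4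
  have ea1 : aeval a (X ^ 4 - C W.b₄ * X ^ 2 - C (2 * W.b₆) * X - C W.b₈ : k[X]) =
      a ^ 4 - RatFunc.C W.b₄ * a ^ 2 - 2 * RatFunc.C W.b₆ * a - RatFunc.C W.b₈ := by
    simp [RatFunc.algebraMap_eq_C, hC2]
  have ea2 : aeval a W.Ψ₂Sq =
      4 * a ^ 3 + RatFunc.C W.b₂ * a ^ 2 + 2 * RatFunc.C W.b₄ * a + RatFunc.C W.b₆ := by
    simp [WeierstrassCurve.Ψ₂Sq, RatFunc.algebraMap_eq_C, hC2, hC4]
  have hs : s = aeval a (X ^ 4 - C W.b₄ * X ^ 2 - C (2 * W.b₆) * X - C W.b₈ : k[X]) /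
      aeval a W.Ψ₂Sq := by
    rw [ea1, ea2, eq_div_iff hψ, mul_comm]
    exact hdup
  have key := s58rv_aeval _ _ hcop a (by rw [ea2]; exact hψ)
  rw [← hs] at key
  rw [key, hd1, max_eq_left (by omega)]

end

end Fermat.Agent.S58
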