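/-
S58 (stage 7), team GENERIC, leaf [G-HEIGHT] (prefix `s58rh_`): the rational-function height core
of the exact parallelogram law (D1).  Mathlib only.

`s58rhDeg x` = degree of the rational function `x ∈ k(X)` (max of the degrees of numerator and
denominator).  For `a, b, s, t ∈ k(X)` satisfying the two symmetric addition identities of a
Weierstrass curve with `Δ ≠ 0` (`s = x(A+B)`, `t = x(A-B)`, `a = x_A`, `b = x_B`):
`deg s + deg t = 2 deg a + 2 deg b` (`s58rh_para`); duplication: `deg s = 4 deg a`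
(`s58rh_dup`).
-/
import Mathlib

set_option autoImplicit false

noncomputable section

open Polynomial

namespace Fermat.Agent.S58

variable {k : Type*} [Field k]

/-! ### Coprime triples of polynomials -/

/-- the height of a triple of polynomials -/
def s58rhH3 (p q r : k[X]) : ℕ := max (max p.natDegree q.natDegree) r.natDegree

/-- no common root -/
def s58rhNcr (p q r : k[X]) : Prop := ∀ x : k, ¬ (p.eval x = 0 ∧ q.eval x = 0 ∧ r.eval x = 0)

theorem s58rh_H3_le {p q r : k[X]} {D : ℕ} (hp : p.natDegree ≤ D) (hq : q.natDegree ≤ D)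
    (hr : r.natDegree ≤ D) : s58rhH3 p q r ≤ D :=
  max_le (max_le hp hq) hr

theorem s58rh_le_H3 (p q r : k[X]) :
    p.natDegree ≤ s58rhH3 p q r ∧ q.natDegree ≤ s58rhH3 p q r ∧ r.natDegree ≤ s58rhH3 p q r :=
  ⟨le_trans (le_max_left _ _) (le_max_left _ _), le_trans (le_max_right _ _) (le_max_left _ _),
    le_max_right _ _⟩

/-- a polynomial of degree at most `D` with nonzero coefficient at `D` has degree `D` -/
theorem s58rh_natDegree_of_coeff {p : k[X]} {D : ℕ} (hp : p.natDegree ≤ D) (h : p.coeff D ≠ 0) :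
    p.natDegree = D :=
  le_antisymm hp (le_natDegree_of_ne_zero h)

/-- one of the top coefficients of a nonzero triple is nonzero -/
theorem s58rh_top3 (p q r : k[X]) (h : ¬ (p = 0 ∧ q = 0 ∧ r = 0)) :
    p.coeff (s58rhH3 p q r) ≠ 0 ∨ q.coeff (s58rhH3 p q r) ≠ 0 ∨ r.coeff (s58rhH3 p q r) ≠ 0 := by
  obtain ⟨hp, hq, hr⟩ := s58rh_le_H3 p q r
  by_cases hD : s58rhH3 p q r = 0
  · rw [hD] at hp hq hr ⊢
    by_contra hcon
    rw [not_or, not_or, not_not, not_not, not_not] at hcon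
    obtain ⟨h1, h2, h3⟩ := hcon
    apply h
    refine ⟨?_, ?_, ?_⟩
    · rw [eq_C_of_natDegree_le_zero hp, h1, C_0]
    · rw [eq_C_of_natDegree_le_zero hq, h2, C_0]
    · rw [eq_C_of_natDegree_le_zero hr, h3, C_0]
  · -- the maximum is attained by a polynomial of positive degree
    have hmax : p.natDegree = s58rhH3 p q r ∨ q.natDegree = s58rhH3 p q r ∨
        r.natDegree = s58rhH3 p q r := by
      unfold s58rhH3
      rcases max_choice (max p.natDegree q.natDegree) r.natDegree with h1 | h1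
      · rcases max_choice p.natDegree q.natDegree with h2 | h2
        · left; rw [h1, h2]
        · right; left; rw [h1, h2]
      · right; right; rw [h1]
    rcases hmax with h1 | h1 | h1
    · left
      rw [← h1]
      have hp0 : p ≠ 0 := by
        rintro rfl
        rw [natDegree_zero] at h1
        exact hD h1.symm
      exact leadingCoeff_ne_zero.mpr hp0
    · right; left
      rw [← h1]
      have hq0 : q ≠ 0 := by
        rintro rfl
        rw [natDegree_zero] at h1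
        exact hD h1.symm
      exact leadingCoeff_ne_zero.mpr hq0
    · right; right
      rw [← h1]
      have hr0 : r ≠ 0 := by
        rintro rfl
        rw [natDegree_zero] at h1
        exact hD h1.symm
      exact leadingCoeff_ne_zero.mpr hr0

/-- a triple without common root is not zero -/
theorem s58rh_ncr_ne_zero {p q r : k[X]} (h : s58rhNcr p q r) : ¬ (p = 0 ∧ q = 0 ∧ r = 0) := by
  rintro ⟨rfl, rfl, rfl⟩
  exact h 0 ⟨eval_zero, eval_zero, eval_zero⟩

/-- Bezout for a triple without common root over an algebraically closed field -/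
theorem s58rh_bezout3 [IsAlgClosed k] (p q r : k[X]) (h : s58rhNcr p q r) :
    ∃ u v w : k[X], u * p + v * q + w * r = 1 := by
  classical
  -- the gcd
  obtain ⟨g, hg⟩ : ∃ g : k[X], g = EuclideanDomain.gcd p (EuclideanDomain.gcd q r) := ⟨_, rfl⟩
  have hgp : g ∣ p := hg ▸ EuclideanDomain.gcd_dvd_left _ _
  have hgq : g ∣ q :=
    hg ▸ (EuclideanDomain.gcd_dvd_right p _).trans (EuclideanDomain.gcd_dvd_left _ _)
  have hgr : g ∣ r :=
    hg ▸ (EuclideanDomain.gcd_dvd_right p _).trans (EuclideanDomain.gcd_dvd_right _ _)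
  have hg0 : g ≠ 0 := by
    intro h0
    apply s58rh_ncr_ne_zero h
    rw [h0] at hgp hgq hgr
    exact ⟨zero_dvd_iff.mp hgp, zero_dvd_iff.mp hgq, zero_dvd_iff.mp hgr⟩
  have hgdeg : g.degree = 0 := by
    by_contra hne
    obtain ⟨x, hx⟩ := IsAlgClosed.exists_root g hne
    exact h x ⟨eval_eq_zero_of_dvd_of_eval_eq_zero hgp hx,
      eval_eq_zero_of_dvd_of_eval_eq_zero hgq hx, eval_eq_zero_of_dvd_of_eval_eq_zero hgr hx⟩
  have hgu : IsUnit g := isUnit_iff_degree_eq_zero.mpr hgdeg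
  obtain ⟨e, he⟩ := hgu.exists_left_inv
  obtain ⟨A, B, h1⟩ : ∃ A B : k[X], g = p * A + EuclideanDomain.gcd q r * B :=
    ⟨_, _, hg ▸ EuclideanDomain.gcd_eq_gcd_ab p (EuclideanDomain.gcd q r)⟩
  obtain ⟨A', B', h2⟩ : ∃ A' B' : k[X], EuclideanDomain.gcd q r = q * A' + r * B' :=
    ⟨_, _, EuclideanDomain.gcd_eq_gcd_ab q r⟩
  refine ⟨e * A, e * B * A', e * B * B', ?_⟩
  rw [← he, h1, h2]
  ring

/-- **uniqueness of the primitive representative**: proportional triples without common root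
have the same height -/
theorem s58rh_uniq3 [IsAlgClosed k] (p q r p' q' r' c c' : k[X]) (hc : c ≠ 0)
    (h : s58rhNcr p q r) (h' : s58rhNcr p' q' r')
    (e1 : c * p = c' * p') (e2 : c * q = c' * q') (e3 : c * r = c' * r') :
    s58rhH3 p q r = s58rhH3 p' q' r' := by
  obtain ⟨u, v, w, huvw⟩ := s58rh_bezout3 p q r h
  obtain ⟨u', v', w', huvw'⟩ := s58rh_bezout3 p' q' r' h'
  -- `c ∣ c'` and `c' ∣ c`
  have hd1 : c ∣ c' := ⟨u' * p + v' * q + w' * r, by
    have : c' = c' * (u' * p' + v' * q' + w' * r') := by rw [huvw', mul_one]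
    calc c' = c' * (u' * p' + v' * q' + w' * r') := this
      _ = u' * (c' * p') + v' * (c' * q') + w' * (c' * r') := by ring
      _ = u' * (c * p) + v' * (c * q) + w' * (c * r) := by rw [e1, e2, e3]
      _ = c * (u' * p + v' * q + w' * r) := by ring⟩
  have hd2 : c' ∣ c := ⟨u * p' + v * q' + w * r', by
    have : c = c * (u * p + v * q + w * r) := by rw [huvw, mul_one]
    calc c = c * (u * p + v * q + w * r) := this
      _ = u * (c * p) + v * (c * q) + w * (c * r) := by ring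
      _ = u * (c' * p') + v * (c' * q') + w * (c' * r') := by rw [e1, e2, e3]
      _ = c' * (u * p' + v * q' + w * r') := by ring⟩
  obtain ⟨e, he⟩ := hd1
  obtain ⟨e', he'⟩ := hd2
  have hee : e * e' = 1 := by
    have h1 : c * (e * e') = c * 1 := by
      rw [mul_one, ← mul_assoc, ← he, ← he']
    exact mul_left_cancel₀ hc h1
  have heu : IsUnit e := IsUnit.of_mul_eq_one _ hee
  obtain ⟨e0, he0, rfl⟩ : ∃ e0 : k, e0 ≠ 0 ∧ C e0 = e := by
    obtain ⟨e0, he0, h1⟩ := Polynomial.isUnit_iff.mp heu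
    exact ⟨e0, he0.ne_zero, h1⟩
  have hp : p = C e0 * p' := by
    apply mul_left_cancel₀ hc
    rw [e1, he]; ring
  have hq : q = C e0 * q' := by
    apply mul_left_cancel₀ hc
    rw [e2, he]; ring
  have hr : r = C e0 * r' := by
    apply mul_left_cancel₀ hc
    rw [e3, he]; ring
  unfold s58rhH3
  rw [hp, hq, hr, natDegree_C_mul he0, natDegree_C_mul he0, natDegree_C_mul he0]

/-- a pair version of `s58rh_top3` -/
theorem s58rh_top2 (p q : k[X]) (h : ¬ (p = 0 ∧ q = 0)) :
    p.coeff (max p.natDegree q.natDegree) ≠ 0 ∨ q.coeff (max p.natDegree q.natDegree) ≠ 0 := by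
  have h3 := s58rh_top3 p q 0 (fun h' => h ⟨h'.1, h'.2.1⟩)
  have e : s58rhH3 p q 0 = max p.natDegree q.natDegree := by
    unfold s58rhH3
    rw [natDegree_zero]
    exact max_eq_left (Nat.zero_le _)
  rw [e] at h3
  rcases h3 with h1 | h1 | h1
  · exact Or.inl h1
  · exact Or.inr h1
  · exact absurd (coeff_zero _) h1

theorem s58rh_H3_pair (p q : k[X]) : s58rhH3 p q 0 = max p.natDegree q.natDegree := by
  unfold s58rhH3
  rw [natDegree_zero]
  exact max_eq_left (Nat.zero_le _)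

/-- coprime polynomials have no common root -/
theorem s58rh_coprime_eval {p q : k[X]} (h : IsCoprime p q) (x : k) :
    ¬ (p.eval x = 0 ∧ q.eval x = 0) := by
  rintro ⟨h1, h2⟩
  obtain ⟨u, v, huv⟩ := h
  have h3 := congrArg (eval x) huv
  rw [eval_add, eval_mul, eval_mul, h1, h2, mul_zero, mul_zero, add_zero, eval_one] at h3
  exact zero_ne_one h3

theorem s58rh_coprime_ncr {p q : k[X]} (h : IsCoprime p q) : s58rhNcr p q 0 :=
  fun x hx => s58rh_coprime_eval h x ⟨hx.1, hx.2.1⟩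

theorem s58rh_coprime_ne_zero {p q : k[X]} (h : IsCoprime p q) : ¬ (p = 0 ∧ q = 0) := by
  rintro ⟨rfl, rfl⟩
  exact s58rh_coprime_eval h 0 ⟨eval_zero, eval_zero⟩

/-! ### The Gauss lemma for `[1 : a + b : a b]` -/

/-- **Gauss**: for coprime pairs `(a0, a1)`, `(b0, b1)` the triple
`(a0 b0, a1 b0 + a0 b1, a1 b1)` has no common root and height `h(a) + h(b)` -/
theorem s58rh_gauss (a0 a1 b0 b1 : k[X]) (ha : IsCoprime a0 a1) (hb : IsCoprime b0 b1) :
    s58rhNcr (a0 * b0) (a1 * b0 + a0 * b1) (a1 * b1) ∧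
    s58rhH3 (a0 * b0) (a1 * b0 + a0 * b1) (a1 * b1) =
      max a0.natDegree a1.natDegree + max b0.natDegree b1.natDegree := by
  refine ⟨?_, ?_⟩
  · rintro x ⟨h1, h2, h3⟩
    rw [eval_mul] at h1 h3
    rw [eval_add, eval_mul, eval_mul] at h2
    have hax := s58rh_coprime_eval ha x
    have hbx := s58rh_coprime_eval hb x
    rcases mul_eq_zero.mp h1 with e | e
    · have e1 : a1.eval x ≠ 0 := fun e1 => hax ⟨e, e1⟩
      have e2 : b1.eval x = 0 := (mul_eq_zero.mp h3).resolve_left e1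
      rw [e, e2, zero_mul, add_zero] at h2
      exact hbx ⟨(mul_eq_zero.mp h2).resolve_left e1, e2⟩
    · have e1 : b1.eval x ≠ 0 := fun e1 => hbx ⟨e, e1⟩
      have e2 : a1.eval x = 0 := (mul_eq_zero.mp h3).resolve_right e1
      rw [e, e2, zero_mul, zero_add] at h2
      exact hax ⟨(mul_eq_zero.mp h2).resolve_right e1, e2⟩
  · obtain ⟨m, hm⟩ : ∃ m, m = max a0.natDegree a1.natDegree := ⟨_, rfl⟩
    obtain ⟨n, hn⟩ : ∃ n, n = max b0.natDegree b1.natDegree := ⟨_, rfl⟩
    rw [← hm, ← hn]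
    have ha0 : a0.natDegree ≤ m := hm ▸ le_max_left _ _
    have ha1 : a1.natDegree ≤ m := hm ▸ le_max_right _ _
    have hb0 : b0.natDegree ≤ n := hn ▸ le_max_left _ _
    have hb1 : b1.natDegree ≤ n := hn ▸ le_max_right _ _
    have hd1 : (a0 * b0).natDegree ≤ m + n := natDegree_mul_le.trans (add_le_add ha0 hb0)
    have hd2 : (a1 * b0 + a0 * b1).natDegree ≤ m + n :=
      natDegree_add_le_of_degree_le (natDegree_mul_le.trans (add_le_add ha1 hb0))
        (natDegree_mul_le.trans (add_le_add ha0 hb1))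
    have hd3 : (a1 * b1).natDegree ≤ m + n := natDegree_mul_le.trans (add_le_add ha1 hb1)
    have hc1 : (a0 * b0).coeff (m + n) = a0.coeff m * b0.coeff n :=
      coeff_mul_add_eq_of_natDegree_le ha0 hb0
    have hc2 : (a1 * b0 + a0 * b1).coeff (m + n) =
        a1.coeff m * b0.coeff n + a0.coeff m * b1.coeff n := by
      rw [coeff_add, coeff_mul_add_eq_of_natDegree_le ha1 hb0, coeff_mul_add_eq_of_natDegree_le ha0 hb1]
    have hc3 : (a1 * b1).coeff (m + n) = a1.coeff m * b1.coeff n :=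
      coeff_mul_add_eq_of_natDegree_le ha1 hb1
    have hta := s58rh_top2 a0 a1 (s58rh_coprime_ne_zero ha)
    have htb := s58rh_top2 b0 b1 (s58rh_coprime_ne_zero hb)
    rw [← hm] at hta
    rw [← hn] at htb
    apply le_antisymm (s58rh_H3_le hd1 hd2 hd3)
    obtain ⟨l1, l2, l3⟩ := s58rh_le_H3 (a0 * b0) (a1 * b0 + a0 * b1) (a1 * b1)
    by_contra hlt
    rw [not_le] at hlt
    have z1 : (a0 * b0).coeff (m + n) = 0 := coeff_eq_zero_of_natDegree_lt (lt_of_le_of_lt l1 hlt)
    have z2 : (a1 * b0 + a0 * b1).coeff (m + n) = 0 :=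
      coeff_eq_zero_of_natDegree_lt (lt_of_le_of_lt l2 hlt)
    have z3 : (a1 * b1).coeff (m + n) = 0 := coeff_eq_zero_of_natDegree_lt (lt_of_le_of_lt l3 hlt)
    rw [hc1] at z1
    rw [hc2] at z2
    rw [hc3] at z3
    rcases mul_eq_zero.mp z1 with e | e
    · have e1 : a1.coeff m ≠ 0 := hta.resolve_left (not_not.mpr e)
      have e2 : b1.coeff n = 0 := (mul_eq_zero.mp z3).resolve_left e1
      rw [e, e2, zero_mul, add_zero] at z2
      have e3 : b0.coeff n = 0 := (mul_eq_zero.mp z2).resolve_left e1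
      rcases htb with h | h
      · exact h e3
      · exact h e2
    · have e1 : b1.coeff n ≠ 0 := htb.resolve_left (not_not.mpr e)
      have e2 : a1.coeff m = 0 := (mul_eq_zero.mp z3).resolve_right e1
      rw [e, e2, zero_mul, zero_add] at z2
      have e3 : a0.coeff m = 0 := (mul_eq_zero.mp z2).resolve_right e1
      rcases hta with h | h
      · exact h e3
      · exact h e2

/-! ### Ternary quadratic forms -/

/-- a ternary quadratic form evaluated on scalars -/
def s58rhQs (c1 c2 c3 c4 c5 c6 : k) (t u v : k) : k :=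
  c1 * (t * t) + c2 * (t * u) + c3 * (t * v) + c4 * (u * u) + c5 * (u * v) + c6 * (v * v)

/-- the same form evaluated on polynomials -/
def s58rhQp (c1 c2 c3 c4 c5 c6 : k) (T U V : k[X]) : k[X] :=
  C c1 * (T * T) + C c2 * (T * U) + C c3 * (T * V) + C c4 * (U * U) + C c5 * (U * V) +
    C c6 * (V * V)

theorem s58rh_Qp_eval (c1 c2 c3 c4 c5 c6 : k) (T U V : k[X]) (x : k) :
    (s58rhQp c1 c2 c3 c4 c5 c6 T U V).eval x =
      s58rhQs c1 c2 c3 c4 c5 c6 (T.eval x) (U.eval x) (V.eval x) := by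
  unfold s58rhQp s58rhQs
  simp only [eval_add, eval_mul, eval_C]

theorem s58rh_Qp_natDegree_le (c1 c2 c3 c4 c5 c6 : k) {T U V : k[X]} {D : ℕ}
    (hT : T.natDegree ≤ D) (hU : U.natDegree ≤ D) (hV : V.natDegree ≤ D) :
    (s58rhQp c1 c2 c3 c4 c5 c6 T U V).natDegree ≤ D + D := by
  have key : ∀ (a : k) (P Q : k[X]), P.natDegree ≤ D → Q.natDegree ≤ D →
      (C a * (P * Q)).natDegree ≤ D + D := fun a P Q hP hQ =>
    (natDegree_C_mul_le a _).trans (natDegree_mul_le.trans (add_le_add hP hQ))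
  unfold s58rhQp
  exact natDegree_add_le_of_degree_le (natDegree_add_le_of_degree_le
    (natDegree_add_le_of_degree_le (natDegree_add_le_of_degree_le
      (natDegree_add_le_of_degree_le (key _ _ _ hT hT) (key _ _ _ hT hU)) (key _ _ _ hT hV))
      (key _ _ _ hU hU)) (key _ _ _ hU hV)) (key _ _ _ hV hV)

theorem s58rh_Qp_coeff (c1 c2 c3 c4 c5 c6 : k) {T U V : k[X]} {D : ℕ}
    (hT : T.natDegree ≤ D) (hU : U.natDegree ≤ D) (hV : V.natDegree ≤ D) :
    (s58rhQp c1 c2 c3 c4 c5 c6 T U V).coeff (D + D) =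
      s58rhQs c1 c2 c3 c4 c5 c6 (T.coeff D) (U.coeff D) (V.coeff D) := by
  have key : ∀ (a : k) (P Q : k[X]), P.natDegree ≤ D → Q.natDegree ≤ D →
      (C a * (P * Q)).coeff (D + D) = a * (P.coeff D * Q.coeff D) := fun a P Q hP hQ => by
    rw [coeff_C_mul, coeff_mul_add_eq_of_natDegree_le hP hQ]
  unfold s58rhQp s58rhQs
  rw [coeff_add, coeff_add, coeff_add, coeff_add, coeff_add, key _ _ _ hT hT, key _ _ _ hT hU,
    key _ _ _ hT hV, key _ _ _ hU hU, key _ _ _ hU hV, key _ _ _ hV hV]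

/-- **LEMMA** (three ternary quadratic forms without common projective zero, applied to a
triple without common root): no common root, height exactly doubled -/
theorem s58rh_forms (c1 c2 c3 c4 c5 c6 d1 d2 d3 d4 d5 d6 e1 e2 e3 e4 e5 e6 : k)
    (hz : ∀ t u v : k, s58rhQs c1 c2 c3 c4 c5 c6 t u v = 0 → s58rhQs d1 d2 d3 d4 d5 d6 t u v = 0 →
      s58rhQs e1 e2 e3 e4 e5 e6 t u v = 0 → t = 0 ∧ u = 0 ∧ v = 0)
    (T U V : k[X]) (h : s58rhNcr T U V) :
    s58rhNcr (s58rhQp c1 c2 c3 c4 c5 c6 T U V) (s58rhQp d1 d2 d3 d4 d5 d6 T U V)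
      (s58rhQp e1 e2 e3 e4 e5 e6 T U V) ∧
    s58rhH3 (s58rhQp c1 c2 c3 c4 c5 c6 T U V) (s58rhQp d1 d2 d3 d4 d5 d6 T U V)
      (s58rhQp e1 e2 e3 e4 e5 e6 T U V) = 2 * s58rhH3 T U V := by
  refine ⟨?_, ?_⟩
  · rintro x ⟨h1, h2, h3⟩
    rw [s58rh_Qp_eval] at h1 h2 h3
    exact h x (hz _ _ _ h1 h2 h3)
  · obtain ⟨hT, hU, hV⟩ := s58rh_le_H3 T U V
    obtain ⟨D, hD⟩ : ∃ D, D = s58rhH3 T U V := ⟨_, rfl⟩
    rw [← hD] at hT hU hV ⊢
    have hle := s58rh_H3_le (s58rh_Qp_natDegree_le c1 c2 c3 c4 c5 c6 hT hU hV)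
      (s58rh_Qp_natDegree_le d1 d2 d3 d4 d5 d6 hT hU hV)
      (s58rh_Qp_natDegree_le e1 e2 e3 e4 e5 e6 hT hU hV)
    rw [two_mul]
    apply le_antisymm hle
    obtain ⟨l1, l2, l3⟩ := s58rh_le_H3 (s58rhQp c1 c2 c3 c4 c5 c6 T U V)
      (s58rhQp d1 d2 d3 d4 d5 d6 T U V) (s58rhQp e1 e2 e3 e4 e5 e6 T U V)
    by_contra hlt
    rw [not_le] at hlt
    have z1 := coeff_eq_zero_of_natDegree_lt (lt_of_le_of_lt l1 hlt)
    have z2 := coeff_eq_zero_of_natDegree_lt (lt_of_le_of_lt l2 hlt)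
    have z3 := coeff_eq_zero_of_natDegree_lt (lt_of_le_of_lt l3 hlt)
    rw [s58rh_Qp_coeff _ _ _ _ _ _ hT hU hV] at z1 z2 z3
    obtain ⟨t0, u0, v0⟩ := hz _ _ _ z1 z2 z3
    have htop := s58rh_top3 T U V (s58rh_ncr_ne_zero h)
    rw [← hD] at htop
    rcases htop with h' | h' | h'
    · exact h' t0
    · exact h' u0
    · exact h' v0

/-! ### The three quadratic forms of the addition law -/

/-- the Bezout identity between `ψ₂²` and the duplication numerator -/
theorem s58rh_bezout_id {R : Type*} [CommRing R] (W : WeierstrassCurve R) (x : R) :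
    (12 * x ^ 3 - W.b₂ * x ^ 2 - 10 * W.b₄ * x + W.b₂ * W.b₄ - 27 * W.b₆) *
        (4 * x ^ 3 + W.b₂ * x ^ 2 + 2 * W.b₄ * x + W.b₆) -
      (48 * x ^ 2 + 8 * W.b₂ * x + 32 * W.b₄ - W.b₂ ^ 2) *
        (x ^ 4 - W.b₄ * x ^ 2 - 2 * W.b₆ * x - W.b₈) = W.Δ := by
  have h := W.b_relation
  unfold WeierstrassCurve.Δ
  linear_combination (12 * x ^ 2 + 2 * W.b₂ * x + 8 * W.b₄) * h

/-- the three quadratic forms `u² - 4tv`, `2uv + b₂tv + b₄tu + b₆t²`,
`v² - b₄tv - b₆tu - b₈t²` have no common projective zero when `Δ ≠ 0` -/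
theorem s58rh_nozero [IsAlgClosed k] (W : WeierstrassCurve k) (hΔ : W.Δ ≠ 0) (t u v : k)
    (h0 : s58rhQs 0 0 (-4) 1 0 0 t u v = 0) (h1 : s58rhQs W.b₆ W.b₄ W.b₂ 0 2 0 t u v = 0)
    (h2 : s58rhQs (-W.b₈) (-W.b₆) (-W.b₄) 0 0 1 t u v = 0) : t = 0 ∧ u = 0 ∧ v = 0 := by
  unfold s58rhQs at h0 h1 h2
  by_cases ht : t = 0
  · subst ht
    have hu : u = 0 := by
      have : u * u = 0 := by linear_combination h0
      exact mul_self_eq_zero.mp this
    subst hu
    have hv : v = 0 := by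
      have : v * v = 0 := by linear_combination h2
      exact mul_self_eq_zero.mp this
    exact ⟨rfl, rfl, hv⟩
  · exfalso
    obtain ⟨x, hxu, hxv⟩ : ∃ x : k, u = 2 * x * t ∧ v = x ^ 2 * t := by
      by_cases h2' : (2 : k) = 0
      · have hu : u = 0 := by
          have : u * u = 0 := by linear_combination h0 + 2 * t * v * h2'
          exact mul_self_eq_zero.mp this
        obtain ⟨x, hx⟩ := IsAlgClosed.exists_pow_nat_eq (v / t) (n := 2) (by norm_num)
        refine ⟨x, ?_, ?_⟩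
        · rw [hu, h2', zero_mul, zero_mul]
        · rw [hx, div_mul_cancel₀ v ht]
      · have ht2 : (2 * t) ≠ 0 := mul_ne_zero h2' ht
        refine ⟨u / (2 * t), ?_, ?_⟩
        · rw [mul_assoc, mul_comm (u / (2 * t)) t, ← mul_assoc, mul_div_cancel₀ u ht2]
        · rw [div_pow, div_mul_eq_mul_div, eq_div_iff (pow_ne_zero 2 ht2)]
          linear_combination (-t) * h0
    have hF : 4 * x ^ 3 + W.b₂ * x ^ 2 + 2 * W.b₄ * x + W.b₆ = 0 := by
      have : t ^ 2 * (4 * x ^ 3 + W.b₂ * x ^ 2 + 2 * W.b₄ * x + W.b₆) = 0 := by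
        rw [hxu, hxv] at h1
        linear_combination h1
      exact (mul_eq_zero.mp this).resolve_left (pow_ne_zero 2 ht)
    have hG : x ^ 4 - W.b₄ * x ^ 2 - 2 * W.b₆ * x - W.b₈ = 0 := by
      have : t ^ 2 * (x ^ 4 - W.b₄ * x ^ 2 - 2 * W.b₆ * x - W.b₈) = 0 := by
        rw [hxu, hxv] at h2
        linear_combination h2
      exact (mul_eq_zero.mp this).resolve_left (pow_ne_zero 2 ht)
    apply hΔ
    rw [← s58rh_bezout_id W x, hF, hG, mul_zero, mul_zero, sub_zero]

/-! ### Degrees of rational functions -/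

/-- the degree of a rational function: the maximum of the degrees of its numerator and
denominator -/
def s58rhDeg (x : RatFunc k) : ℕ := max x.num.natDegree x.denom.natDegree

theorem s58rh_num_eq (x : RatFunc k) :
    algebraMap k[X] (RatFunc k) x.num = x * algebraMap k[X] (RatFunc k) x.denom := by
  have h := RatFunc.num_div_denom x
  have h0 : algebraMap k[X] (RatFunc k) x.denom ≠ 0 :=
    RatFunc.algebraMap_ne_zero (RatFunc.denom_ne_zero x)
  rw [div_eq_iff h0] at h
  exact h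

/-- the degree of a fraction `p / q` without common root -/
theorem s58rh_deg_of_ncr [IsAlgClosed k] (x : RatFunc k) (p q : k[X]) (h : s58rhNcr p q 0)
    (hx : x * algebraMap k[X] (RatFunc k) q = algebraMap k[X] (RatFunc k) p) :
    s58rhDeg x = max p.natDegree q.natDegree := by
  have e1 : x.denom * p = q * x.num := by
    apply RatFunc.algebraMap_injective k
    rw [map_mul, map_mul, ← hx, s58rh_num_eq x]
    ring
  have key := s58rh_uniq3 p q 0 x.num x.denom 0 x.denom q (RatFunc.denom_ne_zero x) h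
    (s58rh_coprime_ncr (RatFunc.isCoprime_num_denom x)) e1 (mul_comm _ _)
    (by rw [mul_zero, mul_zero])
  rw [s58rh_H3_pair, s58rh_H3_pair] at key
  exact key.symm

/-- **(D1), rational-function core.**  If `s + t` and `s t` are given by the symmetric addition
formulas of a Weierstrass curve with `Δ ≠ 0` in terms of `a + b` and `a b`, then
`deg s + deg t = 2 deg a + 2 deg b`. -/
theorem s58rh_para [IsAlgClosed k] (W : WeierstrassCurve k) (hΔ : W.Δ ≠ 0) (a b s t : RatFunc k)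
    (hsum : (a - b) ^ 2 * (s + t) = 2 * (a + b) * (a * b) + RatFunc.C W.b₂ * (a * b) +
      RatFunc.C W.b₄ * (a + b) + RatFunc.C W.b₆)
    (hprod : (a - b) ^ 2 * (s * t) = (a * b) ^ 2 - RatFunc.C W.b₄ * (a * b) -
      RatFunc.C W.b₆ * (a + b) - RatFunc.C W.b₈) :
    s58rhDeg s + s58rhDeg t = 2 * s58rhDeg a + 2 * s58rhDeg b := by
  obtain ⟨T, hT⟩ : ∃ T, T = a.denom * b.denom := ⟨_, rfl⟩
  obtain ⟨U, hU⟩ : ∃ U, U = a.num * b.denom + a.denom * b.num := ⟨_, rfl⟩
  obtain ⟨V, hV⟩ : ∃ V, V = a.num * b.num := ⟨_, rfl⟩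
  obtain ⟨hn1, hH1⟩ := s58rh_gauss a.denom a.num b.denom b.num
    (RatFunc.isCoprime_num_denom a).symm (RatFunc.isCoprime_num_denom b).symm
  rw [← hT, ← hU, ← hV] at hn1 hH1
  obtain ⟨hn2, hH2⟩ := s58rh_forms 0 0 (-4) 1 0 0 W.b₆ W.b₄ W.b₂ 0 2 0
    (-W.b₈) (-W.b₆) (-W.b₄) 0 0 1 (s58rh_nozero W hΔ) T U V hn1
  obtain ⟨hn3, hH3⟩ := s58rh_gauss s.denom s.num t.denom t.num
    (RatFunc.isCoprime_num_denom s).symm (RatFunc.isCoprime_num_denom t).symm
  have hc : s.denom * t.denom ≠ 0 :=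
    mul_ne_zero (RatFunc.denom_ne_zero s) (RatFunc.denom_ne_zero t)
  have e2 : (s.denom * t.denom) * s58rhQp W.b₆ W.b₄ W.b₂ 0 2 0 T U V =
      s58rhQp 0 0 (-4) 1 0 0 T U V * (s.num * t.denom + s.denom * t.num) := by
    apply RatFunc.algebraMap_injective k
    unfold s58rhQp
    simp only [map_mul, map_add, RatFunc.algebraMap_C, hT, hU, hV, s58rh_num_eq, map_zero,
      map_one, map_neg, map_ofNat, zero_mul, add_zero, zero_add, one_mul]
    generalize algebraMap k[X] (RatFunc k) a.denom = A0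
    generalize algebraMap k[X] (RatFunc k) b.denom = B0
    generalize algebraMap k[X] (RatFunc k) s.denom = S0
    generalize algebraMap k[X] (RatFunc k) t.denom = T0
    linear_combination (-(S0 * T0 * (A0 * B0) ^ 2)) * hsum
  have e3 : (s.denom * t.denom) * s58rhQp (-W.b₈) (-W.b₆) (-W.b₄) 0 0 1 T U V =
      s58rhQp 0 0 (-4) 1 0 0 T U V * (s.num * t.num) := by
    apply RatFunc.algebraMap_injective k
    unfold s58rhQp
    simp only [map_mul, map_add, RatFunc.algebraMap_C, hT, hU, hV, s58rh_num_eq, map_zero,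
      map_one, map_neg, map_ofNat, zero_mul, add_zero, zero_add, one_mul]
    generalize algebraMap k[X] (RatFunc k) a.denom = A0
    generalize algebraMap k[X] (RatFunc k) b.denom = B0
    generalize algebraMap k[X] (RatFunc k) s.denom = S0
    generalize algebraMap k[X] (RatFunc k) t.denom = T0
    linear_combination (-(S0 * T0 * (A0 * B0) ^ 2)) * hprod
  have key := s58rh_uniq3 _ _ _ _ _ _ (s.denom * t.denom) (s58rhQp 0 0 (-4) 1 0 0 T U V) hc hn2
    hn3 (mul_comm _ _) e2 e3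
  rw [hH2, hH1, hH3] at key
  unfold s58rhDeg
  omega

/-! ### Small facts on the degree -/

theorem s58rh_deg_C (c : k) : s58rhDeg (RatFunc.C c) = 0 := by
  unfold s58rhDeg
  rw [RatFunc.num_C, RatFunc.denom_C, natDegree_C, natDegree_one, max_self]

theorem s58rh_deg_X : s58rhDeg (RatFunc.X : RatFunc k) = 1 := by
  unfold s58rhDeg
  rw [RatFunc.num_X, RatFunc.denom_X, natDegree_X, natDegree_one]
  rfl

/-- degree zero means constant -/
theorem s58rh_deg_eq_zero_iff (x : RatFunc k) : s58rhDeg x = 0 ↔ ∃ c : k, x = RatFunc.C c := by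
  constructor
  · intro h
    unfold s58rhDeg at h
    have h1 : x.num.natDegree = 0 := by omega
    have h2 : x.denom.natDegree = 0 := by omega
    obtain ⟨n0, hn0⟩ : ∃ n0 : k, x.num = C n0 := ⟨_, eq_C_of_natDegree_eq_zero h1⟩
    obtain ⟨d0, hd0⟩ : ∃ d0 : k, x.denom = C d0 := ⟨_, eq_C_of_natDegree_eq_zero h2⟩
    refine ⟨n0 / d0, ?_⟩
    have h3 := RatFunc.num_div_denom x
    rw [hn0, hd0, RatFunc.algebraMap_C, RatFunc.algebraMap_C] at h3
    rw [← h3, map_div₀]
  · rintro ⟨c, rfl⟩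
    exact s58rh_deg_C c

/-- a rational function algebraic over the algebraically closed constant field is constant -/
theorem s58rh_deg_of_isAlgebraic [IsAlgClosed k] (x : RatFunc k) (hx : IsAlgebraic k x) :
    s58rhDeg x = 0 := by
  have hint : IsIntegral k x := hx.isIntegral
  have hdeg := IsAlgClosed.degree_eq_one_of_irreducible k (minpoly.irreducible hint)
  obtain ⟨c, hc⟩ := minpoly.mem_range_of_degree_eq_one k x hdeg
  rw [← hc, RatFunc.algebraMap_eq_C]
  exact s58rh_deg_C c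

/-- a rational function killed by a nonzero polynomial over `k` has degree zero -/
theorem s58rh_deg_of_root [IsAlgClosed k] (x : RatFunc k) (f : k[X]) (hf : f ≠ 0)
    (h : aeval x f = 0) : s58rhDeg x = 0 :=
  s58rh_deg_of_isAlgebraic x ⟨f, hf, h⟩

end Fermat.Agent.S58
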