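import Mathlib
import Fermat.Agent.S58.ParaAbs
import Fermat.Agent.S58.RatHeight
import Fermat.Agent.S58.RatEval
import Fermat.Agent.S58.FunField

/-!
# S58, (D1) on the model: the parallelogram law for the degree on the function field

`s58pb_core` (ParaAbs) instantiated with the degree `s58rhDeg` of rational functions
(`s58rh_para`, `s58rv_dup`, `s58rh_deg_of_root`) and with the function field model of
`FunField.lean`: `j := algebraMap (RatFunc k) (s58ffK W k)`, `G := s58ffG W k`,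
`d := s58ffD W k`.

Names are prefixed `s58pa`.
-/

set_option autoImplicit false

open Polynomial WeierstrassCurve
open scoped WeierstrassCurve.Affine

namespace Fermat.Agent.S58

universe u v

section abs

/-- a rational function killed by the 2-division polynomial is constant (`hroot` of
`s58pb_core`) -/
theorem s58pa_root {k : Type*} [Field k] [IsAlgClosed k] (W : WeierstrassCurve k) (hΔ : W.Δ ≠ 0)
    (a : RatFunc k)
    (h : 4 * a ^ 3 + RatFunc.C W.b₂ * a ^ 2 + 2 * RatFunc.C W.b₄ * a + RatFunc.C W.b₆ = 0) :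
    s58rhDeg a = 0 := by
  obtain ⟨f, hf⟩ : ∃ f : k[X], f = C 4 * X ^ 3 + C W.b₂ * X ^ 2 + C (2 * W.b₄) * X + C W.b₆ :=
    ⟨_, rfl⟩
  have hf0 : f ≠ 0 := by
    intro h0
    have c3 : f.coeff 3 = 4 := by
      rw [hf]
      simp
    have c2 : f.coeff 2 = W.b₂ := by
      rw [hf]
      simp
    have c1 : f.coeff 1 = 2 * W.b₄ := by
      rw [hf]
      simp
    have c0 : f.coeff 0 = W.b₆ := by
      rw [hf]
      simp
    rw [h0, coeff_zero] at c3 c2 c1 c0
    apply hΔ
    rw [WeierstrassCurve.Δ, ← c2, ← c0]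
    have : (8 : k) * W.b₄ ^ 3 = 0 := by
      have e : (8 : k) * W.b₄ ^ 3 = 4 * (2 * W.b₄) * W.b₄ ^ 2 := by ring
      rw [e, ← c1]
      ring
    linear_combination -this
  have hev : aeval a f = 0 := by
    rw [hf]
    simp only [map_add, map_mul, map_pow, aeval_X, aeval_C, RatFunc.algebraMap_eq_C]
    rw [← h]
    simp only [map_ofNat]
  exact s58rh_deg_of_root a f hf0 hev

/-- **(D1), model independent**, with the concrete degree of rational functions: the exact
parallelogram law on a subgroup of points with `x`-coordinates in `k(X)`. -/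
theorem s58pa_para {k K : Type*} [Field k] [IsAlgClosed k] [Field K] [DecidableEq K]
    (Wk : WeierstrassCurve k) (hΔ : Wk.Δ ≠ 0) (j : RatFunc k →+* K) (W' : WeierstrassCurve K)
    (hb₂ : W'.b₂ = j (RatFunc.C Wk.b₂)) (hb₄ : W'.b₄ = j (RatFunc.C Wk.b₄))
    (hb₆ : W'.b₆ = j (RatFunc.C Wk.b₆)) (hb₈ : W'.b₈ = j (RatFunc.C Wk.b₈))
    (G : AddSubgroup W'.toAffine.Point)
    (hG : ∀ x y h, Affine.Point.some x y h ∈ G → ∃ r : RatFunc k, j r = x)
    (d : W'.toAffine.Point → ℤ) (hd0 : d 0 = 0)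
    (hd : ∀ x y h (r : RatFunc k), j r = x →
      d (Affine.Point.some x y h) = (s58rhDeg r : ℤ))
    (A B : W'.toAffine.Point) (hA : A ∈ G) (hB : B ∈ G) :
    d (A + B) + d (A - B) = 2 * d A + 2 * d B :=
  s58pb_core Wk j W' hb₂ hb₄ hb₆ hb₈ s58rhDeg (fun r h => s58pa_root Wk hΔ r h)
    (fun a b s t _ hs hp => s58rh_para Wk hΔ a b s t hs hp)
    (fun a s hψ hdup => s58rv_dup Wk hΔ a s hψ hdup) G hG d hd0 hd A B hA hB

end abs

section model

variable {R : Type u} [CommRing R] (W : WeierstrassCurve R) (k : Type v) [Field k] [Algebra R k]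

/-- `hG` of `s58pb_core` on the model -/
theorem s58pa_hG (hΔ : algebraMap R k W.Δ ≠ 0) :
    ∀ (x y : s58ffK W k) (h : (W.toAffine⁄(s58ffK W k)).Nonsingular x y),
      Affine.Point.some x y h ∈ s58ffG W k →
      ∃ r : RatFunc k, algebraMap (RatFunc k) (s58ffK W k) r = x :=
  fun _ _ h hG => s58ff_x_mem W k hΔ h hG

/-- `hd0` of `s58pb_core` on the model -/
theorem s58pa_hd0 : ((s58ffD W k 0 : ℕ) : ℤ) = 0 := by
  rw [s58ffD_zero]
  rfl

/-- `hd` of `s58pb_core` on the model -/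
theorem s58pa_hd :
    ∀ (x y : s58ffK W k) (h : (W.toAffine⁄(s58ffK W k)).Nonsingular x y) (r : RatFunc k),
      algebraMap (RatFunc k) (s58ffK W k) r = x →
      ((s58ffD W k (Affine.Point.some x y h) : ℕ) : ℤ) = (s58rhDeg r : ℤ) := by
  intro x y h r hr
  rw [s58ffD_some' W k r hr h]
  rfl

/-- **(D1) on the model**: the exact parallelogram law for `s58ffD` on `s58ffG`. -/
theorem s58pa_par_mem [IsAlgClosed k] (hΔ : algebraMap R k W.Δ ≠ 0) :
    ∀ A ∈ s58ffG W k, ∀ B ∈ s58ffG W k,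
      ((s58ffD W k (A + B) : ℕ) : ℤ) + ((s58ffD W k (A - B) : ℕ) : ℤ)
        = 2 * ((s58ffD W k A : ℕ) : ℤ) + 2 * ((s58ffD W k B : ℕ) : ℤ) := by
  intro A hA B hB
  have hΔ' : (W.map (algebraMap R k)).Δ ≠ 0 := by
    rw [WeierstrassCurve.map_Δ]
    exact hΔ
  exact s58pa_para (W.map (algebraMap R k)) hΔ' (algebraMap (RatFunc k) (s58ffK W k))
    (W.toAffine⁄(s58ffK W k))
    (by
      change (W.map (algebraMap R (s58ffK W k))).b₂ = _
      rw [WeierstrassCurve.map_b₂, WeierstrassCurve.map_b₂, s58ff_algebraMap_C])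
    (by
      change (W.map (algebraMap R (s58ffK W k))).b₄ = _
      rw [WeierstrassCurve.map_b₄, WeierstrassCurve.map_b₄, s58ff_algebraMap_C])
    (by
      change (W.map (algebraMap R (s58ffK W k))).b₆ = _
      rw [WeierstrassCurve.map_b₆, WeierstrassCurve.map_b₆, s58ff_algebraMap_C])
    (by
      change (W.map (algebraMap R (s58ffK W k))).b₈ = _
      rw [WeierstrassCurve.map_b₈, WeierstrassCurve.map_b₈, s58ff_algebraMap_C])
    (s58ffG W k) (s58pa_hG W k hΔ) (fun A => ((s58ffD W k A : ℕ) : ℤ)) (s58pa_hd0 W k)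
    (s58pa_hd W k) A B hA hB

/-- the degree as an integer valued function on the subgroup `s58ffG` -/
noncomputable def s58paD : ↥(s58ffG W k) → ℤ := fun A => ((s58ffD W k A.1 : ℕ) : ℤ)

theorem s58paD_def (A : ↥(s58ffG W k)) : s58paD W k A = ((s58ffD W k A.1 : ℕ) : ℤ) := rfl

theorem s58paD_nonneg (A : ↥(s58ffG W k)) : 0 ≤ s58paD W k A := Int.natCast_nonneg _

theorem s58paD_zero : s58paD W k 0 = 0 := s58pa_hd0 W k

/-- **(D1)** in the `hpar` shape of `QuadForm.lean` / `QuadFormCS.lean`. -/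
theorem s58pa_par [IsAlgClosed k] (hΔ : algebraMap R k W.Δ ≠ 0) :
    ∀ A B : ↥(s58ffG W k),
      s58paD W k (A + B) + s58paD W k (A - B) = 2 * s58paD W k A + 2 * s58paD W k B :=
  fun A B => s58pa_par_mem W k hΔ A.1 A.2 B.1 B.2

/-- the generic point as an element of `s58ffG` -/
noncomputable def s58paGen (hΔ : algebraMap R k W.Δ ≠ 0) : ↥(s58ffG W k) :=
  ⟨s58ffGen W k hΔ, s58ffGen_mem W k hΔ⟩

theorem s58paD_gen (hΔ : algebraMap R k W.Δ ≠ 0) : s58paD W k (s58paGen W k hΔ) = 1 := by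
  rw [s58paD_def]
  change ((s58ffD W k (s58ffGen W k hΔ) : ℕ) : ℤ) = 1
  rw [s58ffD_gen]
  rfl

end model

end Fermat.Agent.S58
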