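import Mathlib
import Fermat.Prelude.Def_FLTPrelim_Modularity
import Fermat.Agent.S58.FrobCore
import Fermat.Agent.S58.Para
import Fermat.Agent.S58.FrobSeamCore
import Fermat.Agent.S58.FrobCountFin

/-!
# S58, E-side, (Q): the characteristic equation of Frobenius on an elliptic curve over `𝔽_l`

`W` a Weierstrass curve over `ZMod l` with `Δ ≠ 0`, `k` an algebraically closed field over
`ZMod l`, `φ` the coordinatewise `l`-th power on the points of `W` over `k`.  Then

  `φ (φ T) - a • φ T + l • T = 0`  for every point `T` of `W` over `k`,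

with `a = W.traceOfFrobenius = l + 1 - #W(𝔽_l)`.

This is `s58fk_core` (FrobCore) with its two hypotheses discharged: the parallelogram law on the
function-field carrier (`s58pa_par_mem`, Para) and the degree of `φ P - P` at the generic point
(`s58fsc_seam_of_count`, FrobSeamCore, with the count `s58fg_ratfunc`, FrobCountFin).

Names are prefixed `s58fq`.
-/

set_option autoImplicit false

open WeierstrassCurve WeierstrassCurve.Affine Polynomial

namespace Fermat.Agent.S58

/-- **(Q)**: the characteristic equation of Frobenius on the points of a Weierstrass curve with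
`Δ ≠ 0` over `ZMod l`, over an algebraically closed field. -/
theorem s58fq_main (l : ℕ) [Fact l.Prime] (W : WeierstrassCurve (ZMod l)) (hΔ : W.Δ ≠ 0)
    (k : Type*) [Field k] [Algebra (ZMod l) k] [IsAlgClosed k] [DecidableEq k]
    (T : (W⁄k).Point) :
    Point.map (FiniteField.frobeniusAlgHom (ZMod l) k)
        (Point.map (FiniteField.frobeniusAlgHom (ZMod l) k) T)
      - W.traceOfFrobenius • Point.map (FiniteField.frobeniusAlgHom (ZMod l) k) T
      + l • T = 0 := by
  have hΔ' : algebraMap (ZMod l) k W.Δ ≠ 0 := (_root_.map_ne_zero _).mpr hΔ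
  refine s58fk_core l W k hΔ' (s58pa_par_mem W k hΔ') ?_ T
  exact s58fsc_seam_of_count l W k (s58ffK W k) (algebraMap (RatFunc k) (s58ffK W k))
    (s58ff_algebraMap_ratC W k) (s58ffY W k) (s58ff_nonsingular W k hΔ')
    (fun A => (s58ffD W k A : ℤ)) (fun x y h r hr => s58fk_hd l W k x y h r hr) _
    (s58fg_ratfunc W hΔ)

/-- Frobenius on an affine point -/
theorem s58fq_frob_some (l : ℕ) [Fact l.Prime] (W : WeierstrassCurve (ZMod l))
    (k : Type*) [Field k] [Algebra (ZMod l) k] [DecidableEq k] {x y : k}
    (h : (W⁄k).Nonsingular x y) :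
    ∃ h' : (W⁄k).Nonsingular (x ^ l) (y ^ l),
      Point.map (W' := W) (FiniteField.frobeniusAlgHom (ZMod l) k) (Point.some x y h)
        = Point.some (x ^ l) (y ^ l) h' :=
  s58f3_frob_some W h

/-- the reduction of an integral model at a prime not dividing its discriminant -/
theorem s58fq_delta (W : WeierstrassCurve ℤ) (l : ℕ) (hΔ : ¬ (l : ℤ) ∣ W.Δ) :
    (W.reductionMod l).Δ ≠ 0 := by
  rw [WeierstrassCurve.reductionMod, WeierstrassCurve.map_Δ]
  intro h
  exact hΔ ((ZMod.intCast_zmod_eq_zero_iff_dvd _ _).mp h)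

/-- **(Q)** for the reduction of an integral model at a prime of good reduction, with
`a = W.apOfModel l`. -/
theorem s58fq_model (W : WeierstrassCurve ℤ) (l : ℕ) [Fact l.Prime] (hΔ : ¬ (l : ℤ) ∣ W.Δ)
    (k : Type*) [Field k] [Algebra (ZMod l) k] [IsAlgClosed k] [DecidableEq k]
    (T : ((W.reductionMod l)⁄k).Point) :
    Point.map (FiniteField.frobeniusAlgHom (ZMod l) k)
        (Point.map (FiniteField.frobeniusAlgHom (ZMod l) k) T)
      - W.apOfModel l • Point.map (FiniteField.frobeniusAlgHom (ZMod l) k) T
      + l • T = 0 :=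
  s58fq_main l (W.reductionMod l) (s58fq_delta W l hΔ) k T

end Fermat.Agent.S58
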