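import Mathlib
import Fermat.Agent.S58.RedAddB

/-!
# S58, package RED: the abstract cores of [EI-UNR] and [EI-QUAD]

`F` a field, `A` a valuation subring, `k` its residue field, `Wa` a Weierstrass curve over `A`
with generic fibre `WF` and special fibre `Wk` of nonzero discriminant (good reduction).
Assume the `m`-torsion points of `WF` are integral (`S58Int`).

* `s58rk_unr`: a coordinatewise map preserving residues fixes every `m`-torsion point whose
  image is again `m`-torsion;
* `s58rk_quad`: if `f` induces the `n`-th power map on residues and the `n`-th power map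
  satisfies `Q2 - a • Q1 + c • Q = 0` on the points of `Wk`, then `T2 - a • T1 + c • T = 0`
  for the images `T1`, `T2` of an `m`-torsion point `T`;
* `s58rk_red_tors`: the reduction homomorphism on the `m`-torsion.
-/

set_option autoImplicit false
set_option linter.unusedSectionVars false
set_option linter.unusedVariables false

open WeierstrassCurve WeierstrassCurve.Affine

namespace Fermat.Agent.S58

section Core

variable {F : Type*} [Field F] [DecidableEq F] {A : ValuationSubring F}
  [DecidableEq (IsLocalRing.ResidueField A)]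
  {WF : Affine F} {Wk : Affine (IsLocalRing.ResidueField A)}
  (Wa : WeierstrassCurve A) (hF : Wa.map A.subtype = WF)
  (hk : Wa.map (IsLocalRing.residue A) = Wk)

include hF hk in
/-- **Abstract [EI-UNR]**: a residue-preserving coordinate map fixes the integral torsion. -/
theorem s58rk_unr (hΔ : Wk.Δ ≠ 0) (m : ℕ)
    (hint : ∀ T : WF.Point, m • T = 0 → S58Int A WF T) (f : F → F)
    (hf : ∀ a : A, ∃ b : A, (b : F) = f a ∧ IsLocalRing.residue A b = IsLocalRing.residue A a)
    {T T' : WF.Point} (hT : m • T = 0) (hT' : m • T' = 0) (hm : S58Map WF f T T') :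
    T' = T := by
  obtain ⟨Q, hQ⟩ := s58rd_exists Wa hF hk hΔ (hint T hT)
  refine s58rb_fix Wa hF hk f hf hQ hm (hint _ ?_)
  rw [smul_sub, hT, hT', sub_zero]

include hF hk in
/-- the reduction homomorphism on the `m`-torsion, injective -/
theorem s58rk_red_tors (hΔ : Wk.Δ ≠ 0) (m : ℕ)
    (hint : ∀ T : WF.Point, m • T = 0 → S58Int A WF T) :
    ∃ r : ↥(nsmulAddMonoidHom (α := WF.Point) m).ker →+ Wk.Point,
      (∀ P : ↥(nsmulAddMonoidHom (α := WF.Point) m).ker, S58Red A WF Wk (P : WF.Point) (r P)) ∧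
      Function.Injective r := by
  refine s58rb_hom Wa hF hk _ (fun P hP => ?_)
  refine s58rd_exists Wa hF hk hΔ (hint P ?_)
  simpa [AddMonoidHom.mem_ker] using hP

include hF hk in
/-- **Abstract [EI-QUAD]**: a quadratic relation of the `n`-th power map on the special fibre
lifts to the integral torsion of the generic fibre. -/
theorem s58rk_quad (hΔ : Wk.Δ ≠ 0) (m : ℕ)
    (hint : ∀ T : WF.Point, m • T = 0 → S58Int A WF T) (f : F → F) (n : ℕ)
    (hf : ∀ a : A, ∃ b : A, (b : F) = f a ∧
      IsLocalRing.residue A b = IsLocalRing.residue A a ^ n)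
    (a c : ℤ)
    (hQ : ∀ Q Q1 Q2 : Wk.Point, S58Map Wk (fun z => z ^ n) Q Q1 →
      S58Map Wk (fun z => z ^ n) Q1 Q2 → Q2 - a • Q1 + c • Q = 0)
    {T T1 T2 : WF.Point} (hT : m • T = 0) (hT1 : m • T1 = 0) (hT2 : m • T2 = 0)
    (h1 : S58Map WF f T T1) (h2 : S58Map WF f T1 T2) :
    T2 - a • T1 + c • T = 0 := by
  obtain ⟨r, hr, hinj⟩ := s58rk_red_tors Wa hF hk hΔ m hint
  have hmem : ∀ P : WF.Point, m • P = 0 → P ∈ (nsmulAddMonoidHom (α := WF.Point) m).ker :=
    fun P hP => by simpa [AddMonoidHom.mem_ker] using hP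
  have hrT := hr ⟨T, hmem T hT⟩
  have hrT1 := hr ⟨T1, hmem T1 hT1⟩
  have hrT2 := hr ⟨T2, hmem T2 hT2⟩
  -- the reductions of the images are the images of the reductions
  obtain ⟨Q1, hQ1, hR1⟩ := s58rd_frob Wa hF hk hΔ f n hf hrT h1
  have e1 : Q1 = r ⟨T1, hmem T1 hT1⟩ := s58rd_unique hR1 hrT1
  obtain ⟨Q2, hQ2, hR2⟩ := s58rd_frob Wa hF hk hΔ f n hf hrT1 h2
  have e2 : Q2 = r ⟨T2, hmem T2 hT2⟩ := s58rd_unique hR2 hrT2
  rw [e1] at hQ1
  rw [e2] at hQ2
  have key := hQ _ _ _ hQ1 hQ2
  have key' : r ((⟨T2, hmem T2 hT2⟩ : ↥(nsmulAddMonoidHom (α := WF.Point) m).ker)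
      - a • ⟨T1, hmem T1 hT1⟩ + c • ⟨T, hmem T hT⟩) = 0 := by
    rw [map_add, map_sub, map_zsmul, map_zsmul]
    exact key
  have h0 := hinj (key'.trans (map_zero r).symm)
  have := congrArg (fun P : ↥(nsmulAddMonoidHom (α := WF.Point) m).ker => (P : WF.Point)) h0
  simpa using this

end Core

end Fermat.Agent.S58
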