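import Mathlib
import Fermat.Agent.S13.DivPolyGen
import Fermat.Agent.S58.RedDef

/-!
# S58, team RED, leaf [R-INT]: torsion points of order prime to the residue characteristic
are integral

`F` a field, `A` a valuation subring of `F`, `W` a Weierstrass curve over `F` with coefficients
in `A`, `m ≠ 0` a natural number which is a unit of `A`.  Then every affine point `P = (x, y)`
of `W` with `m • P = 0` has `x, y ∈ A` (`s58ri_int`).

Proof: let `d ≥ 2` be the exact order of `P`; it divides `m`, so it is a unit of `A`.  By S13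
(`dpA_eq_zero_of_order`, `dpv_ΨSq`) the abscissa `x` is a root of the division polynomial
`ΨSq_d`, which has coefficients in `A` and leading coefficient `d ^ 2`, a unit of `A`; as `A`
is integrally closed, `x ∈ A`.  Then `y` is a root of a monic quadratic polynomial over `A`.

* `s58ri_psiSq` : the abscissa of a torsion point is a root of `ΨSq_d`, `d` its exact order;
* `s58ri_int` : the integrality statement;
* `s58ri_int'` : the same in the relational form `S58Int` of `S58/RedDef.lean`.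

Names are prefixed `s58ri`.
-/

set_option autoImplicit false

namespace Fermat.Agent.S58

open WeierstrassCurve WeierstrassCurve.Affine Polynomial

/-- a root in `F` of a polynomial over the valuation subring `A` whose leading coefficient is a
unit of `A` lies in `A` -/
theorem s58ri_mem_of_root {F : Type*} [Field F] (A : ValuationSubring F) (q : Polynomial ↥A)
    (hu : IsUnit q.leadingCoeff) (x : F) (hx : eval₂ (algebraMap ↥A F) x q = 0) : x ∈ A := by
  have hint : IsIntegral ↥A x := by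
    refine ⟨hu.unit⁻¹ • q, monic_of_isUnit_leadingCoeff_inv_smul hu, ?_⟩
    rw [Units.smul_def, eval₂_smul, hx, mul_zero]
  obtain ⟨a, ha⟩ := IsIntegrallyClosed.isIntegral_iff.mp hint
  rw [← ha]
  exact a.2

/-- on a Weierstrass curve with coefficients in `A`, a point with abscissa in `A` has its
ordinate in `A` -/
theorem s58ri_y_mem {F : Type*} [Field F] (A : ValuationSubring F) (W : Affine F)
    (h₁ : W.a₁ ∈ A) (h₂ : W.a₂ ∈ A) (h₃ : W.a₃ ∈ A) (h₄ : W.a₄ ∈ A) (h₆ : W.a₆ ∈ A) {x y : F}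
    (h : W.Equation x y) (hx : x ∈ A) : y ∈ A := by
  have hb : W.a₁ * x + W.a₃ ∈ A := add_mem (mul_mem h₁ hx) h₃
  have hc : x ^ 3 + W.a₂ * x ^ 2 + W.a₄ * x + W.a₆ ∈ A :=
    add_mem (add_mem (add_mem (pow_mem hx 3) (mul_mem h₂ (pow_mem hx 2)))
      (mul_mem h₄ hx)) h₆
  have hint : IsIntegral ↥A y := by
    refine ⟨X ^ 2 + C (⟨_, hb⟩ : ↥A) * X - C (⟨_, hc⟩ : ↥A), by monicity!, ?_⟩
    have he := (equation_iff _ _).mp h
    simp only [eval₂_add, eval₂_sub, eval₂_mul, eval₂_pow, eval₂_X, eval₂_C]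
    change y ^ 2 + (W.a₁ * x + W.a₃) * y - (x ^ 3 + W.a₂ * x ^ 2 + W.a₄ * x + W.a₆) = 0
    linear_combination he
  obtain ⟨a, ha⟩ := IsIntegrallyClosed.isIntegral_iff.mp hint
  rw [← ha]
  exact a.2

/-- the abscissa of an affine point killed by `m ≠ 0` is a root of the division polynomial
`ΨSq_d`, where `d ≥ 2` is the exact order of the point (a divisor of `m`) -/
theorem s58ri_psiSq {F : Type*} [Field F] [DecidableEq F] (W : Affine F) (m : ℕ) (hm0 : m ≠ 0)
    {x y : F} (h : W.Nonsingular x y) (hP : m • (Point.some x y h : W.Point) = 0) :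
    ∃ d : ℕ, 2 ≤ d ∧ d ∣ m ∧ d = addOrderOf (Point.some x y h : W.Point) ∧
      (W.ΨSq (d : ℤ)).eval x = 0 := by
  have hdm : addOrderOf (Point.some x y h : W.Point) ∣ m := addOrderOf_dvd_of_nsmul_eq_zero hP
  have hd0 : addOrderOf (Point.some x y h : W.Point) ≠ 0 := fun h0 => by
    rw [h0, zero_dvd_iff] at hdm
    exact hm0 hdm
  have hd1 : addOrderOf (Point.some x y h : W.Point) ≠ 1 := fun h1 =>
    Point.some_ne_zero h (AddMonoid.addOrderOf_eq_one_iff.mp h1)
  refine ⟨_, by omega, hdm, rfl, ?_⟩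
  have hz := Fermat.Agent.S13.dpA_eq_zero_of_order h _ (by omega)
    (fun j hj1 hjd => nsmul_ne_zero_of_lt_addOrderOf (by omega) hjd)
    (addOrderOf_nsmul_eq_zero _)
  rw [Fermat.Agent.S13.dpv_ΨSq h.1]
  unfold Fermat.Agent.S13.dpA at hz
  rw [hz]
  ring

/-- **[R-INT]**: if the Weierstrass coefficients lie in the valuation subring `A` and `m ≠ 0` is
a unit of `A`, then the coordinates of every affine point killed by `m` lie in `A`. -/
theorem s58ri_int {F : Type*} [Field F] [DecidableEq F] (A : ValuationSubring F) (W : Affine F)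
    (h₁ : W.a₁ ∈ A) (h₂ : W.a₂ ∈ A) (h₃ : W.a₃ ∈ A) (h₄ : W.a₄ ∈ A) (h₆ : W.a₆ ∈ A)
    (m : ℕ) (hm0 : m ≠ 0) (hmA : (m : F) ∉ A.nonunits) {x y : F} (h : W.Nonsingular x y)
    (hP : m • (Point.some x y h : W.Point) = 0) : x ∈ A ∧ y ∈ A := by
  obtain ⟨d, -, hdm, -, hroot⟩ := s58ri_psiSq W m hm0 h hP
  let W₀ : WeierstrassCurve ↥A := ⟨⟨W.a₁, h₁⟩, ⟨W.a₂, h₂⟩, ⟨W.a₃, h₃⟩, ⟨W.a₄, h₄⟩, ⟨W.a₆, h₆⟩⟩
  have hW : W₀.map A.subtype = W := by ext <;> rfl
  rw [← hW, map_ΨSq, eval_map] at hroot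
  -- `m`, hence `d`, is a unit of `A`
  have hmu : IsUnit (m : ↥A) := by
    by_contra hnu
    apply hmA
    have hcast : ((m : ↥A) : F) = (m : F) := by simp
    rw [← hcast, ValuationSubring.coe_mem_nonunits_iff, IsLocalRing.mem_maximalIdeal]
    exact hnu
  have hdu : IsUnit (d : ↥A) := isUnit_of_dvd_unit (Nat.cast_dvd_cast hdm) hmu
  have hd0 : (((d : ℤ) : ↥A)) ≠ 0 := by
    rw [Int.cast_natCast]
    exact hdu.ne_zero
  have hlead : IsUnit (W₀.ΨSq (d : ℤ)).leadingCoeff := by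
    rw [leadingCoeff_ΨSq _ hd0, Int.cast_natCast]
    exact hdu.pow 2
  have hx : x ∈ A := s58ri_mem_of_root A _ hlead x hroot
  exact ⟨hx, s58ri_y_mem A W h₁ h₂ h₃ h₄ h₆ h.1 hx⟩

/-- **[R-INT]**, relational form: a point killed by `m ≠ 0`, a unit of `A`, is integral in the
sense of `S58Int`. -/
theorem s58ri_int' {F : Type*} [Field F] [DecidableEq F] (A : ValuationSubring F) (W : Affine F)
    (h₁ : W.a₁ ∈ A) (h₂ : W.a₂ ∈ A) (h₃ : W.a₃ ∈ A) (h₄ : W.a₄ ∈ A) (h₆ : W.a₆ ∈ A)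
    (m : ℕ) (hm0 : m ≠ 0) (hmA : (m : F) ∉ A.nonunits) (P : W.Point) (hP : m • P = 0) :
    S58Int A W P := by
  rcases P with _ | ⟨x, y, h⟩
  · exact Or.inl rfl
  · obtain ⟨hx, hy⟩ := s58ri_int A W h₁ h₂ h₃ h₄ h₆ m hm0 hmA h hP
    exact Or.inr ⟨⟨x, hx⟩, ⟨y, hy⟩, h, rfl⟩

/-- the form with a model over `A`: `W = Wa.map A.subtype` -/
theorem s58ri_int_model {F : Type*} [Field F] [DecidableEq F] (A : ValuationSubring F)
    (Wa : WeierstrassCurve ↥A) (W : Affine F) (hF : Wa.map A.subtype = W)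
    (m : ℕ) (hm0 : m ≠ 0) (hmA : (m : F) ∉ A.nonunits) (P : W.Point) (hP : m • P = 0) :
    S58Int A W P := by
  subst hF
  exact s58ri_int' A _ Wa.a₁.2 Wa.a₂.2 Wa.a₃.2 Wa.a₄.2 Wa.a₆.2 m hm0 hmA P hP

end Fermat.Agent.S58
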