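import Mathlib
import Fermat.Agent.S58.RedDef

/-!
# S58, package RED: the relational form of the Frobenius characteristic equation

`W0` a Weierstrass curve over `ZMod l`, `k` a field over `ZMod l`.  The statement (Q) of the FROB
package is written with `Point.map (FiniteField.frobeniusAlgHom (ZMod l) k)`; the reduction package
consumes it in the relational form `S58Map (W0⁄k) (· ^ l)`.

* `s58rq_map_frob`: `S58Map (W0⁄k) (· ^ l) T T1` iff `T1` is the Frobenius image of `T`;
* `s58rq_of_fq`: the relational form of (Q) from its `Point.map` form.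

Names are prefixed `s58rq`.
-/

set_option autoImplicit false

noncomputable section

open WeierstrassCurve WeierstrassCurve.Affine

namespace Fermat.Agent.S58

section

variable (l : ℕ) [Fact l.Prime] (W0 : WeierstrassCurve (ZMod l))
  (k : Type*) [Field k] [Algebra (ZMod l) k] [DecidableEq k]

/-- the Frobenius of `k` over `ZMod l` is the `l`-th power -/
theorem s58rq_frob_apply (z : k) : FiniteField.frobeniusAlgHom (ZMod l) k z = z ^ l := by
  rw [FiniteField.coe_frobeniusAlgHom, ZMod.card]

/-- the Frobenius image of an affine point -/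
theorem s58rq_frob_some {x y : k} (h : (W0.toAffine⁄k).Nonsingular x y) :
    ∃ h' : (W0.toAffine⁄k).Nonsingular (x ^ l) (y ^ l),
      Point.map (W' := W0.toAffine) (FiniteField.frobeniusAlgHom (ZMod l) k) (Point.some x y h) =
        Point.some (x ^ l) (y ^ l) h' := by
  have h1 := Point.map_some (W' := W0.toAffine) (FiniteField.frobeniusAlgHom (ZMod l) k) h
  have hx := s58rq_frob_apply l k x
  have hy := s58rq_frob_apply l k y
  have h' : (W0.toAffine⁄k).Nonsingular (x ^ l) (y ^ l) := by
    rw [← hx, ← hy]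
    exact (W0.toAffine.baseChange_nonsingular
      (FiniteField.frobeniusAlgHom (ZMod l) k).injective x y).mpr h
  exact ⟨h', h1.trans (s58rd_some_congr _ _ hx hy)⟩

/-- the relation `S58Map (· ^ l)` is the graph of the Frobenius on points -/
theorem s58rq_map_frob {T T1 : (W0.toAffine⁄k).Point}
    (h : S58Map (W0.toAffine⁄k) (fun z => z ^ l) T T1) :
    T1 = Point.map (W' := W0.toAffine) (FiniteField.frobeniusAlgHom (ZMod l) k) T := by
  rcases h with ⟨hT, hT1⟩ | ⟨x, y, h, h', hT, hT1⟩
  · rw [hT, hT1]
    rfl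
  · obtain ⟨h'', e⟩ := s58rq_frob_some l W0 k h
    rw [hT, hT1, e]

/-- the graph of the Frobenius satisfies `S58Map (· ^ l)` -/
theorem s58rq_frob_map (T : (W0.toAffine⁄k).Point) :
    S58Map (W0.toAffine⁄k) (fun z => z ^ l) T
      (Point.map (W' := W0.toAffine) (FiniteField.frobeniusAlgHom (ZMod l) k) T) := by
  rcases T with _ | ⟨x, y, h⟩
  · exact Or.inl ⟨rfl, rfl⟩
  · obtain ⟨h'', e⟩ := s58rq_frob_some l W0 k h
    exact Or.inr ⟨x, y, h, h'', rfl, e⟩

/-- **(Q), relational form**, from the `Point.map` form. -/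
theorem s58rq_of_fq (a : ℤ)
    (hfq : ∀ T : (W0.toAffine⁄k).Point,
      Point.map (W' := W0.toAffine) (FiniteField.frobeniusAlgHom (ZMod l) k)
          (Point.map (W' := W0.toAffine) (FiniteField.frobeniusAlgHom (ZMod l) k) T) -
        a • Point.map (W' := W0.toAffine) (FiniteField.frobeniusAlgHom (ZMod l) k) T + l • T = 0)
    (T T1 T2 : (W0.toAffine⁄k).Point)
    (h1 : S58Map (W0.toAffine⁄k) (fun z => z ^ l) T T1)
    (h2 : S58Map (W0.toAffine⁄k) (fun z => z ^ l) T1 T2) :
    T2 - a • T1 + (l : ℤ) • T = 0 := by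
  have e1 := s58rq_map_frob l W0 k h1
  have e2 := s58rq_map_frob l W0 k h2
  rw [e2, e1, natCast_zsmul]
  exact hfq T

end

end Fermat.Agent.S58
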