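import Mathlib
import Fermat.Prelude.Def_FLTPrelim_Ramification
import Fermat.Prelude.Def_EllipticCurve_FrobeniusTrace
import Fermat.Prelude.Def_FLTPrelim_Modularity
import Fermat.Prelude.Def_FLTPrelim_GaloisRep
import Fermat.Agent.S05.Inertia
import Fermat.Agent.S18.IfaceRed
import Fermat.Agent.S58.RedGalCore
import Fermat.Agent.S58.RedInt
import Fermat.Agent.S58.RedQ

/-!
# S58, package RED: [EI-UNR] and [EI-QUAD] for an integral Weierstrass model

`W : WeierstrassCurve ℤ`, `l` a prime with `l ∤ Δ`, `A` a valuation subring of `Qb` over `l`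
with residue field `k`, `P := ((W.map (Int.castRingHom ℚ))⁄Qb).Point` with the Galois action.

* `s58rg_unr`: inertia at `A` fixes every torsion point of order prime to `l`;
* `s58rg_quad_of`: a Frobenius `τ` at `A` satisfies `τ² - a_l τ + l = 0` on the torsion prime
  to `l`, given the same relation for the Frobenius endomorphism of the reduced curve over `k`
  (in the `Point.map (FiniteField.frobeniusAlgHom (ZMod l) k)` form, for every structure of
  `ZMod l`-algebra on `k`).

Seams: `s58rg_res_inertia`, `s58rg_res_frob` (the Galois elements on residues),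
`s58rg_charP`, `s58rg_algClosed`, `s58rg_unit`, `s58rg_hF`, `s58rg_hk`, `s58rg_disc`,
`s58rg_disc0`, `s58rg_map`, `s58rg_smul_tors` (curve seams),
`s58rg_int` (integrality of the torsion prime to `l`).
-/

set_option autoImplicit false
set_option linter.unusedSectionVars false
set_option linter.unusedVariables false
set_option linter.style.haveILetI false

open WeierstrassCurve WeierstrassCurve.Affine

namespace Fermat.Agent.S58

local notation "Qb" => AlgebraicClosure ℚ

/-- an element of the inertia subgroup preserves `A` and acts trivially on residues -/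
theorem s58rg_res_inertia (A : ValuationSubring Qb) (σ : Qb ≃ₐ[ℚ] Qb)
    (hσ : σ ∈ A.inertiaSubgroupIn ℚ) :
    ∀ a : A, ∃ b : A, (b : Qb) = σ a ∧ IsLocalRing.residue A b = IsLocalRing.residue A a := by
  intro a
  have h := Fermat.Agent.S05.inertia_sub_mem_nonunits A σ hσ a a.2
  have hmem : σ (a : Qb) ∈ A := by
    have e : σ (a : Qb) = (σ a - a) + a := by ring
    rw [e]
    exact add_mem (A.nonunits_subset h) a.2
  refine ⟨⟨σ a, hmem⟩, rfl, ?_⟩
  rw [← sub_eq_zero, ← map_sub, IsLocalRing.residue_eq_zero_iff, IsLocalRing.mem_maximalIdeal]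
  exact (A.coe_mem_nonunits_iff).mp h

/-- a Frobenius element preserves `A` and acts as the `l`-th power on residues -/
theorem s58rg_res_frob (A : ValuationSubring Qb) (l : ℕ) (τ : Qb ≃ₐ[ℚ] Qb)
    (hτ : A.IsFrobeniusAt τ l) :
    ∀ a : A, ∃ b : A, (b : Qb) = τ a ∧
      IsLocalRing.residue A b = IsLocalRing.residue A a ^ l := by
  intro a
  obtain ⟨hd, hx⟩ := hτ
  refine ⟨(⟨τ, hd⟩ : A.decompositionSubgroup ℚ) • a, rfl, ?_⟩
  rw [IsLocalRing.ResidueField.residue_smul]
  exact hx _

/-- the residue characteristic -/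
theorem s58rg_charP (A : ValuationSubring Qb) (l : ℕ) (hl : l.Prime) (hA : A.LiesOverPrime l) :
    CharP (IsLocalRing.ResidueField A) l := by
  haveI : Fact l.Prime := ⟨hl⟩
  rw [CharP.charP_iff_prime_eq_zero hl]
  have h1 : ((l : A) : Qb) ∈ A.nonunits := by
    rw [show ((l : A) : Qb) = (l : Qb) from by simp]
    exact hA
  have h2 : (l : A) ∈ IsLocalRing.maximalIdeal A := by
    rw [IsLocalRing.mem_maximalIdeal]
    exact (A.coe_mem_nonunits_iff).mp h1
  have h3 := (IsLocalRing.residue_eq_zero_iff (l : A)).mpr h2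
  rwa [map_natCast] at h3

/-- integers prime to `l` are units of `A` -/
theorem s58rg_unit (A : ValuationSubring Qb) (l : ℕ) (hl : l.Prime) (hA : A.LiesOverPrime l)
    (m : ℕ) (hm : m.Coprime l) : (m : Qb) ∉ A.nonunits := by
  have hn : ¬ (l : ℤ) ∣ (m : ℤ) := by
    rw [Int.natCast_dvd_natCast]
    intro hd
    have := Nat.Coprime.eq_one_of_dvd hm.symm hd
    exact hl.one_lt.ne' this
  have h1 := Fermat.Agent.S05.valuation_intCast_eq_one A hl hA hn
  rw [ValuationSubring.mem_nonunits_iff]
  have e : ((m : ℤ) : Qb) = (m : Qb) := by push_cast; rfl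
  rw [← e, h1]
  exact lt_irrefl _

/-- the generic fibre of the model over `A` -/
theorem s58rg_hF (A : ValuationSubring Qb) (W : WeierstrassCurve ℤ) :
    (W.map (Int.castRingHom A)).map A.subtype = ((W.map (Int.castRingHom ℚ))⁄Qb) := by
  show _ = (W.map (Int.castRingHom ℚ)).map (algebraMap ℚ Qb)
  rw [WeierstrassCurve.map_map, WeierstrassCurve.map_map]
  exact congrArg W.map (RingHom.ext_int _ _)

/-- the special fibre of the model over `A` -/
theorem s58rg_hk (A : ValuationSubring Qb) (W : WeierstrassCurve ℤ) (l : ℕ)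
    [Algebra (ZMod l) (IsLocalRing.ResidueField A)] :
    (W.map (Int.castRingHom A)).map (IsLocalRing.residue A) =
      ((W.reductionMod l)⁄(IsLocalRing.ResidueField A)) := by
  show _ = (W.map (Int.castRingHom (ZMod l))).map
    (algebraMap (ZMod l) (IsLocalRing.ResidueField A))
  rw [WeierstrassCurve.map_map, WeierstrassCurve.map_map]
  exact congrArg W.map (RingHom.ext_int _ _)

/-- good reduction: the discriminant of the special fibre -/
theorem s58rg_disc (W : WeierstrassCurve ℤ) (l : ℕ) (hl : l.Prime) (hΔ : ¬ (l : ℤ) ∣ W.Δ)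
    (k : Type*) [Field k] [Algebra (ZMod l) k] : ((W.reductionMod l)⁄k).Δ ≠ 0 := by
  haveI : Fact l.Prime := ⟨hl⟩
  show ((W.map (Int.castRingHom (ZMod l))).map (algebraMap (ZMod l) k)).Δ ≠ 0
  rw [WeierstrassCurve.map_Δ, WeierstrassCurve.map_Δ]
  intro h
  have h2 := (map_eq_zero_iff _ (algebraMap (ZMod l) k).injective).mp h
  rw [eq_intCast, ZMod.intCast_zmod_eq_zero_iff_dvd] at h2
  exact hΔ h2

/-- good reduction: the discriminant of the reduction modulo `l` -/
theorem s58rg_disc0 (W : WeierstrassCurve ℤ) (l : ℕ) (hΔ : ¬ (l : ℤ) ∣ W.Δ) :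
    (W.reductionMod l).Δ ≠ 0 := by
  show (W.map (Int.castRingHom (ZMod l))).Δ ≠ 0
  rw [WeierstrassCurve.map_Δ]
  intro h
  rw [eq_intCast, ZMod.intCast_zmod_eq_zero_iff_dvd] at h
  exact hΔ h

/-- the residue field of a valuation subring of `Qb` is algebraically closed -/
theorem s58rg_algClosed (A : ValuationSubring Qb) : IsAlgClosed (IsLocalRing.ResidueField A) :=
  Fermat.Agent.S18.ifr_residue_isAlgClosed A

/-- the Galois action is the coordinatewise image -/
theorem s58rg_map (W : WeierstrassCurve ℤ) (σ : Qb ≃ₐ[ℚ] Qb)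
    (T : ((W.map (Int.castRingHom ℚ))⁄Qb).Point) :
    S58Map ((W.map (Int.castRingHom ℚ))⁄Qb) (fun z => σ z) T (σ • T) := by
  rcases T with _ | ⟨x, y, h⟩
  · exact Or.inl ⟨rfl, rfl⟩
  · exact Or.inr ⟨x, y, h, _, rfl, rfl⟩

/-- the Galois action preserves the `m`-torsion -/
theorem s58rg_smul_tors (W : WeierstrassCurve ℤ) (σ : Qb ≃ₐ[ℚ] Qb) (m : ℕ)
    (T : ((W.map (Int.castRingHom ℚ))⁄Qb).Point) (hT : m • T = 0) : m • (σ • T) = 0 := by
  have h := (Point.map (W' := (W.map (Int.castRingHom ℚ))) σ.toAlgHom).map_nsmul m T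
  rw [hT, map_zero] at h
  exact h.symm

/-- **integrality** of the torsion prime to `l` -/
theorem s58rg_int (W : WeierstrassCurve ℤ) (l : ℕ) (hl : l.Prime) (m : ℕ) (hm : m.Coprime l)
    (A : ValuationSubring Qb) (hA : A.LiesOverPrime l)
    (T : ((W.map (Int.castRingHom ℚ))⁄Qb).Point) (hT : m • T = 0) :
    S58Int A ((W.map (Int.castRingHom ℚ))⁄Qb) T := by
  have hm0 : m ≠ 0 := by
    rintro rfl
    rw [Nat.coprime_zero_left] at hm
    exact hl.one_lt.ne' hm
  exact s58ri_int_model A (W.map (Int.castRingHom A)) _ (s58rg_hF A W) m hm0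
    (s58rg_unit A l hl hA m hm) T hT

/-- **[EI-UNR]**: inertia at a prime of good reduction fixes the torsion prime to `l`. -/
theorem s58rg_unr (W : WeierstrassCurve ℤ) (l : ℕ) (hl : l.Prime) (hΔ : ¬ (l : ℤ) ∣ W.Δ)
    (m : ℕ) (hm : m.Coprime l) (A : ValuationSubring Qb) (hA : A.LiesOverPrime l)
    (σ : Qb ≃ₐ[ℚ] Qb) (hσ : σ ∈ A.inertiaSubgroupIn ℚ)
    (T : ((W.map (Int.castRingHom ℚ))⁄Qb).Point) (hT : m • T = 0) : σ • T = T := by
  classical
  haveI : Fact l.Prime := ⟨hl⟩
  haveI : CharP (IsLocalRing.ResidueField A) l := s58rg_charP A l hl hA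
  letI : Algebra (ZMod l) (IsLocalRing.ResidueField A) := ZMod.algebra _ l
  exact s58rk_unr (W.map (Int.castRingHom A)) (s58rg_hF A W) (s58rg_hk A W l)
    (s58rg_disc W l hl hΔ _) m (fun T hT => s58rg_int W l hl m hm A hA T hT)
    (fun z => σ z) (s58rg_res_inertia A σ hσ) hT (s58rg_smul_tors W σ m T hT) (s58rg_map W σ T)

/-- **[EI-QUAD]** from the characteristic equation of the Frobenius endomorphism of the reduced
curve over the residue field of `A` (statement (Q) of the FROB package at `k = k_A`). -/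
theorem s58rg_quad_of (W : WeierstrassCurve ℤ) (l : ℕ) (hl : l.Prime) (hΔ : ¬ (l : ℤ) ∣ W.Δ)
    (m : ℕ) (hm : m.Coprime l) (A : ValuationSubring Qb) (hA : A.LiesOverPrime l)
    (hfq : ∀ [Fact l.Prime] [Algebra (ZMod l) (IsLocalRing.ResidueField A)]
      [DecidableEq (IsLocalRing.ResidueField A)]
      (Q : ((W.reductionMod l)⁄(IsLocalRing.ResidueField A)).Point),
      Point.map (W' := (W.reductionMod l).toAffine)
          (FiniteField.frobeniusAlgHom (ZMod l) (IsLocalRing.ResidueField A))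
          (Point.map (W' := (W.reductionMod l).toAffine)
            (FiniteField.frobeniusAlgHom (ZMod l) (IsLocalRing.ResidueField A)) Q) -
        W.apOfModel l • Point.map (W' := (W.reductionMod l).toAffine)
          (FiniteField.frobeniusAlgHom (ZMod l) (IsLocalRing.ResidueField A)) Q + l • Q = 0)
    (τ : Qb ≃ₐ[ℚ] Qb) (hτ : A.IsFrobeniusAt τ l)
    (T : ((W.map (Int.castRingHom ℚ))⁄Qb).Point) (hT : m • T = 0) :
    τ • τ • T - W.apOfModel l • τ • T + (l : ℤ) • T = 0 := by
  classical
  haveI : Fact l.Prime := ⟨hl⟩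
  haveI : CharP (IsLocalRing.ResidueField A) l := s58rg_charP A l hl hA
  letI : Algebra (ZMod l) (IsLocalRing.ResidueField A) := ZMod.algebra _ l
  have hT1 := s58rg_smul_tors W τ m T hT
  have hT2 := s58rg_smul_tors W τ m (τ • T) hT1
  exact s58rk_quad (W.map (Int.castRingHom A)) (s58rg_hF A W) (s58rg_hk A W l)
    (s58rg_disc W l hl hΔ _) m (fun T hT => s58rg_int W l hl m hm A hA T hT)
    (fun z => τ z) l (s58rg_res_frob A l τ hτ) (W.apOfModel l) (l : ℤ)
    (fun Q Q1 Q2 h1 h2 => s58rq_of_fq l (W.reductionMod l) (IsLocalRing.ResidueField A)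
      (W.apOfModel l) (fun Q => hfq Q) Q Q1 Q2 h1 h2)
    hT hT1 hT2 (s58rg_map W τ T) (s58rg_map W τ (τ • T))

end Fermat.Agent.S58
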