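import Mathlib
import Fermat.Agent.S58.RedGal
import Fermat.Agent.S58.FrobQ

/-!
# S58, package RED: [EI-QUAD]

`s58rg_quad`: for an integral Weierstrass model `W`, a prime `l ∤ Δ`, a valuation subring `A`
of `Qb` over `l` and a Frobenius element `τ` at `A`, the relation
`τ² - a_l(W) τ + l = 0` holds on every torsion point of order prime to `l`.

It is `s58rg_quad_of` (`S58/RedGal.lean`) fed with the characteristic equation of the Frobenius
endomorphism `s58fq_main` (`S58/FrobQ.lean`) at the residue field of `A`.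
-/

set_option autoImplicit false
set_option linter.style.haveILetI false

open WeierstrassCurve WeierstrassCurve.Affine

namespace Fermat.Agent.S58

local notation "Qb" => AlgebraicClosure ℚ

/-- **[EI-QUAD]**: the Frobenius at a prime of good reduction satisfies
`τ² - a_l τ + l = 0` on the torsion prime to `l`. -/
theorem s58rg_quad (W : WeierstrassCurve ℤ) (l : ℕ) (hl : l.Prime) (hΔ : ¬ (l : ℤ) ∣ W.Δ)
    (m : ℕ) (hm : m.Coprime l) (A : ValuationSubring Qb) (hA : A.LiesOverPrime l)
    (τ : Qb ≃ₐ[ℚ] Qb) (hτ : A.IsFrobeniusAt τ l)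
    (T : ((W.map (Int.castRingHom ℚ))⁄Qb).Point) (hT : m • T = 0) :
    τ • τ • T - W.apOfModel l • τ • T + (l : ℤ) • T = 0 :=
  s58rg_quad_of W l hl hΔ m hm A hA (fun Q => by
    haveI := s58rg_algClosed A
    exact s58fq_main l (W.reductionMod l) (s58rg_disc0 W l hΔ) _ Q) τ hτ T hT

end Fermat.Agent.S58
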