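/-
S58 (stage 7), package [M3b]: the trivial bound for `a_q(W)` and the abstract lemmas behind the
level claims of [M3].  Prefix `s58ab_`.

* `s58ab_card_bounds` : `1 ≤ #W'(𝔽_q) ≤ 2 q + 1` for a Weierstrass curve over `ZMod q`
  (points at infinity included; no hypothesis on the discriminant);
* `s58ab_ap_bounds`, `s58ab_ap_ne`, `s58ab_bound` : `- q ≤ a_q(W) ≤ q`, hence
  `a_q(W) ≠ ± (q + 1)`;
* `s58ab_trace_of_charpoly` : the trace from a characteristic polynomial `X² - c X + d`;
* `s58ab_not_steinberg` : a Frobenius element at `q` whose characteristic polynomial is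
  `X² ∓ (q + 1) X + q` cannot have trace `a_q(W)` (CLAIM A, case `q ‖ M`);
* `s58ab_disc_ne_zero` : `Δ ≠ 0` when every prime dividing `Δ` divides `N ≠ 0`;
* `s58ab_dvd_conductorLevel` : CLAIM A + CLAIM B ⟹ `M ∣ rad |Δ|`: if no good prime divides
  `M` exactly once, and no prime divides `M` exactly twice, and `M ≠ 0` is cube-free, then `M`
  divides `W.conductorLevel`.
-/
import Mathlib
import Fermat.Prelude.Def_FLTPrelim_Modularity
import Fermat.Prelude.Def_WeierstrassCurve_ConductorLevel
import Fermat.Prelude.Def_GaloisRep_LocalConditions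

set_option autoImplicit false

namespace Fermat.Agent.S58

open Polynomial

/-! ### The trivial bound for the number of points -/

/-- at most `2 q` affine solutions of a Weierstrass equation over `ZMod q` -/
theorem s58ab_eq_card_le (q : ℕ) [Fact q.Prime] (W' : WeierstrassCurve (ZMod q)) :
    Nat.card {p : ZMod q × ZMod q // W'.toAffine.Equation p.1 p.2} ≤ 2 * q := by
  classical
  rw [Nat.card_eq_fintype_card, Fintype.card_subtype]
  set T := Finset.univ.filter (fun p : ZMod q × ZMod q => W'.toAffine.Equation p.1 p.2) with hT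
  have h1 : T.card = ∑ x ∈ (Finset.univ : Finset (ZMod q)), (T.filter (fun p => p.1 = x)).card :=
    Finset.card_eq_sum_card_fiberwise (fun p _ => Finset.mem_univ _)
  have h2 : ∀ x : ZMod q, (T.filter (fun p => p.1 = x)).card ≤ 2 := by
    intro x
    by_cases hne : (T.filter (fun p => p.1 = x)).Nonempty
    · obtain ⟨p0, hp0⟩ := hne
      rw [Finset.mem_filter, hT, Finset.mem_filter] at hp0
      obtain ⟨⟨-, he0⟩, hx0⟩ := hp0
      have hsub : T.filter (fun p => p.1 = x) ⊆
          {(x, p0.2), (x, -p0.2 - W'.a₁ * x - W'.a₃)} := by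
        intro p hp
        rw [Finset.mem_filter, hT, Finset.mem_filter] at hp
        obtain ⟨⟨-, he⟩, hx⟩ := hp
        rw [WeierstrassCurve.Affine.equation_iff] at he he0
        rw [hx] at he
        rw [hx0] at he0
        have h3 : (p.2 - p0.2) * (p.2 + p0.2 + W'.a₁ * x + W'.a₃) = 0 := by
          linear_combination he - he0
        rcases mul_eq_zero.mp h3 with h4 | h4
        · rw [Finset.mem_insert]
          exact Or.inl (Prod.ext hx (sub_eq_zero.mp h4))
        · rw [Finset.mem_insert, Finset.mem_singleton]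
          exact Or.inr (Prod.ext hx (by linear_combination h4))
      exact (Finset.card_le_card hsub).trans Finset.card_le_two
    · rw [Finset.not_nonempty_iff_eq_empty.mp hne, Finset.card_empty]
      exact Nat.zero_le 2
  rw [h1]
  calc ∑ x ∈ (Finset.univ : Finset (ZMod q)), (T.filter (fun p => p.1 = x)).card
      ≤ ∑ _x ∈ (Finset.univ : Finset (ZMod q)), 2 := Finset.sum_le_sum (fun x _ => h2 x)
    _ = 2 * q := by rw [Finset.sum_const, Finset.card_univ, ZMod.card, smul_eq_mul, mul_comm]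

/-- `1 ≤ #W'(𝔽_q) ≤ 2 q + 1` -/
theorem s58ab_card_bounds (q : ℕ) [Fact q.Prime] (W' : WeierstrassCurve (ZMod q)) :
    1 ≤ W'.card ∧ W'.card ≤ 2 * q + 1 := by
  classical
  constructor
  · have : Nonempty W'.toAffine.Point := ⟨0⟩
    exact Nat.card_pos
  · let g : W'.toAffine.Point → Option {p : ZMod q × ZMod q // W'.toAffine.Equation p.1 p.2} :=
      fun P => match P with
        | .zero => none
        | .some x y h => some ⟨(x, y), h.1⟩
    have hg : Function.Injective g := by
      rintro (_ | ⟨x₁, y₁, h₁⟩) (_ | ⟨x₂, y₂, h₂⟩) h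
      · rfl
      · exact absurd h (by simp [g])
      · exact absurd h (by simp [g])
      · simp only [g, Option.some.injEq, Subtype.mk.injEq, Prod.mk.injEq] at h
        obtain ⟨rfl, rfl⟩ := h
        rfl
    have h1 := Nat.card_le_card_of_injective g hg
    rw [Finite.card_option] at h1
    exact h1.trans (Nat.succ_le_succ (s58ab_eq_card_le q W'))

/-- `- q ≤ a_q(W) ≤ q` -/
theorem s58ab_ap_bounds (W : WeierstrassCurve ℤ) (q : ℕ) (hq : q.Prime) :
    -(q : ℤ) ≤ W.apOfModel q ∧ W.apOfModel q ≤ q := by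
  have : Fact q.Prime := ⟨hq⟩
  obtain ⟨h1, h2⟩ := s58ab_card_bounds q (W.reductionMod q)
  have e : W.apOfModel q = (q : ℤ) + 1 - ((W.reductionMod q).card : ℤ) := by
    show ((Nat.card (ZMod q) : ℕ) : ℤ) + 1 - ((W.reductionMod q).card : ℤ) = _
    rw [Nat.card_zmod]
  rw [e]
  constructor <;> omega

/-- `a_q(W) ≠ q + 1` and `a_q(W) ≠ -(q + 1)` -/
theorem s58ab_ap_ne (W : WeierstrassCurve ℤ) (q : ℕ) (hq : q.Prime) :
    W.apOfModel q ≠ (q : ℤ) + 1 ∧ W.apOfModel q ≠ -((q : ℤ) + 1) := by
  obtain ⟨h1, h2⟩ := s58ab_ap_bounds W q hq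
  constructor <;> omega

/-- **[M3b]** in the header shape of the team split (the hypothesis `_hgood` is not used) -/
theorem s58ab_bound (W : WeierstrassCurve ℤ) (q : ℕ) (hq : q.Prime)
    (_hgood : W.IsGoodPrimeFor q) :
    W.apOfModel q ≠ (q : ℤ) + 1 ∧ W.apOfModel q ≠ -((q : ℤ) + 1) :=
  s58ab_ap_ne W q hq

/-! ### Traces and characteristic polynomials -/

/-- the trace of an endomorphism with characteristic polynomial `X² - a X + b` -/
theorem s58ab_trace_of_charpoly {R M : Type} [CommRing R] [Nontrivial R] [AddCommGroup M]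
    [Module R M] [Module.Free R M] [Module.Finite R M] (f : M →ₗ[R] M) (a b : R)
    (h : LinearMap.charpoly f = X ^ 2 - C a * X + C b) : LinearMap.trace R M f = a := by
  classical
  rw [LinearMap.trace_eq_matrix_trace R (Module.Free.chooseBasis R M) f,
    Matrix.trace_eq_neg_charpoly_nextCoeff]
  have h' : (LinearMap.toMatrix (Module.Free.chooseBasis R M) (Module.Free.chooseBasis R M)
      f).charpoly = X ^ 2 - C a * X + C b := h
  rw [h']
  have hdeg : (X ^ 2 - C a * X + C b : R[X]).natDegree = 2 := by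
    compute_degree!
  rw [Polynomial.nextCoeff, if_neg (by rw [hdeg]; norm_num), hdeg]
  simp [Polynomial.coeff_C]

/-- **CLAIM A, case `q ‖ M`**: an element whose characteristic polynomial is
`X² ∓ (q + 1) X + q` does not have trace `a_q(W)`. -/
theorem s58ab_not_steinberg {R : Type} [CommRing R] [IsLocalRing R] [CharZero R]
    (ρ : GaloisRepAdic R) (σ : AlgebraicClosure ℚ ≃ₐ[ℚ] AlgebraicClosure ℚ)
    (W : WeierstrassCurve ℤ) (q : ℕ) (hq : q.Prime)
    (hch : LinearMap.charpoly (ρ.ρ σ) = X ^ 2 - C ((q : R) + 1) * X + C ((q : R)) ∨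
      LinearMap.charpoly (ρ.ρ σ) = X ^ 2 + C ((q : R) + 1) * X + C ((q : R)))
    (htr : LinearMap.trace R ρ.V (ρ.ρ σ) = ((W.apOfModel q : ℤ) : R)) : False := by
  obtain ⟨hne1, hne2⟩ := s58ab_ap_ne W q hq
  rcases hch with h | h
  · have h1 := s58ab_trace_of_charpoly (ρ.ρ σ) _ _ h
    rw [htr] at h1
    have h2 : ((W.apOfModel q : ℤ) : R) = (((q : ℤ) + 1 : ℤ) : R) := by
      rw [h1]; push_cast; rfl
    exact hne1 (Int.cast_injective h2)
  · have h' : LinearMap.charpoly (ρ.ρ σ) = X ^ 2 - C (-((q : R) + 1)) * X + C ((q : R)) := by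
      rw [h, C_neg]; ring
    have h1 := s58ab_trace_of_charpoly (ρ.ρ σ) _ _ h'
    rw [htr] at h1
    have h2 : ((W.apOfModel q : ℤ) : R) = ((-((q : ℤ) + 1) : ℤ) : R) := by
      rw [h1]; push_cast; rfl
    exact hne2 (Int.cast_injective h2)

/-! ### The combinatorics of the level -/

/-- the discriminant is non-zero when its prime divisors divide `N ≠ 0` -/
theorem s58ab_disc_ne_zero (W : WeierstrassCurve ℤ) (N : ℕ) (hN : N ≠ 0)
    (hbad : ∀ ℓ : ℕ, ℓ.Prime → (ℓ : ℤ) ∣ W.Δ → ℓ ∣ N) : W.Δ ≠ 0 := by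
  intro h0
  obtain ⟨ℓ, hℓN, hℓ⟩ := Nat.exists_infinite_primes (N + 1)
  have h1 : ℓ ∣ N := hbad ℓ hℓ (by rw [h0]; exact dvd_zero _)
  have h2 := Nat.le_of_dvd (Nat.pos_of_ne_zero hN) h1
  omega

/-- **[M3], combinatorial form.**  `M ≠ 0` cube-free; no good prime divides `M` exactly once
(CLAIM A, first case); no prime divides `M` exactly twice (CLAIM A, second case, and CLAIM B).
Then `M` divides the conductor level `rad |Δ|`. -/
theorem s58ab_dvd_conductorLevel (W : WeierstrassCurve ℤ) (hΔ : W.Δ ≠ 0) (M : ℕ) (hM0 : M ≠ 0)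
    (hM3 : ∀ q : ℕ, q.Prime → ¬ q ^ 3 ∣ M)
    (h1 : ∀ q : ℕ, q.Prime → W.IsGoodPrimeFor q → q ∣ M → ¬ q ^ 2 ∣ M → False)
    (h2 : ∀ q : ℕ, q.Prime → M.factorization q = 2 → False) :
    M ∣ W.conductorLevel := by
  have hsq2 : ∀ q : ℕ, q.Prime → ¬ q ^ 2 ∣ M := by
    intro q hq hdvd
    have ha : 2 ≤ M.factorization q := (hq.pow_dvd_iff_le_factorization hM0).mp hdvd
    have hb : ¬ 3 ≤ M.factorization q := fun h =>
      hM3 q hq ((hq.pow_dvd_iff_le_factorization hM0).mpr h)
    exact h2 q hq (by omega)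
  have hA : ∀ q : ℕ, q.Prime → q ∣ M → (q : ℤ) ∣ W.Δ := by
    intro q hq hqM
    by_contra hgood
    exact h1 q hq hgood hqM (hsq2 q hq)
  have hC0 : W.conductorLevel ≠ 0 := W.conductorLevel_pos.ne'
  rw [← Nat.factorization_le_iff_dvd hM0 hC0]
  intro q
  by_cases hq : q.Prime
  · by_cases hqM : q ∣ M
    · have hle : M.factorization q ≤ 1 := by
        by_contra hgt
        exact hsq2 q hq ((hq.pow_dvd_iff_le_factorization hM0).mpr (by omega))
      have hqC : q ∣ W.conductorLevel :=
        (W.prime_dvd_conductorLevel_iff hΔ hq).mpr (hA q hq hqM)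
      have hpos : 0 < W.conductorLevel.factorization q := hq.factorization_pos_of_dvd hC0 hqC
      omega
    · rw [Nat.factorization_eq_zero_of_not_dvd hqM]
      exact Nat.zero_le _
  · rw [Nat.factorization_eq_zero_of_not_prime M hq]
    exact Nat.zero_le _

end Fermat.Agent.S58
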