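/-
S58 (stage 7), package [M3]: the level of the newform divides the conductor level.
Prefix `s58m3_`.

Let `W` be an integral Weierstrass model with `Δ ≠ 0`, `N` a cube-free level divisible by the
bad primes of `W`, and `g` a newform of a level `M ∣ N` with `a_ℓ(g) = a_ℓ(W)` at the primes
`ℓ ∤ N`.  Then `M ∣ rad |Δ|` (`s58m3_level_dvd`), given

* `h35`, `h36` : the `λ`-adic representations attached to `g` (S35 / Carayol's S36), with the
  Frobenius characteristic polynomials rewritten in terms of the integers `a_ℓ(W)`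
  (package [M2]);
* `hU`, `hF` : the transfers from the Tate module of `W` to any such representation
  (unipotence on inertia at every `q ≠ λ`; the trace of Frobenius at a good prime `q ≠ λ`);
* `hbound` : the trivial bound `a_q(W) ≠ ± (q + 1)` at good primes.

Proof.  `M` is squarefree: if `q ^ 2 ∣ M` then `v_q(M) = 2` (`N` is cube-free) and Carayol's
theorem says that the representation is not unipotent on inertia at `q`, against `hU`.
A prime `q ∣ M` divides `Δ`: otherwise `q ∥ M` and the characteristic polynomial of a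
Frobenius at `q` is `X² ∓ (q + 1) X + q`, so `a_q(W) = ± (q + 1)` by `hF`, against `hbound`.
-/
import Mathlib
import Fermat.Prelude.Def_CuspForm_Newforms
import Fermat.Prelude.Def_FLTPrelim_Modularity
import Fermat.Prelude.Def_WeierstrassCurve_ConductorLevel
import Fermat.Prelude.Def_GaloisRep_LocalConditions
import Fermat.Agent.Lib.FrobeniusExists

set_option autoImplicit false

namespace Fermat.Agent.S58

open Polynomial ModularFormClass CuspForm

/-- the trace of an endomorphism with characteristic polynomial `X² - a X + b` is `a` -/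
theorem s58m3_trace_of_charpoly {R M : Type} [CommRing R] [Nontrivial R] [AddCommGroup M]
    [Module R M] [Module.Free R M] [Module.Finite R M] (f : M →ₗ[R] M) (a b : R)
    (h : LinearMap.charpoly f = X ^ 2 - C a * X + C b) : LinearMap.trace R M f = a := by
  classical
  rw [LinearMap.trace_eq_matrix_trace R (Module.Free.chooseBasis R M) f,
    Matrix.trace_eq_neg_charpoly_nextCoeff]
  have h' : (LinearMap.toMatrix (Module.Free.chooseBasis R M) (Module.Free.chooseBasis R M)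
      f).charpoly = X ^ 2 - C a * X + C b := h
  rw [h']
  have hdeg : (X ^ 2 - C a * X + C b : R[X]).natDegree = 2 := by
    compute_degree!
  rw [Polynomial.nextCoeff, if_neg (by rw [hdeg]; norm_num), hdeg]
  simp [Polynomial.coeff_C]

/-- for every prime `q` there is a prime `lam ≠ q` -/
theorem s58m3_exists_prime_ne (q : ℕ) : ∃ lam : ℕ, lam.Prime ∧ q ≠ lam := by
  by_cases h : q = 2
  · exact ⟨3, Nat.prime_three, by omega⟩
  · exact ⟨2, Nat.prime_two, h⟩

/-- **[M3]** the level `M` of the newform divides the conductor level `rad |Δ|`. -/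
theorem s58m3_level_dvd (W : WeierstrassCurve ℤ) (hΔ : W.Δ ≠ 0)
    {N : ℕ} (hN3 : ∀ q : ℕ, q.Prime → ¬ q ^ 3 ∣ N)
    (hbad : ∀ ℓ : ℕ, ℓ.Prime → (ℓ : ℤ) ∣ W.Δ → ℓ ∣ N)
    {M : ℕ} (hMN : M ∣ N) {g : CuspForm (CongruenceSubgroup.Gamma0 M) 2}
    (hgW : ∀ ℓ : ℕ, ℓ.Prime → ¬ ℓ ∣ N → qCoeff g ℓ = (W.apOfModel ℓ : ℂ))
    (h35 : ∀ (lam : ℕ) [Fact lam.Prime] (S : Finset ℕ), lam ∈ S →
      (∀ q : ℕ, q.Prime → q ∣ M → q ∈ S) →
      (∀ ℓ : ℕ, ℓ.Prime → ℓ ∉ S → qCoeff g ℓ = (W.apOfModel ℓ : ℂ)) →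
      ∃ (O : Type) (_ : CommRing O) (_ : IsDomain O) (_ : IsDiscreteValuationRing O)
        (_ : IsAdicComplete (IsLocalRing.maximalIdeal O) O)
        (_ : Finite (IsLocalRing.ResidueField O)) (_ : CharZero O),
        (lam : O) ∈ IsLocalRing.maximalIdeal O ∧ ∃ ρ : GaloisRepAdic O,
          (∀ ℓ : ℕ, ℓ.Prime → ℓ ∉ S →
            ∀ A : ValuationSubring (AlgebraicClosure ℚ), A.LiesOverPrime ℓ →
              ∀ σ : AlgebraicClosure ℚ ≃ₐ[ℚ] AlgebraicClosure ℚ, A.IsFrobeniusAt σ ℓ →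
                LinearMap.charpoly (ρ.ρ σ) =
                  X ^ 2 - C ((W.apOfModel ℓ : ℤ) : O) * X + C ((ℓ : ℕ) : O)) ∧
          (∀ q : ℕ, q.Prime → q ≠ lam → q ∣ M → ¬ q ^ 2 ∣ M →
            ∀ A : ValuationSubring (AlgebraicClosure ℚ), A.LiesOverPrime q →
              ∀ σ : AlgebraicClosure ℚ ≃ₐ[ℚ] AlgebraicClosure ℚ, A.IsFrobeniusAt σ q →
                LinearMap.charpoly (ρ.ρ σ) = X ^ 2 - C ((q : O) + 1) * X + C ((q : O)) ∨
                LinearMap.charpoly (ρ.ρ σ) = X ^ 2 + C ((q : O) + 1) * X + C ((q : O))))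
    (h36 : ∀ (lam : ℕ) [Fact lam.Prime] (S : Finset ℕ), lam ∈ S →
      (∀ q : ℕ, q.Prime → q ∣ M → q ∈ S) →
      (∀ ℓ : ℕ, ℓ.Prime → ℓ ∉ S → qCoeff g ℓ = (W.apOfModel ℓ : ℂ)) →
      ∃ (O : Type) (_ : CommRing O) (_ : IsDomain O) (_ : IsDiscreteValuationRing O)
        (_ : IsAdicComplete (IsLocalRing.maximalIdeal O) O)
        (_ : Finite (IsLocalRing.ResidueField O)) (_ : CharZero O),
        (lam : O) ∈ IsLocalRing.maximalIdeal O ∧ ∃ ρ : GaloisRepAdic O,
          (∀ ℓ : ℕ, ℓ.Prime → ℓ ∉ S →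
            ∀ A : ValuationSubring (AlgebraicClosure ℚ), A.LiesOverPrime ℓ →
              ∀ σ : AlgebraicClosure ℚ ≃ₐ[ℚ] AlgebraicClosure ℚ, A.IsFrobeniusAt σ ℓ →
                LinearMap.charpoly (ρ.ρ σ) =
                  X ^ 2 - C ((W.apOfModel ℓ : ℤ) : O) * X + C ((ℓ : ℕ) : O)) ∧
          (∀ q : ℕ, q.Prime → q ≠ lam → M.factorization q = 2 →
            ¬ ρ.IsUnipotentOnInertiaAt q))
    (hU : ∀ (lam : ℕ) [Fact lam.Prime] (S : Finset ℕ), lam ∈ S →
      (∀ ℓ : ℕ, ℓ.Prime → (ℓ : ℤ) ∣ W.Δ → ℓ ∈ S) →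
      ∀ (O : Type) [CommRing O] [IsDomain O] [IsDiscreteValuationRing O]
        [IsAdicComplete (IsLocalRing.maximalIdeal O) O]
        [Finite (IsLocalRing.ResidueField O)] [CharZero O],
        (lam : O) ∈ IsLocalRing.maximalIdeal O → ∀ ρ : GaloisRepAdic O,
          (∀ ℓ : ℕ, ℓ.Prime → ℓ ∉ S →
            ∀ A : ValuationSubring (AlgebraicClosure ℚ), A.LiesOverPrime ℓ →
              ∀ σ : AlgebraicClosure ℚ ≃ₐ[ℚ] AlgebraicClosure ℚ, A.IsFrobeniusAt σ ℓ →
                LinearMap.charpoly (ρ.ρ σ) =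
                  X ^ 2 - C ((W.apOfModel ℓ : ℤ) : O) * X + C ((ℓ : ℕ) : O)) →
          ∀ q : ℕ, q.Prime → q ≠ lam → ρ.IsUnipotentOnInertiaAt q)
    (hF : ∀ (lam : ℕ) [Fact lam.Prime] (S : Finset ℕ), lam ∈ S →
      (∀ ℓ : ℕ, ℓ.Prime → (ℓ : ℤ) ∣ W.Δ → ℓ ∈ S) →
      ∀ (O : Type) [CommRing O] [IsDomain O] [IsDiscreteValuationRing O]
        [IsAdicComplete (IsLocalRing.maximalIdeal O) O]
        [Finite (IsLocalRing.ResidueField O)] [CharZero O],
        (lam : O) ∈ IsLocalRing.maximalIdeal O → ∀ ρ : GaloisRepAdic O,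
          (∀ ℓ : ℕ, ℓ.Prime → ℓ ∉ S →
            ∀ A : ValuationSubring (AlgebraicClosure ℚ), A.LiesOverPrime ℓ →
              ∀ σ : AlgebraicClosure ℚ ≃ₐ[ℚ] AlgebraicClosure ℚ, A.IsFrobeniusAt σ ℓ →
                LinearMap.charpoly (ρ.ρ σ) =
                  X ^ 2 - C ((W.apOfModel ℓ : ℤ) : O) * X + C ((ℓ : ℕ) : O)) →
          ∀ q : ℕ, q.Prime → q ≠ lam → W.IsGoodPrimeFor q →
            ∀ A : ValuationSubring (AlgebraicClosure ℚ), A.LiesOverPrime q →
              ∀ σ : AlgebraicClosure ℚ ≃ₐ[ℚ] AlgebraicClosure ℚ, A.IsFrobeniusAt σ q →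
                LinearMap.trace O ρ.V (ρ.ρ σ) = ((W.apOfModel q : ℤ) : O))
    (hbound : ∀ q : ℕ, q.Prime → W.IsGoodPrimeFor q →
      W.apOfModel q ≠ (q : ℤ) + 1 ∧ W.apOfModel q ≠ -((q : ℤ) + 1)) :
    M ∣ W.conductorLevel := by
  classical
  have hN0 : N ≠ 0 := by
    rintro rfl
    exact hN3 2 Nat.prime_two (dvd_zero _)
  have hM0 : M ≠ 0 := fun h => hN0 (by rw [h] at hMN; exact zero_dvd_iff.mp hMN)
  -- the common set `S = {lam} ∪ primes of N`
  have hS : ∀ lam : ℕ, lam ∈ insert lam N.primeFactors ∧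
      (∀ q : ℕ, q.Prime → q ∣ M → q ∈ insert lam N.primeFactors) ∧
      (∀ ℓ : ℕ, ℓ.Prime → (ℓ : ℤ) ∣ W.Δ → ℓ ∈ insert lam N.primeFactors) ∧
      (∀ ℓ : ℕ, ℓ.Prime → ℓ ∉ insert lam N.primeFactors →
        qCoeff g ℓ = (W.apOfModel ℓ : ℂ)) := by
    intro lam
    refine ⟨Finset.mem_insert_self _ _, fun q hq hqM => ?_, fun ℓ hℓ hℓΔ => ?_,
      fun ℓ hℓ hℓS => ?_⟩
    · exact Finset.mem_insert_of_mem (Nat.mem_primeFactors.mpr ⟨hq, hqM.trans hMN, hN0⟩)
    · exact Finset.mem_insert_of_mem (Nat.mem_primeFactors.mpr ⟨hℓ, hbad ℓ hℓ hℓΔ, hN0⟩)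
    · refine hgW ℓ hℓ (fun hℓN => hℓS ?_)
      exact Finset.mem_insert_of_mem (Nat.mem_primeFactors.mpr ⟨hℓ, hℓN, hN0⟩)
  -- Step 1: `M` is squarefree (Carayol against unipotence on inertia)
  have hsq : ∀ q : ℕ, q.Prime → ¬ q ^ 2 ∣ M := by
    intro q hq hq2
    obtain ⟨lam, hlamp, hqlam⟩ := s58m3_exists_prime_ne q
    have : Fact lam.Prime := ⟨hlamp⟩
    obtain ⟨hlamS, hMS, hbadS, hgS⟩ := hS lam
    have hfac : M.factorization q = 2 := by
      have h3 : ¬ q ^ 3 ∣ M := fun h => hN3 q hq (h.trans hMN)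
      have h2 : 2 ≤ M.factorization q := (hq.pow_dvd_iff_le_factorization hM0).mp hq2
      have h3' : ¬ 3 ≤ M.factorization q :=
        fun h => h3 ((hq.pow_dvd_iff_le_factorization hM0).mpr h)
      omega
    obtain ⟨O, _, _, _, _, _, _, hlamO, ρ, hfrob, h2⟩ := h36 lam _ hlamS hMS hgS
    exact h2 q hq hqlam hfac (hU lam _ hlamS hbadS O hlamO ρ hfrob q hq hqlam)
  -- Step 2: every prime of `M` divides `Δ` (Frobenius at a prime `q ∥ M` against the bound)
  have hdiv : ∀ q : ℕ, q.Prime → q ∣ M → (q : ℤ) ∣ W.Δ := by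
    intro q hq hqM
    by_contra hgood
    obtain ⟨lam, hlamp, hqlam⟩ := s58m3_exists_prime_ne q
    have : Fact lam.Prime := ⟨hlamp⟩
    obtain ⟨hlamS, hMS, hbadS, hgS⟩ := hS lam
    obtain ⟨O, _, _, _, _, _, _, hlamO, ρ, hfrob, h1⟩ := h35 lam _ hlamS hMS hgS
    obtain ⟨A, σ, hA, hσ⟩ := Fermat.Agent.Lib.FrobeniusExists.exists_isFrobeniusAt q hq
    have htr := hF lam _ hlamS hbadS O hlamO ρ hfrob q hq hqlam hgood A hA σ hσ
    rcases h1 q hq hqlam hqM (hsq q hq) A hA σ hσ with hc | hc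
    · have h2 := s58m3_trace_of_charpoly _ _ _ hc
      rw [htr] at h2
      refine (hbound q hq hgood).1 (Int.cast_injective (α := O) ?_)
      rw [h2]
      push_cast
      rfl
    · have hc' : LinearMap.charpoly (ρ.ρ σ) = X ^ 2 - C (-((q : O) + 1)) * X + C ((q : O)) := by
        rw [hc, C_neg]
        ring
      have h2 := s58m3_trace_of_charpoly _ _ _ hc'
      rw [htr] at h2
      refine (hbound q hq hgood).2 (Int.cast_injective (α := O) ?_)
      rw [h2]
      push_cast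
      rfl
  -- conclusion
  have hsqf : Squarefree M := by
    rw [Nat.squarefree_iff_prime_squarefree]
    intro q hq hqq
    exact hsq q hq (by rw [sq]; exact hqq)
  rw [← Nat.prod_primeFactors_of_squarefree hsqf]
  refine Finset.prod_primes_dvd _ (fun a ha => (Nat.prime_of_mem_primeFactors ha).prime)
    (fun a ha => ?_)
  have hap := Nat.prime_of_mem_primeFactors ha
  exact (W.prime_dvd_conductorLevel_iff hΔ hap).mpr
    (hdiv a hap (Nat.dvd_of_mem_primeFactors ha))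

end Fermat.Agent.S58
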