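/-
S58 (stage 7), package [M1]: newform descent.  Prefix `s58m1_`.

The prelude's `CuspForm.IsNewform` is "normalised eigenform whose good eigensystem occurs at no
proper divisor of the level".  Hence the minimal divisor `M` of `N` at which the good
eigensystem (primes not dividing `N`) of a normalised eigenform `f` of level `N` occurs carries
a newform `g` with `a_ℓ(g) = a_ℓ(f)` for every prime `ℓ ∤ N`.

* `s58m1_descent` : the descent;
* `s58m1_of_model` : the same for a modular model `W` of level `N`: `a_ℓ(g) = a_ℓ(W)` for the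
  good primes `ℓ ∤ N`;
* `s58m1_ne_zero` : a cube-free level is non-zero.
-/
import Mathlib
import Fermat.Prelude.Def_CuspForm_Newforms
import Fermat.Prelude.Def_FLTPrelim_Modularity

set_option autoImplicit false

namespace Fermat.Agent.S58

open ModularFormClass CuspForm

/-- a level without cube factors is non-zero -/
theorem s58m1_ne_zero {N : ℕ} (hN3 : ∀ q : ℕ, q.Prime → ¬ q ^ 3 ∣ N) : N ≠ 0 := by
  rintro rfl
  exact hN3 2 Nat.prime_two (dvd_zero _)

/-- **[M1] newform descent.**  For a normalised eigenform `f` of level `N ≠ 0` there are a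
divisor `M` of `N` and a newform `g` of level `M` with the same eigenvalues at the primes not
dividing `N`. -/
theorem s58m1_descent {N : ℕ} (hN : N ≠ 0) (f : CuspForm (CongruenceSubgroup.Gamma0 N) 2)
    (hf : f.IsNormalizedEigenform) :
    ∃ (M : ℕ) (g : CuspForm (CongruenceSubgroup.Gamma0 M) 2), M ∣ N ∧ g.IsNewform ∧
      ∀ ℓ : ℕ, ℓ.Prime → ¬ ℓ ∣ N → qCoeff g ℓ = qCoeff f ℓ := by
  classical
  have hex : ∃ M : ℕ, M ∣ N ∧ GoodEigensystemOccursAt f M :=
    ⟨N, dvd_rfl, GoodEigensystemOccursAt.refl hf⟩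
  have hmin : ∀ m : ℕ, m < Nat.find hex → ¬ (m ∣ N ∧ GoodEigensystemOccursAt f m) :=
    fun m hm => Nat.find_min hex hm
  obtain ⟨hMN, g, hg, hgf⟩ := Nat.find_spec hex
  have hM0 : Nat.find hex ≠ 0 := fun h0 => hN (by rw [h0] at hMN; exact zero_dvd_iff.mp hMN)
  refine ⟨Nat.find hex, g, hMN, ⟨hg, ?_⟩, hgf⟩
  rintro M' hM'M hM'ne ⟨g', hg', hg'g⟩
  have hlt : M' < Nat.find hex :=
    lt_of_le_of_ne (Nat.le_of_dvd (Nat.pos_of_ne_zero hM0) hM'M) hM'ne
  exact hmin M' hlt ⟨hM'M.trans hMN, g', hg', fun ℓ hℓ hℓN =>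
    (hg'g ℓ hℓ (fun h => hℓN (h.trans hMN))).trans (hgf ℓ hℓ hℓN)⟩

/-- **[M1]** for a modular model: a newform `g` of a level `M ∣ N` with `a_ℓ(g) = a_ℓ(W)` at
the good primes `ℓ ∤ N`. -/
theorem s58m1_of_model (W : WeierstrassCurve ℤ) {N : ℕ} (hN : N ≠ 0)
    (h : W.IsModularModelOfLevel N) :
    ∃ (M : ℕ) (g : CuspForm (CongruenceSubgroup.Gamma0 M) 2), M ∣ N ∧ g.IsNewform ∧
      ∀ ℓ : ℕ, ℓ.Prime → W.IsGoodPrimeFor ℓ → ¬ ℓ ∣ N →
        qCoeff g ℓ = (W.apOfModel ℓ : ℂ) := by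
  obtain ⟨f, hf, hfW⟩ := h
  obtain ⟨M, g, hMN, hg, hgf⟩ := s58m1_descent hN f hf
  exact ⟨M, g, hMN, hg, fun ℓ hℓ hgood hℓN => (hgf ℓ hℓ hℓN).trans (hfW ℓ hℓ hgood hℓN)⟩

end Fermat.Agent.S58
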