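import Mathlib
import Fermat.Agent.Lib.HeckeEigenform
import Fermat.Prelude.Def_WeierstrassCurve_ConductorLevel

/-!
# S58, (M6): stabilisation of a normalised eigenform from level `M` to a squarefree level `C`

* `s58m6_seq`  : the abstract coefficient computation.  If `a` satisfies the four recursions of
  `CuspForm.IsNormalizedEigenform` at level `M`, `q ∤ M` is a prime and `α + β = a q`,
  `α β = q`, then `c n = α⁻¹ (a (n q) - β a n)` satisfies them at level `M q`, and `c n = a n`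
  for `q ∤ n`.
* `s58m6_step` : the `q`-stabilisation `h = α⁻¹ (U_q g - β g)` at level `M q`.
* `s58m6_main` : iteration over the primes of `C / M`, `C` squarefree.
* `s58m6_modular` : the shape used by the top of S58.
-/

set_option autoImplicit false

namespace Fermat.Agent.S58

open ModularFormClass CongruenceSubgroup

section Abstract

variable {F : Type*} [Field F]

/-- `a (q^(e+1)) - β a (q^e) = α^(e+1)` -/
theorem s58m6_seq_pow (a : ℕ → F) (q : ℕ) (α β : F) (h1 : a 1 = 1)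
    (hrec : ∀ r : ℕ, a (q ^ (r + 2)) = a q * a (q ^ (r + 1)) - (q : F) * a (q ^ r))
    (hs : α + β = a q) (hp : α * β = (q : F)) :
    ∀ e : ℕ, a (q ^ (e + 1)) - β * a (q ^ e) = α ^ (e + 1) := by
  intro e
  induction e with
  | zero =>
    rw [zero_add, pow_one, pow_zero, h1, mul_one, pow_one]
    linear_combination -hs
  | succ e ih =>
    have h := hrec e
    linear_combination h + α * ih - a (q ^ (e + 1)) * hs + a (q ^ e) * hp

/-- the abstract stabilisation of a coefficient sequence -/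
theorem s58m6_seq {M : ℕ} (a : ℕ → F) (q : ℕ) (hq : q.Prime) (hqM : ¬ q ∣ M) (α β : F)
    (h1 : a 1 = 1)
    (hmul : ∀ m n : ℕ, m.Coprime n → a (m * n) = a m * a n)
    (hgood : ∀ p r : ℕ, p.Prime → ¬ p ∣ M →
      a (p ^ (r + 2)) = a p * a (p ^ (r + 1)) - (p : F) * a (p ^ r))
    (hbad : ∀ p r : ℕ, p.Prime → p ∣ M → a (p ^ (r + 2)) = a p * a (p ^ (r + 1)))
    (hs : α + β = a q) (hp : α * β = (q : F)) (hα : α ≠ 0)
    (c : ℕ → F) (hc : ∀ n, c n = α⁻¹ * (a (n * q) - β * a n)) :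
    c 1 = 1 ∧ (∀ m n : ℕ, m.Coprime n → c (m * n) = c m * c n) ∧
    (∀ p r : ℕ, p.Prime → ¬ p ∣ M * q →
      c (p ^ (r + 2)) = c p * c (p ^ (r + 1)) - (p : F) * c (p ^ r)) ∧
    (∀ p r : ℕ, p.Prime → p ∣ M * q → c (p ^ (r + 2)) = c p * c (p ^ (r + 1))) ∧
    (∀ n : ℕ, ¬ q ∣ n → c n = a n) := by
  -- `c n = a n` for `q ∤ n`
  have key1 : ∀ n : ℕ, ¬ q ∣ n → c n = a n := by
    intro n hn
    have hcop : n.Coprime q := ((Nat.Prime.coprime_iff_not_dvd hq).mpr hn).symm
    rw [hc, hmul n q hcop, inv_mul_eq_iff_eq_mul₀ hα]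
    linear_combination (-(a n)) * hs
  -- `c (m n) = a m * c n` for `q ∤ m`, `m`, `n` coprime
  have key2 : ∀ m n : ℕ, m.Coprime n → ¬ q ∣ m → c (m * n) = a m * c n := by
    intro m n hmn hm
    have hcop : m.Coprime q := ((Nat.Prime.coprime_iff_not_dvd hq).mpr hm).symm
    have hcop2 : m.Coprime (n * q) := Nat.Coprime.mul_right hmn hcop
    rw [hc, hc, mul_assoc, hmul m (n * q) hcop2, hmul m n hmn]
    ring
  -- `c (q^e) = α^e`
  have key3 : ∀ e : ℕ, c (q ^ e) = α ^ e := by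
    intro e
    have h := s58m6_seq_pow a q α β h1 (fun r => hgood q r hq hqM) hs hp e
    rw [hc, ← pow_succ, h, pow_succ, inv_mul_eq_iff_eq_mul₀ hα]
    ring
  -- powers of a prime `p ≠ q` are prime to `q`
  have key4 : ∀ p : ℕ, p.Prime → p ≠ q → ∀ k : ℕ, ¬ q ∣ p ^ k := by
    intro p hp hpq k h
    exact hpq ((Nat.prime_dvd_prime_iff_eq hq hp).mp (hq.dvd_of_dvd_pow h)).symm
  have hq1 : ¬ q ∣ 1 := fun h => hq.one_lt.ne' (Nat.dvd_one.mp h)
  refine ⟨?_, ?_, ?_, ?_, key1⟩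
  · rw [key1 1 hq1, h1]
  · intro m n hmn
    by_cases hm : q ∣ m
    · have hn : ¬ q ∣ n := by
        intro hn
        have h := Nat.dvd_gcd hm hn
        rw [hmn] at h
        exact hq1 h
      rw [mul_comm m n, key2 n m hmn.symm hn, key1 n hn, mul_comm]
    · rw [key2 m n hmn hm, key1 m hm]
  · intro p r hpp hpMq
    have hpM : ¬ p ∣ M := fun h => hpMq (Dvd.dvd.mul_right h q)
    have hpq : p ≠ q := by
      rintro rfl
      exact hpMq (Dvd.intro_left M rfl)
    have hp1 : ¬ q ∣ p := by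
      have h := key4 p hpp hpq 1
      rwa [pow_one] at h
    rw [key1 _ (key4 p hpp hpq (r + 2)), key1 _ (key4 p hpp hpq (r + 1)),
      key1 _ (key4 p hpp hpq r), key1 p hp1]
    exact hgood p r hpp hpM
  · intro p r hpp hpMq
    rcases (Nat.Prime.dvd_mul hpp).mp hpMq with hpM | hpq
    · have hpq : p ≠ q := by
        rintro rfl
        exact hqM hpM
      have hp1 : ¬ q ∣ p := by
        have h := key4 p hpp hpq 1
        rwa [pow_one] at h
      rw [key1 _ (key4 p hpp hpq (r + 2)), key1 _ (key4 p hpp hpq (r + 1)), key1 p hp1]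
      exact hbad p r hpp hpM
    · have hpq' : p = q := (Nat.prime_dvd_prime_iff_eq hpp hq).mp hpq
      subst hpq'
      have hcp : c p = α := by
        have h := key3 1
        rwa [pow_one, pow_one] at h
      rw [key3, key3, hcp]
      ring

end Abstract

/-! ### the level inclusion -/

theorem s58m6_le (M q : ℕ) :
    (Gamma0 (M * q) : Subgroup (Matrix.GeneralLinearGroup (Fin 2) ℝ)) ≤
      (Gamma0 M : Subgroup (Matrix.GeneralLinearGroup (Fin 2) ℝ)) := by
  refine Subgroup.map_mono ?_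
  intro γ hγ
  rw [Gamma0_mem, ZMod.intCast_zmod_eq_zero_iff_dvd] at hγ ⊢
  exact (Dvd.intro (q : ℤ) (by push_cast; ring)).trans hγ

/-- a cusp form of level `M` as a cusp form of level `M q` -/
noncomputable def s58m6_incl (M q : ℕ) (g : CuspForm (Gamma0 M) 2) :
    CuspForm (Gamma0 (M * q)) 2 where
  toFun := g
  slash_action_eq' := fun γ hγ => g.slash_action_eq' γ (s58m6_le M q hγ)
  holo' := g.holo'
  zero_at_cusps' := fun hc => g.zero_at_cusps' (hc.mono (s58m6_le M q))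

theorem s58m6_coe_incl (M q : ℕ) (g : CuspForm (Gamma0 M) 2) :
    (⇑(s58m6_incl M q g) : UpperHalfPlane → ℂ) = ⇑g := rfl

theorem s58m6_qCoeff_sub {N : ℕ} (f g : CuspForm (Gamma0 N) 2) (n : ℕ) :
    qCoeff (⇑(f - g)) n = qCoeff (⇑f) n - qCoeff (⇑g) n := by
  have hc : (⇑(f - g) : UpperHalfPlane → ℂ) = ⇑f - ⇑g := rfl
  have h := ModularForm.qExpansion_sub (h := 1) one_pos
    (CongruenceSubgroup.one_mem_strictPeriods_Gamma0 N) f g
  unfold qCoeff
  rw [hc, h]
  simp

/-! ### one step -/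

/-- one step: the `q`-stabilisation `h = α⁻¹ (U_q g - β g)` at level `M * q`, `q ∤ M` -/
theorem s58m6_step {M : ℕ} (g : CuspForm (Gamma0 M) 2) (hg : g.IsNormalizedEigenform)
    (q : ℕ) (hq : q.Prime) (hqM : ¬ q ∣ M) :
    ∃ h : CuspForm (Gamma0 (M * q)) 2, h.IsNormalizedEigenform ∧
      ∀ n : ℕ, ¬ q ∣ n → qCoeff h n = qCoeff g n := by
  have hM0 : M ≠ 0 := by
    rintro rfl
    exact hqM (dvd_zero q)
  have : NeZero (M * q) := ⟨Nat.mul_ne_zero hM0 hq.ne_zero⟩
  -- the roots of `X^2 - a_q X + q`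
  obtain ⟨s, hs⟩ : ∃ s : ℂ, s ^ 2 = qCoeff (⇑g) q ^ 2 - 4 * (q : ℂ) :=
    IsAlgClosed.exists_pow_nat_eq _ (by norm_num)
  set α : ℂ := (qCoeff (⇑g) q + s) / 2 with hα_def
  set β : ℂ := (qCoeff (⇑g) q - s) / 2 with hβ_def
  have hsum : α + β = qCoeff (⇑g) q := by
    rw [hα_def, hβ_def]; ring
  have hprod : α * β = (q : ℂ) := by
    rw [hα_def, hβ_def]
    linear_combination (-(1 : ℂ) / 4) * hs
  have hq0 : (q : ℂ) ≠ 0 := by exact_mod_cast hq.ne_zero
  have hα : α ≠ 0 := by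
    intro h
    rw [h, zero_mul] at hprod
    exact hq0 hprod.symm
  have hdvd : q ∣ M * q := Dvd.intro_left M rfl
  set g' : CuspForm (Gamma0 (M * q)) 2 := s58m6_incl M q g with hg'_def
  set h : CuspForm (Gamma0 (M * q)) 2 := α⁻¹ • (CuspForm.heckeULin 2 hdvd g' - β • g') with hh_def
  have hcoeff : ∀ n : ℕ, qCoeff (⇑h) n = α⁻¹ * (qCoeff (⇑g) (n * q) - β * qCoeff (⇑g) n) := by
    intro n
    rw [hh_def, Fermat.Agent.Lib.HeckeEigenform.qCoeff_smul, s58m6_qCoeff_sub,
      Fermat.Agent.Lib.HeckeEigenform.qCoeff_heckeULin hdvd hq.ne_zero,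
      Fermat.Agent.Lib.HeckeEigenform.qCoeff_smul, hg'_def, s58m6_coe_incl]
  obtain ⟨c1, c2, c3, c4, c5⟩ := s58m6_seq (M := M) (fun n => qCoeff (⇑g) n) q hq hqM α β
    hg.qCoeff_one hg.qCoeff_mul_of_coprime hg.qCoeff_prime_pow_of_not_dvd
    hg.qCoeff_prime_pow_of_dvd hsum hprod hα (fun n => qCoeff (⇑h) n) hcoeff
  exact ⟨h, ⟨c1, c2, c3, c4⟩, c5⟩

/-! ### iteration -/

theorem s58m6_iter : ∀ (D M : ℕ) (g : CuspForm (Gamma0 M) 2), g.IsNormalizedEigenform →
    ∀ C : ℕ, C = M * D → Squarefree C →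
    ∃ h : CuspForm (Gamma0 C) 2, h.IsNormalizedEigenform ∧
      ∀ l : ℕ, l.Prime → (l ∣ C → l ∣ M) → qCoeff h l = qCoeff g l := by
  intro D
  induction D using Nat.strong_induction_on with
  | _ D ih =>
    intro M g hg C hC hsq
    rcases Nat.lt_or_ge D 2 with hD | hD
    · interval_cases D
      · rw [mul_zero] at hC
        subst hC
        exact absurd hsq not_squarefree_zero
      · rw [mul_one] at hC
        subst hC
        exact ⟨g, hg, fun _ _ _ => rfl⟩
    · set q := D.minFac with hq_def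
      have hq : q.Prime := Nat.minFac_prime (by omega)
      have hqD : q ∣ D := Nat.minFac_dvd D
      set D' := D / q with hD'_def
      have hDq : q * D' = D := Nat.mul_div_cancel' hqD
      have hlt : D' < D := Nat.div_lt_self (by omega) hq.one_lt
      have hqM : ¬ q ∣ M := by
        rintro ⟨M', rfl⟩
        have h1 : q * q ∣ C := by
          refine ⟨M' * D', ?_⟩
          rw [hC, ← hDq]; ring
        exact hq.one_lt.ne' (Nat.isUnit_iff.mp (hsq q h1))
      obtain ⟨g₁, hg₁, hg₁c⟩ := s58m6_step g hg q hq hqM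
      have hC' : C = M * q * D' := by rw [hC, ← hDq]; ring
      obtain ⟨h, hh, hhc⟩ := ih D' hlt (M * q) g₁ hg₁ C hC' hsq
      refine ⟨h, hh, fun l hl hlC => ?_⟩
      have hlq : ¬ q ∣ l := by
        intro hql
        have hql' : q = l := (Nat.prime_dvd_prime_iff_eq hq hl).mp hql
        subst hql'
        exact hqM (hlC ⟨M * D', by rw [hC']; ring⟩)
      rw [hhc l hl (fun hlC' => Dvd.dvd.mul_right (hlC hlC') q), hg₁c l hlq]

/-- (M6) from level `M` to any squarefree multiple `C` of `M` -/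
theorem s58m6_main {M : ℕ} (g : CuspForm (Gamma0 M) 2) (hg : g.IsNormalizedEigenform)
    (C : ℕ) (hC : Squarefree C) (hMC : M ∣ C) :
    ∃ h : CuspForm (Gamma0 C) 2, h.IsNormalizedEigenform ∧
      ∀ l : ℕ, l.Prime → (l ∣ C → l ∣ M) → qCoeff h l = qCoeff g l :=
  s58m6_iter (C / M) M g hg C (Nat.mul_div_cancel' hMC).symm hC

/-- (M6) in the shape the top needs: the goal of S58 from an eigenform `g` of a level `M`
dividing `rad |Δ|` whose coefficients at all good primes are `a_l(W)` -/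
theorem s58m6_modular (W : WeierstrassCurve ℤ) (hΔ : W.Δ ≠ 0) {M : ℕ}
    (g : CuspForm (Gamma0 M) 2) (hg : g.IsNormalizedEigenform) (hMC : M ∣ W.conductorLevel)
    (hgood : ∀ l : ℕ, l.Prime → W.IsGoodPrimeFor l → qCoeff g l = (W.apOfModel l : ℂ)) :
    W.IsModularModelOfLevel W.conductorLevel := by
  obtain ⟨h, hh, hhc⟩ := s58m6_main g hg W.conductorLevel W.squarefree_conductorLevel hMC
  refine ⟨h, hh, fun l hl hgl _ => ?_⟩
  rw [hhc l hl (fun hlC => absurd ((W.prime_dvd_conductorLevel_iff hΔ hl).mp hlC) hgl)]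
  exact hgood l hl hgl

end Fermat.Agent.S58
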