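import Mathlib
import Fermat.Prelude.Def_GaloisRep_LocalConditions
import Fermat.Agent.S31.TraceInst

/-!
# S58, [T-ABS]: the abstract trace transfer from the torsion of an elliptic curve

`ρ : GaloisRepAdic O` a representation whose Frobenius elements at the primes `ℓ ∉ S`, `ℓ ≠ lam`
have characteristic polynomial `X² - a_ℓ X + ℓ` with *integers* `a_ℓ`; `E` an abelian group with
an action of `Gal(ℚ̄/ℚ)` (the points of an elliptic curve) on whose `lam ^ n`-torsion the same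
Frobenius elements satisfy `τ² - a_ℓ τ + ℓ = 0` ([EI-QUAD]) and whose `lam ^ n`-torsion is
defined over a number field ([EI-FIELD]).

* `s58tr_luc`   : `τ ^ b + ℓ ^ b τ ^ (-b) = V_b(a_ℓ, ℓ)` on the `m`-torsion of `E`;
* `s58tr_trace` : **the transfer**: if for every `n` some point `T0` of exact order `lam ^ n`
  satisfies `g T0 + ε(g) g⁻¹ T0 = c T0` (`c` an integer, `ε` the cyclotomic character modulo
  `lam ^ n`), then `trace ρ(g) = c`;
* `s58tr_unip_trace`, `s58tr_unip`, `s58tr_unipotent` : **[T-UNIP]**: an inertia element at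
  `q ≠ lam` fixing points of exact order `lam ^ n` for all `n` has trace `2`; if the whole inertia
  group fixes such points, its elements have characteristic polynomial `(X - 1)²`;
* `s58tr_order_of`, `s58tr_order_dvd` : conversion between `addOrderOf T = m` and the
  divisibility form of exact order;
* `s58tr_frob` : **[T-FROB]**: a Frobenius element `g` at `q ≠ lam` with `g² - a g + q = 0` on
  the `lam`-power torsion of `E` has `trace ρ(g) = a` (as soon as `E` has points of exact order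
  `lam ^ n` for all `n`).

Names are prefixed `s58tr_`.
-/

set_option autoImplicit false

namespace Fermat.Agent.S58

open Fermat.Agent.S29 Fermat.Agent.S30 Fermat.Agent.S31 Polynomial

local notation "Qb" => AlgebraicClosure ℚ

/-! ### the torsion of an abelian group with a Galois action -/

/-- multiples congruent modulo `m` agree on an `m`-torsion element -/
theorem s58tr_nsmul_congr {E : Type*} [AddCommGroup E] (m : ℕ) (X : E) (hX : m • X = 0)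
    (a b : ℕ) (hab : a ≡ b [MOD m]) : a • X = b • X := by
  have key : ∀ a : ℕ, a • X = (a % m) • X := by
    intro a
    conv_lhs => rw [← Nat.div_add_mod a m]
    rw [add_nsmul, mul_nsmul, hX, nsmul_zero, zero_add]
  have hab' : a % m = b % m := hab
  rw [key a, key b, hab']

/-- exact order `m`, from the divisibility form: `m • T = 0` and every integer killing `T` is a
multiple of `m` -/
theorem s58tr_order_of {E : Type*} [AddCommGroup E] (m : ℕ) (T : E) (h0 : m • T = 0)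
    (h : ∀ k : ℤ, k • T = 0 → (m : ℤ) ∣ k) : addOrderOf T = m := by
  refine Nat.dvd_antisymm (addOrderOf_dvd_of_nsmul_eq_zero h0) ?_
  have h1 : ((addOrderOf T : ℕ) : ℤ) • T = 0 := by
    rw [natCast_zsmul]
    exact addOrderOf_nsmul_eq_zero T
  exact Int.natCast_dvd_natCast.mp (h _ h1)

/-- the divisibility form of exact order `m` -/
theorem s58tr_order_dvd {E : Type*} [AddCommGroup E] (m : ℕ) (T : E) (h : addOrderOf T = m) :
    m • T = 0 ∧ ∀ k : ℤ, k • T = 0 → (m : ℤ) ∣ k := by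
  refine ⟨?_, fun k hk => ?_⟩
  · rw [← h]
    exact addOrderOf_nsmul_eq_zero T
  · rw [← h]
    exact addOrderOf_dvd_iff_zsmul_eq_zero.mpr hk

/-- the `m`-torsion subgroup -/
def s58trTors (E : Type*) [AddCommGroup E] (m : ℕ) : AddSubgroup E where
  carrier := {T | m • T = 0}
  zero_mem' := nsmul_zero m
  add_mem' := by
    intro x y hx hy
    have hx' : m • x = 0 := hx
    have hy' : m • y = 0 := hy
    show m • (x + y) = 0
    rw [nsmul_add, hx', hy', add_zero]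
  neg_mem' := by
    intro x hx
    have hx' : m • x = 0 := hx
    show m • (-x) = 0
    rw [neg_nsmul, hx', neg_zero]

theorem s58tr_mem_tors {E : Type*} [AddCommGroup E] {m : ℕ} {T : E} :
    T ∈ s58trTors E m ↔ m • T = 0 := Iff.rfl

section action

variable {E : Type*} [AddCommGroup E] [DistribMulAction (Qb ≃ₐ[ℚ] Qb) E]

theorem s58tr_smul_nsmul (σ : Qb ≃ₐ[ℚ] Qb) (m : ℕ) (T : E) : σ • (m • T) = m • (σ • T) :=
  map_nsmul (DistribSMul.toAddMonoidHom E σ) m T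

theorem s58tr_smul_zsmul (σ : Qb ≃ₐ[ℚ] Qb) (m : ℤ) (T : E) : σ • (m • T) = m • (σ • T) :=
  map_zsmul (DistribSMul.toAddMonoidHom E σ) m T

theorem s58tr_smul_mem (σ : Qb ≃ₐ[ℚ] Qb) {m : ℕ} {T : E} (hT : T ∈ s58trTors E m) :
    σ • T ∈ s58trTors E m := by
  have hT' : m • T = 0 := hT
  show m • (σ • T) = 0
  rw [← s58tr_smul_nsmul, hT', smul_zero]

/-- the Galois action on the `m`-torsion, as `ℤ`-linear endomorphisms -/
noncomputable def s58trRho (E : Type*) [AddCommGroup E] [DistribMulAction (Qb ≃ₐ[ℚ] Qb) E]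
    (m : ℕ) : (Qb ≃ₐ[ℚ] Qb) →* Module.End ℤ (s58trTors E m) where
  toFun σ := AddMonoidHom.toIntLinearMap
    { toFun := fun T => ⟨σ • (T : E), s58tr_smul_mem σ T.2⟩
      map_zero' := Subtype.ext (smul_zero σ)
      map_add' := fun x y => Subtype.ext (smul_add σ (x : E) (y : E)) }
  map_one' := LinearMap.ext fun T => Subtype.ext (one_smul _ (T : E))
  map_mul' σ τ := LinearMap.ext fun T => Subtype.ext (mul_smul σ τ (T : E))

theorem s58trRho_apply (m : ℕ) (σ : Qb ≃ₐ[ℚ] Qb) (T : s58trTors E m) :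
    ((s58trRho E m σ T : s58trTors E m) : E) = σ • (T : E) := rfl

/-- **Lucas relation on the torsion**: if `τ² - a τ + ℓ = 0` on the `m`-torsion, then
`τ ^ b + ℓ ^ b τ ^ (-b) = V_b(a, ℓ)` there. -/
theorem s58tr_luc (m : ℕ) (τ : Qb ≃ₐ[ℚ] Qb) (a : ℤ) (ℓ : ℕ)
    (hquad : ∀ T : E, m • T = 0 → τ • τ • T - a • (τ • T) + ℓ • T = 0) (b : ℕ) (T : E)
    (hT : m • T = 0) :
    (τ ^ b) • T + ℓ ^ b • ((τ ^ b)⁻¹ • T) = lucV a (ℓ : ℤ) b • T := by
  have h : s58trRho E m τ * s58trRho E m τ - (a : Module.End ℤ (s58trTors E m)) * s58trRho E m τ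
      + ((ℓ : ℕ) : Module.End ℤ (s58trTors E m)) = 0 := by
    refine LinearMap.ext fun x => Subtype.ext ?_
    have hx := hquad (x : E) x.2
    simp only [Module.End.mul_apply, LinearMap.add_apply, LinearMap.sub_apply,
      Module.End.natCast_apply, Module.End.intCast_apply, LinearMap.zero_apply,
      AddSubgroup.coe_add, AddSubgroup.coe_sub, AddSubgroup.coe_nsmul, AddSubgroup.coe_zsmul,
      s58trRho_apply, ZeroMemClass.coe_zero]
    exact hx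
  have e := luc_rep (s58trRho E m) τ (a : Module.End ℤ (s58trTors E m))
    ((ℓ : ℕ) : Module.End ℤ (s58trTors E m)) h (Int.cast_commute a _).eq
    (Nat.cast_commute ℓ _).eq b
  have e2 : lucV (a : Module.End ℤ (s58trTors E m)) ((ℓ : ℕ) : Module.End ℤ (s58trTors E m)) b
      = ((lucV a (ℓ : ℤ) b : ℤ) : Module.End ℤ (s58trTors E m)) := by
    have h0 := luc_map (Int.castRingHom (Module.End ℤ (s58trTors E m))) a (ℓ : ℤ) b
    rw [eq_intCast, eq_intCast, eq_intCast, Int.cast_natCast] at h0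
    exact h0.symm
  rw [e2, ← Nat.cast_pow] at e
  have e3 := congrArg (fun f : Module.End ℤ (s58trTors E m) =>
    ((f ⟨T, hT⟩ : s58trTors E m) : E)) e
  simp only [Module.End.mul_apply, LinearMap.add_apply, Module.End.natCast_apply,
    Module.End.intCast_apply, AddSubgroup.coe_add, AddSubgroup.coe_nsmul,
    AddSubgroup.coe_zsmul, s58trRho_apply] at e3
  exact e3

end action

/-! ### the transfer -/

section transfer

variable {E : Type*} [AddCommGroup E] [DistribMulAction (Qb ≃ₐ[ℚ] Qb) E]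
  {O : Type} [CommRing O] [IsLocalRing O] [IsNoetherianRing O]

/-- **The abstract trace transfer.** -/
theorem s58tr_trace (ρ : GaloisRepAdic O) (lam : ℕ) [Fact lam.Prime]
    (hlamO : (lam : O) ∈ IsLocalRing.maximalIdeal O) (S : Finset ℕ) (a : ℕ → ℤ)
    (hfrob : ∀ ℓ : ℕ, ℓ.Prime → ℓ ∉ S → ℓ ≠ lam → ∀ A : ValuationSubring Qb,
      A.LiesOverPrime ℓ → ∀ τ : Qb ≃ₐ[ℚ] Qb, A.IsFrobeniusAt τ ℓ →
        LinearMap.charpoly (ρ.ρ τ) = X ^ 2 - C ((a ℓ : ℤ) : O) * X + C ((ℓ : ℕ) : O))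
    (hquad : ∀ ℓ : ℕ, ℓ.Prime → ℓ ∉ S → ℓ ≠ lam → ∀ A : ValuationSubring Qb,
      A.LiesOverPrime ℓ → ∀ τ : Qb ≃ₐ[ℚ] Qb, A.IsFrobeniusAt τ ℓ →
        ∀ (n : ℕ) (T : E), lam ^ n • T = 0 → τ • τ • T - a ℓ • (τ • T) + ℓ • T = 0)
    (hfield : ∀ n : ℕ, ∃ L : IntermediateField ℚ Qb, FiniteDimensional ℚ L ∧
      ∀ σ : Qb ≃ₐ[ℚ] Qb, (∀ x ∈ L, σ x = x) → ∀ T : E, lam ^ n • T = 0 → σ • T = T)
    (g : Qb ≃ₐ[ℚ] Qb) (c : ℤ)
    (hpt : ∀ n : ℕ, ∃ T0 : E, addOrderOf T0 = lam ^ n ∧ ∃ e : ℕ,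
      (e : ZMod (lam ^ n)) = trcEps lam n g ∧ g • T0 + e • (g⁻¹ • T0) = c • T0) :
    LinearMap.trace O ρ.V (ρ.ρ g) = (c : O) := by
  apply tra_eq_of_local
  intro n
  obtain ⟨L₀, hL₀, htr⟩ := trc_trace_congr ρ n
  obtain ⟨LE, hLE, hLE'⟩ := hfield n
  obtain ⟨T0, hord, e, he, hrel⟩ := hpt n
  have := hL₀
  have := hLE
  have := cya_field_finiteDimensional lam n
  obtain ⟨ℓ, hℓ, hℓS, A, hA, τ, hτ, b, hb⟩ :=
    fd_main (L₀ ⊔ LE ⊔ cycField (lam ^ n)) (insert lam S) g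
  have hℓlam : ℓ ≠ lam := fun h => hℓS (h ▸ Finset.mem_insert_self _ S)
  have hℓS' : ℓ ∉ S := fun h => hℓS (Finset.mem_insert_of_mem h)
  have hle1 : L₀ ≤ L₀ ⊔ LE ⊔ cycField (lam ^ n) := le_sup_left.trans le_sup_left
  have hle2 : LE ≤ L₀ ⊔ LE ⊔ cycField (lam ^ n) := le_sup_right.trans le_sup_left
  have hle3 : cycField (lam ^ n) ≤ L₀ ⊔ LE ⊔ cycField (lam ^ n) := le_sup_right
  -- the traces agree modulo `𝔪 ^ n`
  have h1 : LinearMap.trace O ρ.V (ρ.ρ (τ ^ b)) - LinearMap.trace O ρ.V (ρ.ρ g)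
      ∈ IsLocalRing.maximalIdeal O ^ n := htr _ _ (fun x hx => hb x (hle1 hx))
  -- the actions on the torsion agree
  have h2 : ∀ T : E, lam ^ n • T = 0 → (τ ^ b) • T = g • T := by
    intro T hT
    have h := hLE' (g⁻¹ * τ ^ b) (fun x hx => by
      rw [AlgEquiv.mul_apply, hb x (hle2 hx)]
      exact g.symm_apply_apply x) T hT
    rw [mul_smul, inv_smul_eq_iff] at h
    exact h
  -- the cyclotomic characters agree
  have h3 : (ℓ : ZMod (lam ^ n)) ^ b = trcEps lam n g := by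
    rw [← trcEps_frobenius lam n ℓ hℓ hℓlam A hA τ hτ, ← trcEps_pow]
    exact trcEps_congr lam n _ _ (fun x hx => hb x (hle3 hx))
  have hT0 : lam ^ n • T0 = 0 := by
    rw [← hord]
    exact addOrderOf_nsmul_eq_zero T0
  have hgT0 : lam ^ n • (g⁻¹ • T0) = 0 := by
    rw [← s58tr_smul_nsmul, hT0, smul_zero]
  have h4 := s58tr_luc (lam ^ n) τ (a ℓ) ℓ (hquad ℓ hℓ hℓS' hℓlam A hA τ hτ n) b T0 hT0
  have h5 : (τ ^ b)⁻¹ • T0 = g⁻¹ • T0 := by
    have h := h2 (g⁻¹ • T0) hgT0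
    rw [smul_inv_smul] at h
    rw [inv_smul_eq_iff]
    exact h.symm
  have h6 : ℓ ^ b • (g⁻¹ • T0) = e • (g⁻¹ • T0) := by
    refine s58tr_nsmul_congr (lam ^ n) _ hgT0 _ _ ?_
    rw [← ZMod.natCast_eq_natCast_iff, Nat.cast_pow, h3, he]
  rw [h2 T0 hT0, h5, h6, hrel] at h4
  have h7 : ((lam ^ n : ℕ) : ℤ) ∣ lucV (a ℓ) (ℓ : ℤ) b - c := by
    rw [← hord, addOrderOf_dvd_iff_zsmul_eq_zero, sub_smul, ← h4, sub_self]
  have h8 : LinearMap.trace O ρ.V (ρ.ρ (τ ^ b)) = ((lucV (a ℓ) (ℓ : ℤ) b : ℤ) : O) := by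
    rw [luc_trace_rep ρ.finrank_eq ρ.ρ τ _ _ (hfrob ℓ hℓ hℓS' hℓlam A hA τ hτ) b]
    have h0 := luc_map (Int.castRingHom O) (a ℓ) (ℓ : ℤ) b
    rw [eq_intCast, eq_intCast, eq_intCast, Int.cast_natCast] at h0
    exact h0.symm
  obtain ⟨k, hk⟩ := h7
  have hk' : ((lucV (a ℓ) (ℓ : ℤ) b : ℤ) : O) - (c : O) = ((lam ^ n : ℕ) : O) * (k : O) := by
    have h0 := congrArg (Int.cast : ℤ → O) hk
    rw [Int.cast_sub, Int.cast_mul, Int.cast_natCast] at h0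
    exact h0
  have h9 : LinearMap.trace O ρ.V (ρ.ρ g) - (c : O) = ((lam ^ n : ℕ) : O) * (k : O) -
      (LinearMap.trace O ρ.V (ρ.ρ (τ ^ b)) - LinearMap.trace O ρ.V (ρ.ρ g)) := by
    rw [← hk', h8]
    ring
  rw [h9]
  refine Ideal.sub_mem _ (Ideal.mul_mem_right _ _ ?_) h1
  rw [Nat.cast_pow]
  exact Ideal.pow_mem_pow hlamO n

/-- **[T-UNIP], trace**: an inertia element at `q ≠ lam` fixing a point of exact order `lam ^ n`
for every `n` has trace `2`. -/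
theorem s58tr_unip_trace (ρ : GaloisRepAdic O) (lam : ℕ) [Fact lam.Prime]
    (hlamO : (lam : O) ∈ IsLocalRing.maximalIdeal O) (S : Finset ℕ) (a : ℕ → ℤ)
    (hfrob : ∀ ℓ : ℕ, ℓ.Prime → ℓ ∉ S → ℓ ≠ lam → ∀ A : ValuationSubring Qb,
      A.LiesOverPrime ℓ → ∀ τ : Qb ≃ₐ[ℚ] Qb, A.IsFrobeniusAt τ ℓ →
        LinearMap.charpoly (ρ.ρ τ) = X ^ 2 - C ((a ℓ : ℤ) : O) * X + C ((ℓ : ℕ) : O))
    (hquad : ∀ ℓ : ℕ, ℓ.Prime → ℓ ∉ S → ℓ ≠ lam → ∀ A : ValuationSubring Qb,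
      A.LiesOverPrime ℓ → ∀ τ : Qb ≃ₐ[ℚ] Qb, A.IsFrobeniusAt τ ℓ →
        ∀ (n : ℕ) (T : E), lam ^ n • T = 0 → τ • τ • T - a ℓ • (τ • T) + ℓ • T = 0)
    (hfield : ∀ n : ℕ, ∃ L : IntermediateField ℚ Qb, FiniteDimensional ℚ L ∧
      ∀ σ : Qb ≃ₐ[ℚ] Qb, (∀ x ∈ L, σ x = x) → ∀ T : E, lam ^ n • T = 0 → σ • T = T)
    (q : ℕ) (hq : q.Prime) (hqlam : q ≠ lam) (A : ValuationSubring Qb) (hA : A.LiesOverPrime q)
    (σ : Qb ≃ₐ[ℚ] Qb) (hσ : σ ∈ A.inertiaSubgroupIn ℚ)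
    (hfix : ∀ n : ℕ, ∃ T0 : E, addOrderOf T0 = lam ^ n ∧ σ • T0 = T0) :
    LinearMap.trace O ρ.V (ρ.ρ σ) = 2 := by
  have h := s58tr_trace ρ lam hlamO S a hfrob hquad hfield σ 2 (fun n => by
    obtain ⟨T0, hord, hT0⟩ := hfix n
    refine ⟨T0, hord, 1, ?_, ?_⟩
    · rw [trcEps_inertia lam n q hq hqlam A hA σ hσ, Nat.cast_one]
    · have h1 : σ⁻¹ • T0 = T0 := by
        rw [inv_smul_eq_iff]
        exact hT0.symm
      rw [hT0, h1, one_nsmul, two_zsmul])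
  rw [h, Int.cast_ofNat]

/-- the characteristic polynomial of an endomorphism of a free module of rank two -/
theorem s58tr_charpoly {T : Type*} [CommRing T] {V : Type*} [AddCommGroup V] [Module T V]
    [Module.Free T V] [Module.Finite T V] (hV : Module.finrank T V = 2) (M : Module.End T V) :
    LinearMap.charpoly M = X ^ 2 - C (LinearMap.trace T V M) * X + C (LinearMap.det M) := by
  nontriviality T
  let b := Module.finBasisOfFinrankEq T V hV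
  rw [← LinearMap.charpoly_toMatrix M b, Matrix.charpoly_fin_two,
    ← LinearMap.trace_eq_matrix_trace T b M, LinearMap.det_toMatrix b M]

/-- **[T-UNIP]**: if the inertia group of `A` over `q ≠ lam` fixes a point of exact order
`lam ^ n` for every `n`, its elements have characteristic polynomial `(X - 1)²`. -/
theorem s58tr_unip [IsDomain O] [CharZero O] (ρ : GaloisRepAdic O) (lam : ℕ) [Fact lam.Prime]
    (hlamO : (lam : O) ∈ IsLocalRing.maximalIdeal O) (S : Finset ℕ) (a : ℕ → ℤ)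
    (hfrob : ∀ ℓ : ℕ, ℓ.Prime → ℓ ∉ S → ℓ ≠ lam → ∀ A : ValuationSubring Qb,
      A.LiesOverPrime ℓ → ∀ τ : Qb ≃ₐ[ℚ] Qb, A.IsFrobeniusAt τ ℓ →
        LinearMap.charpoly (ρ.ρ τ) = X ^ 2 - C ((a ℓ : ℤ) : O) * X + C ((ℓ : ℕ) : O))
    (hquad : ∀ ℓ : ℕ, ℓ.Prime → ℓ ∉ S → ℓ ≠ lam → ∀ A : ValuationSubring Qb,
      A.LiesOverPrime ℓ → ∀ τ : Qb ≃ₐ[ℚ] Qb, A.IsFrobeniusAt τ ℓ →
        ∀ (n : ℕ) (T : E), lam ^ n • T = 0 → τ • τ • T - a ℓ • (τ • T) + ℓ • T = 0)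
    (hfield : ∀ n : ℕ, ∃ L : IntermediateField ℚ Qb, FiniteDimensional ℚ L ∧
      ∀ σ : Qb ≃ₐ[ℚ] Qb, (∀ x ∈ L, σ x = x) → ∀ T : E, lam ^ n • T = 0 → σ • T = T)
    (q : ℕ) (hq : q.Prime) (hqlam : q ≠ lam) (A : ValuationSubring Qb) (hA : A.LiesOverPrime q)
    (hfix : ∀ σ ∈ A.inertiaSubgroupIn ℚ, ∀ n : ℕ, ∃ T0 : E, addOrderOf T0 = lam ^ n ∧
      σ • T0 = T0)
    (σ : Qb ≃ₐ[ℚ] Qb) (hσ : σ ∈ A.inertiaSubgroupIn ℚ) :
    LinearMap.charpoly (ρ.ρ σ) = (X - 1) ^ 2 := by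
  have h1 := s58tr_unip_trace ρ lam hlamO S a hfrob hquad hfield q hq hqlam A hA σ hσ
    (hfix σ hσ)
  have h2 := s58tr_unip_trace ρ lam hlamO S a hfrob hquad hfield q hq hqlam A hA (σ * σ)
    (mul_mem hσ hσ) (hfix (σ * σ) (mul_mem hσ hσ))
  have hcp := s58tr_charpoly ρ.finrank_eq (ρ.ρ σ)
  have h3 := luc_trace_rep ρ.finrank_eq ρ.ρ σ _ _ hcp 2
  rw [pow_two, h2, h1] at h3
  have h4 : (2 : O) * (LinearMap.det (ρ.ρ σ) - 1) = 0 := by
    have e : lucV (2 : O) (LinearMap.det (ρ.ρ σ)) 2 = 2 * 2 - LinearMap.det (ρ.ρ σ) * 2 := rfl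
    rw [e] at h3
    linear_combination h3
  have h5 : LinearMap.det (ρ.ρ σ) = 1 := by
    rcases mul_eq_zero.mp h4 with h | h
    · exact absurd h two_ne_zero
    · exact sub_eq_zero.mp h
  rw [hcp, h1, h5, map_one, map_ofNat]
  ring

/-- **[T-UNIP]**, in the form of `GaloisRepAdic.IsUnipotentOnInertiaAt`. -/
theorem s58tr_unipotent [IsDomain O] [CharZero O] (ρ : GaloisRepAdic O) (lam : ℕ)
    [Fact lam.Prime] (hlamO : (lam : O) ∈ IsLocalRing.maximalIdeal O) (S : Finset ℕ)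
    (a : ℕ → ℤ)
    (hfrob : ∀ ℓ : ℕ, ℓ.Prime → ℓ ∉ S → ℓ ≠ lam → ∀ A : ValuationSubring Qb,
      A.LiesOverPrime ℓ → ∀ τ : Qb ≃ₐ[ℚ] Qb, A.IsFrobeniusAt τ ℓ →
        LinearMap.charpoly (ρ.ρ τ) = X ^ 2 - C ((a ℓ : ℤ) : O) * X + C ((ℓ : ℕ) : O))
    (hquad : ∀ ℓ : ℕ, ℓ.Prime → ℓ ∉ S → ℓ ≠ lam → ∀ A : ValuationSubring Qb,
      A.LiesOverPrime ℓ → ∀ τ : Qb ≃ₐ[ℚ] Qb, A.IsFrobeniusAt τ ℓ →
        ∀ (n : ℕ) (T : E), lam ^ n • T = 0 → τ • τ • T - a ℓ • (τ • T) + ℓ • T = 0)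
    (hfield : ∀ n : ℕ, ∃ L : IntermediateField ℚ Qb, FiniteDimensional ℚ L ∧
      ∀ σ : Qb ≃ₐ[ℚ] Qb, (∀ x ∈ L, σ x = x) → ∀ T : E, lam ^ n • T = 0 → σ • T = T)
    (q : ℕ) (hq : q.Prime) (hqlam : q ≠ lam)
    (hfix : ∀ A : ValuationSubring Qb, A.LiesOverPrime q → ∀ σ ∈ A.inertiaSubgroupIn ℚ,
      ∀ n : ℕ, ∃ T0 : E, addOrderOf T0 = lam ^ n ∧ σ • T0 = T0) :
    ρ.IsUnipotentOnInertiaAt q := fun A hA σ hσ =>
  s58tr_unip ρ lam hlamO S a hfrob hquad hfield q hq hqlam A hA (hfix A hA) σ hσ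

/-- **[T-FROB]**: a Frobenius element `g` at `q ≠ lam` with `g² - aq g + q = 0` on the
`lam`-power torsion of `E` has `trace ρ(g) = aq`. -/
theorem s58tr_frob (ρ : GaloisRepAdic O) (lam : ℕ) [Fact lam.Prime]
    (hlamO : (lam : O) ∈ IsLocalRing.maximalIdeal O) (S : Finset ℕ) (a : ℕ → ℤ)
    (hfrob : ∀ ℓ : ℕ, ℓ.Prime → ℓ ∉ S → ℓ ≠ lam → ∀ A : ValuationSubring Qb,
      A.LiesOverPrime ℓ → ∀ τ : Qb ≃ₐ[ℚ] Qb, A.IsFrobeniusAt τ ℓ →
        LinearMap.charpoly (ρ.ρ τ) = X ^ 2 - C ((a ℓ : ℤ) : O) * X + C ((ℓ : ℕ) : O))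
    (hquad : ∀ ℓ : ℕ, ℓ.Prime → ℓ ∉ S → ℓ ≠ lam → ∀ A : ValuationSubring Qb,
      A.LiesOverPrime ℓ → ∀ τ : Qb ≃ₐ[ℚ] Qb, A.IsFrobeniusAt τ ℓ →
        ∀ (n : ℕ) (T : E), lam ^ n • T = 0 → τ • τ • T - a ℓ • (τ • T) + ℓ • T = 0)
    (hfield : ∀ n : ℕ, ∃ L : IntermediateField ℚ Qb, FiniteDimensional ℚ L ∧
      ∀ σ : Qb ≃ₐ[ℚ] Qb, (∀ x ∈ L, σ x = x) → ∀ T : E, lam ^ n • T = 0 → σ • T = T)
    (q : ℕ) (hq : q.Prime) (hqlam : q ≠ lam) (A : ValuationSubring Qb) (hA : A.LiesOverPrime q)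
    (g : Qb ≃ₐ[ℚ] Qb) (hg : A.IsFrobeniusAt g q) (aq : ℤ)
    (hquadq : ∀ (n : ℕ) (T : E), lam ^ n • T = 0 → g • g • T - aq • (g • T) + q • T = 0)
    (hord : ∀ n : ℕ, ∃ T0 : E, addOrderOf T0 = lam ^ n) :
    LinearMap.trace O ρ.V (ρ.ρ g) = (aq : O) := by
  refine s58tr_trace ρ lam hlamO S a hfrob hquad hfield g aq (fun n => ?_)
  obtain ⟨T0, hT0⟩ := hord n
  refine ⟨T0, hT0, q, ?_, ?_⟩
  · rw [trcEps_frobenius lam n q hq hqlam A hA g hg]
  · have h0 : lam ^ n • T0 = 0 := by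
      rw [← hT0]
      exact addOrderOf_nsmul_eq_zero T0
    have h1 : lam ^ n • (g⁻¹ • T0) = 0 := by
      rw [← s58tr_smul_nsmul, h0, smul_zero]
    have h2 := hquadq n (g⁻¹ • T0) h1
    rw [smul_inv_smul] at h2
    have h3 : g • T0 + q • (g⁻¹ • T0) = aq • T0 +
        (g • T0 - aq • T0 + q • (g⁻¹ • T0)) := by abel
    rw [h3, h2, add_zero]

end transfer

end Fermat.Agent.S58
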