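/-
S58 (stage 7), package [M7]: the top, with the arithmetic of the curve as hypotheses in the
producers' shapes.  Prefix `s58tf_`.

`P := ((W.map (Int.castRingHom ℚ))⁄Qb).Point` with the Galois action of Mathlib.  The E-side
enters through four statements about `W` (spelled out as hypotheses here):

* `hquad`  [EI-QUAD]  : `τ² - a_l τ + l = 0` on the torsion prime to `l` for a Frobenius `τ`
  at a good prime `l`;
* `hunr`   [EI-UNR]   : inertia at a good prime `l` acts trivially on the torsion prime to `l`;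
* `hfix`   [EI-FIX]   : at a multiplicative prime `q` there is, for every prime `lam ≠ q` and
  every `n`, a point of exact order `lam ^ n` fixed by inertia at `q`;
* `hfield` [EI-FIELD] : the `m`-torsion is defined over a number field.

Results:

* `s58tf_ord`   : [EI-ORD] from [EI-FIX] at one bad prime `q0` (points of exact order `lam ^ n`
  for `lam ≠ q0`);
* `s58tf_unip`  : [T-UNIP] at the level of `W`: a `lam`-adic representation with the Frobenius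
  characteristic polynomials of `W` outside `S` is unipotent on inertia at every `q ≠ lam`;
* `s58tf_frob`  : [T-FROB] at the level of `W`: its trace at a Frobenius of a good prime
  `q ≠ lam` is `a_q(W)`;
* `s58tf_level_dvd` : [M3] with the auxiliary prime `lam` avoiding a given prime `q0`;
* `s58tf_main`  : S58 from the four E-side statements, `Δ ≠ ± 1` and the statement of [M5].
-/
import Fermat.Agent.S58.Transfer
import Fermat.Agent.S58.ChiRep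
import Fermat.Agent.S58.ApBound
import Fermat.Agent.S58.LevelClaims
import Fermat.Agent.S58.NewDescent
import Fermat.Agent.S58.Stabilise

set_option autoImplicit false

namespace Fermat.Agent.S58

open Polynomial ModularFormClass CuspForm
open scoped WeierstrassCurve.Affine

local notation "Qb" => AlgebraicClosure ℚ

/-- among `2, 3, 5` there is a prime different from `q` and from `q0` -/
theorem s58tf_exists_prime_ne (q q0 : ℕ) : ∃ lam : ℕ, lam.Prime ∧ q ≠ lam ∧ lam ≠ q0 := by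
  by_cases h2 : q = 2 ∨ q0 = 2
  · by_cases h3 : q = 3 ∨ q0 = 3
    · exact ⟨5, by norm_num, by omega, by omega⟩
    · exact ⟨3, Nat.prime_three, by omega, by omega⟩
  · exact ⟨2, Nat.prime_two, by omega, by omega⟩

/-- **[EI-ORD] from [EI-FIX]**: points of exact order `lam ^ n` for `lam` different from a bad
prime `q0`. -/
theorem s58tf_ord (W : WeierstrassCurve ℤ) (hss : W.IsSemistableModel)
    (hfix : ∀ q : ℕ, q.Prime → (q : ℤ) ∣ W.Δ → ¬ (q : ℤ) ∣ W.c₄ → ∀ lam : ℕ, lam.Prime →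
      lam ≠ q → ∀ (n : ℕ) (A : ValuationSubring Qb), A.LiesOverPrime q →
        ∃ T : ((W.map (Int.castRingHom ℚ))⁄Qb).Point, addOrderOf T = lam ^ n ∧
          ∀ σ ∈ A.inertiaSubgroupIn ℚ, σ • T = T)
    (q0 : ℕ) (hq0 : q0.Prime) (hq0Δ : (q0 : ℤ) ∣ W.Δ)
    (lam : ℕ) (hlam : lam.Prime) (hne : lam ≠ q0) (n : ℕ) :
    ∃ T : ((W.map (Int.castRingHom ℚ))⁄Qb).Point, addOrderOf T = lam ^ n := by
  obtain ⟨A, -, hA, -⟩ := Fermat.Agent.Lib.FrobeniusExists.exists_isFrobeniusAt q0 hq0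
  obtain ⟨T, hT, -⟩ := hfix q0 hq0 hq0Δ (hss q0 hq0 hq0Δ) lam hlam hne n A hA
  exact ⟨T, hT⟩

section transferW

variable (W : WeierstrassCurve ℤ)
  (hquad : ∀ l : ℕ, l.Prime → ¬ (l : ℤ) ∣ W.Δ → ∀ m : ℕ, m.Coprime l →
    ∀ A : ValuationSubring Qb, A.LiesOverPrime l → ∀ τ : Qb ≃ₐ[ℚ] Qb, A.IsFrobeniusAt τ l →
      ∀ T : ((W.map (Int.castRingHom ℚ))⁄Qb).Point, m • T = 0 →
        τ • τ • T - W.apOfModel l • τ • T + (l : ℤ) • T = 0)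
  (hfield : ∀ m : ℕ, 0 < m → ∃ L : IntermediateField ℚ Qb, FiniteDimensional ℚ L ∧
    ∀ σ : Qb ≃ₐ[ℚ] Qb, (∀ x ∈ L, σ x = x) →
      ∀ T : ((W.map (Int.castRingHom ℚ))⁄Qb).Point, m • T = 0 → σ • T = T)
  (lam : ℕ) [Fact lam.Prime]
  (hord : ∀ n : ℕ, ∃ T : ((W.map (Int.castRingHom ℚ))⁄Qb).Point, addOrderOf T = lam ^ n)
  (S : Finset ℕ) (hbadS : ∀ ℓ : ℕ, ℓ.Prime → (ℓ : ℤ) ∣ W.Δ → ℓ ∈ S)
  (O : Type) [CommRing O] [IsDomain O] [IsDiscreteValuationRing O] [CharZero O]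
  (hlamO : (lam : O) ∈ IsLocalRing.maximalIdeal O) (ρ : GaloisRepAdic O)
  (hfrob : ∀ ℓ : ℕ, ℓ.Prime → ℓ ∉ S →
    ∀ A : ValuationSubring Qb, A.LiesOverPrime ℓ →
      ∀ σ : Qb ≃ₐ[ℚ] Qb, A.IsFrobeniusAt σ ℓ →
        LinearMap.charpoly (ρ.ρ σ) =
          X ^ 2 - C ((W.apOfModel ℓ : ℤ) : O) * X + C ((ℓ : ℕ) : O))

include hquad in
/-- [EI-QUAD] on the `lam`-power torsion, in the shape of the abstract transfer -/
theorem s58tf_quad_pow (l : ℕ) (hl : l.Prime) (hgood : ¬ (l : ℤ) ∣ W.Δ) (hllam : l ≠ lam)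
    (A : ValuationSubring Qb) (hA : A.LiesOverPrime l) (τ : Qb ≃ₐ[ℚ] Qb)
    (hτ : A.IsFrobeniusAt τ l) (n : ℕ) (T : ((W.map (Int.castRingHom ℚ))⁄Qb).Point)
    (hT : lam ^ n • T = 0) :
    τ • τ • T - W.apOfModel l • (τ • T) + l • T = 0 := by
  have hcop : (lam ^ n).Coprime l :=
    Nat.Coprime.pow_left n ((Nat.coprime_primes (Fact.out : lam.Prime) hl).mpr (Ne.symm hllam))
  have h := hquad l hl hgood (lam ^ n) hcop A hA τ hτ T hT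
  rwa [natCast_zsmul] at h

include hquad hfield hord hbadS hlamO hfrob in
/-- **[T-UNIP] for `W`**: unipotence on inertia at every prime `q ≠ lam`, given [EI-UNR] and
[EI-FIX]. -/
theorem s58tf_unip (hss : W.IsSemistableModel)
    (hunr : ∀ l : ℕ, l.Prime → ¬ (l : ℤ) ∣ W.Δ → ∀ m : ℕ, m.Coprime l →
      ∀ A : ValuationSubring Qb, A.LiesOverPrime l → ∀ σ ∈ A.inertiaSubgroupIn ℚ,
        ∀ T : ((W.map (Int.castRingHom ℚ))⁄Qb).Point, m • T = 0 → σ • T = T)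
    (hfix : ∀ q : ℕ, q.Prime → (q : ℤ) ∣ W.Δ → ¬ (q : ℤ) ∣ W.c₄ → ∀ lam : ℕ, lam.Prime →
      lam ≠ q → ∀ (n : ℕ) (A : ValuationSubring Qb), A.LiesOverPrime q →
        ∃ T : ((W.map (Int.castRingHom ℚ))⁄Qb).Point, addOrderOf T = lam ^ n ∧
          ∀ σ ∈ A.inertiaSubgroupIn ℚ, σ • T = T)
    (q : ℕ) (hq : q.Prime) (hqlam : q ≠ lam) : ρ.IsUnipotentOnInertiaAt q := by
  have hlam : lam.Prime := Fact.out
  refine s58tr_unipotent (E := ((W.map (Int.castRingHom ℚ))⁄Qb).Point) ρ lam hlamO S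
    W.apOfModel (fun ℓ hℓ hℓS _ => hfrob ℓ hℓ hℓS)
    (fun ℓ hℓ hℓS hℓlam A hA τ hτ n T hT =>
      s58tf_quad_pow W hquad lam ℓ hℓ (fun h => hℓS (hbadS ℓ hℓ h)) hℓlam A hA τ hτ n T hT)
    (fun n => hfield (lam ^ n) (pow_pos hlam.pos n)) q hq hqlam ?_
  intro A hA σ hσ n
  by_cases hqΔ : (q : ℤ) ∣ W.Δ
  · obtain ⟨T, hT, hT'⟩ := hfix q hq hqΔ (hss q hq hqΔ) lam hlam (Ne.symm hqlam) n A hA
    exact ⟨T, hT, hT' σ hσ⟩
  · obtain ⟨T, hT⟩ := hord n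
    have hcop : (lam ^ n).Coprime q :=
      Nat.Coprime.pow_left n ((Nat.coprime_primes hlam hq).mpr (Ne.symm hqlam))
    refine ⟨T, hT, hunr q hq hqΔ (lam ^ n) hcop A hA σ hσ T ?_⟩
    rw [← hT]
    exact addOrderOf_nsmul_eq_zero T

include hquad hfield hord hbadS hlamO hfrob in
/-- **[T-FROB] for `W`**: the trace of a Frobenius at a good prime `q ≠ lam` is `a_q(W)`. -/
theorem s58tf_frob (q : ℕ) (hq : q.Prime) (hqlam : q ≠ lam) (hgood : W.IsGoodPrimeFor q)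
    (A : ValuationSubring Qb) (hA : A.LiesOverPrime q) (σ : Qb ≃ₐ[ℚ] Qb)
    (hσ : A.IsFrobeniusAt σ q) :
    LinearMap.trace O ρ.V (ρ.ρ σ) = ((W.apOfModel q : ℤ) : O) := by
  have hlam : lam.Prime := Fact.out
  exact s58tr_frob (E := ((W.map (Int.castRingHom ℚ))⁄Qb).Point) ρ lam hlamO S
    W.apOfModel (fun ℓ hℓ hℓS _ => hfrob ℓ hℓ hℓS)
    (fun ℓ hℓ hℓS hℓlam A hA τ hτ n T hT =>
      s58tf_quad_pow W hquad lam ℓ hℓ (fun h => hℓS (hbadS ℓ hℓ h)) hℓlam A hA τ hτ n T hT)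
    (fun n => hfield (lam ^ n) (pow_pos hlam.pos n)) q hq hqlam A hA σ hσ (W.apOfModel q)
    (fun n T hT => s58tf_quad_pow W hquad lam q hq hgood hqlam A hA σ hσ n T hT) hord

end transferW

/-- **[M3] with the auxiliary prime avoiding `q0`.**  As `s58m3_level_dvd`, but the transfers
`hU`, `hF` are only required for the primes `lam ≠ q0`. -/
theorem s58tf_level_dvd (W : WeierstrassCurve ℤ) (hΔ : W.Δ ≠ 0)
    {N : ℕ} (hN3 : ∀ q : ℕ, q.Prime → ¬ q ^ 3 ∣ N)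
    (hbad : ∀ ℓ : ℕ, ℓ.Prime → (ℓ : ℤ) ∣ W.Δ → ℓ ∣ N)
    {M : ℕ} [NeZero M] (hMN : M ∣ N) {g : CuspForm (CongruenceSubgroup.Gamma0 M) 2}
    (hg : g.IsNewform)
    (hgW : ∀ ℓ : ℕ, ℓ.Prime → ¬ ℓ ∣ N → qCoeff g ℓ = (W.apOfModel ℓ : ℂ))
    (q0 : ℕ)
    (hU : ∀ (lam : ℕ) [Fact lam.Prime], lam ≠ q0 → ∀ (S : Finset ℕ), lam ∈ S →
      (∀ ℓ : ℕ, ℓ.Prime → (ℓ : ℤ) ∣ W.Δ → ℓ ∈ S) →
      ∀ (O : Type) [CommRing O] [IsDomain O] [IsDiscreteValuationRing O] [CharZero O],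
        (lam : O) ∈ IsLocalRing.maximalIdeal O → ∀ ρ : GaloisRepAdic O,
          (∀ ℓ : ℕ, ℓ.Prime → ℓ ∉ S →
            ∀ A : ValuationSubring Qb, A.LiesOverPrime ℓ →
              ∀ σ : Qb ≃ₐ[ℚ] Qb, A.IsFrobeniusAt σ ℓ →
                LinearMap.charpoly (ρ.ρ σ) =
                  X ^ 2 - C ((W.apOfModel ℓ : ℤ) : O) * X + C ((ℓ : ℕ) : O)) →
          ∀ q : ℕ, q.Prime → q ≠ lam → ρ.IsUnipotentOnInertiaAt q)
    (hF : ∀ (lam : ℕ) [Fact lam.Prime], lam ≠ q0 → ∀ (S : Finset ℕ), lam ∈ S →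
      (∀ ℓ : ℕ, ℓ.Prime → (ℓ : ℤ) ∣ W.Δ → ℓ ∈ S) →
      ∀ (O : Type) [CommRing O] [IsDomain O] [IsDiscreteValuationRing O] [CharZero O],
        (lam : O) ∈ IsLocalRing.maximalIdeal O → ∀ ρ : GaloisRepAdic O,
          (∀ ℓ : ℕ, ℓ.Prime → ℓ ∉ S →
            ∀ A : ValuationSubring Qb, A.LiesOverPrime ℓ →
              ∀ σ : Qb ≃ₐ[ℚ] Qb, A.IsFrobeniusAt σ ℓ →
                LinearMap.charpoly (ρ.ρ σ) =
                  X ^ 2 - C ((W.apOfModel ℓ : ℤ) : O) * X + C ((ℓ : ℕ) : O)) →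
          ∀ q : ℕ, q.Prime → q ≠ lam → W.IsGoodPrimeFor q →
            ∀ A : ValuationSubring Qb, A.LiesOverPrime q →
              ∀ σ : Qb ≃ₐ[ℚ] Qb, A.IsFrobeniusAt σ q →
                LinearMap.trace O ρ.V (ρ.ρ σ) = ((W.apOfModel q : ℤ) : O)) :
    M ∣ W.conductorLevel := by
  classical
  have hN0 : N ≠ 0 := s58m1_ne_zero hN3
  have hM0 : M ≠ 0 := NeZero.ne M
  -- the common set `S = {lam} ∪ primes of N`
  have hS : ∀ lam : ℕ, lam ∈ insert lam N.primeFactors ∧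
      (∀ q : ℕ, q.Prime → q ∣ M → q ∈ insert lam N.primeFactors) ∧
      (∀ ℓ : ℕ, ℓ.Prime → (ℓ : ℤ) ∣ W.Δ → ℓ ∈ insert lam N.primeFactors) ∧
      (∀ ℓ : ℕ, ℓ.Prime → ℓ ∉ insert lam N.primeFactors →
        qCoeff g ℓ = (W.apOfModel ℓ : ℂ)) := by
    intro lam
    refine ⟨Finset.mem_insert_self _ _, fun q hq hqM => ?_, fun ℓ hℓ hℓΔ => ?_,
      fun ℓ hℓ hℓS => ?_⟩
    · exact Finset.mem_insert_of_mem (Nat.mem_primeFactors.mpr ⟨hq, hqM.trans hMN, hN0⟩)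
    · exact Finset.mem_insert_of_mem (Nat.mem_primeFactors.mpr ⟨hℓ, hbad ℓ hℓ hℓΔ, hN0⟩)
    · refine hgW ℓ hℓ (fun hℓN => hℓS ?_)
      exact Finset.mem_insert_of_mem (Nat.mem_primeFactors.mpr ⟨hℓ, hℓN, hN0⟩)
  -- Step 1: no prime of `M` has exponent 2 (Carayol against unipotence on inertia)
  have h2 : ∀ q : ℕ, q.Prime → M.factorization q = 2 → False := by
    intro q hq hfac
    obtain ⟨lam, hlamp, hqlam, hlamq0⟩ := s58tf_exists_prime_ne q q0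
    have : Fact lam.Prime := ⟨hlamp⟩
    obtain ⟨hlamS, hMS, hbadS, hgS⟩ := hS lam
    obtain ⟨O, _, _, _, _, _, _, hlamO, ρ, hfrob, h2⟩ :=
      s58m2_rep36 hg W.apOfModel lam _ hlamS hMS hgS
    exact h2 q hq hqlam hfac (hU lam hlamq0 _ hlamS hbadS O hlamO ρ hfrob q hq hqlam)
  -- Step 2: a good prime does not divide `M` exactly once (Frobenius against the bound)
  have h1 : ∀ q : ℕ, q.Prime → W.IsGoodPrimeFor q → q ∣ M → ¬ q ^ 2 ∣ M → False := by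
    intro q hq hgood hqM hq2
    obtain ⟨lam, hlamp, hqlam, hlamq0⟩ := s58tf_exists_prime_ne q q0
    have : Fact lam.Prime := ⟨hlamp⟩
    obtain ⟨hlamS, hMS, hbadS, hgS⟩ := hS lam
    obtain ⟨O, _, _, _, _, _, _, hlamO, ρ, hfrob, h1⟩ :=
      s58m2_rep35 hg W.apOfModel lam _ hlamS hMS hgS
    obtain ⟨A, σ, hA, hσ⟩ := Fermat.Agent.Lib.FrobeniusExists.exists_isFrobeniusAt q hq
    exact s58ab_not_steinberg ρ σ W q hq (h1 q hq hqlam hqM hq2 A hA σ hσ)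
      (hF lam hlamq0 _ hlamS hbadS O hlamO ρ hfrob q hq hqlam hgood A hA σ hσ)
  exact s58ab_dvd_conductorLevel W hΔ M hM0 (fun q hq h => hN3 q hq (h.trans hMN)) h1 h2

/-- **[M7] S58 from the E-side.**  The statement of S58 from [EI-QUAD], [EI-UNR], [EI-FIX],
[EI-FIELD] for `W`, the fact that `Δ ≠ ± 1`, and the statement `h5` of [M5]. -/
theorem s58tf_main (W : WeierstrassCurve ℤ) (hss : W.IsSemistableModel) (N : ℕ)
    (hN : W.IsModularModelOfLevel N) (hbad : ∀ ℓ : ℕ, ℓ.Prime → (ℓ : ℤ) ∣ W.Δ → ℓ ∣ N)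
    (hN3 : ∀ q : ℕ, q.Prime → ¬ q ^ 3 ∣ N)
    (hunit : ¬ (W.Δ = 1 ∨ W.Δ = -1))
    (hquad : ∀ l : ℕ, l.Prime → ¬ (l : ℤ) ∣ W.Δ → ∀ m : ℕ, m.Coprime l →
      ∀ A : ValuationSubring Qb, A.LiesOverPrime l → ∀ τ : Qb ≃ₐ[ℚ] Qb, A.IsFrobeniusAt τ l →
        ∀ T : ((W.map (Int.castRingHom ℚ))⁄Qb).Point, m • T = 0 →
          τ • τ • T - W.apOfModel l • τ • T + (l : ℤ) • T = 0)
    (hunr : ∀ l : ℕ, l.Prime → ¬ (l : ℤ) ∣ W.Δ → ∀ m : ℕ, m.Coprime l →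
      ∀ A : ValuationSubring Qb, A.LiesOverPrime l → ∀ σ ∈ A.inertiaSubgroupIn ℚ,
        ∀ T : ((W.map (Int.castRingHom ℚ))⁄Qb).Point, m • T = 0 → σ • T = T)
    (hfix : ∀ q : ℕ, q.Prime → (q : ℤ) ∣ W.Δ → ¬ (q : ℤ) ∣ W.c₄ → ∀ lam : ℕ, lam.Prime →
      lam ≠ q → ∀ (n : ℕ) (A : ValuationSubring Qb), A.LiesOverPrime q →
        ∃ T : ((W.map (Int.castRingHom ℚ))⁄Qb).Point, addOrderOf T = lam ^ n ∧
          ∀ σ ∈ A.inertiaSubgroupIn ℚ, σ • T = T)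
    (hfield : ∀ m : ℕ, 0 < m → ∃ L : IntermediateField ℚ Qb, FiniteDimensional ℚ L ∧
      ∀ σ : Qb ≃ₐ[ℚ] Qb, (∀ x ∈ L, σ x = x) →
        ∀ T : ((W.map (Int.castRingHom ℚ))⁄Qb).Point, m • T = 0 → σ • T = T)
    (h5 : ∀ (q0 : ℕ), q0.Prime → (q0 : ℤ) ∣ W.Δ →
      ∀ (S : Finset ℕ) {M : ℕ} (g : CuspForm (CongruenceSubgroup.Gamma0 M) 2),
      g.IsNormalizedEigenform →
      (∀ ℓ : ℕ, ℓ.Prime → ℓ ∉ S →
        ¬ (ℓ : ℤ) ∣ W.Δ ∧ ¬ ℓ ∣ M ∧ qCoeff g ℓ = (W.apOfModel ℓ : ℂ)) →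
      ∀ q : ℕ, q.Prime → ¬ (q : ℤ) ∣ W.Δ → ¬ q ∣ M → qCoeff g q = (W.apOfModel q : ℂ)) :
    W.IsModularModelOfLevel W.conductorLevel := by
  have hN0 : N ≠ 0 := s58m1_ne_zero hN3
  have hΔ : W.Δ ≠ 0 := s58ab_disc_ne_zero W N hN0 hbad
  -- a bad prime `q0`
  obtain ⟨q0, hq0, hq0Δ⟩ : ∃ q0 : ℕ, q0.Prime ∧ (q0 : ℤ) ∣ W.Δ := by
    have h1 : W.Δ.natAbs ≠ 1 := by
      intro h
      exact hunit (Int.natAbs_eq_iff.mp h)
    obtain ⟨p, hp, hpd⟩ := Nat.exists_prime_and_dvd h1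
    exact ⟨p, hp, Int.natCast_dvd.mpr hpd⟩
  obtain ⟨M, g, hMN, hg, hgW⟩ := s58m1_of_model W hN0 hN
  have hM0 : M ≠ 0 := fun h => hN0 (by rw [h] at hMN; exact zero_dvd_iff.mp hMN)
  have : NeZero M := ⟨hM0⟩
  have hgW' : ∀ ℓ : ℕ, ℓ.Prime → ¬ ℓ ∣ N → qCoeff g ℓ = (W.apOfModel ℓ : ℂ) :=
    fun ℓ hℓ hℓN => hgW ℓ hℓ (fun h => hℓN (hbad ℓ hℓ h)) hℓN
  have hMC : M ∣ W.conductorLevel :=
    s58tf_level_dvd W hΔ hN3 hbad hMN hg hgW' q0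
      (fun lam _ hlamq0 S _ hbadS O _ _ _ _ hlamO ρ hfrob q hq hqlam =>
        s58tf_unip W hquad hfield lam
          (s58tf_ord W hss hfix q0 hq0 hq0Δ lam Fact.out hlamq0) S hbadS O hlamO ρ hfrob hss
          hunr hfix q hq hqlam)
      (fun lam _ hlamq0 S _ hbadS O _ _ _ _ hlamO ρ hfrob q hq hqlam hgood A hA σ hσ =>
        s58tf_frob W hquad hfield lam
          (s58tf_ord W hss hfix q0 hq0 hq0Δ lam Fact.out hlamq0) S hbadS O hlamO ρ hfrob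
          q hq hqlam hgood A hA σ hσ)
  refine s58m6_modular W hΔ g hg.1 hMC (fun l hl hgood => ?_)
  have hlM : ¬ l ∣ M :=
    fun h => hgood ((W.prime_dvd_conductorLevel_iff hΔ hl).mp (h.trans hMC))
  refine h5 q0 hq0 hq0Δ N.primeFactors g hg.1 (fun ℓ hℓ hℓS => ?_) l hl hgood hlM
  have hℓN : ¬ ℓ ∣ N := fun h => hℓS (Nat.mem_primeFactors.mpr ⟨hℓ, h, hN0⟩)
  exact ⟨fun h => hℓN (hbad ℓ hℓ h), fun h => hℓN (h.trans hMN), hgW' ℓ hℓ hℓN⟩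

end Fermat.Agent.S58
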