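/-
S58, modular side (prefix `s58cn_`): CARAYOL WITHOUT THE RESIDUAL HYPOTHESIS.

The proof term of `Fermat.Agent.S36.result` uses neither `hres` (residual absolute
irreducibility + oddness of every attached representation) nor `hlam2` (`lam ≠ 2`).  So the
conclusion of the frozen S36 holds for every newform, every prime `lam`, with no residual
hypothesis: `s58cn_carayol` (same binders as S36 minus `hlam2`, `hres`; conclusion verbatim).
Consequently S58 needs neither `hirr` nor `p ≠ 2` nor `¬ p ^ 2 ∣ N` on the modular side.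
-/
import Fermat.Agent.S36.FrontMain
import Fermat.Agent.S36.CoreFinal
import Fermat.Agent.S36.BaseInputs
import Fermat.Agent.S36.BaseDecCar
import Fermat.Agent.S36.Inst36Field

set_option autoImplicit false
open Polynomial
open CuspForm CuspForm.IsNewform

namespace Fermat.Agent.S58

open Fermat.Agent.S36

/-- the bound function of the S36 core -/
def s58cnB (q : ℕ) : ℕ := (q + 1) * (q * (q - 1) * (q + 1)) * q

theorem s58cnB_ne_zero (q : ℕ) (hq : q.Prime) : s58cnB q ≠ 0 := by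
  have h2 : 2 ≤ q := hq.two_le
  have h3 : q - 1 ≠ 0 := by omega
  exact Nat.mul_ne_zero (Nat.mul_ne_zero (Nat.succ_ne_zero q)
    (Nat.mul_ne_zero (Nat.mul_ne_zero hq.ne_zero h3) (Nat.succ_ne_zero q))) hq.ne_zero

/-- **Carayol (S36) without the residual hypothesis and for every prime `lam`.** -/
theorem s58cn_carayol
    {M : ℕ} [NeZero M] {g : CuspForm (CongruenceSubgroup.Gamma0 M) 2} (hg : g.IsNewform)
    (lam : ℕ) [Fact lam.Prime]
    (S : Finset ℕ)
    (O' : Type) [CommRing O'] [IsDomain O'] [IsDiscreteValuationRing O']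
    [IsAdicComplete (IsLocalRing.maximalIdeal O') O'] [Finite (IsLocalRing.ResidueField O')]
    [CharZero O'] (hlamO' : (lam : O') ∈ IsLocalRing.maximalIdeal O')
    (chig : CuspForm.heckeAlgebra M 2 (↑S : Set ℕ) →+* ℂ)
    (hchig : ∀ (ℓ : ℕ) (hℓ : ℓ.Prime) (hℓM : ¬ ℓ ∣ M) (hℓS : ℓ ∉ (↑S : Set ℕ)),
      chig (CuspForm.heckeAlgebra.T hℓ hℓM hℓS) = ModularFormClass.qCoeff g ℓ)
    (iota : chig.range →+* O')
    (hlamS : lam ∈ S) (hMS : ∀ q : ℕ, q.Prime → q ∣ M → q ∈ S)
    :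
    ∃ (O'' : Type) (_ : CommRing O'') (_ : IsDomain O'') (_ : IsDiscreteValuationRing O'')
      (_ : IsAdicComplete (IsLocalRing.maximalIdeal O'') O'') (_ : Finite (IsLocalRing.ResidueField O''))
      (_ : CharZero O'') (_ : Algebra O' O'') (_ : Module.Finite O' O'') (_ : IsLocalHom (algebraMap O' O'')),
      Function.Injective (algebraMap O' O'') ∧
      ∃ ρ : GaloisRepAdic O'',
        (∀ (ℓ : ℕ) (hℓ : ℓ.Prime) (hℓM : ¬ ℓ ∣ M) (hℓS : ℓ ∉ (↑S : Set ℕ)),
          ∀ A : ValuationSubring (AlgebraicClosure ℚ), A.LiesOverPrime ℓ →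
            ∀ σ : AlgebraicClosure ℚ ≃ₐ[ℚ] AlgebraicClosure ℚ, A.IsFrobeniusAt σ ℓ →
              LinearMap.charpoly (ρ.ρ σ) =
                X ^ 2 - C (algebraMap O' O'' ((iota.comp chig.rangeRestrict) (CuspForm.heckeAlgebra.T hℓ hℓM hℓS))) * X
                  + C ((ℓ : O''))) ∧
        (∀ q : ℕ, q.Prime → q ≠ lam → M.factorization q = 2 → ¬ ρ.IsUnipotentOnInertiaAt q) := by
  exact s36f_main lam M S hlamS O' hlamO' (iota.comp chig.rangeRestrict)
    (s36cf_core_of_field hg lam S O' chig hchig iota hlamS hMS s58cnB s58cnB_ne_zero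
      (fun M0 q _ _ hqM _ H ha2 A hA =>
        s36bi_hbase_of_dec M0 q hqM H ha2 A hA (s36by_carrier M0 hqM A hA H))
      (fun M0 q _ _ hqM _ H ha2 m hmq K0 _ _ _ A0 _ _ hA0 hunif c0 c1 hc hQ0 hQ1 hSM0 hSM1 hu0
          hu1 hm2 =>
        s36in_field M0 q hqM H ha2 m hmq K0 A0 hA0 hunif c0 c1 hc hQ0 hQ1 hSM0 hSM1 hu0
          hu1 hm2))

end Fermat.Agent.S58
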