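import Mathlib

/-!
# S58, leaf [EI-SEP] (prefix `s58sf_`)

Separability of the generic member of a pencil: for coprime polynomials `F`, `G` over an
algebraically closed field of characteristic zero with `deg G < deg F`, the polynomial
`F - c G` has exactly `deg F` distinct roots for all `c` outside a finite set.
-/

set_option autoImplicit false

open Polynomial

namespace Fermat.Agent.S58

variable {k : Type*} [Field k]

/-- the Wronskian `F' G - F G'` is non-zero when `deg G < deg F` (characteristic zero) -/
theorem s58sf_wronsk_ne_zero [CharZero k] (F G : k[X]) (hG : G ≠ 0)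
    (hdeg : G.natDegree < F.natDegree) :
    derivative F * G - F * derivative G ≠ 0 := by
  intro h
  have h' : derivative F * G = F * derivative G := sub_eq_zero.mp h
  have hF : F ≠ 0 := by
    rintro rfl
    simp at hdeg
  have e1 := congrArg leadingCoeff h'
  rw [leadingCoeff_mul, leadingCoeff_mul, leadingCoeff_derivative, leadingCoeff_derivative] at e1
  have hlF : F.leadingCoeff ≠ 0 := leadingCoeff_ne_zero.mpr hF
  have hlG : G.leadingCoeff ≠ 0 := leadingCoeff_ne_zero.mpr hG
  have e4 : (G.natDegree : k) = (F.natDegree : k) := by
    have e5 : F.leadingCoeff * G.leadingCoeff * ((G.natDegree : k) - (F.natDegree : k)) = 0 := by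
      linear_combination -e1
    rcases mul_eq_zero.mp e5 with h1 | h1
    · exact absurd h1 (mul_ne_zero hlF hlG)
    · exact sub_eq_zero.mp h1
  have e6 : G.natDegree = F.natDegree := Nat.cast_injective e4
  omega

/-- **[EI-SEP]** for coprime `F`, `G` with `deg G < deg F` over an algebraically closed field
of characteristic zero: outside a finite set of `c`, the polynomial `F - c G` has `deg F`
distinct roots. -/
theorem s58sf_main [IsAlgClosed k] [CharZero k] (F G : k[X]) (hcop : IsCoprime F G)
    (hdeg : G.natDegree < F.natDegree) :
    ∃ S : Finset k, ∀ c : k, c ∉ S →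
      (F - C c * G).roots.Nodup ∧ Multiset.card (F - C c * G).roots = F.natDegree := by
  classical
  have hG : G ≠ 0 := by
    rintro rfl
    have hu : IsUnit F := by
      obtain ⟨a, b, hab⟩ := hcop
      rw [mul_zero, add_zero] at hab
      exact IsUnit.of_mul_eq_one a (by rw [mul_comm]; exact hab)
    have := natDegree_eq_zero_of_isUnit hu
    omega
  have hD := s58sf_wronsk_ne_zero F G hG hdeg
  refine ⟨(derivative F * G - F * derivative G).roots.toFinset.image
    (fun r => F.eval r / G.eval r), fun c hc => ?_⟩
  have hdegP : (F - C c * G).natDegree = F.natDegree :=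
    natDegree_sub_eq_left_of_natDegree_lt (lt_of_le_of_lt (natDegree_C_mul_le c G) hdeg)
  have hP0 : F - C c * G ≠ 0 := by
    intro h0
    rw [h0, natDegree_zero] at hdegP
    omega
  refine ⟨?_, ?_⟩
  · rw [Multiset.nodup_iff_count_le_one]
    intro r
    rw [count_roots]
    by_contra hlt
    have hlt' : 1 < rootMultiplicity r (F - C c * G) := by omega
    obtain ⟨h1, h2⟩ := (one_lt_rootMultiplicity_iff_isRoot hP0).mp hlt'
    have e1 : F.eval r = c * G.eval r := by
      have : (F - C c * G).eval r = 0 := h1
      rw [eval_sub, eval_mul, eval_C] at this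
      exact sub_eq_zero.mp this
    have e2 : (derivative F).eval r = c * (derivative G).eval r := by
      have : (derivative (F - C c * G)).eval r = 0 := h2
      rw [derivative_sub, derivative_C_mul, eval_sub, eval_mul, eval_C] at this
      exact sub_eq_zero.mp this
    have hGr : G.eval r ≠ 0 := by
      intro hG0
      obtain ⟨a, b, hab⟩ := hcop
      have := congrArg (eval r) hab
      rw [eval_add, eval_mul, eval_mul, e1, hG0, mul_zero, mul_zero, mul_zero, add_zero,
        eval_one] at this
      exact zero_ne_one this
    apply hc
    rw [Finset.mem_image]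
    refine ⟨r, ?_, ?_⟩
    · rw [Multiset.mem_toFinset, mem_roots hD]
      show (derivative F * G - F * derivative G).eval r = 0
      rw [eval_sub, eval_mul, eval_mul, e1, e2]
      ring
    · rw [e1, mul_div_assoc, div_self hGr, mul_one]
  · rw [IsAlgClosed.card_roots_eq_natDegree, hdegP]

end Fermat.Agent.S58
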