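import Mathlib
import Fermat.Agent.S13.DivPolyGen
import Fermat.Agent.S58.SepFibre

/-!
# S58, leaf [EI-CARD], counting part (prefix `s58cc_`)

For a Weierstrass curve `W` with `Δ ≠ 0` over an algebraically closed field of characteristic
zero and `n ≥ 1`: if the division polynomials `Φ_n` and `ΨSq_n` are coprime, then
`#E[n] = n ^ 2`.

Proof: for `x₁` outside a finite set, the fibre of `[n]` over a point `Q₁ = (x₁, y₁)` is in
bijection with the `n ^ 2` distinct roots of `Φ_n - x₁ ΨSq_n` (generic multiplication formula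
`dp_genericFormula` of S13, and `s58sf_main`); the fibre is a coset of `E[n]`.
-/

set_option autoImplicit false

open Polynomial WeierstrassCurve WeierstrassCurve.Affine
open Fermat.Agent.S13

namespace Fermat.Agent.S58

variable {F : Type*} [Field F] [DecidableEq F]

/-- the abscissa of a point killed by some `k` with `1 ≤ k ≤ n` is a root of `ΨSq_d` for some
`2 ≤ d ≤ n` -/
theorem s58cc_small_order (W : Affine F) {x y : F} (h : W.Nonsingular x y) (n : ℕ)
    (hk : ∃ k, 1 ≤ k ∧ k ≤ n ∧ k • (Point.some x y h : W.Point) = 0) :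
    ∃ d, 2 ≤ d ∧ d ≤ n ∧ (W.ΨSq (d : ℤ)).eval x = 0 := by
  classical
  obtain ⟨k, hk1, hkn, hk0⟩ := hk
  have hex : ∃ j, 1 ≤ j ∧ j • (Point.some x y h : W.Point) = 0 := ⟨k, hk1, hk0⟩
  have hdP := Nat.find_spec hex
  have hdk : Nat.find hex ≤ k := Nat.find_min' hex ⟨hk1, hk0⟩
  have hd2 : 2 ≤ Nat.find hex := by
    rcases Nat.lt_or_ge (Nat.find hex) 2 with h2 | h2
    · have e : Nat.find hex = 1 := by omega
      have h1 := hdP.2
      rw [e, one_nsmul] at h1
      exact absurd h1 (Point.some_ne_zero h)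
    · exact h2
  refine ⟨Nat.find hex, hd2, le_trans hdk hkn, ?_⟩
  have e0 := dpA_eq_zero_of_order h (Nat.find hex) hd2
    (fun j hj1 hjd hj0 => Nat.find_min hex hjd ⟨hj1, hj0⟩) hdP.2
  have e1 : (W.Ψ ((Nat.find hex : ℕ) : ℤ)).evalEval x y = 0 := e0
  rw [dpv_ΨSq h.1, e1]
  ring

/-- **[EI-CARD], counting part.** -/
theorem s58cc_card_of_coprime [IsAlgClosed F] [CharZero F] (W : Affine F) (hΔ : W.Δ ≠ 0)
    (n : ℕ) (hn : 0 < n) (hcop : IsCoprime (W.Φ (n : ℤ)) (W.ΨSq (n : ℤ))) :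
    Nat.card (Submodule.torsionBy ℤ W.Point (n : ℤ)) = n ^ 2 := by
  classical
  have hn2 : 0 < n ^ 2 := by positivity
  have hdΦ : (W.Φ (n : ℤ)).natDegree = n ^ 2 := by
    rw [WeierstrassCurve.natDegree_Φ W (n : ℤ), Int.natAbs_natCast]
  have hn0 : (((n : ℤ) : ℤ) : F) ≠ 0 := by
    have : (n : F) ≠ 0 := Nat.cast_ne_zero.mpr hn.ne'
    simpa using this
  have hdΨ : (W.ΨSq (n : ℤ)).natDegree = n ^ 2 - 1 := by
    have := WeierstrassCurve.natDegree_ΨSq W hn0
    simpa using this
  have hdeg : (W.ΨSq (n : ℤ)).natDegree < (W.Φ (n : ℤ)).natDegree := by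
    rw [hdΦ, hdΨ]
    omega
  obtain ⟨S, hS⟩ := s58sf_main (W.Φ (n : ℤ)) (W.ΨSq (n : ℤ)) hcop hdeg
  -- the abscissae of the points of small order
  have hΨd : ∀ d : ℕ, 2 ≤ d → W.ΨSq (d : ℤ) ≠ 0 := by
    intro d hd h0
    have hd0 : (((d : ℤ) : ℤ) : F) ≠ 0 := by
      have : (d : F) ≠ 0 := Nat.cast_ne_zero.mpr (by omega)
      simpa using this
    have := WeierstrassCurve.leadingCoeff_ΨSq W hd0
    rw [h0, leadingCoeff_zero] at this
    exact pow_ne_zero 2 hd0 this.symm
  have hBP : (∏ d ∈ Finset.Icc 2 (max n 2), W.ΨSq (d : ℤ)) ≠ 0 :=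
    Finset.prod_ne_zero_iff.mpr (fun d hd => hΨd d (Finset.mem_Icc.mp hd).1)
  have hBmem : ∀ (x : F) (d : ℕ), 2 ≤ d → d ≤ max n 2 → (W.ΨSq (d : ℤ)).eval x = 0 →
      x ∈ (∏ d ∈ Finset.Icc 2 (max n 2), W.ΨSq (d : ℤ)).roots.toFinset := by
    intro x d hd2 hdn hx
    rw [Multiset.mem_toFinset, mem_roots hBP]
    show eval x _ = 0
    rw [eval_prod]
    exact Finset.prod_eq_zero (Finset.mem_Icc.mpr ⟨hd2, hdn⟩) hx
  -- the choice of `x₁`
  obtain ⟨x1, hx1⟩ := Infinite.exists_notMem_finset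
    ((∏ d ∈ Finset.Icc 2 (max n 2), W.ΨSq (d : ℤ)).roots.toFinset ∪
      ((∏ d ∈ Finset.Icc 2 (max n 2), W.ΨSq (d : ℤ)).roots.toFinset.image
        (fun b => (W.Φ (n : ℤ)).eval b / (W.ΨSq (n : ℤ)).eval b)) ∪ S)
  rw [Finset.mem_union, Finset.mem_union, not_or, not_or] at hx1
  obtain ⟨⟨hx1B, hx1I⟩, hx1S⟩ := hx1
  obtain ⟨hnodup, hcard⟩ := hS x1 hx1S
  obtain ⟨y1, h1⟩ := dpe_exists_point W hΔ x1
  -- `Q₁` has no small torsion
  have hQ : ∀ k, 1 ≤ k → k ≤ max n 2 → k • (Point.some x1 y1 h1 : W.Point) ≠ 0 := by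
    intro k hk1 hkn hk0
    obtain ⟨d, hd2, hdn, hd0⟩ := s58cc_small_order W h1 (max n 2) ⟨k, hk1, hkn, hk0⟩
    exact hx1B (hBmem x1 d hd2 hdn hd0)
  have hP0 : W.Φ (n : ℤ) - C x1 * W.ΨSq (n : ℤ) ≠ 0 := by
    intro h0
    rw [h0, roots_zero, Multiset.card_zero, hdΦ] at hcard
    omega
  have hRcard : (W.Φ (n : ℤ) - C x1 * W.ΨSq (n : ℤ)).roots.toFinset.card = n ^ 2 := by
    rw [Multiset.toFinset_card_of_nodup hnodup, hcard, hdΦ]
  have hroot : ∀ x : F, x ∈ (W.Φ (n : ℤ) - C x1 * W.ΨSq (n : ℤ)).roots.toFinset ↔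
      (W.Φ (n : ℤ)).eval x = x1 * (W.ΨSq (n : ℤ)).eval x := by
    intro x
    rw [Multiset.mem_toFinset, mem_roots hP0, IsRoot, eval_sub, eval_mul, eval_C, sub_eq_zero]
  -- (A) the abscissa of a point of the fibre is a root
  have hA : ∀ T : W.Point, n • T = Point.some x1 y1 h1 →
      dpX T ∈ (W.Φ (n : ℤ) - C x1 * W.ΨSq (n : ℤ)).roots.toFinset := by
    intro T hT
    rcases T with _ | ⟨x, y, h⟩
    · exfalso
      have : n • (0 : W.Point) = Point.some x1 y1 h1 := hT
      rw [smul_zero] at this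
      exact Point.some_ne_zero h1 this.symm
    · have hne : ∀ k : ℕ, 1 ≤ k → k ≤ n → k • (Point.some x y h : W.Point) ≠ 0 := by
        intro k hk1 hkn hk0
        apply hQ k hk1 (le_trans hkn (le_max_left n 2))
        rw [← hT, smul_comm, hk0, smul_zero]
      obtain ⟨hΨ, y', h', e⟩ := dp_genericFormula W x y h n hn hne
      rw [hT, Point.some.injEq] at e
      rw [dpX_some, hroot, e.1, div_mul_cancel₀ _ hΨ]
  -- (B) two points of the fibre with the same abscissa are equal
  have hB : ∀ T T' : W.Point, n • T = Point.some x1 y1 h1 → n • T' = Point.some x1 y1 h1 →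
      dpX T = dpX T' → T = T' := by
    intro T T' hT hT' hx
    rcases T with _ | ⟨x, y, h⟩
    · exfalso
      have : n • (0 : W.Point) = Point.some x1 y1 h1 := hT
      rw [smul_zero] at this
      exact Point.some_ne_zero h1 this.symm
    rcases T' with _ | ⟨x', y', h'⟩
    · exfalso
      have : n • (0 : W.Point) = Point.some x1 y1 h1 := hT'
      rw [smul_zero] at this
      exact Point.some_ne_zero h1 this.symm
    rw [dpX_some, dpX_some] at hx
    subst hx
    rcases Y_eq_of_X_eq h'.1 h.1 rfl with e | e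
    · subst e
      rfl
    · exfalso
      have e2 : (Point.some x y' h' : W.Point) = -Point.some x y h := by
        rw [Point.neg_some]
        simp only [Point.some.injEq, true_and]
        exact e
      rw [e2, smul_neg, hT] at hT'
      apply hQ 2 (by omega) (le_max_right n 2)
      rw [two_nsmul]
      nth_rewrite 1 [← hT']
      exact neg_add_cancel _
  -- (C) every root is the abscissa of a point of the fibre
  have hC : ∀ x : F, x ∈ (W.Φ (n : ℤ) - C x1 * W.ΨSq (n : ℤ)).roots.toFinset →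
      ∃ T : W.Point, n • T = Point.some x1 y1 h1 ∧ dpX T = x := by
    intro x hx
    rw [hroot] at hx
    have hΨ : (W.ΨSq (n : ℤ)).eval x ≠ 0 := by
      intro h0
      obtain ⟨a, b, hab⟩ := hcop
      have := congrArg (eval x) hab
      rw [eval_add, eval_mul, eval_mul, hx, h0, mul_zero, mul_zero, mul_zero, add_zero,
        eval_one] at this
      exact zero_ne_one this
    have hxB : x ∉ (∏ d ∈ Finset.Icc 2 (max n 2), W.ΨSq (d : ℤ)).roots.toFinset := by
      intro hxB
      apply hx1I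
      rw [Finset.mem_image]
      exact ⟨x, hxB, by rw [hx, mul_div_assoc, div_self hΨ, mul_one]⟩
    obtain ⟨y, h⟩ := dpe_exists_point W hΔ x
    have hne : ∀ k : ℕ, 1 ≤ k → k ≤ n → k • (Point.some x y h : W.Point) ≠ 0 := by
      intro k hk1 hkn hk0
      obtain ⟨d, hd2, hdn, hd0⟩ := s58cc_small_order W h n ⟨k, hk1, hkn, hk0⟩
      exact hxB (hBmem x d hd2 (le_trans hdn (le_max_left n 2)) hd0)
    obtain ⟨-, y', h', e⟩ := dp_genericFormula W x y h n hn hne
    have ex : (W.Φ (n : ℤ)).eval x / (W.ΨSq (n : ℤ)).eval x = x1 := by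
      rw [hx, mul_div_assoc, div_self hΨ, mul_one]
    rcases Y_eq_of_X_eq h'.1 h1.1 ex with e' | e'
    · refine ⟨Point.some x y h, ?_, dpX_some h⟩
      rw [e, Point.some.injEq]
      exact ⟨ex, e'⟩
    · refine ⟨-Point.some x y h, ?_, ?_⟩
      · rw [smul_neg, e, neg_eq_iff_eq_neg, Point.neg_some, Point.some.injEq]
        exact ⟨ex, e'⟩
      · rw [Point.neg_some, dpX_some]
  -- the fibre has `n ^ 2` elements
  have hfin : Finite {T : W.Point // n • T = Point.some x1 y1 h1} := by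
    refine Finite.of_injective
      (fun T => (⟨dpX T.1, hA T.1 T.2⟩ :
        {x : F // x ∈ (W.Φ (n : ℤ) - C x1 * W.ΨSq (n : ℤ)).roots.toFinset})) ?_
    intro T T' hTT
    exact Subtype.ext (hB T.1 T'.1 T.2 T'.2 (congrArg Subtype.val hTT))
  have hRc : Nat.card {x : F // x ∈ (W.Φ (n : ℤ) - C x1 * W.ΨSq (n : ℤ)).roots.toFinset}
      = n ^ 2 := by
    rw [Nat.card_eq_fintype_card, Fintype.card_coe, hRcard]
  have hfib : Nat.card {T : W.Point // n • T = Point.some x1 y1 h1} = n ^ 2 := by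
    apply le_antisymm
    · have := Nat.card_le_card_of_injective
        (fun T : {T : W.Point // n • T = Point.some x1 y1 h1} => (⟨dpX T.1, hA T.1 T.2⟩ :
          {x : F // x ∈ (W.Φ (n : ℤ) - C x1 * W.ΨSq (n : ℤ)).roots.toFinset}))
        (fun T T' hTT => Subtype.ext (hB T.1 T'.1 T.2 T'.2 (congrArg Subtype.val hTT)))
      rw [hRc] at this
      exact this
    · have := Nat.card_le_card_of_injective
        (fun x : {x : F // x ∈ (W.Φ (n : ℤ) - C x1 * W.ΨSq (n : ℤ)).roots.toFinset} =>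
          (⟨(hC x.1 x.2).choose, (hC x.1 x.2).choose_spec.1⟩ :
            {T : W.Point // n • T = Point.some x1 y1 h1}))
        (fun x x' hxx => by
          apply Subtype.ext
          have e := congrArg (fun T : {T : W.Point // n • T = Point.some x1 y1 h1} => dpX T.1) hxx
          simp only at e
          rw [(hC x.1 x.2).choose_spec.2, (hC x'.1 x'.2).choose_spec.2] at e
          exact e)
      rw [hRc] at this
      exact this
  -- the fibre is a coset of `E[n]`
  have hne : Nonempty {T : W.Point // n • T = Point.some x1 y1 h1} := by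
    by_contra hemp
    rw [not_nonempty_iff] at hemp
    rw [Nat.card_of_isEmpty] at hfib
    omega
  obtain ⟨⟨T0, hT0⟩⟩ := hne
  rw [← hfib]
  refine Nat.card_congr
    { toFun := fun t => ⟨t.1 + T0, by
        have ht := t.2
        rw [Submodule.mem_torsionBy_iff, natCast_zsmul] at ht
        rw [smul_add, ht, zero_add, hT0]⟩
      invFun := fun s => ⟨s.1 - T0, by
        rw [Submodule.mem_torsionBy_iff, natCast_zsmul, smul_sub, s.2, hT0, sub_self]⟩
      left_inv := fun t => Subtype.ext (add_sub_cancel_right _ _)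
      right_inv := fun s => Subtype.ext (sub_add_cancel _ _) }

end Fermat.Agent.S58
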