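import Mathlib
import Fermat.Agent.S29.PeriodMain
import Fermat.Agent.S35
import Fermat.Agent.S36

/-!
# S58, work package (M2): the integral eigencharacter of a newform and the S35 / S36 instances

Let `g` be a normalised eigenform of weight 2 and level `Γ₀(M)` and `S` a set of primes containing
the primes dividing `M`.

* `s58m2_chi` : `g` is an eigenvector of the Hecke algebra `heckeAlgebra M 2 S` (generated by the
  `T_ℓ`, `ℓ ∤ M`, `ℓ ∉ S`); the eigencharacter `chig : heckeAlgebra M 2 S →+* ℂ` sends `T_ℓ` to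
  `a_ℓ(g)`.
* `s58m2_range_le` : if `a_ℓ(g)` is a rational integer for all primes `ℓ ∤ M`, `ℓ ∉ S`, then the
  range of `chig` is contained in the image of `ℤ`.
* `s58m2_iota` : the ring homomorphism `iota : chig.range →+* ℤ_[lam]`, with
  `iota (chig T_ℓ) = a ℓ`.
* `s58m2_S35`, `s58m2_S36` : the theorems S35 and S36 instantiated at `O' = ℤ_[lam]` for a newform
  with rational integer coefficients `a ℓ` at the primes outside `S`; all statements about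
  `chig`, `iota` are replaced by the integers `a ℓ`.

Names are prefixed `s58m2_`.
-/

set_option autoImplicit false

open Polynomial
open CuspForm CuspForm.IsNewform

namespace Fermat.Agent.S58

section Chi

variable {M : ℕ} [NeZero M]

/-- **(M2), eigencharacter.**  A normalised eigenform of level `M` is an eigenvector of
`heckeAlgebra M 2 S` when `S` contains the primes dividing `M`; the eigencharacter sends `T_ℓ`
to the `ℓ`-th `q`-coefficient. -/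
theorem s58m2_chi {g : CuspForm (CongruenceSubgroup.Gamma0 M) 2} (hg : g.IsNormalizedEigenform)
    (S : Set ℕ) (hMS : ∀ q : ℕ, q.Prime → q ∣ M → q ∈ S) :
    ∃ chig : CuspForm.heckeAlgebra M 2 S →+* ℂ,
      (∀ t : CuspForm.heckeAlgebra M 2 S,
        (t : Module.End ℂ (CuspForm (CongruenceSubgroup.Gamma0 M) 2)) g = chig t • g) ∧
      ∀ (ℓ : ℕ) (hℓ : ℓ.Prime) (hℓM : ¬ ℓ ∣ M) (hℓS : ℓ ∉ S),
        chig (CuspForm.heckeAlgebra.T hℓ hℓM hℓS) = ModularFormClass.qCoeff g ℓ := by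
  classical
  have hg0 : g ≠ 0 := hg.ne_zero
  -- every element of the Hecke algebra has `g` as an eigenvector
  have heig : ∀ (x : Module.End ℂ (CuspForm (CongruenceSubgroup.Gamma0 M) 2)),
      x ∈ CuspForm.heckeAlgebra M 2 S → ∃ c : ℂ, x g = c • g := by
    intro x hx
    refine Algebra.adjoin_induction (p := fun x _ => ∃ c : ℂ, x g = c • g) ?_ ?_ ?_ ?_ hx
    · rintro y (⟨ℓ, hℓ, hℓM, -, rfl⟩ | ⟨q, hqM, hq, hqS, rfl⟩)
      · exact ⟨_, Fermat.Agent.S29.per_heckeT_eigen hg hℓ hℓM⟩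
      · exact absurd (hMS q hq hqM) hqS
    · intro r
      refine ⟨(r : ℂ), ?_⟩
      rw [Algebra.algebraMap_eq_smul_one, LinearMap.smul_apply, Module.End.one_apply,
        Int.cast_smul_eq_zsmul]
    · rintro x y - - ⟨c, hc⟩ ⟨d, hd⟩
      exact ⟨c + d, by rw [LinearMap.add_apply, hc, hd, add_smul]⟩
    · rintro x y - - ⟨c, hc⟩ ⟨d, hd⟩
      exact ⟨d * c, by rw [Module.End.mul_apply, hd, map_smul, hc, smul_smul]⟩
  choose e he using fun t : CuspForm.heckeAlgebra M 2 S => heig t.1 t.2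
  have hinj : ∀ c d : ℂ, c • g = d • g → c = d := fun c d h => smul_left_injective ℂ hg0 h
  let chig : CuspForm.heckeAlgebra M 2 S →+* ℂ :=
    { toFun := e
      map_one' := by
        apply hinj
        rw [← he, one_smul]
        rfl
      map_mul' := fun s t => by
        apply hinj
        rw [← he, mul_comm (e s) (e t), mul_smul, ← he s, ← map_smul, ← he t]
        rfl
      map_zero' := by
        apply hinj
        rw [← he, zero_smul]
        rfl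
      map_add' := fun s t => by
        apply hinj
        rw [← he, add_smul, ← he s, ← he t]
        rfl }
  refine ⟨chig, he, fun ℓ hℓ hℓM hℓS => ?_⟩
  apply hinj
  have h1 := he (CuspForm.heckeAlgebra.T hℓ hℓM hℓS)
  rw [CuspForm.heckeAlgebra.coe_T, Fermat.Agent.S29.per_heckeT_eigen hg hℓ hℓM] at h1
  exact h1.symm

/-- **(M2), integrality of the range.**  If the `q`-coefficients of `g` at the primes `ℓ ∤ M`,
`ℓ ∉ S` are rational integers, a character of `heckeAlgebra M 2 S` with `chig T_ℓ = a_ℓ(g)` has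
range in `ℤ` (here `S` contains the primes dividing `M`). -/
theorem s58m2_range_le {g : CuspForm (CongruenceSubgroup.Gamma0 M) 2}
    (S : Set ℕ) (hMS : ∀ q : ℕ, q.Prime → q ∣ M → q ∈ S)
    (a : ℕ → ℤ)
    (ha : ∀ ℓ : ℕ, ℓ.Prime → ¬ ℓ ∣ M → ℓ ∉ S → ModularFormClass.qCoeff g ℓ = (a ℓ : ℂ))
    (chig : CuspForm.heckeAlgebra M 2 S →+* ℂ)
    (hchig : ∀ (ℓ : ℕ) (hℓ : ℓ.Prime) (hℓM : ¬ ℓ ∣ M) (hℓS : ℓ ∉ S),
      chig (CuspForm.heckeAlgebra.T hℓ hℓM hℓS) = ModularFormClass.qCoeff g ℓ) :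
    chig.range ≤ (Int.castRingHom ℂ).range := by
  rintro z ⟨⟨x, hx⟩, rfl⟩
  refine Algebra.adjoin_induction
    (p := fun x hx => chig ⟨x, hx⟩ ∈ (Int.castRingHom ℂ).range) ?_ ?_ ?_ ?_ hx
  · rintro y (⟨ℓ, hℓ, hℓM, hℓS, rfl⟩ | ⟨q, hqM, hq, hqS, rfl⟩)
    · refine ⟨a ℓ, ?_⟩
      rw [eq_intCast, ← ha ℓ hℓ hℓM hℓS, ← hchig ℓ hℓ hℓM hℓS]
      rfl
    · exact absurd (hMS q hq hqM) hqS
  · intro r
    refine ⟨r, ?_⟩
    have h1 : (⟨algebraMap ℤ (Module.End ℂ (CuspForm (CongruenceSubgroup.Gamma0 M) 2)) r,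
        Subalgebra.algebraMap_mem _ r⟩ : CuspForm.heckeAlgebra M 2 S)
        = ((r : ℤ) : CuspForm.heckeAlgebra M 2 S) := by
      apply Subtype.ext
      simp
    rw [h1, map_intCast, eq_intCast]
  · intro x y hx hy h1 h2
    have h3 : (⟨x + y, add_mem hx hy⟩ : CuspForm.heckeAlgebra M 2 S) = ⟨x, hx⟩ + ⟨y, hy⟩ := rfl
    rw [h3, map_add]
    exact add_mem h1 h2
  · intro x y hx hy h1 h2
    have h3 : (⟨x * y, mul_mem hx hy⟩ : CuspForm.heckeAlgebra M 2 S) = ⟨x, hx⟩ * ⟨y, hy⟩ := rfl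
    rw [h3, map_mul]
    exact mul_mem h1 h2

end Chi

section Iota

/-- **(M2), the map to `ℤ_[lam]`.**  A subring of `ℂ` contained in the image of `ℤ` maps to any
ring of characteristic zero... here to `ℤ_[lam]`, compatibly with the integer casts. -/
theorem s58m2_iota (R : Subring ℂ) (hR : R ≤ (Int.castRingHom ℂ).range)
    (O : Type) [CommRing O] :
    ∃ iota : R →+* O, ∀ (x : R) (z : ℤ), (x : ℂ) = (z : ℂ) → iota x = (z : O) := by
  have hbij : Function.Bijective (Int.castRingHom ℂ).rangeRestrict :=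
    ⟨fun a b h => by
      have h1 : ((Int.castRingHom ℂ).rangeRestrict a : ℂ) = (Int.castRingHom ℂ).rangeRestrict b := by
        rw [h]
      simpa using h1,
     (Int.castRingHom ℂ).rangeRestrict_surjective⟩
  let e : ℤ ≃+* (Int.castRingHom ℂ).range := RingEquiv.ofBijective _ hbij
  refine ⟨(Int.castRingHom O).comp (e.symm.toRingHom.comp (Subring.inclusion hR)), ?_⟩
  intro x z hxz
  have h1 : Subring.inclusion hR x = e z := by
    apply Subtype.ext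
    rw [Subring.coe_inclusion, hxz]
    rfl
  show (Int.castRingHom O) (e.symm (Subring.inclusion hR x)) = (z : O)
  rw [h1, RingEquiv.symm_apply_apply, eq_intCast]

end Iota

section Inst

variable {M : ℕ} [NeZero M]

/-- `lam` lies in the maximal ideal of `ℤ_[lam]`. -/
theorem s58m2_lam_mem (lam : ℕ) [Fact lam.Prime] :
    (lam : ℤ_[lam]) ∈ IsLocalRing.maximalIdeal ℤ_[lam] := by
  rw [PadicInt.maximalIdeal_eq_span_p]
  exact Ideal.subset_span rfl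

/-- `lam` lies in the maximal ideal of every local extension of `ℤ_[lam]`. -/
theorem s58m2_lam_mem_ext (lam : ℕ) [Fact lam.Prime] (O'' : Type) [CommRing O''] [IsLocalRing O'']
    [Algebra ℤ_[lam] O''] [IsLocalHom (algebraMap ℤ_[lam] O'')] :
    (lam : O'') ∈ IsLocalRing.maximalIdeal O'' := by
  rw [IsLocalRing.mem_maximalIdeal, mem_nonunits_iff]
  intro h
  have h1 : (lam : O'') = algebraMap ℤ_[lam] O'' (lam : ℤ_[lam]) := (map_natCast _ _).symm
  rw [h1] at h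
  have h2 : IsUnit (lam : ℤ_[lam]) := IsUnit.of_map (algebraMap ℤ_[lam] O'') _ h
  have h3 := s58m2_lam_mem lam
  rw [IsLocalRing.mem_maximalIdeal, mem_nonunits_iff] at h3
  exact h3 h2

/-- **(M2), the data of S35/S36 for a newform with integer coefficients.**  For a normalised
eigenform `g` of level `M` whose `q`-coefficients at the primes `ℓ ∤ M`, `ℓ ∉ S` are the integers
`a ℓ`, there are `chig` and `iota : chig.range →+* ℤ_[lam]` as in the statements of S35/S36 with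
`algebraMap (iota (chig T_ℓ)) = a ℓ` in every `ℤ_[lam]`-algebra. -/
theorem s58m2_data {g : CuspForm (CongruenceSubgroup.Gamma0 M) 2} (hg : g.IsNormalizedEigenform)
    (lam : ℕ) [Fact lam.Prime] (S : Finset ℕ)
    (hMS : ∀ q : ℕ, q.Prime → q ∣ M → q ∈ S)
    (a : ℕ → ℤ)
    (ha : ∀ ℓ : ℕ, ℓ.Prime → ¬ ℓ ∣ M → ℓ ∉ S → ModularFormClass.qCoeff g ℓ = (a ℓ : ℂ)) :
    ∃ (chig : CuspForm.heckeAlgebra M 2 (↑S : Set ℕ) →+* ℂ) (iota : chig.range →+* ℤ_[lam]),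
      (∀ (ℓ : ℕ) (hℓ : ℓ.Prime) (hℓM : ¬ ℓ ∣ M) (hℓS : ℓ ∉ (↑S : Set ℕ)),
        chig (CuspForm.heckeAlgebra.T hℓ hℓM hℓS) = ModularFormClass.qCoeff g ℓ) ∧
      (∀ (ℓ : ℕ) (hℓ : ℓ.Prime) (hℓM : ¬ ℓ ∣ M) (hℓS : ℓ ∉ (↑S : Set ℕ)),
        (iota.comp chig.rangeRestrict) (CuspForm.heckeAlgebra.T hℓ hℓM hℓS) = (a ℓ : ℤ_[lam])) ∧
      (∀ (O'' : Type) [CommRing O''] [Algebra ℤ_[lam] O'']
        (ℓ : ℕ) (hℓ : ℓ.Prime) (hℓM : ¬ ℓ ∣ M) (hℓS : ℓ ∉ (↑S : Set ℕ)),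
        algebraMap ℤ_[lam] O''
          ((iota.comp chig.rangeRestrict) (CuspForm.heckeAlgebra.T hℓ hℓM hℓS)) = (a ℓ : O'')) := by
  obtain ⟨chig, -, hchig⟩ := s58m2_chi hg (↑S : Set ℕ) (fun q hq hqM => Finset.mem_coe.mpr (hMS q hq hqM))
  have hle := s58m2_range_le (↑S : Set ℕ) (fun q hq hqM => Finset.mem_coe.mpr (hMS q hq hqM)) a
    (fun ℓ hℓ hℓM hℓS => ha ℓ hℓ hℓM (fun h => hℓS (Finset.mem_coe.mpr h))) chig hchig
  obtain ⟨iota, hiota⟩ := s58m2_iota chig.range hle ℤ_[lam]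
  have h1 : ∀ (ℓ : ℕ) (hℓ : ℓ.Prime) (hℓM : ¬ ℓ ∣ M) (hℓS : ℓ ∉ (↑S : Set ℕ)),
      (iota.comp chig.rangeRestrict) (CuspForm.heckeAlgebra.T hℓ hℓM hℓS) = (a ℓ : ℤ_[lam]) := by
    intro ℓ hℓ hℓM hℓS
    refine hiota _ _ ?_
    rw [RingHom.coe_rangeRestrict, hchig ℓ hℓ hℓM hℓS]
    exact ha ℓ hℓ hℓM (fun h => hℓS (Finset.mem_coe.mpr h))
  refine ⟨chig, iota, hchig, h1, ?_⟩
  intro O'' _ _ ℓ hℓ hℓM hℓS
  rw [h1 ℓ hℓ hℓM hℓS, map_intCast]

/-- **(M2), S35 at `O' = ℤ_[lam]`.**  `g` a newform of level `M` with integer coefficients `a ℓ` at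
the primes outside the finite set `S ∋ lam` (containing the primes of `M`): there is a `lam`-adic
representation `ρ` over a finite extension `O''` of `ℤ_[lam]` with Frobenius characteristic
polynomials `X² - a_ℓ X + ℓ` outside `S`, and `X² ∓ (q+1) X + q` at the primes `q ∥ M`, `q ≠ lam`. -/
theorem s58m2_S35 {g : CuspForm (CongruenceSubgroup.Gamma0 M) 2} (hg : g.IsNewform)
    (lam : ℕ) [Fact lam.Prime] (S : Finset ℕ) (hlamS : lam ∈ S)
    (hMS : ∀ q : ℕ, q.Prime → q ∣ M → q ∈ S)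
    (a : ℕ → ℤ)
    (ha : ∀ ℓ : ℕ, ℓ.Prime → ¬ ℓ ∣ M → ℓ ∉ S → ModularFormClass.qCoeff g ℓ = (a ℓ : ℂ)) :
    ∃ (O'' : Type) (_ : CommRing O'') (_ : IsDomain O'') (_ : IsDiscreteValuationRing O'')
      (_ : IsAdicComplete (IsLocalRing.maximalIdeal O'') O'')
      (_ : Finite (IsLocalRing.ResidueField O''))
      (_ : CharZero O'') (_ : Algebra ℤ_[lam] O'') (_ : Module.Finite ℤ_[lam] O'')
      (_ : IsLocalHom (algebraMap ℤ_[lam] O'')),
      Function.Injective (algebraMap ℤ_[lam] O'') ∧ (lam : O'') ∈ IsLocalRing.maximalIdeal O'' ∧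
      ∃ ρ : GaloisRepAdic O'',
        (∀ ℓ : ℕ, ℓ.Prime → ¬ ℓ ∣ M → ℓ ∉ S →
          ∀ A : ValuationSubring (AlgebraicClosure ℚ), A.LiesOverPrime ℓ →
            ∀ σ : AlgebraicClosure ℚ ≃ₐ[ℚ] AlgebraicClosure ℚ, A.IsFrobeniusAt σ ℓ →
              LinearMap.charpoly (ρ.ρ σ) = X ^ 2 - C ((a ℓ : ℤ) : O'') * X + C ((ℓ : O''))) ∧
        (∀ q : ℕ, q.Prime → q ≠ lam → q ∣ M → ¬ q ^ 2 ∣ M →
          ∀ A : ValuationSubring (AlgebraicClosure ℚ), A.LiesOverPrime q →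
            ∀ σ : AlgebraicClosure ℚ ≃ₐ[ℚ] AlgebraicClosure ℚ, A.IsFrobeniusAt σ q →
              LinearMap.charpoly (ρ.ρ σ) = X ^ 2 - C ((q : O'') + 1) * X + C ((q : O'')) ∨
              LinearMap.charpoly (ρ.ρ σ) = X ^ 2 + C ((q : O'') + 1) * X + C ((q : O''))) := by
  obtain ⟨chig, iota, hchig, -, halg⟩ := s58m2_data hg.1 lam S hMS a ha
  obtain ⟨O'', i1, i2, i3, i4, i5, i6, i7, i8, i9, hinj, ρ, hfrob, hst⟩ :=
    Fermat.Agent.S35.result hg lam S ℤ_[lam] (s58m2_lam_mem lam) chig hchig iota hlamS hMS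
  refine ⟨O'', i1, i2, i3, i4, i5, i6, i7, i8, i9, hinj, s58m2_lam_mem_ext lam O'', ρ, ?_, hst⟩
  intro ℓ hℓ hℓM hℓS A hA σ hσ
  have hℓS' : ℓ ∉ (↑S : Set ℕ) := fun h => hℓS (Finset.mem_coe.mp h)
  rw [hfrob ℓ hℓ hℓM hℓS' A hA σ hσ, halg O'' ℓ hℓ hℓM hℓS']

/-- **(M2), S36 at `O' = ℤ_[lam]`.**  As `s58m2_S35`, with `lam ≠ 2` and the hypothesis `hres` of
S36 restated with the integers `a ℓ`: every `lam`-adic representation over a finite extension of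
`ℤ_[lam]` with Frobenius characteristic polynomials `X² - a_ℓ X + ℓ` outside `S` has absolutely
irreducible, odd reduction.  Conclusion: such a `ρ` exists which is not unipotent on inertia at
the primes `q ≠ lam` with `q² ∥ M`. -/
theorem s58m2_S36 {g : CuspForm (CongruenceSubgroup.Gamma0 M) 2} (hg : g.IsNewform)
    (lam : ℕ) [Fact lam.Prime] (hlam2 : lam ≠ 2) (S : Finset ℕ) (hlamS : lam ∈ S)
    (hMS : ∀ q : ℕ, q.Prime → q ∣ M → q ∈ S)
    (a : ℕ → ℤ)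
    (ha : ∀ ℓ : ℕ, ℓ.Prime → ¬ ℓ ∣ M → ℓ ∉ S → ModularFormClass.qCoeff g ℓ = (a ℓ : ℂ))
    (hres : ∀ (O'' : Type) [CommRing O''] [IsDomain O''] [IsDiscreteValuationRing O'']
      [IsAdicComplete (IsLocalRing.maximalIdeal O'') O''] [Finite (IsLocalRing.ResidueField O'')]
      [CharZero O''] [Algebra ℤ_[lam] O''] [Module.Finite ℤ_[lam] O'']
      [IsLocalHom (algebraMap ℤ_[lam] O'')],
      Function.Injective (algebraMap ℤ_[lam] O'') → ∀ (ρ : GaloisRepAdic O''),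
      (∀ ℓ : ℕ, ℓ.Prime → ¬ ℓ ∣ M → ℓ ∉ S →
        ∀ A : ValuationSubring (AlgebraicClosure ℚ), A.LiesOverPrime ℓ →
          ∀ σ : AlgebraicClosure ℚ ≃ₐ[ℚ] AlgebraicClosure ℚ, A.IsFrobeniusAt σ ℓ →
            LinearMap.charpoly (ρ.ρ σ) = X ^ 2 - C ((a ℓ : ℤ) : O'') * X + C ((ℓ : O'')))
      → ρ.residual.IsAbsolutelyIrreducible ∧ ρ.residual.IsOdd) :
    ∃ (O'' : Type) (_ : CommRing O'') (_ : IsDomain O'') (_ : IsDiscreteValuationRing O'')
      (_ : IsAdicComplete (IsLocalRing.maximalIdeal O'') O'')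
      (_ : Finite (IsLocalRing.ResidueField O''))
      (_ : CharZero O'') (_ : Algebra ℤ_[lam] O'') (_ : Module.Finite ℤ_[lam] O'')
      (_ : IsLocalHom (algebraMap ℤ_[lam] O'')),
      Function.Injective (algebraMap ℤ_[lam] O'') ∧ (lam : O'') ∈ IsLocalRing.maximalIdeal O'' ∧
      ∃ ρ : GaloisRepAdic O'',
        (∀ ℓ : ℕ, ℓ.Prime → ¬ ℓ ∣ M → ℓ ∉ S →
          ∀ A : ValuationSubring (AlgebraicClosure ℚ), A.LiesOverPrime ℓ →
            ∀ σ : AlgebraicClosure ℚ ≃ₐ[ℚ] AlgebraicClosure ℚ, A.IsFrobeniusAt σ ℓ →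
              LinearMap.charpoly (ρ.ρ σ) = X ^ 2 - C ((a ℓ : ℤ) : O'') * X + C ((ℓ : O''))) ∧
        (∀ q : ℕ, q.Prime → q ≠ lam → M.factorization q = 2 → ¬ ρ.IsUnipotentOnInertiaAt q) := by
  obtain ⟨chig, iota, hchig, -, halg⟩ := s58m2_data hg.1 lam S hMS a ha
  obtain ⟨O'', i1, i2, i3, i4, i5, i6, i7, i8, i9, hinj, ρ, hfrob, hst⟩ :=
    Fermat.Agent.S36.result hg lam S ℤ_[lam] (s58m2_lam_mem lam) hlam2 chig hchig iota hlamS hMS
      (by
        intro O'' _ _ _ _ _ _ _ _ _ hinj ρ hρ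
        refine hres O'' hinj ρ ?_
        intro ℓ hℓ hℓM hℓS A hA σ hσ
        have hℓS' : ℓ ∉ (↑S : Set ℕ) := fun h => hℓS (Finset.mem_coe.mp h)
        have hℓlam : ℓ ≠ lam := fun h => hℓS (h ▸ hlamS)
        rw [hρ ℓ hℓ hℓlam hℓM hℓS' A hA σ hσ, halg O'' ℓ hℓ hℓM hℓS'])
  refine ⟨O'', i1, i2, i3, i4, i5, i6, i7, i8, i9, hinj, s58m2_lam_mem_ext lam O'', ρ, ?_, hst⟩
  intro ℓ hℓ hℓM hℓS A hA σ hσ
  have hℓS' : ℓ ∉ (↑S : Set ℕ) := fun h => hℓS (Finset.mem_coe.mp h)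
  rw [hfrob ℓ hℓ hℓM hℓS' A hA σ hσ, halg O'' ℓ hℓ hℓM hℓS']

end Inst

end Fermat.Agent.S58
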