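import Mathlib
import Fermat.Agent.S58.ChiInt
import Fermat.Agent.S58.CarayolNoRes

/-!
# S58, work package (M2), consumer shapes: `s58m2_rep35`, `s58m2_rep36`

The `lam`-adic representations attached to a newform `g` of level `M` whose `q`-coefficients at
the primes outside a finite set `S ∋ lam` (containing the primes of `M`) are the integers `a ℓ`:

* `s58m2_rep35` : S35 — Frobenius characteristic polynomials `X² - a_ℓ X + ℓ` outside `S`, and
  `X² ∓ (q + 1) X + q` at the primes `q ∥ M`, `q ≠ lam`;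
* `s58m2_rep36` : Carayol (S36 without the residual hypothesis, `s58cn_carayol`) — the same
  Frobenius clause, and `ρ` is not unipotent on inertia at the primes `q ≠ lam` with `q² ∥ M`.

No algebra structure over `ℤ_[lam]` is exported: `O` is a complete discrete valuation ring of
characteristic zero with finite residue field and `lam` in its maximal ideal.  These are exactly
the hypotheses `h35`, `h36` of `s58m3_level_dvd` (with `a := W.apOfModel`).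
-/

set_option autoImplicit false

open Polynomial
open CuspForm CuspForm.IsNewform

namespace Fermat.Agent.S58

variable {M : ℕ} [NeZero M]

/-- **(M2), S35 in consumer shape.** -/
theorem s58m2_rep35 {g : CuspForm (CongruenceSubgroup.Gamma0 M) 2} (hg : g.IsNewform)
    (a : ℕ → ℤ) (lam : ℕ) [Fact lam.Prime] (S : Finset ℕ) (hlamS : lam ∈ S)
    (hMS : ∀ q : ℕ, q.Prime → q ∣ M → q ∈ S)
    (hga : ∀ ℓ : ℕ, ℓ.Prime → ℓ ∉ S → ModularFormClass.qCoeff g ℓ = (a ℓ : ℂ)) :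
    ∃ (O : Type) (_ : CommRing O) (_ : IsDomain O) (_ : IsDiscreteValuationRing O)
      (_ : IsAdicComplete (IsLocalRing.maximalIdeal O) O)
      (_ : Finite (IsLocalRing.ResidueField O)) (_ : CharZero O),
      (lam : O) ∈ IsLocalRing.maximalIdeal O ∧ ∃ ρ : GaloisRepAdic O,
        (∀ ℓ : ℕ, ℓ.Prime → ℓ ∉ S →
          ∀ A : ValuationSubring (AlgebraicClosure ℚ), A.LiesOverPrime ℓ →
            ∀ σ : AlgebraicClosure ℚ ≃ₐ[ℚ] AlgebraicClosure ℚ, A.IsFrobeniusAt σ ℓ →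
              LinearMap.charpoly (ρ.ρ σ) =
                X ^ 2 - C ((a ℓ : ℤ) : O) * X + C ((ℓ : ℕ) : O)) ∧
        (∀ q : ℕ, q.Prime → q ≠ lam → q ∣ M → ¬ q ^ 2 ∣ M →
          ∀ A : ValuationSubring (AlgebraicClosure ℚ), A.LiesOverPrime q →
            ∀ σ : AlgebraicClosure ℚ ≃ₐ[ℚ] AlgebraicClosure ℚ, A.IsFrobeniusAt σ q →
              LinearMap.charpoly (ρ.ρ σ) = X ^ 2 - C ((q : O) + 1) * X + C ((q : O)) ∨
              LinearMap.charpoly (ρ.ρ σ) = X ^ 2 + C ((q : O) + 1) * X + C ((q : O))) := by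
  obtain ⟨O, i1, i2, i3, i4, i5, i6, i7, i8, i9, -, hlam, ρ, hfrob, hst⟩ :=
    s58m2_S35 hg lam S hlamS hMS a (fun ℓ hℓ _ hℓS => hga ℓ hℓ hℓS)
  exact ⟨O, i1, i2, i3, i4, i5, i6, hlam, ρ,
    fun ℓ hℓ hℓS => hfrob ℓ hℓ (fun h => hℓS (hMS ℓ hℓ h)) hℓS, hst⟩

/-- **(M2), Carayol's theorem (S36 without the residual hypothesis) in consumer shape.** -/
theorem s58m2_rep36 {g : CuspForm (CongruenceSubgroup.Gamma0 M) 2} (hg : g.IsNewform)
    (a : ℕ → ℤ) (lam : ℕ) [Fact lam.Prime] (S : Finset ℕ) (hlamS : lam ∈ S)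
    (hMS : ∀ q : ℕ, q.Prime → q ∣ M → q ∈ S)
    (hga : ∀ ℓ : ℕ, ℓ.Prime → ℓ ∉ S → ModularFormClass.qCoeff g ℓ = (a ℓ : ℂ)) :
    ∃ (O : Type) (_ : CommRing O) (_ : IsDomain O) (_ : IsDiscreteValuationRing O)
      (_ : IsAdicComplete (IsLocalRing.maximalIdeal O) O)
      (_ : Finite (IsLocalRing.ResidueField O)) (_ : CharZero O),
      (lam : O) ∈ IsLocalRing.maximalIdeal O ∧ ∃ ρ : GaloisRepAdic O,
        (∀ ℓ : ℕ, ℓ.Prime → ℓ ∉ S →
          ∀ A : ValuationSubring (AlgebraicClosure ℚ), A.LiesOverPrime ℓ →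
            ∀ σ : AlgebraicClosure ℚ ≃ₐ[ℚ] AlgebraicClosure ℚ, A.IsFrobeniusAt σ ℓ →
              LinearMap.charpoly (ρ.ρ σ) =
                X ^ 2 - C ((a ℓ : ℤ) : O) * X + C ((ℓ : ℕ) : O)) ∧
        (∀ q : ℕ, q.Prime → q ≠ lam → M.factorization q = 2 →
          ¬ ρ.IsUnipotentOnInertiaAt q) := by
  obtain ⟨chig, iota, hchig, -, halg⟩ := s58m2_data hg.1 lam S hMS a
    (fun ℓ hℓ _ hℓS => hga ℓ hℓ hℓS)
  obtain ⟨O, i1, i2, i3, i4, i5, i6, i7, i8, i9, -, ρ, hfrob, hst⟩ :=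
    s58cn_carayol hg lam S ℤ_[lam] (s58m2_lam_mem lam) chig hchig iota hlamS hMS
  refine ⟨O, i1, i2, i3, i4, i5, i6, s58m2_lam_mem_ext lam O, ρ, ?_, hst⟩
  intro ℓ hℓ hℓS A hA σ hσ
  have hℓM : ¬ ℓ ∣ M := fun h => hℓS (hMS ℓ hℓ h)
  have hℓS' : ℓ ∉ (↑S : Set ℕ) := fun h => hℓS (Finset.mem_coe.mp h)
  rw [hfrob ℓ hℓ hℓM hℓS' A hA σ hσ, halg O ℓ hℓ hℓM hℓS']

end Fermat.Agent.S58
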