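import Mathlib
import Fermat.Agent.S13.DivPolyGen
import Fermat.Agent.S51.Card

/-!
S58, E-side: divisibility of the point group of a Weierstrass curve with `Δ ≠ 0` over an
algebraically closed field of characteristic zero (leaf [EI-DIV], input of [EI-ORD]).

For `n ≥ 1` and `c` outside a finite set, the monic polynomial `Φ_n - c ΨSq_n` of degree `n ^ 2`
has a root which is not the abscissa of a point killed by some `k ≤ n` (otherwise infinitely many
`c` would share the same multiset of roots, taken from a finite set); by the generic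
multiplication formula of S13 the points with abscissa `c` are then multiples of `n`.  So the
image of `[n]` is a subgroup with finite complement in an infinite group, hence everything.
No coprimality of `Φ_n` and `ΨSq_n` is used.
-/

set_option autoImplicit false

open Polynomial WeierstrassCurve WeierstrassCurve.Affine

namespace Fermat.Agent.S58

variable {F : Type*} [Field F]

/-- The polynomial `Φ_n - c ΨSq_n`. -/
noncomputable def s58edPoly (W : Affine F) (n : ℕ) (c : F) : F[X] :=
  W.Φ (n : ℤ) - C c * W.ΨSq (n : ℤ)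

theorem s58ed_natDegree_lt (W : Affine F) (n : ℕ) (hn : 1 ≤ n) (c : F) :
    (C c * W.ΨSq (n : ℤ)).natDegree < (W.Φ (n : ℤ)).natDegree := by
  rw [W.natDegree_Φ (n : ℤ), Int.natAbs_natCast]
  have h1 : (C c * W.ΨSq (n : ℤ)).natDegree ≤ n ^ 2 - 1 := by
    refine le_trans (natDegree_C_mul_le _ _) ?_
    have := W.natDegree_ΨSq_le (n : ℤ)
    rwa [Int.natAbs_natCast] at this
  have h2 : 1 ≤ n ^ 2 := Nat.one_le_pow _ _ hn
  omega

theorem s58ed_monic (W : Affine F) (n : ℕ) (hn : 1 ≤ n) (c : F) :
    (s58edPoly W n c).Monic := by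
  have hΦ : (W.Φ (n : ℤ)).Monic := W.leadingCoeff_Φ (n : ℤ)
  exact hΦ.sub_of_left (degree_lt_degree (s58ed_natDegree_lt W n hn c))

theorem s58ed_natDegree (W : Affine F) (n : ℕ) (hn : 1 ≤ n) (c : F) :
    (s58edPoly W n c).natDegree = n ^ 2 := by
  rw [s58edPoly, natDegree_sub_eq_left_of_natDegree_lt (s58ed_natDegree_lt W n hn c),
    W.natDegree_Φ (n : ℤ), Int.natAbs_natCast]

/-- For a finite set `Z`, only finitely many `c` have all the roots of `Φ_n - c ΨSq_n` in `Z`. -/
theorem s58ed_finite_bad [IsAlgClosed F] (W : Affine F) (n : ℕ) (hn : 1 ≤ n) (hnF : (n : F) ≠ 0)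
    (Z : Finset F) : {c : F | ∀ x : F, (s58edPoly W n c).IsRoot x → x ∈ Z}.Finite := by
  classical
  have hΨ : W.ΨSq (n : ℤ) ≠ 0 := W.ΨSq_ne_zero (by exact_mod_cast hnF)
  refine Set.Finite.of_injOn (f := fun c => (s58edPoly W n c).roots)
    (t := {s : Multiset F | s ∈ Multiset.powerset (n ^ 2 • Z.val)}) ?_ ?_
    (Multiset.finite_toSet _)
  · intro c hc
    simp only [Set.mem_ofPred_eq] at hc
    show (s58edPoly W n c).roots ∈ Multiset.powerset (n ^ 2 • Z.val)
    rw [Multiset.mem_powerset, Multiset.le_iff_count]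
    intro a
    rw [Multiset.count_nsmul]
    by_cases ha : a ∈ Z
    · rw [Multiset.count_eq_one_of_mem Z.nodup ha, mul_one]
      refine le_trans (Multiset.count_le_card _ _) ?_
      refine le_trans (card_roots' _) ?_
      rw [s58ed_natDegree W n hn c]
    · have : a ∉ (s58edPoly W n c).roots := by
        intro hmem
        exact ha (hc a (isRoot_of_mem_roots hmem))
      rw [Multiset.count_eq_zero_of_notMem this]
      exact Nat.zero_le _
  · intro c _ c' _ hcc
    simp only at hcc
    have h1 := (IsAlgClosed.splits (s58edPoly W n c)).eq_prod_roots_of_monic (s58ed_monic W n hn c)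
    have h2 := (IsAlgClosed.splits (s58edPoly W n c')).eq_prod_roots_of_monic
      (s58ed_monic W n hn c')
    have h3 : s58edPoly W n c = s58edPoly W n c' := by rw [h1, h2, hcc]
    have h4 : C (c - c') * W.ΨSq (n : ℤ) = 0 := by
      simp only [s58edPoly] at h3
      rw [C_sub, sub_mul]
      linear_combination -h3
    rcases mul_eq_zero.mp h4 with h5 | h5
    · exact sub_eq_zero.mp (C_eq_zero.mp h5)
    · exact absurd h5 hΨ

variable [DecidableEq F]

/-- For `c` outside a finite set, every point with abscissa `c` is a multiple of `n`. -/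
theorem s58ed_generic [IsAlgClosed F] [CharZero F] (W : Affine F) (hΔ : W.Δ ≠ 0) (n : ℕ)
    (hn : 1 ≤ n) : ∃ B : Finset F, ∀ (c y : F) (h : W.Nonsingular c y), c ∉ B →
      ∃ T : W.Point, n • T = Point.some c y h := by
  classical
  have hnF : (n : F) ≠ 0 := by
    have : n ≠ 0 := by omega
    exact_mod_cast this
  have hbne := Fermat.Agent.S13.dpeBadPoly_ne_zero W n
  set Z : Finset F := (Fermat.Agent.S13.dpeBadPoly W n).roots.toFinset with hZ
  have hfin := s58ed_finite_bad W n hn hnF Z
  refine ⟨hfin.toFinset, ?_⟩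
  intro c y h hc
  rw [Set.Finite.mem_toFinset] at hc
  simp only [Set.mem_ofPred_eq, not_forall] at hc
  obtain ⟨x, hroot, hxZ⟩ := hc
  obtain ⟨y₀, h₀⟩ := Fermat.Agent.S13.dpe_exists_point W hΔ x
  have hne : ∀ k : ℕ, 1 ≤ k → k ≤ n → k • (Point.some x y₀ h₀ : W.Point) ≠ 0 := by
    intro k hk1 hk2 hk0
    apply hxZ
    rw [hZ, Multiset.mem_toFinset, mem_roots hbne]
    exact Fermat.Agent.S13.dpe_bad_root W (Fermat.Agent.S13.dp_genericFormula W) h₀
      ⟨k, hk1, hk2, hk0⟩
  obtain ⟨hΨ, y', h', hmul⟩ := Fermat.Agent.S13.dp_genericFormula W x y₀ h₀ n hn hne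
  have hxc : (W.Φ (n : ℤ)).eval x / (W.ΨSq (n : ℤ)).eval x = c := by
    have h1 : (s58edPoly W n c).eval x = 0 := hroot
    simp only [s58edPoly, eval_sub, eval_mul, eval_C] at h1
    rw [div_eq_iff hΨ]
    linear_combination h1
  rcases (Point.X_eq_iff (h₁ := h') (h₂ := h)).mp hxc with h1 | h1
  · exact ⟨Point.some x y₀ h₀, by rw [hmul, h1]⟩
  · exact ⟨-Point.some x y₀ h₀, by rw [smul_neg, hmul, h1, neg_neg]⟩

omit [DecidableEq F] in
/-- The point group over an algebraically closed field is infinite. -/
theorem s58ed_infinite [IsAlgClosed F] [CharZero F] (W : Affine F) (hΔ : W.Δ ≠ 0) :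
    Infinite W.Point := by
  classical
  have hex : ∀ x : F, ∃ y : F, W.Nonsingular x y := Fermat.Agent.S13.dpe_exists_point W hΔ
  choose g hg using hex
  refine Infinite.of_injective (fun x : F => (Point.some x (g x) (hg x) : W.Point)) ?_
  intro x x' hxx
  simp only [Point.some.injEq] at hxx
  exact hxx.1

/-- **Divisibility**: over an algebraically closed field of characteristic zero, every point of a
Weierstrass curve with `Δ ≠ 0` is a multiple of `n`, for every `n ≥ 1`. -/
theorem s58ed_divisible [IsAlgClosed F] [CharZero F] (W : Affine F) (hΔ : W.Δ ≠ 0) (n : ℕ)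
    (hn : 1 ≤ n) (Q : W.Point) : ∃ T : W.Point, n • T = Q := by
  classical
  obtain ⟨B, hB⟩ := s58ed_generic W hΔ n hn
  set H : Set W.Point := {P | ∃ T : W.Point, n • T = P} with hH
  -- the complement of the image is finite
  have hcompl : (Hᶜ).Finite := by
    set f : F[X] := ∏ c ∈ B, (X - C c) with hf
    have hf0 : f ≠ 0 := by
      rw [hf, Finset.prod_ne_zero_iff]
      intro c _
      exact X_sub_C_ne_zero c
    refine (Fermat.Agent.S51.finite_and_ncard_le W f hf0 Hᶜ ?_).1
    intro x y h hmem
    by_contra hev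
    apply hmem
    refine hB x y h ?_
    intro hxB
    apply hev
    rw [hf, eval_prod]
    exact Finset.prod_eq_zero hxB (by simp)
  by_contra hQ
  have hQ' : Q ∉ H := hQ
  -- the image is finite as well, since `Q + H` lies in the complement
  have hHfin : H.Finite := by
    refine Set.Finite.of_injOn (f := fun P => Q + P) (t := Hᶜ) ?_ ?_ hcompl
    · rintro P ⟨T, rfl⟩ ⟨T', hT'⟩
      apply hQ'
      have hT'' : n • T' = Q + n • T := hT'
      refine ⟨T' - T, ?_⟩
      rw [smul_sub, hT'', add_sub_cancel_right]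
    · intro P _ P' _ hPP
      exact add_left_cancel hPP
  have huniv : (Set.univ : Set W.Point).Finite := by
    have : (Set.univ : Set W.Point) = H ∪ Hᶜ := (Set.union_compl_self H).symm
    rw [this]
    exact hHfin.union hcompl
  have := s58ed_infinite W hΔ
  exact Set.infinite_univ huniv

end Fermat.Agent.S58
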