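import Mathlib
import Fermat.Agent.S58.EIField

/-!
S58, E-side interface [EI-FIELD] in the shape of the header of finding 330 (`ℤ`-smul torsion
condition, two automorphisms agreeing on the number field, quantifier order `σ τ` then `T`).
-/

set_option autoImplicit false

open WeierstrassCurve WeierstrassCurve.Affine WeierstrassCurve.Affine.Point

namespace Fermat.Agent.S58

set_option linter.unusedVariables false in
/-- **[EI-FIELD]**, shape of finding 330. -/
theorem s58efz_field (W : WeierstrassCurve ℤ) (hΔ : W.Δ ≠ 0) (m : ℕ) (hm : 0 < m) :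
    ∃ L : IntermediateField ℚ (AlgebraicClosure ℚ), FiniteDimensional ℚ L ∧
      ∀ σ τ : AlgebraicClosure ℚ ≃ₐ[ℚ] AlgebraicClosure ℚ, (∀ x ∈ L, σ x = τ x) →
        ∀ T : ((W.map (Int.castRingHom ℚ))⁄(AlgebraicClosure ℚ)).Point,
          (m : ℤ) • T = 0 → σ • T = τ • T := by
  obtain ⟨L, hL, h⟩ := s58ef_gen W m hm
  refine ⟨L, hL, fun σ τ hστ T hT => h T ?_ σ τ hστ⟩
  rwa [natCast_zsmul] at hT

end Fermat.Agent.S58
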