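import Mathlib
import Fermat.Agent.S13.DivPolyGen

/-!
# S58, [EI-TORS]: a point of order `p` on a general Weierstrass curve

Over an algebraically closed field of characteristic zero, every Weierstrass curve with `Δ ≠ 0`
has a non-zero point killed by a given odd prime `p`.  S13 proves this for curves with
`a₃ = a₆ = 0` (`dp_exists_torsion_of_a₃_a₆`); the general case follows by translating a point of
order two to the origin:

* `s58et_transl_hom` : the translation `(x, y) ↦ (x - r, y - t)` from `W` to the curve `W'` with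
  `a₁' = a₁`, `a₂' = a₂ + 3 r`, `a₃' = a₃ + r a₁ + 2 t`, `a₄' = a₄ + 2 r a₂ - t a₁ + 3 r²`,
  `a₆' = a₆ + r a₄ + r² a₂ + r³ - t a₃ - t² - r t a₁` is an injective additive homomorphism on
  the groups of nonsingular points;
* `s58et_exists` : **[EI-TORS]**.

Names are prefixed `s58et_`.
-/

set_option autoImplicit false

namespace Fermat.Agent.S58

open WeierstrassCurve WeierstrassCurve.Affine

section transl

variable {F : Type*} [Field F]

theorem s58et_some_congr {W : Affine F} {x y x' y' : F} (h : W.Nonsingular x y)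
    (h' : W.Nonsingular x' y') (hx : x = x') (hy : y = y') :
    Point.some x y h = Point.some x' y' h' := by
  subst hx hy
  rfl

theorem s58et_equation (W W' : Affine F) (r t : F)
    (h1 : W'.a₁ = W.a₁) (h2 : W'.a₂ = W.a₂ + 3 * r) (h3 : W'.a₃ = W.a₃ + r * W.a₁ + 2 * t)
    (h4 : W'.a₄ = W.a₄ + 2 * r * W.a₂ - t * W.a₁ + 3 * r ^ 2)
    (h6 : W'.a₆ = W.a₆ + r * W.a₄ + r ^ 2 * W.a₂ + r ^ 3 - t * W.a₃ - t ^ 2 - r * t * W.a₁)
    {x y : F} (h : W.Equation x y) : W'.Equation (x - r) (y - t) := by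
  rw [Affine.equation_iff] at h ⊢
  rw [h1, h2, h3, h4, h6]
  linear_combination h

theorem s58et_nonsingular (W W' : Affine F) (r t : F)
    (h1 : W'.a₁ = W.a₁) (h2 : W'.a₂ = W.a₂ + 3 * r) (h3 : W'.a₃ = W.a₃ + r * W.a₁ + 2 * t)
    (h4 : W'.a₄ = W.a₄ + 2 * r * W.a₂ - t * W.a₁ + 3 * r ^ 2)
    (h6 : W'.a₆ = W.a₆ + r * W.a₄ + r ^ 2 * W.a₂ + r ^ 3 - t * W.a₃ - t ^ 2 - r * t * W.a₁)
    (hΔ' : W'.Δ ≠ 0) {x y : F} (h : W.Nonsingular x y) : W'.Nonsingular (x - r) (y - t) :=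
  (Affine.equation_iff_nonsingular_of_Δ_ne_zero hΔ').mp
    (s58et_equation W W' r t h1 h2 h3 h4 h6 h.1)

/-- the underlying function of the translation on points -/
noncomputable def s58etFun (W W' : Affine F) (r t : F)
    (h1 : W'.a₁ = W.a₁) (h2 : W'.a₂ = W.a₂ + 3 * r) (h3 : W'.a₃ = W.a₃ + r * W.a₁ + 2 * t)
    (h4 : W'.a₄ = W.a₄ + 2 * r * W.a₂ - t * W.a₁ + 3 * r ^ 2)
    (h6 : W'.a₆ = W.a₆ + r * W.a₄ + r ^ 2 * W.a₂ + r ^ 3 - t * W.a₃ - t ^ 2 - r * t * W.a₁)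
    (hΔ' : W'.Δ ≠ 0) : W.Point → W'.Point
  | 0 => 0
  | .some x y h => .some (x - r) (y - t) (s58et_nonsingular W W' r t h1 h2 h3 h4 h6 hΔ' h)

theorem s58et_negY (W W' : Affine F) (r t : F)
    (h1 : W'.a₁ = W.a₁) (h3 : W'.a₃ = W.a₃ + r * W.a₁ + 2 * t) (x y : F) :
    W'.negY (x - r) (y - t) = W.negY x y - t := by
  simp only [Affine.negY, h1, h3]
  ring

theorem s58et_negY_iff (W W' : Affine F) (r t : F)
    (h1 : W'.a₁ = W.a₁) (h3 : W'.a₃ = W.a₃ + r * W.a₁ + 2 * t) (x₁ y₁ x₂ y₂ : F) :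
    (x₁ - r = x₂ - r ∧ y₁ - t = W'.negY (x₂ - r) (y₂ - t)) ↔
      (x₁ = x₂ ∧ y₁ = W.negY x₂ y₂) := by
  rw [s58et_negY W W' r t h1 h3]
  constructor
  · rintro ⟨hx, hy⟩
    exact ⟨by linear_combination hx, by linear_combination hy⟩
  · rintro ⟨hx, hy⟩
    exact ⟨by rw [hx], by rw [hy]⟩

variable [DecidableEq F]

theorem s58et_slope (W W' : Affine F) (r t : F)
    (h1 : W'.a₁ = W.a₁) (h2 : W'.a₂ = W.a₂ + 3 * r) (h3 : W'.a₃ = W.a₃ + r * W.a₁ + 2 * t)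
    (h4 : W'.a₄ = W.a₄ + 2 * r * W.a₂ - t * W.a₁ + 3 * r ^ 2)
    {x₁ y₁ x₂ y₂ : F} (hxy : ¬(x₁ = x₂ ∧ y₁ = W.negY x₂ y₂)) :
    W'.slope (x₁ - r) (x₂ - r) (y₁ - t) (y₂ - t) = W.slope x₁ x₂ y₁ y₂ := by
  by_cases hx : x₁ = x₂
  · subst hx
    have hy : y₁ ≠ W.negY x₁ y₂ := fun h => hxy ⟨rfl, h⟩
    have hy' : y₁ - t ≠ W'.negY (x₁ - r) (y₂ - t) := by
      rw [s58et_negY W W' r t h1 h3]
      intro h
      exact hy (by linear_combination h)
    rw [Affine.slope_of_Y_ne rfl hy, Affine.slope_of_Y_ne rfl hy',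
      s58et_negY W W' r t h1 h3, h1, h2, h4]
    congr 1
    · ring
    · ring
  · have hx' : x₁ - r ≠ x₂ - r := fun h => hx (by linear_combination h)
    rw [Affine.slope_of_X_ne hx, Affine.slope_of_X_ne hx']
    congr 1
    · ring
    · ring

/-- **Translation** `(x, y) ↦ (x - r, y - t)` as an injective additive homomorphism. -/
theorem s58et_transl_hom (W W' : Affine F) (r t : F)
    (h1 : W'.a₁ = W.a₁) (h2 : W'.a₂ = W.a₂ + 3 * r) (h3 : W'.a₃ = W.a₃ + r * W.a₁ + 2 * t)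
    (h4 : W'.a₄ = W.a₄ + 2 * r * W.a₂ - t * W.a₁ + 3 * r ^ 2)
    (h6 : W'.a₆ = W.a₆ + r * W.a₄ + r ^ 2 * W.a₂ + r ^ 3 - t * W.a₃ - t ^ 2 - r * t * W.a₁)
    (hΔ' : W'.Δ ≠ 0) :
    ∃ Φ : W.Point →+ W'.Point, (∀ P, Φ P = 0 → P = 0) ∧
      ∀ (x y : F) (h : W.Nonsingular x y), ∃ h' : W'.Nonsingular (x - r) (y - t),
        Φ (Point.some x y h) = Point.some (x - r) (y - t) h' := by
  let f := s58etFun W W' r t h1 h2 h3 h4 h6 hΔ'
  have hns : ∀ {x y : F}, W.Nonsingular x y → W'.Nonsingular (x - r) (y - t) :=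
    fun h => s58et_nonsingular W W' r t h1 h2 h3 h4 h6 hΔ' h
  have hf0 : f 0 = 0 := rfl
  have hfs : ∀ (x y : F) (h : W.Nonsingular x y), f (Point.some x y h) =
      Point.some (x - r) (y - t) (hns h) := fun _ _ _ => rfl
  have hadd : ∀ P Q : W.Point, f (P + Q) = f P + f Q := by
    rintro (_ | ⟨x₁, y₁, h₁⟩) (_ | ⟨x₂, y₂, h₂⟩)
    · rfl
    · rfl
    · rfl
    · by_cases hxy : x₁ = x₂ ∧ y₁ = W.negY x₂ y₂
      · have hxy' := (s58et_negY_iff W W' r t h1 h3 x₁ y₁ x₂ y₂).mpr hxy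
        rw [Point.add_of_Y_eq hxy.1 hxy.2, hfs, hfs, Point.add_of_Y_eq hxy'.1 hxy'.2]
        rfl
      · have hxy' : ¬(x₁ - r = x₂ - r ∧ y₁ - t = W'.negY (x₂ - r) (y₂ - t)) := by
          rw [s58et_negY_iff W W' r t h1 h3]
          exact hxy
        rw [Point.add_some hxy, hfs, hfs, hfs, Point.add_some hxy']
        have hsl := s58et_slope W W' r t h1 h2 h3 h4 hxy
        apply s58et_some_congr
        · rw [hsl]
          simp only [Affine.addX, h1, h2]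
          ring
        · rw [hsl]
          simp only [Affine.addY, Affine.negAddY, Affine.addX, Affine.negY, h1, h2, h3]
          ring
  refine ⟨⟨⟨f, hf0⟩, hadd⟩, ?_, fun x y h => ⟨hns h, rfl⟩⟩
  rintro (_ | ⟨x, y, h⟩) hP
  · rfl
  · exact absurd hP (Point.some_ne_zero _)

end transl

/-- **[EI-TORS]**: a non-zero point killed by an odd prime `p` on a general Weierstrass curve
with `Δ ≠ 0` over an algebraically closed field of characteristic zero. -/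
theorem s58et_exists {F : Type*} [Field F] [IsAlgClosed F] [CharZero F] [DecidableEq F]
    (W : Affine F) (hΔ : W.Δ ≠ 0) {p : ℕ} (hp : p.Prime) (hp2 : p ≠ 2) :
    ∃ P : W.Point, P ≠ 0 ∧ p • P = 0 := by
  -- a root `x0` of the two-division cubic
  obtain ⟨x0, hx0⟩ : ∃ x0 : F, 4 * x0 ^ 3 + W.b₂ * x0 ^ 2 + 2 * W.b₄ * x0 + W.b₆ = 0 := by
    have h4 : (4 : F) ≠ 0 := by norm_num
    have hdeg : (Polynomial.C (4 : F) * Polynomial.X ^ 3 + Polynomial.C W.b₂ * Polynomial.X ^ 2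
        + Polynomial.C (2 * W.b₄) * Polynomial.X + Polynomial.C W.b₆).degree = 3 :=
      Polynomial.degree_cubic h4
    have hne : (Polynomial.C (4 : F) * Polynomial.X ^ 3 + Polynomial.C W.b₂ * Polynomial.X ^ 2
        + Polynomial.C (2 * W.b₄) * Polynomial.X + Polynomial.C W.b₆).degree ≠ 0 := by
      rw [hdeg]
      norm_num
    obtain ⟨x0, hx0⟩ := IsAlgClosed.exists_root _ hne
    refine ⟨x0, ?_⟩
    simpa [Polynomial.IsRoot] using hx0
  have h2 : (2 : F) ≠ 0 := two_ne_zero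
  set y0 : F := -(W.a₁ * x0 + W.a₃) / 2 with hy0
  have e3 : W.a₃ = -x0 * W.a₁ - 2 * y0 := by
    rw [hy0]
    field_simp
    ring
  have e6 : W.a₆ = -y0 ^ 2 - x0 ^ 3 - W.a₂ * x0 ^ 2 - W.a₄ * x0 := by
    have h := hx0
    simp only [WeierstrassCurve.b₂, WeierstrassCurve.b₄, WeierstrassCurve.b₆] at h
    have h4 : (4 : F) ≠ 0 := by norm_num
    have hy : 2 * y0 = -(W.a₁ * x0 + W.a₃) := by
      rw [hy0]
      field_simp
    have key : 4 * (W.a₆ - (-y0 ^ 2 - x0 ^ 3 - W.a₂ * x0 ^ 2 - W.a₄ * x0)) = 0 := by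
      linear_combination h + (2 * y0 - (W.a₁ * x0 + W.a₃)) * hy
    have := (mul_eq_zero.mp key).resolve_left h4
    exact sub_eq_zero.mp this
  -- the translated curve, with `a₃ = a₆ = 0`
  let W0 : Affine F :=
    { a₁ := W.a₁, a₂ := W.a₂ + 3 * x0, a₃ := 0,
      a₄ := W.a₄ + 2 * x0 * W.a₂ - y0 * W.a₁ + 3 * x0 ^ 2, a₆ := 0 }
  have hΔ0 : W0.Δ = W.Δ := by
    simp only [WeierstrassCurve.Δ, WeierstrassCurve.b₂, WeierstrassCurve.b₄,
      WeierstrassCurve.b₆, WeierstrassCurve.b₈, W0]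
    rw [e3, e6]
    ring
  have hΔ0' : W0.Δ ≠ 0 := by rw [hΔ0]; exact hΔ
  obtain ⟨P0, hP0, hpP0⟩ := Fermat.Agent.S13.dp_exists_torsion_of_a₃_a₆ W0 hΔ0' rfl rfl hp hp2
  -- translate back
  obtain ⟨Φ, hΦinj, -⟩ := s58et_transl_hom W0 W (-x0) (-y0) rfl
    (by show W.a₂ = W.a₂ + 3 * x0 + 3 * -x0; ring)
    (by show W.a₃ = 0 + -x0 * W.a₁ + 2 * -y0; rw [e3]; ring)
    (by show W.a₄ = W.a₄ + 2 * x0 * W.a₂ - y0 * W.a₁ + 3 * x0 ^ 2 + 2 * -x0 * (W.a₂ + 3 * x0)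
          - -y0 * W.a₁ + 3 * (-x0) ^ 2; ring)
    (by show W.a₆ = 0 + -x0 * (W.a₄ + 2 * x0 * W.a₂ - y0 * W.a₁ + 3 * x0 ^ 2)
          + (-x0) ^ 2 * (W.a₂ + 3 * x0) + (-x0) ^ 3 - -y0 * 0 - (-y0) ^ 2 - -x0 * -y0 * W.a₁
        rw [e6]; ring)
    hΔ
  refine ⟨Φ P0, fun h => hP0 (hΦinj P0 h), ?_⟩
  rw [← map_nsmul, hpP0, map_zero]

end Fermat.Agent.S58
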