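import Mathlib
import Fermat.Prelude.Def_FLTPrelim_Modularity
import Fermat.Prelude.Def_FLTPrelim_GaloisRep
import Fermat.Agent.S58.EIDiv
import Fermat.Agent.S58.EITors

/-!
S58, E-side interface [EI-ORD]: points of exact order `lam ^ n`.

* `s58eo_two`: a point of order two (root of `Ψ₂Sq`), characteristic zero, algebraically closed.
* `s58eo_tower`: over an algebraically closed field of characteristic zero, a nonzero point killed
  by the prime `lam` and divisibility (`s58ed_divisible`) give points of exact order `lam ^ n`.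
* `s58eo_carrier_Δ`: the discriminant of the carrier curve `(W.map (Int.castRingHom ℚ))⁄Qbar`.
* `s58eo_of_tors`: the interface statement from a point of order `lam` on the carrier.
* `s58eo_tors`: a nonzero point killed by `lam`, for every prime `lam` (`lam = 2`: `s58eo_two`;
  `lam` odd: `s58et_exists` of `S58/EITors.lean`).
* `s58eo_all` = `s58eo_exact`: **[EI-ORD]** for every prime `lam` (no parity hypothesis);
  `s58eo_main`: the same with the redundant hypothesis `lam ≠ 2`; `s58eo_ord1`, `s58eo_zsmul`: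
  consumer shapes.
-/

set_option autoImplicit false

open Polynomial WeierstrassCurve WeierstrassCurve.Affine WeierstrassCurve.Affine.Point

namespace Fermat.Agent.S58

local notation "Qb" => AlgebraicClosure ℚ

section general

variable {F : Type*} [Field F] [DecidableEq F]

/-- A point of order two. -/
theorem s58eo_two [IsAlgClosed F] [CharZero F] (W : Affine F) (hΔ : W.Δ ≠ 0) :
    ∃ P : W.Point, P ≠ 0 ∧ 2 • P = 0 := by
  have h4 : (4 : F) ≠ 0 := by norm_num
  have h2 : (2 : F) ≠ 0 := by norm_num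
  have hdeg : (W.Ψ₂Sq).degree ≠ 0 := by
    exact ne_of_gt (natDegree_pos_iff_degree_pos.mp (W.natDegree_Ψ₂Sq_pos h4))
  obtain ⟨x, hx⟩ := IsAlgClosed.exists_root _ hdeg
  have hx' : 4 * x ^ 3 + W.b₂ * x ^ 2 + 2 * W.b₄ * x + W.b₆ = 0 := by
    have h1 : W.Ψ₂Sq.eval x = 0 := hx
    simpa [WeierstrassCurve.Ψ₂Sq] using h1
  set y : F := -(W.a₁ * x + W.a₃) / 2 with hy
  have hy2 : 2 * y = -(W.a₁ * x + W.a₃) := by rw [hy]; field_simp
  have heq : W.Equation x y := by
    rw [equation_iff]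
    simp only [WeierstrassCurve.b₂, WeierstrassCurve.b₄, WeierstrassCurve.b₆] at hx'
    have h5 : 4 * (y ^ 2 + W.a₁ * x * y + W.a₃ * y)
        = 4 * (x ^ 3 + W.a₂ * x ^ 2 + W.a₄ * x + W.a₆) := by
      linear_combination (2 * y + 2 * (W.a₁ * x + W.a₃) - (W.a₁ * x + W.a₃)) * hy2 - hx'
    exact mul_left_cancel₀ h4 h5
  have hns : W.Nonsingular x y := (equation_iff_nonsingular_of_Δ_ne_zero hΔ).mp heq
  refine ⟨Point.some x y hns, Point.some_ne_zero hns, ?_⟩
  rw [two_nsmul]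
  refine Point.add_self_of_Y_eq ?_
  simp only [negY]
  linear_combination hy2

/-- Points of exact order `lam ^ n` from one nonzero point killed by the prime `lam`. -/
theorem s58eo_tower [IsAlgClosed F] [CharZero F] (W : Affine F) (hΔ : W.Δ ≠ 0) (lam : ℕ)
    (hlam : lam.Prime) (htors : ∃ P : W.Point, P ≠ 0 ∧ lam • P = 0) (n : ℕ) :
    ∃ T : W.Point, addOrderOf T = lam ^ n := by
  obtain ⟨P, hP0, hP⟩ := htors
  have hdiv : ∀ k : ℕ, ∃ T : W.Point, lam ^ k • T = P := by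
    intro k
    induction k with
    | zero => exact ⟨P, by rw [pow_zero, one_nsmul]⟩
    | succ k ih =>
      obtain ⟨T, hT⟩ := ih
      obtain ⟨T', hT'⟩ := s58ed_divisible W hΔ lam hlam.one_lt.le T
      exact ⟨T', by rw [pow_succ, mul_nsmul', hT', hT]⟩
  rcases n with _ | k
  · exact ⟨0, by rw [addOrderOf_zero, pow_zero]⟩
  · obtain ⟨T, hT⟩ := hdiv k
    have : Fact lam.Prime := ⟨hlam⟩
    refine ⟨T, addOrderOf_eq_prime_pow ?_ ?_⟩
    · rw [hT]; exact hP0
    · rw [pow_succ, mul_nsmul, hT, hP]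

/-- A nonzero point killed by the prime `lam`, for every prime `lam`. -/
theorem s58eo_tors [IsAlgClosed F] [CharZero F] (W : Affine F) (hΔ : W.Δ ≠ 0) (lam : ℕ)
    (hlam : lam.Prime) : ∃ P : W.Point, P ≠ 0 ∧ lam • P = 0 := by
  by_cases h2 : lam = 2
  · subst h2
    exact s58eo_two W hΔ
  · exact s58et_exists W hΔ hlam h2

/-- Points of exact order `lam ^ n`, every prime `lam`, over an algebraically closed field of
characteristic zero. -/
theorem s58eo_gen [IsAlgClosed F] [CharZero F] (W : Affine F) (hΔ : W.Δ ≠ 0) (lam : ℕ)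
    (hlam : lam.Prime) (n : ℕ) : ∃ T : W.Point, addOrderOf T = lam ^ n :=
  s58eo_tower W hΔ lam hlam (s58eo_tors W hΔ lam hlam) n

end general

/-- The discriminant of the carrier curve is nonzero. -/
theorem s58eo_carrier_Δ (W : WeierstrassCurve ℤ) (hΔ : W.Δ ≠ 0) :
    ((W.map (Int.castRingHom ℚ))⁄(AlgebraicClosure ℚ)).Δ ≠ 0 := by
  show ((W.map (Int.castRingHom ℚ)).map (algebraMap ℚ Qb)).Δ ≠ 0
  rw [WeierstrassCurve.map_Δ, WeierstrassCurve.map_Δ]
  intro h
  have h1 : (Int.castRingHom ℚ) W.Δ = 0 := by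
    have := (algebraMap ℚ Qb).injective
    exact this (by rw [h, _root_.map_zero])
  have h2 : ((W.Δ : ℤ) : ℚ) = 0 := h1
  exact hΔ (by exact_mod_cast h2)

/-- **[EI-ORD]** from a point of order `lam` on the carrier. -/
theorem s58eo_of_tors (W : WeierstrassCurve ℤ) (hΔ : W.Δ ≠ 0) (lam : ℕ) (hlam : lam.Prime)
    (htors : ∃ P : ((W.map (Int.castRingHom ℚ))⁄(AlgebraicClosure ℚ)).Point, P ≠ 0 ∧ lam • P = 0)
    (n : ℕ) :
    ∃ T : ((W.map (Int.castRingHom ℚ))⁄(AlgebraicClosure ℚ)).Point, addOrderOf T = lam ^ n :=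
  s58eo_tower _ (s58eo_carrier_Δ W hΔ) lam hlam htors n

/-- **[EI-ORD]** at `lam = 2`. -/
theorem s58eo_exact_two (W : WeierstrassCurve ℤ) (hΔ : W.Δ ≠ 0) (n : ℕ) :
    ∃ T : ((W.map (Int.castRingHom ℚ))⁄(AlgebraicClosure ℚ)).Point, addOrderOf T = 2 ^ n :=
  s58eo_of_tors W hΔ 2 Nat.prime_two (s58eo_two _ (s58eo_carrier_Δ W hΔ)) n

/-- **[EI-ORD]**, every prime `lam`: a point of exact order `lam ^ n` on the carrier. -/
theorem s58eo_all (W : WeierstrassCurve ℤ) (hΔ : W.Δ ≠ 0) (lam : ℕ) (hlam : lam.Prime) (n : ℕ) :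
    ∃ T : ((W.map (Int.castRingHom ℚ))⁄(AlgebraicClosure ℚ)).Point, addOrderOf T = lam ^ n :=
  s58eo_gen _ (s58eo_carrier_Δ W hΔ) lam hlam n

/-- **[EI-ORD]** under the name of the header of finding 330. -/
theorem s58eo_exact (W : WeierstrassCurve ℤ) (hΔ : W.Δ ≠ 0) (lam : ℕ) (hlam : lam.Prime) (n : ℕ) :
    ∃ T : ((W.map (Int.castRingHom ℚ))⁄(AlgebraicClosure ℚ)).Point, addOrderOf T = lam ^ n :=
  s58eo_all W hΔ lam hlam n

set_option linter.unusedVariables false in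
/-- **[EI-ORD]** in the shape of the skeleton of finding 331 (redundant hypothesis `lam ≠ 2`). -/
theorem s58eo_main (W : WeierstrassCurve ℤ) (hΔ : W.Δ ≠ 0)
    (lam : ℕ) (hlam : lam.Prime) (hlam2 : lam ≠ 2) (n : ℕ) :
    ∃ T : ((W.map (Int.castRingHom ℚ))⁄(AlgebraicClosure ℚ)).Point, addOrderOf T = lam ^ n :=
  s58eo_all W hΔ lam hlam n

/-- A nonzero point of the carrier killed by the prime `lam`. -/
theorem s58eo_ord1 (W : WeierstrassCurve ℤ) (hΔ : W.Δ ≠ 0) (lam : ℕ) (hlam : lam.Prime) :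
    ∃ T : ((W.map (Int.castRingHom ℚ))⁄(AlgebraicClosure ℚ)).Point, T ≠ 0 ∧ lam • T = 0 :=
  s58eo_tors _ (s58eo_carrier_Δ W hΔ) lam hlam

/-- **[EI-ORD]** in `ℤ`-smul shape: a point killed by `lam ^ n` whose annihilator is `lam ^ n ℤ`. -/
theorem s58eo_zsmul (W : WeierstrassCurve ℤ) (hΔ : W.Δ ≠ 0) (lam : ℕ) (hlam : lam.Prime) (n : ℕ) :
    ∃ T : ((W.map (Int.castRingHom ℚ))⁄(AlgebraicClosure ℚ)).Point,
      lam ^ n • T = 0 ∧ ∀ k : ℤ, k • T = 0 → ((lam ^ n : ℕ) : ℤ) ∣ k := by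
  obtain ⟨T, hT⟩ := s58eo_all W hΔ lam hlam n
  refine ⟨T, ?_, fun k hk => ?_⟩
  · rw [← hT]
    exact addOrderOf_nsmul_eq_zero T
  · rw [← hT]
    exact addOrderOf_dvd_iff_zsmul_eq_zero.mpr hk

end Fermat.Agent.S58
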