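import Fermat.Agent.S58.FunField
import Fermat.Agent.S58.EvLift
import Fermat.Agent.S58.EvAbs
import Fermat.Agent.S58.RatComp

/-!
# S58 (D4): the evaluation homomorphisms `ev_A` on the function field model

Instantiation of `S58/EvAbs.lean` on the model `s58ffK W k` of `S58/FunField.lean`, with the
universal property of `S58/EvLift.lean` and the degree of a composite of `S58/RatComp.lean`.

`E := (W.toAffine⁄(s58ffK W k)).Point`, `C := s58eaConst k (s58ffK W k) W` (constant points),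
`G := s58ffG W k`, `d := s58ffD W k`, `P := s58ffGen W k hΔ`, `ev := s58evHom W k`:

* `s58ev_gen`      : `ev A P = A` for `A ∉ C`;
* `s58ev_const`    : `ev A c = c` for `A ∉ C`, `c ∈ C`;
* `s58ev_comm_pow` : `ev A` commutes with `Point.map fr` for a Frobenius `fr z = z ^ n`;
* `s58ev_deg`      : `d (ev A B) = d A * d B` for `A ∈ G`, `A ∉ C`, `B ∈ G`;
* `s58ev_mem`      : `ev A B ∈ G` for `A ∈ G`, `A ∉ C`, `B ∈ G`;
* `s58ev_deg_eq_zero_iff` : for `A ∈ G`: `d A = 0 ↔ A ∈ C` (`s58ev_deg_const`: `d = 0` on `C`);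
* `s58ev_gen_not_const`   : `P ∉ C`.

Names are prefixed `s58ev`.
-/

set_option autoImplicit false
set_option linter.unusedSectionVars false

namespace Fermat.Agent.S58

open Polynomial WeierstrassCurve
open scoped WeierstrassCurve.Affine

universe u v

variable {R : Type u} [CommRing R] (W : WeierstrassCurve R) (k : Type v) [Field k] [Algebra R k]

/-- the universal property of the generic point: existence -/
theorem s58ev_univ (x y : s58ffK W k) (h : (W.toAffine⁄(s58ffK W k)).Nonsingular x y)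
    (hx : Transcendental k x) :
    ∃ f : s58ffK W k →ₐ[k] s58ffK W k, f (s58ffX W k) = x ∧ f (s58ffY W k) = y := by
  have hy : (s58ffPoly W k).eval₂ (s58elRat x hx : RatFunc k →+* s58ffK W k) y = 0 := by
    have h1 := (s58ff_eval₂_iff W k (s58elRat x hx : RatFunc k →+* s58ffK W k)
      (s58elRat_C x hx) y).mpr
    apply h1
    have h2 : (s58elRat x hx : RatFunc k →+* s58ffK W k) RatFunc.X = x := s58elRat_X x hx
    rw [h2]
    exact h.1
  exact s58el_lift (s58ffPoly W k) x y hx hy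

/-- the universal property of the generic point: uniqueness -/
theorem s58ev_ext (f g : s58ffK W k →ₐ[k] s58ffK W k) (hX : f (s58ffX W k) = g (s58ffX W k))
    (hY : f (s58ffY W k) = g (s58ffY W k)) : f = g :=
  s58el_ext (s58ffPoly W k) f g hX hY

variable [DecidableEq k]

/-- `ev_A`: substitute the point `A` for the generic point (zero map for constant `A`) -/
noncomputable def s58evHom (A : (W.toAffine⁄(s58ffK W k)).Point) :
    (W.toAffine⁄(s58ffK W k)).Point →+ (W.toAffine⁄(s58ffK W k)).Point :=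
  s58eaHom W (s58ffX W k) (s58ffY W k) (s58ev_univ W k) A

variable [IsAlgClosed k]

/-- (hevP) -/
theorem s58ev_gen (hΔ : algebraMap R k W.Δ ≠ 0) (A : (W.toAffine⁄(s58ffK W k)).Point)
    (hA : A ∉ s58eaConst k (s58ffK W k) W) : s58evHom W k A (s58ffGen W k hΔ) = A :=
  s58ea_gen W (s58ffX W k) (s58ffY W k) (s58ev_univ W k) (s58ff_nonsingular W k hΔ) A hA

/-- (hevC) -/
theorem s58ev_const (A : (W.toAffine⁄(s58ffK W k)).Point)
    (hA : A ∉ s58eaConst k (s58ffK W k) W) (c : (W.toAffine⁄(s58ffK W k)).Point)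
    (hc : c ∈ s58eaConst k (s58ffK W k) W) : s58evHom W k A c = c :=
  s58ea_const W (s58ffX W k) (s58ffY W k) (s58ev_univ W k) A hA c hc

/-- (hevφ) -/
theorem s58ev_comm_pow (fr : s58ffK W k →ₐ[R] s58ffK W k) (n : ℕ)
    (hfr : ∀ z : s58ffK W k, fr z = z ^ n) (A : (W.toAffine⁄(s58ffK W k)).Point)
    (hA : A ∉ s58eaConst k (s58ffK W k) W) (B : (W.toAffine⁄(s58ffK W k)).Point) :
    s58evHom W k A (Affine.Point.map (W' := W.toAffine) fr B)
      = Affine.Point.map (W' := W.toAffine) fr (s58evHom W k A B) :=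
  s58ea_comm_pow W (s58ffX W k) (s58ffY W k) (s58ev_univ W k) fr n hfr A hA B

/-- (hevd) -/
theorem s58ev_deg (hΔ : algebraMap R k W.Δ ≠ 0) (A : (W.toAffine⁄(s58ffK W k)).Point)
    (hAG : A ∈ s58ffG W k) (hA : A ∉ s58eaConst k (s58ffK W k) W)
    (B : (W.toAffine⁄(s58ffK W k)).Point) (hBG : B ∈ s58ffG W k) :
    (s58ffD W k (s58evHom W k A B) : ℤ) = (s58ffD W k A : ℤ) * (s58ffD W k B : ℤ) :=
  s58ea_deg W (s58ffX W k) (s58ffY W k) (s58ev_univ W k)
    (algebraMap (RatFunc k) (s58ffK W k)) (s58ff_algebraMap_ratC W k) rfl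
    (fun r => max r.num.natDegree r.denom.natDegree)
    (fun φ a h1 h2 r => s58rc_comp (algebraMap (RatFunc k) (s58ffK W k)) φ h1 a h2 r)
    (s58ffG W k) (fun x y h hmem => s58ff_x_mem W k hΔ h hmem)
    (fun A => (s58ffD W k A : ℤ)) (by simp)
    (fun x y h r hr => by rw [s58ffD_some' W k r hr h]) A hAG hA B hBG

/-- (hevd), in `ℕ` -/
theorem s58ev_deg_nat (hΔ : algebraMap R k W.Δ ≠ 0) (A : (W.toAffine⁄(s58ffK W k)).Point)
    (hAG : A ∈ s58ffG W k) (hA : A ∉ s58eaConst k (s58ffK W k) W)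
    (B : (W.toAffine⁄(s58ffK W k)).Point) (hBG : B ∈ s58ffG W k) :
    s58ffD W k (s58evHom W k A B) = s58ffD W k A * s58ffD W k B := by
  have h := s58ev_deg W k hΔ A hAG hA B hBG
  exact_mod_cast h

/-- `ev_A` preserves `G` -/
theorem s58ev_mem (A : (W.toAffine⁄(s58ffK W k)).Point)
    (hAG : A ∈ s58ffG W k) (hA : A ∉ s58eaConst k (s58ffK W k) W)
    (B : (W.toAffine⁄(s58ffK W k)).Point) (hBG : B ∈ s58ffG W k) :
    s58evHom W k A B ∈ s58ffG W k := by
  rw [s58ff_mem_G] at hAG hBG ⊢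
  refine s58ea_mem W (s58ffX W k) (s58ffY W k) (s58ev_univ W k) (s58ev_ext W k)
    (s58ffIota W k) (fun c => ?_) (s58ffIota_X W k) (s58ffIota_Y W k) A hAG hA B hBG
  rw [← s58ff_algebraMap_ratC W k c]
  exact s58ffIota_algebraMap W k _

/-- a constant point has degree zero -/
theorem s58ev_deg_const (c : (W.toAffine⁄(s58ffK W k)).Point)
    (hc : c ∈ s58eaConst k (s58ffK W k) W) : s58ffD W k c = 0 := by
  obtain ⟨c₀, rfl⟩ := hc
  match c₀ with
  | .zero => rfl
  | .some a b h₀ =>
    show s58ffD W k (Affine.Point.map (W' := W.toAffine) (Algebra.ofId k (s58ffK W k))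
      (Affine.Point.some a b h₀)) = 0
    rw [Affine.Point.map_some]
    have hx : algebraMap (RatFunc k) (s58ffK W k) (RatFunc.C a)
        = (Algebra.ofId k (s58ffK W k)) a := s58ff_algebraMap_ratC W k a
    rw [s58ffD_some' W k (RatFunc.C a) hx]
    simp

/-- (hdC) on `G`: degree zero iff constant -/
theorem s58ev_deg_eq_zero_iff (hΔ : algebraMap R k W.Δ ≠ 0)
    (A : (W.toAffine⁄(s58ffK W k)).Point) (hAG : A ∈ s58ffG W k) :
    s58ffD W k A = 0 ↔ A ∈ s58eaConst k (s58ffK W k) W := by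
  refine ⟨fun hd => ?_, s58ev_deg_const W k A⟩
  match A, hAG, hd with
  | .zero, _, _ => exact zero_mem _
  | .some x y h, hAG, hd =>
    obtain ⟨r, rfl⟩ := s58ff_x_mem W k hΔ h hAG
    rw [s58ffD_some W k r h] at hd
    have hn : r.num.natDegree = 0 := Nat.eq_zero_of_le_zero (hd ▸ le_max_left _ _)
    have hdn : r.denom.natDegree = 0 := Nat.eq_zero_of_le_zero (hd ▸ le_max_right _ _)
    have hr : r = RatFunc.C (r.num.coeff 0 / r.denom.coeff 0) := by
      conv_lhs => rw [← RatFunc.num_div_denom r]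
      rw [Polynomial.eq_C_of_natDegree_eq_zero hn, Polynomial.eq_C_of_natDegree_eq_zero hdn]
      simp [RatFunc.algebraMap_C]
    have halg : IsAlgebraic k (algebraMap (RatFunc k) (s58ffK W k) r) := by
      rw [hr, s58ff_algebraMap_ratC]
      exact isAlgebraic_algebraMap _
    exact s58ea_const_of_algebraic W h halg

/-- the generic point is not constant -/
theorem s58ev_gen_not_const (hΔ : algebraMap R k W.Δ ≠ 0) :
    s58ffGen W k hΔ ∉ s58eaConst k (s58ffK W k) W := by
  intro hc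
  have h := s58ev_deg_const W k _ hc
  rw [s58ffD_gen] at h
  exact one_ne_zero h

end Fermat.Agent.S58
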