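import Mathlib
import Fermat.Agent.S58.FrobSeamCore
import Fermat.Agent.S58.FrobCountFin

/-!
# S58, E-side, the seam of step (D7), final form: `d (φ P - P) = #W(𝔽_l)`

`W` a Weierstrass curve over `ZMod l` with `Δ ≠ 0`, `k` an algebraically closed field over
`ZMod l`, `K` a field over `k` with `j : RatFunc k →+* K` extending `k → K`, `P = (j X, Y)` the
generic point, `φ` the Frobenius of `K` over `ZMod l`, and `d` a function on the points over `K`
computing the degree of the `x`-coordinate.  Then `d (φ P - P)` is the number of points of `W`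
over `ZMod l`.

`s58fsc_seam_of_count` (S58/FrobSeamCore.lean: `x(φ P - P) = j (N / (X ^ l - X) ^ 2)`) composed
with the count `s58fg_ratfunc` (S58/FrobCountFin.lean: the degree of `N / (X ^ l - X) ^ 2`).
-/

set_option autoImplicit false

open WeierstrassCurve WeierstrassCurve.Affine Polynomial

namespace Fermat.Agent.S58

/-- **the seam of (D7)**: `d (φ P - P) = #W(𝔽_l)` at the generic point `P = (j X, Y)`. -/
theorem s58fs_seam (l : ℕ) [Fact l.Prime] (W : WeierstrassCurve (ZMod l)) (hΔ : W.Δ ≠ 0)
    (k : Type*) [Field k] [Algebra (ZMod l) k] [IsAlgClosed k] [DecidableEq k]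
    (K : Type*) [Field K] [DecidableEq K] [Algebra (ZMod l) K] [Algebra k K]
    [IsScalarTower (ZMod l) k K]
    (j : RatFunc k →+* K) (hjC : ∀ c : k, j (RatFunc.C c) = algebraMap k K c) (Y : K)
    (hXY : (W⁄K).Nonsingular (j RatFunc.X) Y) (d : (W⁄K).Point → ℤ)
    (hd : ∀ (x y : K) (h : (W⁄K).Nonsingular x y) (r : RatFunc k), j r = x →
      d (Point.some x y h) = ((max r.num.natDegree r.denom.natDegree : ℕ) : ℤ)) :
    d (Point.map (FiniteField.frobeniusAlgHom (ZMod l) K) (Point.some _ _ hXY)
        - Point.some _ _ hXY) = (Nat.card W.toAffine.Point : ℤ) :=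
  s58fsc_seam_of_count l W k K j hjC Y hXY d hd _ (s58fg_ratfunc W hΔ)

end Fermat.Agent.S58
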