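import Mathlib
import Fermat.Prelude.Def_FLTPrelim_Modularity
import Fermat.Agent.S58.FunField
import Fermat.Agent.S58.Para
import Fermat.Agent.S58.EvHom
import Fermat.Agent.S58.FrobDeg
import Fermat.Agent.S58.FrobPsi
import Fermat.Agent.S58.FrobSeam

/-!
# S58, E-side, statement (Q): the characteristic equation of Frobenius on the points of an
elliptic curve over `𝔽_l` with values in an algebraically closed field

Independent assembly (insurance copy of `FrobQ`) of
`φ² T - a φ T + l T = 0`, `a = l + 1 - #W(𝔽_l)`, from the generic machinery on the function field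
model `s58ffK` (`FunField`), the parallelogram law (`Para`), the evaluation homomorphisms
(`EvHom`), the Frobenius degree (`FrobDeg`), the abstract argument (`FrobPsi`) and the count
(`FrobSeam`).
-/

set_option autoImplicit false

open WeierstrassCurve WeierstrassCurve.Affine

namespace Fermat.Agent.S58

/-- the base change of points along `k → K` as a map over `ZMod l` -/
theorem s58fqb_map_eq {l : ℕ} (W : WeierstrassCurve (ZMod l)) (k : Type*) [Field k]
    [Algebra (ZMod l) k] [DecidableEq k] (A : (W⁄k).Point) :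
    Point.map (W' := W) (IsScalarTower.toAlgHom (ZMod l) k (s58ffK W k)) A
      = Point.baseChange (W' := W) k (s58ffK W k) A := by
  cases A <;> rfl

/-- **(Q)**: the characteristic equation of Frobenius on `W(k)`, `k` algebraically closed. -/
theorem s58fqb_main (l : ℕ) [Fact l.Prime] (W : WeierstrassCurve (ZMod l)) (hΔ : W.Δ ≠ 0)
    (k : Type*) [Field k] [Algebra (ZMod l) k] [IsAlgClosed k] [DecidableEq k]
    (T : (W⁄k).Point) :
    Point.map (FiniteField.frobeniusAlgHom (ZMod l) k)
        (Point.map (FiniteField.frobeniusAlgHom (ZMod l) k) T)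
      - W.traceOfFrobenius • Point.map (FiniteField.frobeniusAlgHom (ZMod l) k) T + l • T = 0 := by
  have hΔ' : algebraMap (ZMod l) k W.Δ ≠ 0 := (map_ne_zero _).mpr hΔ
  have hd0 : ((s58ffD W k 0 : ℕ) : ℤ) = 0 := by simp
  have hd : ∀ (x y : s58ffK W k) (h : (W⁄(s58ffK W k)).Nonsingular x y) (r : RatFunc k),
      algebraMap (RatFunc k) (s58ffK W k) r = x →
      ((s58ffD W k (Point.some x y h) : ℕ) : ℤ)
        = ((max r.num.natDegree r.denom.natDegree : ℕ) : ℤ) :=
    fun x y h r hr => by rw [s58ffD_some' W k r hr h]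
  have hC : s58eaConst k (s58ffK W k) W
      = (Point.map (W' := W) (IsScalarTower.toAlgHom (ZMod l) k (s58ffK W k))).range := by
    ext A
    constructor
    · rintro ⟨B, rfl⟩
      exact ⟨B, s58fqb_map_eq W k B⟩
    · rintro ⟨B, rfl⟩
      exact ⟨B, (s58fqb_map_eq W k B).symm⟩
  have hfr : ∀ z : s58ffK W k, FiniteField.frobeniusAlgHom (ZMod l) (s58ffK W k) z = z ^ l :=
    fun z => by rw [FiniteField.coe_frobeniusAlgHom, ZMod.card]
  have hmain := s58f5_main' (s58ffG W k) (s58eaConst k (s58ffK W k) W)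
    (fun A => ((s58ffD W k A : ℕ) : ℤ))
    (s58pa_par_mem W k hΔ')
    (fun A hA => by
      rw [← s58ev_deg_eq_zero_iff W k hΔ' A hA]
      exact Int.natCast_eq_zero)
    (s58f3Frob W (s58ffK W k))
    (fun A hA => by
      rw [s58ff_mem_G] at hA ⊢
      exact s58f3_anti W (s58ffIota W k) A hA)
    (fun c hc => by
      rw [hC] at hc ⊢
      exact s58f3_range W _ c hc)
    (l : ℤ)
    (fun A hA => s58f3_deg W (algebraMap (RatFunc k) (s58ffK W k))
      (fun A => ((s58ffD W k A : ℕ) : ℤ)) hd0 hd A (by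
        match A, hA with
        | .zero, _ => exact Or.inl rfl
        | .some x y h, hA =>
          obtain ⟨r, hr⟩ := s58ff_x_mem W k hΔ' h hA
          exact Or.inr ⟨x, y, h, r, hr, rfl⟩))
    (s58ffGen W k hΔ') (s58ffGen_mem W k hΔ')
    (by rw [s58ffD_gen]; rfl)
    (s58evHom W k)
    (s58ev_gen W k hΔ')
    (fun A hA B => s58ev_comm_pow W k (FiniteField.frobeniusAlgHom (ZMod l) (s58ffK W k)) l hfr
      A hA B)
    (s58ev_const W k)
    (s58ev_deg W k hΔ')
    (Point.map (W' := W) (IsScalarTower.toAlgHom (ZMod l) k (s58ffK W k)) T)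
    (by rw [hC]; exact ⟨T, rfl⟩)
  have hD7 := s58fs_seam l W hΔ k (s58ffK W k) (algebraMap (RatFunc k) (s58ffK W k))
    (s58ff_algebraMap_ratC W k) (s58ffY W k) (s58ff_nonsingular W k hΔ')
    (fun A => ((s58ffD W k A : ℕ) : ℤ)) hd
  have htr : (l : ℤ) + 1 - (Nat.card W.toAffine.Point : ℤ) = W.traceOfFrobenius := by
    rw [WeierstrassCurve.traceOfFrobenius, WeierstrassCurve.card, Nat.card_zmod]
  have hD7' : ((s58ffD W k (s58f3Frob W (s58ffK W k) (s58ffGen W k hΔ') - s58ffGen W k hΔ') : ℕ) : ℤ)
      = (Nat.card W.toAffine.Point : ℤ) := hD7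
  simp only [hD7', htr] at hmain
  have e1 : ∀ X : (W⁄k).Point,
      Point.map (W' := W) (IsScalarTower.toAlgHom (ZMod l) k (s58ffK W k))
          (Point.map (W' := W) (FiniteField.frobeniusAlgHom (ZMod l) k) X)
        = s58f3Frob W (s58ffK W k)
          (Point.map (W' := W) (IsScalarTower.toAlgHom (ZMod l) k (s58ffK W k)) X) :=
    fun X => (s58f3_map_comm W (IsScalarTower.toAlgHom (ZMod l) k (s58ffK W k)) X).symm
  apply Point.map_injective (W' := W) (IsScalarTower.toAlgHom (ZMod l) k (s58ffK W k))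
  rw [map_zero, map_add, map_sub, map_zsmul, map_nsmul, e1, e1, ← natCast_zsmul]
  exact hmain

end Fermat.Agent.S58
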