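import Mathlib

/-!
# S58, leaf [SEP-l] (prefix `s58fp_`)

Separability of the generic member of a pencil in ANY characteristic, when the degree
difference is one: for coprime polynomials `num`, `den` over a field with
`deg num = deg den + 1`, the polynomial `num - c den` has degree `deg num` and no repeated
root for all `c` outside a finite set.

The Wronskian `num' den - num den'` cannot vanish: otherwise `num ∣ num'` and so `num' = 0`,
`den' = 0`, which forces `deg num = 0 = deg den` in the field, impossible since the two degrees
differ by one.
-/

set_option autoImplicit false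

open Polynomial

namespace Fermat.Agent.S58

/-- the Wronskian `num' den - num den'` is non-zero for coprime `num`, `den` with
`deg num = deg den + 1`, in any characteristic -/
theorem s58fp_wronsk_ne_zero {k : Type*} [Field k] (num den : k[X]) (hcop : IsCoprime num den)
    (hdeg : num.natDegree = den.natDegree + 1) :
    derivative num * den - num * derivative den ≠ 0 := by
  intro h
  have h' : derivative num * den = num * derivative den := sub_eq_zero.mp h
  have hnum : num ≠ 0 := by
    rintro rfl
    simp at hdeg
  have hden : den ≠ 0 := by
    rintro rfl
    have hu : IsUnit num := by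
      obtain ⟨a, b, hab⟩ := hcop
      rw [mul_zero, add_zero] at hab
      exact IsUnit.of_mul_eq_one a (by rw [mul_comm]; exact hab)
    have := natDegree_eq_zero_of_isUnit hu
    omega
  -- `num ∣ num'`, hence `num' = 0`
  have hdvd : num ∣ derivative num :=
    hcop.dvd_of_dvd_mul_right ⟨derivative den, h'⟩
  have hd1 : derivative num = 0 := by
    by_contra hne
    have h1 := natDegree_le_of_dvd hdvd hne
    have h2 : (derivative num).natDegree < num.natDegree :=
      natDegree_derivative_lt (by omega)
    omega
  have hd2 : derivative den = 0 := by
    rw [hd1, zero_mul] at h'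
    rcases mul_eq_zero.mp h'.symm with h1 | h1
    · exact absurd h1 hnum
    · exact h1
  -- the degrees vanish in `k`
  have e1 : ((den.natDegree : k) + 1) = 0 := by
    have h1 : (derivative num).coeff den.natDegree = 0 := by rw [hd1, coeff_zero]
    rw [coeff_derivative] at h1
    have h2 : num.coeff (den.natDegree + 1) ≠ 0 := by
      rw [← hdeg]
      exact leadingCoeff_ne_zero.mpr hnum
    rcases mul_eq_zero.mp h1 with h3 | h3
    · exact absurd h3 h2
    · exact h3
  have e2 : (den.natDegree : k) = 0 := by
    rcases Nat.eq_zero_or_pos den.natDegree with h0 | h0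
    · rw [h0, Nat.cast_zero]
    · obtain ⟨e, he⟩ : ∃ e, den.natDegree = e + 1 := ⟨den.natDegree - 1, by omega⟩
      have h1 : (derivative den).coeff e = 0 := by rw [hd2, coeff_zero]
      rw [coeff_derivative] at h1
      have h2 : den.coeff (e + 1) ≠ 0 := by
        rw [← he]
        exact leadingCoeff_ne_zero.mpr hden
      rcases mul_eq_zero.mp h1 with h3 | h3
      · exact absurd h3 h2
      · rw [he, Nat.cast_add, Nat.cast_one]
        exact h3
  rw [e2, zero_add] at e1
  exact one_ne_zero e1

/-- **[SEP-l]** for coprime `num`, `den` with `deg num = deg den + 1` (any characteristic):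
outside a finite set of `c`, the polynomial `num - c den` has degree `deg num` and its roots
are pairwise distinct. -/
theorem s58fp_main {k : Type*} [Field k] [IsAlgClosed k] (num den : k[X])
    (hcop : IsCoprime num den) (hdeg : num.natDegree = den.natDegree + 1) :
    ∃ B : Finset k, ∀ c : k, c ∉ B →
      (num - C c * den).natDegree = num.natDegree ∧ (num - C c * den).roots.Nodup := by
  classical
  have hw := s58fp_wronsk_ne_zero num den hcop hdeg
  refine ⟨(derivative num * den - num * derivative den).roots.toFinset.image
    (fun r => num.eval r / den.eval r), fun c hc => ?_⟩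
  have hdegP : (num - C c * den).natDegree = num.natDegree := by
    apply natDegree_sub_eq_left_of_natDegree_lt
    have := natDegree_C_mul_le c den
    omega
  have hP0 : num - C c * den ≠ 0 := by
    intro h0
    rw [h0, natDegree_zero] at hdegP
    omega
  refine ⟨hdegP, ?_⟩
  rw [Multiset.nodup_iff_count_le_one]
  intro x
  rw [count_roots]
  by_contra hmult
  have hmult' : 1 < (num - C c * den).rootMultiplicity x := by omega
  obtain ⟨hr, hr'⟩ := (one_lt_rootMultiplicity_iff_isRoot hP0).mp hmult'
  have e1 : num.eval x - c * den.eval x = 0 := by
    have := hr
    simpa [IsRoot.def] using this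
  have e2 : (derivative num).eval x - c * (derivative den).eval x = 0 := by
    have := hr'
    simpa [IsRoot.def] using this
  have hden : den.eval x ≠ 0 := by
    intro h0
    obtain ⟨a, b, hab⟩ := hcop
    have h1 := congrArg (eval x) hab
    rw [h0, mul_zero, sub_zero] at e1
    simp [e1, h0] at h1
  have hc' : c = num.eval x / den.eval x := by
    rw [eq_div_iff hden]
    linear_combination -e1
  apply hc
  rw [Finset.mem_image]
  refine ⟨x, ?_, hc'.symm⟩
  rw [Multiset.mem_toFinset, mem_roots hw, IsRoot.def]
  simp only [eval_sub, eval_mul]
  linear_combination den.eval x * e2 - (derivative den).eval x * e1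

/-- the same statement with the number of roots: outside a finite set of `c`, the roots of
`num - c den` form a `Finset` of cardinality `deg num` -/
theorem s58fp_card {k : Type*} [Field k] [IsAlgClosed k] [DecidableEq k] (num den : k[X])
    (hcop : IsCoprime num den) (hdeg : num.natDegree = den.natDegree + 1) :
    ∃ B : Finset k, ∀ c : k, c ∉ B →
      (num - C c * den).natDegree = num.natDegree ∧ (num - C c * den).roots.Nodup ∧
      (num - C c * den).roots.toFinset.card = num.natDegree := by
  obtain ⟨B, hB⟩ := s58fp_main num den hcop hdeg
  refine ⟨B, fun c hc => ?_⟩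
  obtain ⟨h1, h2⟩ := hB c hc
  refine ⟨h1, h2, ?_⟩
  rw [Multiset.toFinset_card_of_nodup h2, ← h1]
  exact IsAlgClosed.card_roots_eq_natDegree

end Fermat.Agent.S58
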