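import Mathlib
import Fermat.Agent.S13.DivPolyGen

/-!
# S58, [GEN-DEG]: the division polynomials `Φₙ` and `ΨSqₙ` are coprime

Model-independent form.  If at a point `P = (X, y)` of `W` over an extension `K` of `k(X)` the
multiple `n • P` has an abscissa `j r`, `r ∈ k(X)`, of degree `n ^ 2` (this is `d(nP) = n² d(P)`
for the degree function of the parallelogram law), then the generic multiplication formula
`x(nP) = Φₙ(X) / ΨSqₙ(X)` (S13) forces `Φₙ` and `ΨSqₙ` to be coprime, because
`natDegree Φₙ = n²` and `natDegree ΨSqₙ < n²`.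

* `s58gd_coprime_of_deg` : a fraction `p / q` with `deg q < deg p` whose reduced degree is `deg p`
  has coprime numerator and denominator;
* `s58gd_coprime` : `IsCoprime (W.Φ n) (W.ΨSq n)`.
-/

set_option autoImplicit false

open Polynomial WeierstrassCurve WeierstrassCurve.Affine

namespace Fermat.Agent.S58

/-- a fraction `p / q` with `deg q < deg p` whose reduced degree is `deg p` is reduced -/
theorem s58gd_coprime_of_deg {k : Type*} [Field k] (p q : k[X]) (hq : q ≠ 0)
    (hlt : q.natDegree < p.natDegree)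
    (h : max (algebraMap k[X] (RatFunc k) p / algebraMap k[X] (RatFunc k) q).num.natDegree
      (algebraMap k[X] (RatFunc k) p / algebraMap k[X] (RatFunc k) q).denom.natDegree =
        p.natDegree) :
    IsCoprime p q := by
  set r : RatFunc k := algebraMap k[X] (RatFunc k) p / algebraMap k[X] (RatFunc k) q with hr
  have hp : p ≠ 0 := by
    rintro rfl
    simp at hlt
  have hnum : r.num ∣ p := RatFunc.num_div_dvd p hq
  have hden : r.denom ∣ q := RatFunc.denom_div_dvd p q
  have hdenle : r.denom.natDegree ≤ q.natDegree := Polynomial.natDegree_le_of_dvd hden hq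
  have hnumdeg : r.num.natDegree = p.natDegree := by
    rcases max_cases r.num.natDegree r.denom.natDegree with ⟨h1, -⟩ | ⟨h1, -⟩
    · rw [← h, h1]
    · rw [h1] at h
      omega
  have hcross : r.num * q = p * r.denom := (RatFunc.num_mul_eq_mul_denom_iff hq).mpr hr
  obtain ⟨c, hc⟩ := hnum
  have hc0 : c ≠ 0 := by
    rintro rfl
    exact hp (by rw [hc, mul_zero])
  have hnum0 : r.num ≠ 0 := by
    intro h0
    exact hp (by rw [hc, h0, zero_mul])
  have hcdeg : c.natDegree = 0 := by
    have h1 := Polynomial.natDegree_mul hnum0 hc0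
    rw [← hc] at h1
    omega
  have hcu : IsUnit c := by
    rw [Polynomial.eq_C_of_natDegree_eq_zero hcdeg] at hc0 ⊢
    exact Polynomial.isUnit_C.mpr (isUnit_iff_ne_zero.mpr (fun h0 => hc0 (by rw [h0, map_zero])))
  have hq' : q = r.denom * c := by
    have h1 : r.num * q = r.num * (r.denom * c) := by
      rw [hcross, hc]
      ring
    exact mul_left_cancel₀ hnum0 h1
  have hcop : IsCoprime r.num r.denom := RatFunc.isCoprime_num_denom r
  rw [hc, hq']
  exact (isCoprime_mul_unit_right hcu _ _).mpr hcop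

/-- **[GEN-DEG]** `Φₙ` and `ΨSqₙ` are coprime, from `d(nP) = n²` at a generic point. -/
theorem s58gd_coprime {k K : Type*} [Field k] [Field K] [DecidableEq K]
    (W : WeierstrassCurve k) (j : RatFunc k →+* K) (W' : WeierstrassCurve K)
    (hW' : W' = W.map (j.comp (algebraMap k (RatFunc k)))) (n : ℕ) (hn : 1 ≤ n) (y : K)
    (hP : W'.toAffine.Nonsingular (j RatFunc.X) y)
    (hne : ∀ m : ℕ, 1 ≤ m → m ≤ n →
      m • (Point.some _ _ hP : W'.toAffine.Point) ≠ 0)
    (hdeg : ∀ (r : RatFunc k) (y' : K) (h' : W'.toAffine.Nonsingular (j r) y'),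
      n • (Point.some _ _ hP : W'.toAffine.Point) = Point.some _ _ h' →
        max r.num.natDegree r.denom.natDegree = n ^ 2) :
    IsCoprime (W.Φ n) (W.ΨSq n) := by
  classical
  obtain ⟨hΨ, y', h', hnP⟩ :=
    Fermat.Agent.S13.dp_genericFormula W'.toAffine (j RatFunc.X) y hP n hn hne
  have hev : ∀ p : k[X], (p.map (j.comp (algebraMap k (RatFunc k)))).eval (j RatFunc.X) =
      j (algebraMap k[X] (RatFunc k) p) := by
    intro p
    rw [Polynomial.eval_map, ← Polynomial.hom_eval₂, ← RatFunc.aeval_X_left_eq_algebraMap]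
    rfl
  have hΦ : (W'.toAffine.Φ n).eval (j RatFunc.X) = j (algebraMap k[X] (RatFunc k) (W.Φ n)) := by
    rw [← hev, hW']
    congr 1
    exact WeierstrassCurve.map_Φ W _ n
  have hΨ' : (W'.toAffine.ΨSq n).eval (j RatFunc.X) =
      j (algebraMap k[X] (RatFunc k) (W.ΨSq n)) := by
    rw [← hev, hW']
    congr 1
    exact WeierstrassCurve.map_ΨSq W _ n
  have hq : W.ΨSq n ≠ 0 := by
    intro h0
    apply hΨ
    rw [hΨ', h0, map_zero, map_zero]
  have hlt : (W.ΨSq n).natDegree < (W.Φ n).natDegree := by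
    have h1 := W.natDegree_ΨSq_le (n : ℤ)
    have h2 := W.natDegree_Φ (n : ℤ)
    rw [Int.natAbs_natCast] at h1 h2
    have h3 : 1 ≤ n ^ 2 := Nat.one_le_pow _ _ hn
    omega
  have key : ∀ (x' y'' : K) (h'' : W'.toAffine.Nonsingular x' y''),
      x' = j (algebraMap k[X] (RatFunc k) (W.Φ n) / algebraMap k[X] (RatFunc k) (W.ΨSq n)) →
      n • (Point.some _ _ hP : W'.toAffine.Point) = Point.some _ _ h'' →
      max (algebraMap k[X] (RatFunc k) (W.Φ n) /
          algebraMap k[X] (RatFunc k) (W.ΨSq n)).num.natDegree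
        (algebraMap k[X] (RatFunc k) (W.Φ n) /
          algebraMap k[X] (RatFunc k) (W.ΨSq n)).denom.natDegree = n ^ 2 := by
    intro x' y'' h'' hx'
    subst hx'
    exact hdeg _ y'' h''
  have hx : (W'.toAffine.Φ n).eval (j RatFunc.X) / (W'.toAffine.ΨSq n).eval (j RatFunc.X) =
      j (algebraMap k[X] (RatFunc k) (W.Φ n) / algebraMap k[X] (RatFunc k) (W.ΨSq n)) := by
    rw [hΦ, hΨ', map_div₀]
  have hmax := key _ y' h' hx hnP
  refine s58gd_coprime_of_deg (W.Φ n) (W.ΨSq n) hq hlt ?_
  rw [hmax, W.natDegree_Φ (n : ℤ), Int.natAbs_natCast]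

end Fermat.Agent.S58
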