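import Mathlib

/-!
# S58, a root of an irreducible integer polynomial in some `ℤ_[lam]`

`s58hr_exists_root` : for a monic irreducible `f : ℤ[X]` and `q ≠ 0` there are a prime
`lam ≠ q` and `β : ℤ_[lam]` with `f(β) = 0`.

Proof: `f` is separable over `ℚ`, so `U f + V f' = D` with `U V : ℤ[X]`, `0 ≠ D : ℤ`
(`s58hr_bezout`); some value `f(n)` has a prime divisor `lam ∤ D q` (`s58hr_prime_dvd_value`);
then `lam ∣ f(n)`, `lam ∤ f'(n)` and Hensel's lemma gives a root in `ℤ_[lam]`.

Mathlib only.  Names are prefixed `s58hr_`.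
-/

set_option autoImplicit false

open Polynomial

namespace Fermat.Agent.S58

/-- A monic irreducible integer polynomial is coprime to its derivative up to a nonzero
integer. -/
theorem s58hr_bezout (f : ℤ[X]) (hf : f.Monic) (hirr : Irreducible f) :
    ∃ (U V : ℤ[X]) (D : ℤ), D ≠ 0 ∧ U * f + V * derivative f = C D := by
  have h1 : Irreducible (f.map (algebraMap ℤ ℚ)) :=
    (Polynomial.Monic.irreducible_iff_irreducible_map_fraction_map hf).mp hirr
  have h2 : (f.map (algebraMap ℤ ℚ)).Separable := h1.separable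
  obtain ⟨u, v, huv⟩ := h2
  obtain ⟨b1, hb1, hU⟩ := IsLocalization.integerNormalization_spec (nonZeroDivisors ℤ) u
  obtain ⟨b2, hb2, hV⟩ := IsLocalization.integerNormalization_spec (nonZeroDivisors ℤ) v
  have hb1' : b1 ≠ 0 := nonZeroDivisors.ne_zero hb1
  have hb2' : b2 ≠ 0 := nonZeroDivisors.ne_zero hb2
  refine ⟨C b2 * IsLocalization.integerNormalization (nonZeroDivisors ℤ) u,
    C b1 * IsLocalization.integerNormalization (nonZeroDivisors ℤ) v, b1 * b2,
    mul_ne_zero hb1' hb2', ?_⟩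
  apply Polynomial.map_injective (algebraMap ℤ ℚ) (algebraMap ℤ ℚ).injective_int
  simp only [Polynomial.map_add, Polynomial.map_mul, Polynomial.map_C, hU, hV]
  have h3 : (b1 • u : ℚ[X]) = C (algebraMap ℤ ℚ b1) * u := by
    rw [Algebra.smul_def]; rfl
  have h4 : (b2 • v : ℚ[X]) = C (algebraMap ℤ ℚ b2) * v := by
    rw [Algebra.smul_def]; rfl
  rw [h3, h4, map_mul, map_mul]
  rw [Polynomial.derivative_map] at huv
  linear_combination (C (algebraMap ℤ ℚ b1) * C (algebraMap ℤ ℚ b2)) * huv

/-- A monic nonconstant integer polynomial has a value divisible by a prime not dividing a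
given nonzero integer. -/
theorem s58hr_prime_dvd_value (f : ℤ[X]) (hf : f.Monic) (hdeg : f.natDegree ≠ 0) (E : ℤ)
    (hE : E ≠ 0) :
    ∃ (n : ℤ) (lam : ℕ), lam.Prime ∧ (lam : ℤ) ∣ f.eval n ∧ ¬ (lam : ℤ) ∣ E := by
  set c : ℤ := f.eval 0 with hc
  by_cases hc0 : c = 0
  · -- every prime divides `f(0) = 0`
    obtain ⟨lam, hlam1, hlam⟩ := Nat.exists_infinite_primes (E.natAbs + 1)
    refine ⟨0, lam, hlam, ?_, ?_⟩
    · rw [← hc, hc0]; exact dvd_zero _
    · intro h
      have h1 : lam ∣ E.natAbs := Int.natCast_dvd.mp h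
      have h2 := Nat.le_of_dvd (Int.natAbs_pos.mpr hE) h1
      omega
  · -- the polynomial `f (f - c) (f + c)` is nonzero
    have hf0 : f ≠ 0 := hf.ne_zero
    have hfc : ∀ d : ℤ, f + C d ≠ 0 := by
      intro d h
      have h1 : f = C (-d) := by
        rw [map_neg]; exact eq_neg_of_add_eq_zero_left h
      apply hdeg
      rw [h1, natDegree_C]
    set p : ℤ[X] := f * (f + C (-c)) * (f + C c) with hp
    have hp0 : p ≠ 0 := mul_ne_zero (mul_ne_zero hf0 (hfc _)) (hfc _)
    have hcE : c * E ≠ 0 := mul_ne_zero hc0 hE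
    have hex : ∃ t : ℤ, ¬ p.IsRoot (c * E * t) := by
      by_contra hall
      have hall' : ∀ t : ℤ, p.IsRoot (c * E * t) := fun t => by
        by_contra h
        exact hall ⟨t, h⟩
      apply hp0
      apply Polynomial.eq_zero_of_infinite_isRoot
      have hinj : Function.Injective (fun t : ℤ => c * E * t) :=
        fun a b h => mul_left_cancel₀ hcE h
      refine (Set.infinite_range_of_injective hinj).mono ?_
      rintro x ⟨t, rfl⟩
      exact hall' t
    obtain ⟨t, ht⟩ := hex
    set n : ℤ := c * E * t with hn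
    have hv : f.eval n ≠ 0 ∧ f.eval n ≠ c ∧ f.eval n ≠ -c := by
      refine ⟨fun h => ht ?_, fun h => ht ?_, fun h => ht ?_⟩
      · simp [IsRoot, hp, h]
      · simp [IsRoot, hp, h]
      · simp [IsRoot, hp, h]
    -- `f(n) = c * v` with `v ≡ 1 mod E`
    obtain ⟨k, hk⟩ := Polynomial.sub_dvd_eval_sub n 0 f
    rw [sub_zero, ← hc] at hk
    set v : ℤ := 1 + E * t * k with hv'
    have hfv : f.eval n = c * v := by
      have : f.eval n = c + n * k := by linarith
      rw [this, hn, hv']; ring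
    have hv1 : v.natAbs ≠ 1 := by
      intro h
      rcases Int.natAbs_eq v with h2 | h2
      · rw [h] at h2
        apply hv.2.1
        rw [hfv, h2]; simp
      · rw [h] at h2
        apply hv.2.2
        rw [hfv, h2]; simp
    obtain ⟨lam, hlam, hlamv⟩ := Nat.exists_prime_and_dvd hv1
    have hlamv' : (lam : ℤ) ∣ v := Int.natCast_dvd.mpr hlamv
    refine ⟨n, lam, hlam, ?_, ?_⟩
    · rw [hfv]; exact Dvd.dvd.mul_left hlamv' c
    · intro h
      have h1 : (lam : ℤ) ∣ 1 := by
        have h2 : (lam : ℤ) ∣ E * t * k := Dvd.dvd.mul_right (Dvd.dvd.mul_right h t) k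
        have h3 : (1 : ℤ) = v - E * t * k := by rw [hv']; ring
        rw [h3]
        exact dvd_sub hlamv' h2
      have h4 : lam ∣ 1 := by exact_mod_cast h1
      exact hlam.one_lt.ne' (Nat.dvd_one.mp h4)

/-- **A root in `ℤ_[lam]`.**  A monic irreducible integer polynomial has a root in `ℤ_[lam]`
for some prime `lam ≠ q`. -/
theorem s58hr_exists_root (f : ℤ[X]) (hf : f.Monic) (hirr : Irreducible f) (q : ℕ)
    (hq0 : q ≠ 0) :
    ∃ (lam : ℕ) (_ : Fact lam.Prime), lam ≠ q ∧ ∃ β : ℤ_[lam], Polynomial.aeval β f = 0 := by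
  obtain ⟨U, V, D, hD, hUV⟩ := s58hr_bezout f hf hirr
  have hdeg : f.natDegree ≠ 0 := by
    intro h
    have h1 : f = 1 := by
      have h2 := Polynomial.eq_C_of_natDegree_eq_zero h
      have h3 : f.coeff 0 = 1 := by
        have := hf.coeff_natDegree
        rwa [h] at this
      rw [h2, h3, map_one]
    exact hirr.not_isUnit (h1 ▸ isUnit_one)
  obtain ⟨n, lam, hlam, hdvd, hndvd⟩ :=
    s58hr_prime_dvd_value f hf hdeg (D * q) (mul_ne_zero hD (by exact_mod_cast hq0))
  have hlamF : Fact lam.Prime := ⟨hlam⟩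
  refine ⟨lam, hlamF, ?_, ?_⟩
  · rintro rfl
    exact hndvd (Dvd.intro_left D rfl)
  · -- `lam ∤ f'(n)`
    have hder : ¬ (lam : ℤ) ∣ (derivative f).eval n := by
      intro h
      apply hndvd
      have h1 : U.eval n * f.eval n + V.eval n * (derivative f).eval n = D := by
        have := congrArg (Polynomial.eval n) hUV
        simpa using this
      have h2 : (lam : ℤ) ∣ D := by
        rw [← h1]
        exact dvd_add (Dvd.dvd.mul_left hdvd _) (Dvd.dvd.mul_left h _)
      exact Dvd.dvd.mul_right h2 _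
    have e1 : Polynomial.aeval (n : ℤ_[lam]) f = ((f.eval n : ℤ) : ℤ_[lam]) := by
      rw [Polynomial.aeval_def, Polynomial.eval₂_eq_eval_map]
      have : ((n : ℤ) : ℤ_[lam]) = algebraMap ℤ ℤ_[lam] n := by simp
      rw [this, Polynomial.eval_map_algebraMap, Polynomial.aeval_algebraMap_apply]
      simp
    have e2 : Polynomial.aeval (n : ℤ_[lam]) (derivative f)
        = (((derivative f).eval n : ℤ) : ℤ_[lam]) := by
      rw [Polynomial.aeval_def, Polynomial.eval₂_eq_eval_map]
      have : ((n : ℤ) : ℤ_[lam]) = algebraMap ℤ ℤ_[lam] n := by simp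
      rw [this, Polynomial.eval_map_algebraMap, Polynomial.aeval_algebraMap_apply]
      simp
    have hn1 : ‖Polynomial.aeval (n : ℤ_[lam]) f‖ < 1 := by
      rw [e1]; exact (PadicInt.norm_int_lt_one_iff_dvd _).mpr hdvd
    have hn2 : ‖Polynomial.aeval (n : ℤ_[lam]) (derivative f)‖ = 1 := by
      rw [e2]
      have h1 := PadicInt.norm_le_one (((derivative f).eval n : ℤ) : ℤ_[lam])
      have h2 : ¬ ‖(((derivative f).eval n : ℤ) : ℤ_[lam])‖ < 1 :=
        fun h => hder ((PadicInt.norm_int_lt_one_iff_dvd _).mp h)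
      exact le_antisymm h1 (not_lt.mp h2)
    obtain ⟨z, hz, -⟩ := hensels_lemma (F := f) (a := (n : ℤ_[lam])) (by rw [hn2]; simpa using hn1)
    exact ⟨z, hz⟩

end Fermat.Agent.S58
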