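import Mathlib
import Fermat.Agent.S58.ChiInt
import Fermat.Agent.S58.LevelClaims
import Fermat.Agent.S58.HenselRoot
import Fermat.Agent.S35.NewIota

/-!
# S58, package [M5], second route: the eigenvalue at a good prime from the `λ`-adic transfer

Let `W` be an integral Weierstrass model, `g` a newform of level `M` with
`a_ℓ(g) = a_ℓ(W)` at the primes outside a finite set `S` (containing the bad primes of `W` and
the primes of `M`).  Then `a_q(g) = a_q(W)` at EVERY good prime `q ∤ M` (`s58gf_good`), given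
the transfer `hF` (the trace of a Frobenius at a good prime `q ≠ λ` on any `λ`-adic
representation with Frobenius characteristic polynomials `X² - a_ℓ(W) X + ℓ` outside a finite
set is `a_q(W)`) — the same hypothesis `hF` as in `s58top_main`.

Proof.  `α := a_q(g)` is an algebraic integer; its minimal polynomial `f` over `ℤ` has a root
`β` in `ℤ_[λ]` for some prime `λ ≠ q` (`s58hr_exists_root`).  The eigencharacter `χ` of `g` on
the Hecke algebra away from `S' := {λ} ∪ (S ∖ {q})` has range in `ℤ[α]`, and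
`P(α) ↦ P(β)` is a ring homomorphism `ι : range χ → ℤ_[λ]` (`s58gf_lift`).  S35 for
`(χ, ι)` gives `ρ` with Frobenius characteristic polynomials `X² - a_ℓ(W) X + ℓ` outside
`{λ} ∪ S` and `X² - β X + q` at `q`; by `hF` the trace at `q` is `a_q(W)`, so
`ι(α) = β = a_q(W) = ι(a_q(W))`, and `ι` is injective (`nwi_iota_injective`).

Names are prefixed `s58gf_`.
-/

set_option autoImplicit false

namespace Fermat.Agent.S58

open Polynomial ModularFormClass CuspForm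

section Range

variable {M : ℕ} [NeZero M]

/-- The range of a character of the Hecke algebra with `χ(T_ℓ) = a_ℓ(g)` lies in every subring
of `ℂ` containing the `a_ℓ(g)` (`ℓ ∤ M`, `ℓ ∉ S`; `S` contains the primes of `M`). -/
theorem s58gf_range_le {g : CuspForm (CongruenceSubgroup.Gamma0 M) 2}
    (S : Set ℕ) (hMS : ∀ q : ℕ, q.Prime → q ∣ M → q ∈ S) (R : Subring ℂ)
    (hR : ∀ ℓ : ℕ, ℓ.Prime → ¬ ℓ ∣ M → ℓ ∉ S → qCoeff g ℓ ∈ R)
    (chig : CuspForm.heckeAlgebra M 2 S →+* ℂ)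
    (hchig : ∀ (ℓ : ℕ) (hℓ : ℓ.Prime) (hℓM : ¬ ℓ ∣ M) (hℓS : ℓ ∉ S),
      chig (CuspForm.heckeAlgebra.T hℓ hℓM hℓS) = qCoeff g ℓ) :
    chig.range ≤ R := by
  rintro z ⟨⟨x, hx⟩, rfl⟩
  refine Algebra.adjoin_induction (p := fun x hx => chig ⟨x, hx⟩ ∈ R) ?_ ?_ ?_ ?_ hx
  · rintro y (⟨ℓ, hℓ, hℓM, hℓS, rfl⟩ | ⟨q, hqM, hq, hqS, rfl⟩)
    · have h1 := hR ℓ hℓ hℓM hℓS
      rw [← hchig ℓ hℓ hℓM hℓS] at h1
      exact h1
    · exact absurd (hMS q hq hqM) hqS
  · intro r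
    have h1 : (⟨algebraMap ℤ (Module.End ℂ (CuspForm (CongruenceSubgroup.Gamma0 M) 2)) r,
        Subalgebra.algebraMap_mem _ r⟩ : CuspForm.heckeAlgebra M 2 S)
        = ((r : ℤ) : CuspForm.heckeAlgebra M 2 S) := by
      apply Subtype.ext
      simp
    rw [h1, map_intCast]
    exact intCast_mem R r
  · intro x y hx hy h1 h2
    have h3 : (⟨x + y, add_mem hx hy⟩ : CuspForm.heckeAlgebra M 2 S) = ⟨x, hx⟩ + ⟨y, hy⟩ := rfl
    rw [h3, map_add]
    exact add_mem h1 h2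
  · intro x y hx hy h1 h2
    have h3 : (⟨x * y, mul_mem hx hy⟩ : CuspForm.heckeAlgebra M 2 S) = ⟨x, hx⟩ * ⟨y, hy⟩ := rfl
    rw [h3, map_mul]
    exact mul_mem h1 h2

end Range

/-- **Evaluation at a root of the minimal polynomial.**  For an algebraic integer `α` and a root
`β` (in a commutative ring `B`) of its minimal polynomial over `ℤ`, `P(α) ↦ P(β)` is a ring
homomorphism `ℤ[α] → B`. -/
theorem s58gf_lift (α : ℂ) (hα : IsIntegral ℤ α) {B : Type} [CommRing B] (β : B)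
    (hβ : Polynomial.aeval β (minpoly ℤ α) = 0) :
    ∃ j : (Polynomial.aeval α : ℤ[X] →ₐ[ℤ] ℂ).toRingHom.range →+* B,
      ∀ (x : (Polynomial.aeval α : ℤ[X] →ₐ[ℤ] ℂ).toRingHom.range) (P : ℤ[X]),
        (x : ℂ) = Polynomial.aeval α P → j x = Polynomial.aeval β P := by
  set φ0 : ℤ[X] →+* ℂ := (Polynomial.aeval α : ℤ[X] →ₐ[ℤ] ℂ).toRingHom with hφ0
  have hsurj : Function.Surjective φ0.rangeRestrict := φ0.rangeRestrict_surjective
  have hker : RingHom.ker φ0.rangeRestrict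
      ≤ RingHom.ker (Polynomial.aeval β : ℤ[X] →ₐ[ℤ] B).toRingHom := by
    intro P hP
    rw [RingHom.mem_ker] at hP ⊢
    have h1 : Polynomial.aeval α P = 0 := by
      have h2 := congrArg Subtype.val hP
      rw [RingHom.coe_rangeRestrict] at h2
      exact h2
    obtain ⟨Q, rfl⟩ := minpoly.isIntegrallyClosed_dvd hα h1
    show Polynomial.aeval β (minpoly ℤ α * Q) = 0
    rw [map_mul, hβ, zero_mul]
  refine ⟨RingHom.liftOfSurjective φ0.rangeRestrict hsurj ⟨_, hker⟩, fun x P hx => ?_⟩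
  have h2 : x = φ0.rangeRestrict P := Subtype.ext hx
  rw [h2]
  exact RingHom.liftOfRightInverse_comp_apply _ _ _ ⟨_, hker⟩ P

/-- **[M5], second route.**  The eigenvalue of a newform `g` at a good prime `q` not dividing its
level is `a_q(W)`, if `a_ℓ(g) = a_ℓ(W)` outside a finite set `S` containing the bad primes of
`W` and the primes of the level — from the `λ`-adic Frobenius transfer `hF`. -/
theorem s58gf_good (W : WeierstrassCurve ℤ)
    (hF : ∀ (lam : ℕ) [Fact lam.Prime] (S : Finset ℕ), lam ∈ S →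
      (∀ ℓ : ℕ, ℓ.Prime → (ℓ : ℤ) ∣ W.Δ → ℓ ∈ S) →
      ∀ (O : Type) [CommRing O] [IsDomain O] [IsDiscreteValuationRing O]
        [IsAdicComplete (IsLocalRing.maximalIdeal O) O]
        [Finite (IsLocalRing.ResidueField O)] [CharZero O],
        (lam : O) ∈ IsLocalRing.maximalIdeal O → ∀ ρ : GaloisRepAdic O,
          (∀ ℓ : ℕ, ℓ.Prime → ℓ ∉ S →
            ∀ A : ValuationSubring (AlgebraicClosure ℚ), A.LiesOverPrime ℓ →
              ∀ σ : AlgebraicClosure ℚ ≃ₐ[ℚ] AlgebraicClosure ℚ, A.IsFrobeniusAt σ ℓ →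
                LinearMap.charpoly (ρ.ρ σ) =
                  X ^ 2 - C ((W.apOfModel ℓ : ℤ) : O) * X + C ((ℓ : ℕ) : O)) →
          ∀ q : ℕ, q.Prime → q ≠ lam → W.IsGoodPrimeFor q →
            ∀ A : ValuationSubring (AlgebraicClosure ℚ), A.LiesOverPrime q →
              ∀ σ : AlgebraicClosure ℚ ≃ₐ[ℚ] AlgebraicClosure ℚ, A.IsFrobeniusAt σ q →
                LinearMap.trace O ρ.V (ρ.ρ σ) = ((W.apOfModel q : ℤ) : O))
    (S : Finset ℕ) {M : ℕ} [NeZero M] {g : CuspForm (CongruenceSubgroup.Gamma0 M) 2}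
    (hg : g.IsNewform)
    (hS : ∀ ℓ : ℕ, ℓ.Prime → ℓ ∉ S →
      ¬ (ℓ : ℤ) ∣ W.Δ ∧ ¬ ℓ ∣ M ∧ qCoeff g ℓ = (W.apOfModel ℓ : ℂ))
    (q : ℕ) (hq : q.Prime) (hqΔ : ¬ (q : ℤ) ∣ W.Δ) (hqM : ¬ q ∣ M) :
    qCoeff g q = (W.apOfModel q : ℂ) := by
  classical
  by_cases hqS : q ∈ S
  swap
  · exact (hS q hq hqS).2.2
  have hMS : ∀ r : ℕ, r.Prime → r ∣ M → r ∈ S := fun r hr hrM => by
    by_contra h
    exact (hS r hr h).2.1 hrM
  have hbadS : ∀ ℓ : ℕ, ℓ.Prime → (ℓ : ℤ) ∣ W.Δ → ℓ ∈ S := fun ℓ hℓ hℓΔ => by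
    by_contra h
    exact (hS ℓ hℓ h).1 hℓΔ
  -- `α := a_q(g)` is an algebraic integer
  have hα : IsIntegral ℤ (qCoeff g q) := by
    have hMS0 : ∀ r : ℕ, r.Prime → r ∣ M → r ∈ (↑(S.erase q) : Set ℕ) := fun r hr hrM =>
      Finset.mem_coe.mpr (Finset.mem_erase.mpr ⟨fun h => hqM (h ▸ hrM), hMS r hr hrM⟩)
    obtain ⟨chi0, -, hchi0⟩ := s58m2_chi hg.1 (↑(S.erase q) : Set ℕ) hMS0
    have hq0 : q ∉ (↑(S.erase q) : Set ℕ) :=
      fun h => (Finset.mem_erase.mp (Finset.mem_coe.mp h)).1 rfl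
    have h1 := Fermat.Agent.S35.nwi_isIntegral chi0 (CuspForm.heckeAlgebra.T hq hqM hq0)
    rwa [hchi0 q hq hqM hq0] at h1
  obtain ⟨lam, hlamF, hlamq, β, hβ⟩ := s58hr_exists_root (minpoly ℤ (qCoeff g q))
    (minpoly.monic hα) (minpoly.irreducible hα) q hq.ne_zero
  -- the set `S' = {lam} ∪ (S ∖ {q})`
  have hlamS' : lam ∈ insert lam (S.erase q) := Finset.mem_insert_self _ _
  have hMS' : ∀ r : ℕ, r.Prime → r ∣ M → r ∈ insert lam (S.erase q) := fun r hr hrM =>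
    Finset.mem_insert_of_mem (Finset.mem_erase.mpr ⟨fun h => hqM (h ▸ hrM), hMS r hr hrM⟩)
  have hqS' : q ∉ (↑(insert lam (S.erase q)) : Set ℕ) := by
    intro h
    rcases Finset.mem_insert.mp (Finset.mem_coe.mp h) with h | h
    · exact hlamq h.symm
    · exact (Finset.mem_erase.mp h).1 rfl
  obtain ⟨chig, -, hchig⟩ := s58m2_chi hg.1 (↑(insert lam (S.erase q)) : Set ℕ)
    (fun r hr hrM => Finset.mem_coe.mpr (hMS' r hr hrM))
  -- the range of `chig` lies in `ℤ[α]`, which maps to `ℤ_[lam]` by `α ↦ β`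
  obtain ⟨j, hj⟩ := s58gf_lift (qCoeff g q) hα β hβ
  have hle : chig.range ≤ (Polynomial.aeval (qCoeff g q) : ℤ[X] →ₐ[ℤ] ℂ).toRingHom.range := by
    refine s58gf_range_le (↑(insert lam (S.erase q)) : Set ℕ)
      (fun r hr hrM => Finset.mem_coe.mpr (hMS' r hr hrM)) _ ?_ chig hchig
    intro ℓ hℓ hℓM hℓS'
    by_cases hℓq : ℓ = q
    · rw [hℓq]
      exact ⟨X, by simp⟩
    · have hℓS : ℓ ∉ S := fun h => hℓS' (Finset.mem_coe.mpr
        (Finset.mem_insert_of_mem (Finset.mem_erase.mpr ⟨hℓq, h⟩)))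
      rw [(hS ℓ hℓ hℓS).2.2]
      exact ⟨C (W.apOfModel ℓ), by simp⟩
  have hiotaP : ∀ (x : chig.range) (P : ℤ[X]), (x : ℂ) = Polynomial.aeval (qCoeff g q) P →
      (j.comp (Subring.inclusion hle)) x = Polynomial.aeval β P := by
    intro x P hx
    exact hj (Subring.inclusion hle x) P hx
  obtain ⟨O, i1, i2, i3, i4, i5, i6, i7, i8, i9, hinj, ρ, hfrob, -⟩ :=
    Fermat.Agent.S35.result hg lam (insert lam (S.erase q)) ℤ_[lam] (s58m2_lam_mem lam) chig hchig
      (j.comp (Subring.inclusion hle)) hlamS' hMS'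
  have hlamO : (lam : O) ∈ IsLocalRing.maximalIdeal O := s58m2_lam_mem_ext lam O
  -- Frobenius characteristic polynomials outside `insert lam S`
  have hfrob' : ∀ ℓ : ℕ, ℓ.Prime → ℓ ∉ insert lam S →
      ∀ A : ValuationSubring (AlgebraicClosure ℚ), A.LiesOverPrime ℓ →
        ∀ σ : AlgebraicClosure ℚ ≃ₐ[ℚ] AlgebraicClosure ℚ, A.IsFrobeniusAt σ ℓ →
          LinearMap.charpoly (ρ.ρ σ) =
            X ^ 2 - C ((W.apOfModel ℓ : ℤ) : O) * X + C ((ℓ : ℕ) : O) := by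
    intro ℓ hℓ hℓS A hA σ hσ
    have hℓlam : ℓ ≠ lam := fun h => hℓS (h ▸ Finset.mem_insert_self _ _)
    have hℓS0 : ℓ ∉ S := fun h => hℓS (Finset.mem_insert_of_mem h)
    have hℓM : ¬ ℓ ∣ M := (hS ℓ hℓ hℓS0).2.1
    have hℓS' : ℓ ∉ (↑(insert lam (S.erase q)) : Set ℕ) := by
      intro h
      rcases Finset.mem_insert.mp (Finset.mem_coe.mp h) with h | h
      · exact hℓlam h
      · exact hℓS0 (Finset.mem_of_mem_erase h)
    rw [hfrob ℓ hℓ hℓM hℓS' A hA σ hσ]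
    have h1 : ((j.comp (Subring.inclusion hle)).comp chig.rangeRestrict)
        (CuspForm.heckeAlgebra.T hℓ hℓM hℓS') = ((W.apOfModel ℓ : ℤ) : ℤ_[lam]) := by
      have h2 := hiotaP (chig.rangeRestrict (CuspForm.heckeAlgebra.T hℓ hℓM hℓS'))
        (C (W.apOfModel ℓ)) (by
          rw [RingHom.coe_rangeRestrict, hchig ℓ hℓ hℓM hℓS', (hS ℓ hℓ hℓS0).2.2]
          simp)
      rw [RingHom.comp_apply, h2]
      simp
    rw [h1, map_intCast]
  -- a Frobenius at `q`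
  obtain ⟨A, σ, hA, hσ⟩ := Fermat.Agent.Lib.FrobeniusExists.exists_isFrobeniusAt q hq
  have htr := hF lam (insert lam S) (Finset.mem_insert_self _ _)
    (fun ℓ hℓ hℓΔ => Finset.mem_insert_of_mem (hbadS ℓ hℓ hℓΔ)) O hlamO ρ hfrob' q hq
    (fun h => hlamq h.symm) hqΔ A hA σ hσ
  have hcq := hfrob q hq hqM hqS' A hA σ hσ
  have h2 : ((j.comp (Subring.inclusion hle)).comp chig.rangeRestrict)
      (CuspForm.heckeAlgebra.T hq hqM hqS') = β := by
    have h3 := hiotaP (chig.rangeRestrict (CuspForm.heckeAlgebra.T hq hqM hqS')) X (by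
      rw [RingHom.coe_rangeRestrict, hchig q hq hqM hqS']
      simp)
    rw [RingHom.comp_apply, h3]
    simp
  have h3 := s58m3_trace_of_charpoly _ _ _ hcq
  rw [htr, h2] at h3
  -- `β = a_q(W)`
  have h4 : β = ((W.apOfModel q : ℤ) : ℤ_[lam]) := by
    apply hinj
    rw [← h3, map_intCast]
  -- injectivity of `iota`
  have hinjι := Fermat.Agent.S35.nwi_iota_injective chig (j.comp (Subring.inclusion hle))
  have h5 : chig.rangeRestrict (CuspForm.heckeAlgebra.T hq hqM hqS')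
      = ((W.apOfModel q : ℤ) : chig.range) := by
    apply hinjι
    rw [map_intCast, ← h4, ← h2]
    rfl
  have h6 := congrArg Subtype.val h5
  rw [RingHom.coe_rangeRestrict, hchig q hq hqM hqS'] at h6
  rw [h6]
  simp

end Fermat.Agent.S58
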