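import Mathlib
import Fermat.Agent.S58.NodeFixOf
import Fermat.Agent.S58.NodeRat

/-!
# S58, package NODE: `[EI-FIX]`

`s58nf_fix`: for a Weierstrass curve `W` over `ℤ` with `Δ ≠ 0`, a prime `q ∣ Δ` with `q ∤ c₄`
(multiplicative reduction), a prime `lam ≠ q`, an exponent `n` and a valuation subring `A` of the
algebraic closure of `ℚ` over `q`, the curve has a point of exact order `lam ^ n` which is fixed
by the inertia subgroup of `A`.

Assembly of `s58nfo_fix` (lift of the torsion of the nodal reduction, `S58/NodeFixOf.lean`) and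
`s58nr_exists_order` (points of given order on a nodal cubic, `S58/NodeRat.lean`).
-/

set_option autoImplicit false

namespace Fermat.Agent.S58

open WeierstrassCurve WeierstrassCurve.Affine

/-- **`[EI-FIX]`**: a point of exact order `lam ^ n` fixed by inertia at a prime of
multiplicative reduction. -/
theorem s58nf_fix (W : WeierstrassCurve ℤ) (hΔ : W.Δ ≠ 0) {q : ℕ} (hq : q.Prime)
    (hqΔ : (q : ℤ) ∣ W.Δ) (hqc : ¬ (q : ℤ) ∣ W.c₄) {lam : ℕ} (hlam : lam.Prime) (hlq : lam ≠ q)
    (n : ℕ) (A : ValuationSubring (AlgebraicClosure ℚ)) (hA : A.LiesOverPrime q) :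
    ∃ T : ((W.map (Int.castRingHom ℚ))⁄(AlgebraicClosure ℚ)).Point,
      addOrderOf T = lam ^ n ∧ ∀ σ ∈ A.inertiaSubgroupIn ℚ, σ • T = T :=
  s58nfo_fix (fun Wk α β x0 y0 hαβ h1 h2 h3 h4 h6 m hm =>
    s58nr_exists_order Wk α β x0 y0 hαβ h1 h2 h3 h4 h6 m hm) W hΔ hq hqΔ hqc hlam hlq n A hA

end Fermat.Agent.S58
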