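import Mathlib

/-!
# S58 / [EI-FIX] (N1): the nonsingular locus of a nodal cubic is `𝔾ₘ`

For a Weierstrass cubic `W` over a field `k` with a node `(x0, y0)` whose two tangent slopes
`al ≠ be` lie in `k`, the function
`u(x, y) = (y - y0 - al (x - x0)) / (y - y0 - be (x - x0))`
is multiplicative on collinear triples, hence an injective homomorphism from the group of
nonsingular points to `kˣ`, with explicit preimages.  Consequently, over an algebraically closed
field, a Weierstrass cubic with `Δ = 0` and `c₄ ≠ 0` has nonsingular points of exact order `m`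
for every `m` prime to the characteristic.
-/

namespace Fermat.Agent.S58

open WeierstrassCurve WeierstrassCurve.Affine

section core

variable {k : Type*} [Field k]

/-- Chord case of the collinearity identity. -/
theorem s58ng_chord (al be l m X1 X2 : k) (hX : X1 ≠ X2)
    (h1 : ((l - al) * X1 + m) * ((l - be) * X1 + m) = X1 ^ 3)
    (h2 : ((l - al) * X2 + m) * ((l - be) * X2 + m) = X2 ^ 3) :
    ((l - al) * X1 + m) * ((l - al) * X2 + m) *
      ((l - al) * ((l - al) * (l - be) - X1 - X2) + m) = m ^ 3 := by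
  have h : (X1 - X2) * (((l - al) * X1 + m) * ((l - al) * X2 + m) *
      ((l - al) * ((l - al) * (l - be) - X1 - X2) + m) - m ^ 3) = 0 := by
    linear_combination ((l - al) ^ 3 * X2 + (l - al) ^ 2 * m) * h1
      - ((l - al) ^ 3 * X1 + (l - al) ^ 2 * m) * h2
  rcases mul_eq_zero.1 h with h | h
  · exact absurd (sub_eq_zero.1 h) hX
  · exact sub_eq_zero.1 h

/-- Tangent case of the collinearity identity. -/
theorem s58ng_tangent (al be l m X1 : k)
    (h1 : ((l - al) * X1 + m) * ((l - be) * X1 + m) = X1 ^ 3)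
    (hT : 3 * X1 ^ 2 = 2 * ((l - al) * (l - be)) * X1 + m * (2 * l - al - be)) :
    ((l - al) * X1 + m) * ((l - al) * X1 + m) *
      ((l - al) * ((l - al) * (l - be) - X1 - X1) + m) = m ^ 3 := by
  linear_combination (-(l - al) ^ 3) * h1 + (-(l - al) ^ 3 * X1 - (l - al) ^ 2 * m) * hT

/-- The data of a node `(x0, y0)` of `W` with tangent slopes `al ≠ be`. -/
def S58ngIsNode (W : Affine k) (x0 y0 al be : k) : Prop :=
  W.Equation x0 y0 ∧ W.a₁ * y0 = 3 * x0 ^ 2 + 2 * W.a₂ * x0 + W.a₄ ∧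
    2 * y0 + W.a₁ * x0 + W.a₃ = 0 ∧ al + be = -W.a₁ ∧ al * be = -(3 * x0 + W.a₂) ∧ al ≠ be

theorem s58ng_node_symm {W : Affine k} {x0 y0 al be : k} (hN : S58ngIsNode W x0 y0 al be) :
    S58ngIsNode W x0 y0 be al := by
  obtain ⟨hE, hx, hy, hs, hp, hne⟩ := hN
  exact ⟨hE, hx, hy, by rw [add_comm]; exact hs, by rw [mul_comm]; exact hp, hne.symm⟩

/-- The Weierstrass equation in factored form at a node. -/
theorem s58ng_eq_iff {W : Affine k} {x0 y0 al be : k} (hN : S58ngIsNode W x0 y0 al be)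
    (x y : k) :
    W.Equation x y ↔
      (y - y0 - al * (x - x0)) * (y - y0 - be * (x - x0)) = (x - x0) ^ 3 := by
  obtain ⟨hE, hx, hy, hs, hp, -⟩ := hN
  rw [W.equation_iff] at hE ⊢
  constructor
  · intro h
    linear_combination h - hE - (x - x0) * hx - (y - y0) * hy - (x - x0) * (y - y0) * hs
      + (x - x0) ^ 2 * hp
  · intro h
    linear_combination h + hE + (x - x0) * hx + (y - y0) * hy + (x - x0) * (y - y0) * hs
      - (x - x0) ^ 2 * hp

/-- The node itself is a singular point. -/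
theorem s58ng_node_sing {W : Affine k} {x0 y0 al be : k} (hN : S58ngIsNode W x0 y0 al be) :
    ¬ W.Nonsingular x0 y0 := by
  obtain ⟨-, hx, hy, -, -, -⟩ := hN
  rw [W.nonsingular_iff']
  rintro ⟨-, h | h⟩
  · exact h (sub_eq_zero.2 hx)
  · exact h hy

/-- A nonsingular point is not on the vertical line through the node. -/
theorem s58ng_X_ne {W : Affine k} {x0 y0 al be : k} (hN : S58ngIsNode W x0 y0 al be)
    {x y : k} (h : W.Nonsingular x y) : x - x0 ≠ 0 := by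
  intro hX
  have hxx : x = x0 := sub_eq_zero.1 hX
  subst hxx
  have h1 := (s58ng_eq_iff hN x y).1 h.1
  have h2 : (y - y0) ^ 2 = 0 := by linear_combination h1
  have hyy : y = y0 := sub_eq_zero.1 ((pow_eq_zero_iff (two_ne_zero)).1 h2)
  subst hyy
  exact s58ng_node_sing hN h

/-- On a nonsingular point both linear forms are nonzero. -/
theorem s58ng_ne {W : Affine k} {x0 y0 al be : k} (hN : S58ngIsNode W x0 y0 al be)
    {x y : k} (h : W.Nonsingular x y) :
    y - y0 - al * (x - x0) ≠ 0 ∧ y - y0 - be * (x - x0) ≠ 0 := by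
  have hX := s58ng_X_ne hN h
  have h1 := (s58ng_eq_iff hN x y).1 h.1
  constructor
  · intro h0
    rw [h0, zero_mul] at h1
    exact hX ((pow_eq_zero_iff (three_ne_zero)).1 h1.symm)
  · intro h0
    rw [h0, mul_zero] at h1
    exact hX ((pow_eq_zero_iff (three_ne_zero)).1 h1.symm)

/-- A point of the curve off the vertical line through the node is nonsingular. -/
theorem s58ng_nonsingular {W : Affine k} {x0 y0 al be : k} (hN : S58ngIsNode W x0 y0 al be)
    {x y : k} (h : W.Equation x y) (hX : x - x0 ≠ 0) : W.Nonsingular x y := by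
  rw [W.nonsingular_iff']
  refine ⟨h, ?_⟩
  by_contra hcon
  rw [not_or, not_not, not_not] at hcon
  obtain ⟨hfx, hfy⟩ := hcon
  have h1 := (s58ng_eq_iff hN x y).1 h
  obtain ⟨-, hx, hy, hs, hp, -⟩ := hN
  have h3 : (x - x0) ^ 3 = 0 := by
    linear_combination 2 * h1 + 2 * (x - x0) * (y - y0) * hs - 2 * (x - x0) ^ 2 * hp
      - (x - x0) * hfx + (x - x0) * hx - (y - y0) * hfy + (y - y0) * hy
  exact hX ((pow_eq_zero_iff (three_ne_zero)).1 h3)

/-- The values of the two linear forms at the negative of a point. -/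
theorem s58ng_negY {W : Affine k} {x0 y0 al be : k} (hN : S58ngIsNode W x0 y0 al be)
    (x y : k) : W.negY x y - y0 - al * (x - x0) = -(y - y0 - be * (x - x0)) := by
  obtain ⟨-, -, hy, hs, -, -⟩ := hN
  simp only [negY]
  linear_combination -hy - (x - x0) * hs

/-- The product of the linear form over a collinear triple of the cubic. -/
theorem s58ng_prod {W : Affine k} {x0 y0 al be : k} (hN : S58ngIsNode W x0 y0 al be)
    {x1 y1 x2 y2 l : k} (h1 : W.Equation x1 y1) (h2 : W.Equation x2 y2)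
    (hl : (x1 ≠ x2 ∧ l * (x1 - x2) = y1 - y2) ∨
      (x1 = x2 ∧ y1 = y2 ∧ l * (y1 - W.negY x1 y1) =
        3 * x1 ^ 2 + 2 * W.a₂ * x1 + W.a₄ - W.a₁ * y1)) :
    (y1 - y0 - al * (x1 - x0)) * (y2 - y0 - al * (x2 - x0)) *
      (W.negAddY x1 x2 y1 l - y0 - al * (W.addX x1 x2 l - x0)) =
        (y1 - y0 - l * (x1 - x0)) ^ 3 := by
  have e1 := (s58ng_eq_iff hN x1 y1).1 h1
  have e2 := (s58ng_eq_iff hN x2 y2).1 h2
  obtain ⟨-, hx, hy, hs, hp, -⟩ := hN
  have e3 : W.negAddY x1 x2 y1 l - y0 - al * (W.addX x1 x2 l - x0) =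
      (l - al) * ((l - al) * (l - be) - (x1 - x0) - (x2 - x0)) + (y1 - y0 - l * (x1 - x0)) := by
    simp only [negAddY, addX]
    linear_combination (l - al) * l * hs - (l - al) * hp
  rcases hl with ⟨hne, hl⟩ | ⟨rfl, rfl, hl⟩
  · obtain rfl : y2 = y1 - l * (x1 - x2) := by linear_combination hl
    have key := s58ng_chord al be l (y1 - y0 - l * (x1 - x0)) (x1 - x0) (x2 - x0)
      (fun h => hne (by linear_combination h)) (by linear_combination e1)
      (by linear_combination e2)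
    rw [e3]
    linear_combination key
  · simp only [negY] at hl
    have hT : 3 * (x1 - x0) ^ 2 = 2 * ((l - al) * (l - be)) * (x1 - x0)
        + (y1 - y0 - l * (x1 - x0)) * (2 * l - al - be) := by
      linear_combination -hl + l * hy + hx + (l * (x1 - x0) + (y1 - y0)) * hs
        - 2 * (x1 - x0) * hp
    have key := s58ng_tangent al be l (y1 - y0 - l * (x1 - x0)) (x1 - x0)
      (by linear_combination e1) hT
    rw [e3]
    linear_combination key

/-- The multiplicative coordinate on the nonsingular points of a nodal cubic. -/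
noncomputable def s58ngPhi (W : Affine k) (x0 y0 al be : k) : W.Point → k
  | .zero => 1
  | .some x y _ => (y - y0 - al * (x - x0)) / (y - y0 - be * (x - x0))

theorem s58ng_phi_zero (W : Affine k) (x0 y0 al be : k) :
    s58ngPhi W x0 y0 al be (0 : W.Point) = 1 := rfl

theorem s58ng_phi_some (W : Affine k) (x0 y0 al be : k) {x y : k} (h : W.Nonsingular x y) :
    s58ngPhi W x0 y0 al be (Point.some x y h) =
      (y - y0 - al * (x - x0)) / (y - y0 - be * (x - x0)) := rfl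

/-- Every `z ≠ 0, 1` is the multiplicative coordinate of a nonsingular point. -/
theorem s58ng_phi_surj {W : Affine k} {x0 y0 al be : k} (hN : S58ngIsNode W x0 y0 al be)
    (z : k) (hz0 : z ≠ 0) (hz1 : z ≠ 1) :
    ∃ (x y : k) (h : W.Nonsingular x y), s58ngPhi W x0 y0 al be (Point.some x y h) = z := by
  have h1z : 1 - z ≠ 0 := sub_ne_zero.2 (Ne.symm hz1)
  have hab : al - be ≠ 0 := sub_ne_zero.2 hN.2.2.2.2.2
  obtain ⟨X, hXdef⟩ : ∃ X : k, X = (al - be) ^ 2 * z / (1 - z) ^ 2 := ⟨_, rfl⟩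
  have hX : X ≠ 0 := by
    rw [hXdef]
    exact div_ne_zero (mul_ne_zero (pow_ne_zero 2 hab) hz0) (pow_ne_zero 2 h1z)
  have hXz : X * (1 - z) ^ 2 = (al - be) ^ 2 * z := by
    rw [hXdef]
    field_simp
  have eN : (y0 + X * (al - be * z) / (1 - z)) - y0 - al * ((x0 + X) - x0) =
      X * z * (al - be) / (1 - z) := by
    field_simp
    ring
  have eD : (y0 + X * (al - be * z) / (1 - z)) - y0 - be * ((x0 + X) - x0) =
      X * (al - be) / (1 - z) := by
    field_simp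
    ring
  have hE : W.Equation (x0 + X) (y0 + X * (al - be * z) / (1 - z)) := by
    rw [s58ng_eq_iff hN, eN, eD]
    field_simp
    linear_combination (-X ^ 2) * hXz
  have hns : W.Nonsingular (x0 + X) (y0 + X * (al - be * z) / (1 - z)) :=
    s58ng_nonsingular hN hE (by simpa using hX)
  refine ⟨x0 + X, y0 + X * (al - be * z) / (1 - z), hns, ?_⟩
  rw [s58ng_phi_some, eN, eD]
  field_simp

/-- The multiplicative coordinate is `1` only at the origin. -/
theorem s58ng_phi_eq_one {W : Affine k} {x0 y0 al be : k} (hN : S58ngIsNode W x0 y0 al be)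
    (P : W.Point) (h : s58ngPhi W x0 y0 al be P = 1) : P = 0 := by
  rcases P with _ | ⟨x, y, hP⟩
  · rfl
  · exfalso
    obtain ⟨-, hD⟩ := s58ng_ne hN hP
    have hX := s58ng_X_ne hN hP
    rw [s58ng_phi_some, div_eq_one_iff_eq hD] at h
    have hab : al - be ≠ 0 := sub_ne_zero.2 hN.2.2.2.2.2
    have : (al - be) * (x - x0) = 0 := by linear_combination -h
    rcases mul_eq_zero.1 this with h' | h'
    · exact hab h'
    · exact hX h'

end core

section hom

variable {k : Type*} [Field k] [DecidableEq k]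

/-- The slope of the line through two points that are not opposite. -/
theorem s58ng_slope_cases {W : Affine k} {x1 y1 x2 y2 : k} (h1 : W.Equation x1 y1)
    (h2 : W.Equation x2 y2) (hxy : ¬(x1 = x2 ∧ y1 = W.negY x2 y2)) :
    (x1 ≠ x2 ∧ W.slope x1 x2 y1 y2 * (x1 - x2) = y1 - y2) ∨
      (x1 = x2 ∧ y1 = y2 ∧ W.slope x1 x2 y1 y2 * (y1 - W.negY x1 y1) =
        3 * x1 ^ 2 + 2 * W.a₂ * x1 + W.a₄ - W.a₁ * y1) := by
  by_cases hx : x1 = x2
  · right
    have hy : y1 ≠ W.negY x2 y2 := fun h => hxy ⟨hx, h⟩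
    have hyy : y1 = y2 := Y_eq_of_Y_ne h1 h2 hx hy
    refine ⟨hx, hyy, ?_⟩
    rw [slope_of_Y_ne hx hy]
    have hne : y1 - W.negY x1 y1 ≠ 0 := by
      subst hx hyy
      exact sub_ne_zero.2 hy
    exact div_mul_cancel₀ _ hne
  · left
    refine ⟨hx, ?_⟩
    rw [slope_of_X_ne hx]
    exact div_mul_cancel₀ _ (sub_ne_zero.2 hx)

/-- The multiplicative coordinate is a homomorphism. -/
theorem s58ng_phi_add {W : Affine k} {x0 y0 al be : k} (hN : S58ngIsNode W x0 y0 al be)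
    (P Q : W.Point) :
    s58ngPhi W x0 y0 al be (P + Q) =
      s58ngPhi W x0 y0 al be P * s58ngPhi W x0 y0 al be Q := by
  rcases P with _ | ⟨x1, y1, h1⟩
  · rw [← Point.zero_def, zero_add, s58ng_phi_zero, one_mul]
  rcases Q with _ | ⟨x2, y2, h2⟩
  · rw [← Point.zero_def, add_zero, s58ng_phi_zero, mul_one]
  obtain ⟨hN1, hD1⟩ := s58ng_ne hN h1
  obtain ⟨hN2, hD2⟩ := s58ng_ne hN h2
  by_cases hxy : x1 = x2 ∧ y1 = W.negY x2 y2
  · obtain ⟨rfl, rfl⟩ := hxy
    rw [Point.add_of_Y_eq rfl rfl, s58ng_phi_zero, s58ng_phi_some, s58ng_phi_some,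
      s58ng_negY hN, s58ng_negY (s58ng_node_symm hN), neg_div_neg_eq, div_mul_div_comm,
      mul_comm, div_self (mul_ne_zero hN2 hD2)]
  · have hR := nonsingular_negAdd h1 h2 hxy
    obtain ⟨hN3, hD3⟩ := s58ng_ne hN hR
    have hl := s58ng_slope_cases h1.1 h2.1 hxy
    have pN := s58ng_prod hN h1.1 h2.1 hl
    have pD := s58ng_prod (s58ng_node_symm hN) h1.1 h2.1 hl
    rw [Point.add_some hxy, s58ng_phi_some, s58ng_phi_some, s58ng_phi_some, addY,
      s58ng_negY hN, s58ng_negY (s58ng_node_symm hN), neg_div_neg_eq, div_mul_div_comm,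
      div_eq_div_iff hN3 (mul_ne_zero hD1 hD2)]
    linear_combination pD - pN

theorem s58ng_phi_nsmul {W : Affine k} {x0 y0 al be : k} (hN : S58ngIsNode W x0 y0 al be)
    (P : W.Point) (m : ℕ) :
    s58ngPhi W x0 y0 al be (m • P) = s58ngPhi W x0 y0 al be P ^ m := by
  induction m with
  | zero => rw [zero_nsmul, pow_zero, s58ng_phi_zero]
  | succ m ih => rw [succ_nsmul, s58ng_phi_add hN, ih, pow_succ]

end hom

section node

variable {k : Type*} [Field k]

/-- Clearing denominators in the three equations of a singular point. -/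
theorem s58ng_clear (a1 a2 a3 a4 a6 C x0 y0 : k) :
    C ^ 3 * (y0 ^ 2 + a1 * x0 * y0 + a3 * y0 - (x0 ^ 3 + a2 * x0 ^ 2 + a4 * x0 + a6)) =
        C * (C * y0) ^ 2 + a1 * C * (C * x0) * (C * y0) + a3 * C ^ 2 * (C * y0)
          - ((C * x0) ^ 3 + a2 * C * (C * x0) ^ 2 + a4 * C ^ 2 * (C * x0) + a6 * C ^ 3) ∧
      C ^ 2 * (a1 * y0 - (3 * x0 ^ 2 + 2 * a2 * x0 + a4)) =
        a1 * C * (C * y0) - (3 * (C * x0) ^ 2 + 2 * a2 * C * (C * x0) + a4 * C ^ 2) ∧
      C * (2 * y0 + a1 * x0 + a3) = 2 * (C * y0) + a1 * (C * x0) + a3 * C ∧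
      C * (C * (a1 ^ 2 + 4 * (3 * x0 + a2))) = C * (C * (a1 ^ 2 + 4 * a2) + 12 * (C * x0)) := by
  refine ⟨by ring, by ring, by ring, by ring⟩

/-- The singular point of a Weierstrass cubic with `Δ = 0` and `c₄ ≠ 0`, in every
characteristic. -/
theorem s58ng_node_pt (W : Affine k) (hΔ : W.Δ = 0) (hc4 : W.c₄ ≠ 0) :
    ∃ x0 y0 : k, W.Equation x0 y0 ∧ W.a₁ * y0 = 3 * x0 ^ 2 + 2 * W.a₂ * x0 + W.a₄ ∧
      2 * y0 + W.a₁ * x0 + W.a₃ = 0 ∧ W.c₄ * (W.a₁ ^ 2 + 4 * (3 * x0 + W.a₂)) = -W.c₆ := by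
  obtain ⟨x0, hx0⟩ : ∃ x0 : k, W.c₄ * x0 = 18 * W.b₆ - W.b₂ * W.b₄ :=
    ⟨_, mul_div_cancel₀ _ hc4⟩
  obtain ⟨y0, hy0⟩ : ∃ y0 : k, W.c₄ * y0 = W.b₂ * (W.a₁ * W.a₄ - 2 * W.a₂ * W.a₃)
      + 3 * (W.a₁ * (W.a₃ ^ 2 - 12 * W.a₆) + 8 * W.a₃ * W.a₄) :=
    ⟨_, mul_div_cancel₀ _ hc4⟩
  obtain ⟨hF, hFx, hFy, hd⟩ := s58ng_clear W.a₁ W.a₂ W.a₃ W.a₄ W.a₆ W.c₄ x0 y0
  rw [hx0, hy0] at hF hFx hFy
  rw [hx0] at hd
  have idF : W.c₄ * (W.b₂ * (W.a₁ * W.a₄ - 2 * W.a₂ * W.a₃)
        + 3 * (W.a₁ * (W.a₃ ^ 2 - 12 * W.a₆) + 8 * W.a₃ * W.a₄)) ^ 2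
      + W.a₁ * W.c₄ * (18 * W.b₆ - W.b₂ * W.b₄) * (W.b₂ * (W.a₁ * W.a₄ - 2 * W.a₂ * W.a₃)
        + 3 * (W.a₁ * (W.a₃ ^ 2 - 12 * W.a₆) + 8 * W.a₃ * W.a₄))
      + W.a₃ * W.c₄ ^ 2 * (W.b₂ * (W.a₁ * W.a₄ - 2 * W.a₂ * W.a₃)
        + 3 * (W.a₁ * (W.a₃ ^ 2 - 12 * W.a₆) + 8 * W.a₃ * W.a₄))
      - ((18 * W.b₆ - W.b₂ * W.b₄) ^ 3 + W.a₂ * W.c₄ * (18 * W.b₆ - W.b₂ * W.b₄) ^ 2
        + W.a₄ * W.c₄ ^ 2 * (18 * W.b₆ - W.b₂ * W.b₄) + W.a₆ * W.c₄ ^ 3) = -W.c₆ * W.Δ := by
    simp only [WeierstrassCurve.b₂, WeierstrassCurve.b₄, WeierstrassCurve.b₆,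
      WeierstrassCurve.b₈, WeierstrassCurve.c₄, WeierstrassCurve.c₆, WeierstrassCurve.Δ]
    ring
  have idFx : W.a₁ * W.c₄ * (W.b₂ * (W.a₁ * W.a₄ - 2 * W.a₂ * W.a₃)
        + 3 * (W.a₁ * (W.a₃ ^ 2 - 12 * W.a₆) + 8 * W.a₃ * W.a₄))
      - (3 * (18 * W.b₆ - W.b₂ * W.b₄) ^ 2 + 2 * W.a₂ * W.c₄ * (18 * W.b₆ - W.b₂ * W.b₄)
        + W.a₄ * W.c₄ ^ 2) = 36 * W.Δ := by
    simp only [WeierstrassCurve.b₂, WeierstrassCurve.b₄, WeierstrassCurve.b₆,
      WeierstrassCurve.b₈, WeierstrassCurve.c₄, WeierstrassCurve.Δ]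
    ring
  have idFy : 2 * (W.b₂ * (W.a₁ * W.a₄ - 2 * W.a₂ * W.a₃)
        + 3 * (W.a₁ * (W.a₃ ^ 2 - 12 * W.a₆) + 8 * W.a₃ * W.a₄))
      + W.a₁ * (18 * W.b₆ - W.b₂ * W.b₄) + W.a₃ * W.c₄ = 0 := by
    simp only [WeierstrassCurve.b₂, WeierstrassCurve.b₄, WeierstrassCurve.b₆,
      WeierstrassCurve.c₄]
    ring
  have idd : W.c₄ * (W.a₁ ^ 2 + 4 * W.a₂) + 12 * (18 * W.b₆ - W.b₂ * W.b₄) = -W.c₆ := by
    simp only [WeierstrassCurve.b₂, WeierstrassCurve.b₄, WeierstrassCurve.b₆,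
      WeierstrassCurve.c₄, WeierstrassCurve.c₆]
    ring
  rw [idF, hΔ, mul_zero] at hF
  rw [idFx, hΔ, mul_zero] at hFx
  rw [idFy] at hFy
  rw [idd] at hd
  refine ⟨x0, y0, ?_, ?_, ?_, ?_⟩
  · rw [W.equation_iff]
    rcases mul_eq_zero.1 hF with h | h
    · exact absurd ((pow_eq_zero_iff (three_ne_zero)).1 h) hc4
    · exact sub_eq_zero.1 h
  · rcases mul_eq_zero.1 hFx with h | h
    · exact absurd ((pow_eq_zero_iff (two_ne_zero)).1 h) hc4
    · exact sub_eq_zero.1 h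
  · rcases mul_eq_zero.1 hFy with h | h
    · exact absurd h hc4
    · exact h
  · exact mul_left_cancel₀ hc4 hd

/-- A Weierstrass cubic with `Δ = 0` and `c₄ ≠ 0` over an algebraically closed field has a
node with distinct tangent slopes. -/
theorem s58ng_node [IsAlgClosed k] (W : Affine k) (hΔ : W.Δ = 0) (hc4 : W.c₄ ≠ 0) :
    ∃ x0 y0 al be : k, S58ngIsNode W x0 y0 al be := by
  obtain ⟨x0, y0, hE, hx, hy, hd⟩ := s58ng_node_pt W hΔ hc4
  have hc6 : W.c₆ ≠ 0 := by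
    intro h
    have hrel := W.c_relation
    rw [hΔ, h] at hrel
    have h3 : W.c₄ ^ 3 = 0 := by linear_combination -hrel
    exact hc4 ((pow_eq_zero_iff (three_ne_zero)).1 h3)
  obtain ⟨al, hal⟩ : ∃ al : k, al ^ 2 + W.a₁ * al - (3 * x0 + W.a₂) = 0 := by
    have hdeg : (Polynomial.C (1 : k) * Polynomial.X ^ 2 + Polynomial.C W.a₁ * Polynomial.X
        + Polynomial.C (-(3 * x0 + W.a₂))).degree ≠ 0 := by
      rw [Polynomial.degree_quadratic one_ne_zero]
      norm_num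
    obtain ⟨al, hal⟩ := IsAlgClosed.exists_root _ hdeg
    refine ⟨al, ?_⟩
    simp only [Polynomial.IsRoot.def, Polynomial.eval_add, Polynomial.eval_mul,
      Polynomial.eval_C, Polynomial.eval_pow, Polynomial.eval_X] at hal
    linear_combination hal
  refine ⟨x0, y0, al, -W.a₁ - al, hE, hx, hy, by ring, by linear_combination -hal, ?_⟩
  intro h
  have h2 : 2 * al + W.a₁ = 0 := by linear_combination h
  have h3 : W.a₁ ^ 2 + 4 * (3 * x0 + W.a₂) = 0 := by
    linear_combination (2 * al + W.a₁) * h2 - 4 * hal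
  rw [h3, mul_zero] at hd
  exact hc6 (neg_eq_zero.1 hd.symm)

end node

section main

variable {k : Type*} [Field k] [DecidableEq k] [IsAlgClosed k]

/-- **Nodal cubics have points of every order prime to the characteristic.** -/
theorem s58ng_exists_addOrder (W : Affine k) (hΔ : W.Δ = 0) (hc4 : W.c₄ ≠ 0) (m : ℕ)
    (hm : (m : k) ≠ 0) : ∃ T : W.Point, addOrderOf T = m := by
  obtain ⟨x0, y0, al, be, hN⟩ := s58ng_node W hΔ hc4
  have hm0 : m ≠ 0 := by
    rintro rfl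
    exact hm Nat.cast_zero
  rcases Nat.lt_or_ge m 2 with hlt | hge
  · obtain rfl : m = 1 := by omega
    exact ⟨0, addOrderOf_zero⟩
  have : NeZero (m : k) := ⟨hm⟩
  obtain ⟨ζ, hζ⟩ := HasEnoughRootsOfUnity.exists_primitiveRoot k m
  have hζ0 : ζ ≠ 0 := hζ.ne_zero hm0
  have hζ1 : ζ ≠ 1 := hζ.ne_one (by omega)
  obtain ⟨x, y, h, hphi⟩ := s58ng_phi_surj hN ζ hζ0 hζ1
  refine ⟨Point.some x y h, ?_⟩
  rw [addOrderOf_eq_iff (by omega)]
  constructor
  · apply s58ng_phi_eq_one hN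
    rw [s58ng_phi_nsmul hN, hphi, hζ.pow_eq_one]
  · intro j hj hj0 hcon
    have hj' := s58ng_phi_nsmul hN (Point.some x y h) j
    rw [hcon, s58ng_phi_zero, hphi] at hj'
    exact hζ.pow_ne_one_of_pos_of_lt (by omega) hj hj'.symm

/-- **[EI-FIX] (N1).** On a nodal Weierstrass cubic over an algebraically closed field there is,
for every prime `lam` different from the characteristic and every `n ≥ 1`, a nonsingular point of
exact order `lam ^ n`. -/
theorem s58ng_exists_order (W : Affine k) (hΔ : W.Δ = 0) (hc4 : W.c₄ ≠ 0) (lam : ℕ)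
    (hlam : lam.Prime) (hlamk : (lam : k) ≠ 0) (n : ℕ) (hn : 0 < n) :
    ∃ (x y : k) (h : W.Nonsingular x y),
      lam ^ n • (Point.some x y h : W.Point) = 0 ∧
        lam ^ (n - 1) • (Point.some x y h : W.Point) ≠ 0 := by
  have hm : ((lam ^ n : ℕ) : k) ≠ 0 := by
    rw [Nat.cast_pow]
    exact pow_ne_zero n hlamk
  obtain ⟨T, hT⟩ := s58ng_exists_addOrder W hΔ hc4 (lam ^ n) hm
  have hlt : lam ^ (n - 1) < lam ^ n := Nat.pow_lt_pow_right hlam.one_lt (by omega)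
  have h1 : lam ^ n • T = 0 := by
    rw [← hT]
    exact addOrderOf_nsmul_eq_zero T
  have h2 : lam ^ (n - 1) • T ≠ 0 := by
    intro h
    have hdvd := addOrderOf_dvd_of_nsmul_eq_zero h
    rw [hT] at hdvd
    exact absurd (Nat.le_of_dvd (Nat.pos_of_ne_zero (pow_ne_zero _ hlam.ne_zero)) hdvd)
      (not_le_of_gt hlt)
  rcases T with _ | ⟨x, y, h⟩
  · exfalso
    apply h2
    rw [← Point.zero_def, smul_zero]
  · exact ⟨x, y, h, h1, h2⟩

end main

end Fermat.Agent.S58
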