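import Mathlib
import Fermat.Agent.S13.DivPolyGen
import Fermat.Agent.S13.DivPolyCard

/-!
# S58, package NODE, part N2: lifting a point of exact order `m` from the reduction

`F` an algebraically closed field, `A` a valuation subring of `F`, `WA` a Weierstrass curve over
`A`, `WK` its generic fibre (over `F`, nonsingular) and `Wk` its reduction over the residue field
(any Weierstrass curve, possibly singular).  Let `m ≥ 2` be a unit of `A`.  Every (nonsingular)
point `P'` of `Wk` of exact order `m` is the reduction of an integral point `T` of `WK` of exact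
order `m` (`s58nl_lift_abs`).

The notion of reduction enters through an abstract relation `Red` with the four properties
used (integral points with nonsingular reduction are related to their reduction; compatibility
with negation; only `O` reduces to `O`; additivity when the reductions are not opposite).

Proof: `Ψ_m(P') = 0`, so `x(P')` is a root of the reduction of `ΨSq_m`, whose leading coefficient
`m²` is a unit of `A`; the roots of such a polynomial over `F` lie in `A` and reduce onto the
roots of the reduction (`s58nl_root_lift`).  This gives an integral point `T` with reduction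
`± P'`, killed by some `d ∈ [1, m]` (generic multiplication formula).  Additivity of the reduction
shows `j • T ≠ 0` for `1 ≤ j < m`, so `d = m`.
-/

set_option autoImplicit false

namespace Fermat.Agent.S58

open WeierstrassCurve WeierstrassCurve.Affine Polynomial Fermat.Agent.S13

section roots

variable {F : Type*} [Field F] (A : ValuationSubring F)

/-- The valuation of an element of `F` which is not a nonunit of `A` but lies in `A` is `1`. -/
theorem s58nl_val_eq_one {x : F} (hx : x ∈ A) (hnu : x ∉ A.nonunits) : A.valuation x = 1 := by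
  refine le_antisymm ((A.valuation_le_one_iff x).mpr hx) ?_
  by_contra hlt
  exact hnu (A.mem_nonunits_iff.mpr (not_le.mp hlt))

/-- **Roots reduce onto roots.**  If the leading coefficient of `f ∈ A[X]` is a unit of `A`, every
root of the reduction of `f` in the residue field is the residue of a root of `f` in `A`. -/
theorem s58nl_root_lift [IsAlgClosed F] (f : Polynomial A) (hf : f ≠ 0)
    (hlc : (f.leadingCoeff : F) ∉ A.nonunits)
    (ξ : IsLocalRing.ResidueField A)
    (hξ : (f.map (IsLocalRing.residue A)).eval ξ = 0) :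
    ∃ r : A, (f.map A.subtype).eval (r : F) = 0 ∧ IsLocalRing.residue A r = ξ := by
  obtain ⟨x, rfl⟩ := IsLocalRing.residue_surjective ξ
  have h1 : f.eval x ∈ IsLocalRing.maximalIdeal A := by
    rw [← IsLocalRing.residue_eq_zero_iff, ← hξ, eval_map, eval₂_at_apply]
  have h2 : A.valuation ((f.map A.subtype).eval (x : F)) < 1 := by
    have e : (f.map A.subtype).eval (x : F) = ((f.eval x : A) : F) := by
      rw [eval_map]
      exact eval₂_at_apply A.subtype x
    rw [e]
    exact (A.valuation_lt_one_iff _).mp h1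
  have hsp : (f.map A.subtype).Splits := IsAlgClosed.splits _
  rw [hsp.eval_eq_prod_roots, map_mul, map_multiset_prod, Multiset.map_map] at h2
  have hlcv : A.valuation (f.map A.subtype).leadingCoeff = 1 := by
    rw [leadingCoeff_map_of_injective Subtype.val_injective]
    exact s58nl_val_eq_one A f.leadingCoeff.2 hlc
  rw [hlcv, one_mul] at h2
  have h3 : ∃ r ∈ (f.map A.subtype).roots, A.valuation ((x : F) - r) < 1 := by
    by_contra hcon
    push Not at hcon
    have h4 : 1 ≤ (Multiset.map (⇑A.valuation ∘ fun r => (x : F) - r)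
        (f.map A.subtype).roots).prod := by
      apply Multiset.one_le_prod_of_one_le
      intro v hv
      obtain ⟨r, hr, rfl⟩ := Multiset.mem_map.mp hv
      exact hcon r hr
    exact absurd h2 (not_lt.mpr h4)
  obtain ⟨r, hr, hxr⟩ := h3
  have hr0 : (f.map A.subtype).eval r = 0 := (mem_roots'.mp hr).2
  have hrA : r ∈ A := by
    classical
    exact dpc_mem_of_root A f hf hlc r hr0
  refine ⟨⟨r, hrA⟩, hr0, ?_⟩
  have h5 : x - ⟨r, hrA⟩ ∈ IsLocalRing.maximalIdeal A := (A.valuation_lt_one_iff _).mpr hxr
  rw [← IsLocalRing.residue_eq_zero_iff, map_sub, sub_eq_zero] at h5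
  exact h5.symm

end roots

section lift

variable {F : Type*} [Field F] [DecidableEq F] (A : ValuationSubring F)
  [DecidableEq (IsLocalRing.ResidueField A)]

/-- The order of a point `T` whose reduction has exact order `m`, when some `d ∈ [1, m]` kills
`T`. -/
theorem s58nl_order_of_red (WK : Affine F) (Wk : Affine (IsLocalRing.ResidueField A))
    (Red : WK.Point → Wk.Point → Prop)
    (hzero : ∀ P' : Wk.Point, Red 0 P' → P' = 0)
    (hadd : ∀ (P : WK.Point) (P' : Wk.Point) (Q : WK.Point) (Q' : Wk.Point),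
      Red P P' → Red Q Q' → P' + Q' ≠ 0 → Red (P + Q) (P' + Q'))
    (m : ℕ) (P' : Wk.Point) (hord : ∀ j, 1 ≤ j → j < m → j • P' ≠ 0)
    (T : WK.Point) (hT : Red T P') (hd : ∃ d, 1 ≤ d ∧ d ≤ m ∧ d • T = 0) :
    m • T = 0 ∧ ∀ j, 1 ≤ j → j < m → j • T ≠ 0 := by
  have hred : ∀ j, 1 ≤ j → j < m → Red (j • T) (j • P') := by
    intro j hj
    induction j, hj using Nat.le_induction with
    | base =>
      intro _
      rw [one_nsmul, one_nsmul]
      exact hT
    | succ j hj ih =>
      intro hjm
      rw [succ_nsmul, succ_nsmul]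
      refine hadd _ _ _ _ (ih (by omega)) hT ?_
      rw [← succ_nsmul]
      exact hord (j + 1) (by omega) hjm
  have hne : ∀ j, 1 ≤ j → j < m → j • T ≠ 0 := by
    intro j hj hjm h0
    have h := hred j hj hjm
    rw [h0] at h
    exact hord j hj hjm (hzero _ h)
  obtain ⟨d, hd1, hdm, hd0⟩ := hd
  have hdm' : d = m := by
    by_contra hne'
    exact hne d hd1 (lt_of_le_of_ne hdm hne') hd0
  exact ⟨hdm' ▸ hd0, hne⟩

/-- **Lifting a point of exact order `m` from the reduction** (abstract form). -/
theorem s58nl_lift_abs [IsAlgClosed F] (WA : WeierstrassCurve A) (WK : Affine F)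
    (Wk : Affine (IsLocalRing.ResidueField A))
    (hK : WA.map A.subtype = WK) (hk : WA.map (IsLocalRing.residue A) = Wk)
    (hΔ : WK.Δ ≠ 0)
    (Red : WK.Point → Wk.Point → Prop)
    (hmk : ∀ (x y : F) (h : WK.Nonsingular x y) (hx : x ∈ A) (hy : y ∈ A)
      (h' : Wk.Nonsingular (IsLocalRing.residue A ⟨x, hx⟩) (IsLocalRing.residue A ⟨y, hy⟩)),
      Red (Point.some x y h) (Point.some _ _ h'))
    (hneg : ∀ (P : WK.Point) (P' : Wk.Point), Red P P' → Red (-P) (-P'))
    (hzero : ∀ P' : Wk.Point, Red 0 P' → P' = 0)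
    (hadd : ∀ (P : WK.Point) (P' : Wk.Point) (Q : WK.Point) (Q' : Wk.Point),
      Red P P' → Red Q Q' → P' + Q' ≠ 0 → Red (P + Q) (P' + Q'))
    (m : ℕ) (hm : 2 ≤ m) (hmA : (m : F) ∉ A.nonunits)
    (P' : Wk.Point) (hP' : m • P' = 0) (hord : ∀ j, 1 ≤ j → j < m → j • P' ≠ 0) :
    ∃ T : WK.Point, Red T P' ∧ m • T = 0 ∧ ∀ j, 1 ≤ j → j < m → j • T ≠ 0 := by
  -- the point `P'` is affine
  have hP'0 : P' ≠ 0 := by
    have := hord 1 le_rfl (by omega)
    rwa [one_nsmul] at this
  rcases P' with _ | ⟨x', y', h'⟩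
  · exact absurd rfl hP'0
  -- `x'` is a root of the reduction of `ΨSq_m`
  have hroot' : ((WA.ΨSq (m : ℤ)).map (IsLocalRing.residue A)).eval x' = 0 := by
    rw [← map_ΨSq, hk, dpv_ΨSq h'.1 (m : ℤ)]
    have := dpA_eq_zero_of_order h' m hm hord hP'
    rw [dpA] at this
    rw [this]
    ring
  -- the leading coefficient of `ΨSq_m` is a unit
  have hmA' : (m : F) ∈ A := natCast_mem A m
  have hmv : A.valuation (m : F) = 1 := s58nl_val_eq_one A hmA' hmA
  have hm0 : ((m : ℤ) : A) ≠ 0 := by
    intro h0
    have h1 : (m : F) = 0 := by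
      have := congrArg (fun a : A => (a : F)) h0
      simpa using this
    rw [h1, map_zero] at hmv
    exact zero_ne_one hmv
  have hlcA : (WA.ΨSq (m : ℤ)).leadingCoeff = ((m : ℤ) : A) ^ 2 := leadingCoeff_ΨSq WA hm0
  have hf0 : WA.ΨSq (m : ℤ) ≠ 0 := ΨSq_ne_zero WA hm0
  have hlc : (((WA.ΨSq (m : ℤ)).leadingCoeff : A) : F) ∉ A.nonunits := by
    rw [hlcA, A.mem_nonunits_iff]
    have e : ((((m : ℤ) : A) ^ 2 : A) : F) = (m : F) ^ 2 := by simp
    rw [e, map_pow, hmv, one_pow]
    exact lt_irrefl 1
  obtain ⟨r, hr0, rfl⟩ := s58nl_root_lift A (WA.ΨSq (m : ℤ)) hf0 hlc x' hroot'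
  rw [← map_ΨSq, hK] at hr0
  -- a point of `WK` above `r`
  obtain ⟨y1, h1⟩ := dpe_exists_point WK hΔ (r : F)
  -- its ordinate is integral
  have hy1 : y1 ∈ A := by
    set q : Polynomial A := X ^ 2 + C (WA.a₁ * r + WA.a₃) * X
      - C (r ^ 3 + WA.a₂ * r ^ 2 + WA.a₄ * r + WA.a₆) with hq
    have hqm : q.Monic := by
      rw [hq]
      monicity!
    have hq0 : q ≠ 0 := hqm.ne_zero
    have hqlc : ((q.leadingCoeff : A) : F) ∉ A.nonunits := by
      rw [hqm.leadingCoeff, A.mem_nonunits_iff]
      simp
    refine dpc_mem_of_root A q hq0 hqlc y1 ?_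
    have heq := (equation_iff _ _).mp h1.1
    rw [← hK] at heq
    simp only [map_a₁, map_a₂, map_a₃, map_a₄, map_a₆, ValuationSubring.subtype_apply] at heq
    rw [hq]
    simp only [Polynomial.map_sub, Polynomial.map_add, Polynomial.map_mul, Polynomial.map_pow,
      map_X, map_C, eval_sub, eval_add, eval_mul, eval_pow, eval_X, eval_C, map_add, map_mul,
      map_pow, ValuationSubring.subtype_apply]
    linear_combination heq
  -- its reduction lies on `Wk`
  have hEA : WA.toAffine.Equation r ⟨y1, hy1⟩ := by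
    have := h1.1
    rw [← hK] at this
    exact (map_equation WA.toAffine Subtype.val_injective r ⟨y1, hy1⟩).mp this
  have hEk : Wk.Equation (IsLocalRing.residue A r) (IsLocalRing.residue A ⟨y1, hy1⟩) := by
    have h2 : (WA.map (IsLocalRing.residue A)).toAffine.Equation (IsLocalRing.residue A r)
        (IsLocalRing.residue A ⟨y1, hy1⟩) := Equation.map (IsLocalRing.residue A) hEA
    rwa [hk] at h2
  have key : ∀ T : WK.Point, Red T (Point.some _ _ h') → (∃ d, 1 ≤ d ∧ d ≤ m ∧ d • T = 0) →
      ∃ T : WK.Point, Red T (Point.some _ _ h') ∧ m • T = 0 ∧ ∀ j, 1 ≤ j → j < m → j • T ≠ 0 :=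
    fun T hT hd => ⟨T, hT, s58nl_order_of_red A WK Wk Red hzero hadd m _ hord T hT hd⟩
  -- some `d ∈ [1, m]` kills the point above `r`
  have hd : ∃ d, 1 ≤ d ∧ d ≤ m ∧ d • (Point.some _ _ h1 : WK.Point) = 0 := by
    by_contra hcon
    push Not at hcon
    exact (dp_genericFormula WK (r : F) y1 h1 m (by omega) hcon).1 hr0
  rcases Y_eq_of_X_eq hEk h'.1 rfl with hy | hy
  · -- the reduction is `P'`
    subst hy
    exact key _ (hmk (r : F) y1 h1 r.2 hy1 h') hd
  · -- the reduction is `-P'`
    have hns : Wk.Nonsingular (IsLocalRing.residue A r) (IsLocalRing.residue A ⟨y1, hy1⟩) := by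
      rw [hy]
      exact (nonsingular_neg _ _).mpr h'
    have hR := hneg _ _ (hmk (r : F) y1 h1 r.2 hy1 hns)
    have e : -(Point.some _ _ hns : Wk.Point) = Point.some _ _ h' := by
      rw [Point.neg_some]
      congr 1
      rw [hy, negY_negY]
    rw [e] at hR
    refine key _ hR ?_
    obtain ⟨d, hd1, hdm, hd0⟩ := hd
    exact ⟨d, hd1, hdm, by rw [smul_neg, hd0, neg_zero]⟩

end lift

end Fermat.Agent.S58
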