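import Mathlib
import Fermat.Agent.S13.DivPolyGen
import Fermat.Agent.S13.DivPolyCard
import Fermat.Agent.S58.NodeLift

/-!
# S58, package NODE: lifting a point of exact order `m` from the reduction (self-contained form)

`F` an algebraically closed field, `A` a valuation subring of `F`, `WA` a Weierstrass curve over
`A`, `WK` its generic fibre (nonsingular), `Wk` its reduction (possibly singular), `m ≥ 2` a unit
of `A`.  Every nonsingular point `(x', y')` of `Wk` of exact order `m` is the coordinatewise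
residue of an integral point of `WK` of exact order `m` (`s58nm_lift`).

The exact order of the lift is obtained from the division polynomials on both curves: some
`d ∈ [1, m]` kills the lift `T` (generic formula on `WK`, since `ΨSq_m(x_T) = 0`), and if the
exact order `d` of `T` were `< m`, then `ΨSq_d(x_T) = 0` would reduce to `ΨSq_d(x') = 0`, so
some `j ≤ d` would kill `(x', y')` (generic formula on `Wk`).
-/

set_option autoImplicit false

namespace Fermat.Agent.S58

open WeierstrassCurve WeierstrassCurve.Affine Polynomial Fermat.Agent.S13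

section lift

variable {F : Type*} [Field F] [DecidableEq F] (A : ValuationSubring F)
  [DecidableEq (IsLocalRing.ResidueField A)]

/-- The exact order of an integral point whose reduction has exact order `m`, when some
`d ∈ [1, m]` kills the point. -/
theorem s58nm_order (WA : WeierstrassCurve A) (WK : Affine F)
    (Wk : Affine (IsLocalRing.ResidueField A))
    (hK : WA.map A.subtype = WK) (hk : WA.map (IsLocalRing.residue A) = Wk)
    (m : ℕ) (x : A) (y : F) (h : WK.Nonsingular (x : F) y)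
    (y' : IsLocalRing.ResidueField A) (h' : Wk.Nonsingular (IsLocalRing.residue A x) y')
    (hord : ∀ j, 1 ≤ j → j < m →
      j • (Point.some (IsLocalRing.residue A x) y' h' : Wk.Point) ≠ 0)
    (hd : ∃ d, 1 ≤ d ∧ d ≤ m ∧ d • (Point.some (x : F) y h : WK.Point) = 0) :
    m • (Point.some (x : F) y h : WK.Point) = 0 ∧
      ∀ j, 1 ≤ j → j < m → j • (Point.some (x : F) y h : WK.Point) ≠ 0 := by
  classical
  -- the least `d ≥ 1` killing the point
  have hex : ∃ d, 1 ≤ d ∧ d • (Point.some (x : F) y h : WK.Point) = 0 := by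
    obtain ⟨d, hd1, -, hd0⟩ := hd
    exact ⟨d, hd1, hd0⟩
  set d := Nat.find hex with hdef
  have hd1 : 1 ≤ d := (Nat.find_spec hex).1
  have hd0 : d • (Point.some (x : F) y h : WK.Point) = 0 := (Nat.find_spec hex).2
  have hmin : ∀ j, 1 ≤ j → j < d → j • (Point.some (x : F) y h : WK.Point) ≠ 0 := by
    intro j hj hjd h0
    exact Nat.find_min hex hjd ⟨hj, h0⟩
  have hdm : d ≤ m := by
    obtain ⟨e, he1, hem, he0⟩ := hd
    exact (Nat.find_min' hex ⟨he1, he0⟩).trans hem
  have hd2 : 2 ≤ d := by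
    by_contra hlt
    have hd1' : d = 1 := by omega
    rw [hd1', one_nsmul] at hd0
    exact Point.some_ne_zero h hd0
  suffices hdeq : d = m by
    rw [← hdeq]
    exact ⟨hd0, hmin⟩
  by_contra hne
  have hlt : d < m := lt_of_le_of_ne hdm hne
  -- `ΨSq_d` vanishes at `x`
  have h1 : (WK.ΨSq (d : ℤ)).eval (x : F) = 0 := by
    rw [dpv_ΨSq h.1 (d : ℤ)]
    have := dpA_eq_zero_of_order h d hd2 hmin hd0
    rw [dpA] at this
    rw [this]
    ring
  -- hence at the residue of `x`
  have h2 : (Wk.ΨSq (d : ℤ)).eval (IsLocalRing.residue A x) = 0 := by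
    rw [← hK, map_ΨSq, eval_map] at h1
    have e : eval₂ A.subtype (x : F) (WA.ΨSq (d : ℤ)) = (((WA.ΨSq (d : ℤ)).eval x : A) : F) :=
      eval₂_at_apply A.subtype x
    rw [e] at h1
    have h3 : (WA.ΨSq (d : ℤ)).eval x = 0 := Subtype.ext h1
    rw [← hk, map_ΨSq, eval_map, eval₂_at_apply, h3, map_zero]
  -- contradiction with the generic formula on `Wk`
  have hne' : ∀ j, 1 ≤ j → j ≤ d →
      j • (Point.some (IsLocalRing.residue A x) y' h' : Wk.Point) ≠ 0 :=
    fun j hj hjd => hord j hj (lt_of_le_of_lt hjd hlt)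
  exact (dp_genericFormula Wk (IsLocalRing.residue A x) y' h' d hd1 hne').1 h2

/-- **Lifting a point of exact order `m` from the reduction.** -/
theorem s58nm_lift [IsAlgClosed F] (WA : WeierstrassCurve A) (WK : Affine F)
    (Wk : Affine (IsLocalRing.ResidueField A))
    (hK : WA.map A.subtype = WK) (hk : WA.map (IsLocalRing.residue A) = Wk)
    (hΔ : WK.Δ ≠ 0)
    (m : ℕ) (hm : 2 ≤ m) (hmA : (m : F) ∉ A.nonunits)
    (x' y' : IsLocalRing.ResidueField A) (h' : Wk.Nonsingular x' y')
    (hP' : m • (Point.some x' y' h' : Wk.Point) = 0)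
    (hord : ∀ j, 1 ≤ j → j < m → j • (Point.some x' y' h' : Wk.Point) ≠ 0) :
    ∃ (x y : F) (h : WK.Nonsingular x y) (hx : x ∈ A) (hy : y ∈ A),
      IsLocalRing.residue A ⟨x, hx⟩ = x' ∧ IsLocalRing.residue A ⟨y, hy⟩ = y' ∧
      m • (Point.some x y h : WK.Point) = 0 ∧
      ∀ j, 1 ≤ j → j < m → j • (Point.some x y h : WK.Point) ≠ 0 := by
  -- `x'` is a root of the reduction of `ΨSq_m`
  have hroot' : ((WA.ΨSq (m : ℤ)).map (IsLocalRing.residue A)).eval x' = 0 := by
    rw [← map_ΨSq, hk, dpv_ΨSq h'.1 (m : ℤ)]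
    have := dpA_eq_zero_of_order h' m hm hord hP'
    rw [dpA] at this
    rw [this]
    ring
  -- the leading coefficient of `ΨSq_m` is a unit
  have hmA' : (m : F) ∈ A := natCast_mem A m
  have hmv : A.valuation (m : F) = 1 := s58nl_val_eq_one A hmA' hmA
  have hm0 : ((m : ℤ) : A) ≠ 0 := by
    intro h0
    have h1 : (m : F) = 0 := by
      have := congrArg (fun a : A => (a : F)) h0
      simpa using this
    rw [h1, map_zero] at hmv
    exact zero_ne_one hmv
  have hlcA : (WA.ΨSq (m : ℤ)).leadingCoeff = ((m : ℤ) : A) ^ 2 := leadingCoeff_ΨSq WA hm0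
  have hf0 : WA.ΨSq (m : ℤ) ≠ 0 := ΨSq_ne_zero WA hm0
  have hlc : (((WA.ΨSq (m : ℤ)).leadingCoeff : A) : F) ∉ A.nonunits := by
    rw [hlcA, A.mem_nonunits_iff]
    have e : ((((m : ℤ) : A) ^ 2 : A) : F) = (m : F) ^ 2 := by simp
    rw [e, map_pow, hmv, one_pow]
    exact lt_irrefl 1
  obtain ⟨r, hr0, rfl⟩ := s58nl_root_lift A (WA.ΨSq (m : ℤ)) hf0 hlc x' hroot'
  rw [← map_ΨSq, hK] at hr0
  -- a point of `WK` above `r`
  obtain ⟨y1, h1⟩ := dpe_exists_point WK hΔ (r : F)
  -- its ordinate is integral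
  have hy1 : y1 ∈ A := by
    set q : Polynomial A := X ^ 2 + C (WA.a₁ * r + WA.a₃) * X
      - C (r ^ 3 + WA.a₂ * r ^ 2 + WA.a₄ * r + WA.a₆) with hq
    have hqm : q.Monic := by
      rw [hq]
      monicity!
    have hq0 : q ≠ 0 := hqm.ne_zero
    have hqlc : ((q.leadingCoeff : A) : F) ∉ A.nonunits := by
      rw [hqm.leadingCoeff, A.mem_nonunits_iff]
      simp
    refine dpc_mem_of_root A q hq0 hqlc y1 ?_
    have heq := (equation_iff _ _).mp h1.1
    rw [← hK] at heq
    simp only [map_a₁, map_a₂, map_a₃, map_a₄, map_a₆, ValuationSubring.subtype_apply] at heq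
    rw [hq]
    simp only [Polynomial.map_sub, Polynomial.map_add, Polynomial.map_mul, Polynomial.map_pow,
      map_X, map_C, eval_sub, eval_add, eval_mul, eval_pow, eval_X, eval_C, map_add, map_mul,
      map_pow, ValuationSubring.subtype_apply]
    linear_combination heq
  -- its reduction lies on `Wk`
  have hEA : WA.toAffine.Equation r ⟨y1, hy1⟩ := by
    have := h1.1
    rw [← hK] at this
    exact (map_equation WA.toAffine Subtype.val_injective r ⟨y1, hy1⟩).mp this
  have hEk : Wk.Equation (IsLocalRing.residue A r) (IsLocalRing.residue A ⟨y1, hy1⟩) := by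
    have h2 : (WA.map (IsLocalRing.residue A)).toAffine.Equation (IsLocalRing.residue A r)
        (IsLocalRing.residue A ⟨y1, hy1⟩) := Equation.map (IsLocalRing.residue A) hEA
    rwa [hk] at h2
  -- some `d ∈ [1, m]` kills the point above `r`
  have hd : ∃ d, 1 ≤ d ∧ d ≤ m ∧ d • (Point.some _ _ h1 : WK.Point) = 0 := by
    by_contra hcon
    push Not at hcon
    exact (dp_genericFormula WK (r : F) y1 h1 m (by omega) hcon).1 hr0
  rcases Y_eq_of_X_eq hEk h'.1 rfl with hy | hy
  · -- the reduction is `(x', y')`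
    obtain ⟨hm0', hne⟩ := s58nm_order A WA WK Wk hK hk m r y1 h1 y' h' hord hd
    exact ⟨(r : F), y1, h1, r.2, hy1, rfl, hy, hm0', hne⟩
  · -- the reduction is `-(x', y')`: take the opposite point
    have h1n : WK.Nonsingular (r : F) (WK.negY (r : F) y1) := (nonsingular_neg _ _).mpr h1
    have hnegA : WK.negY (r : F) y1 ∈ A := by
      rw [← hK]
      simp only [negY, map_a₁, map_a₃, ValuationSubring.subtype_apply]
      exact A.sub_mem (A.sub_mem (A.neg_mem _ hy1) (A.mul_mem _ _ (WA.a₁).2 r.2)) (WA.a₃).2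
    have ha1 : WK.a₁ = (WA.a₁ : F) := by rw [← hK]; rfl
    have ha3 : WK.a₃ = (WA.a₃ : F) := by rw [← hK]; rfl
    have hres : IsLocalRing.residue A ⟨WK.negY (r : F) y1, hnegA⟩ = y' := by
      have e : (⟨WK.negY (r : F) y1, hnegA⟩ : A) = -⟨y1, hy1⟩ - WA.a₁ * r - WA.a₃ := by
        apply Subtype.ext
        show WK.negY (r : F) y1 = ((-⟨y1, hy1⟩ - WA.a₁ * r - WA.a₃ : A) : F)
        rw [negY, ha1, ha3]
        push_cast
        ring
      rw [e, map_sub, map_sub, map_neg, map_mul, hy, ← hk]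
      simp only [negY, map_a₁, map_a₃]
      ring
    have hdn : ∃ d, 1 ≤ d ∧ d ≤ m ∧ d • (Point.some _ _ h1n : WK.Point) = 0 := by
      obtain ⟨d, hd1, hdm, hd0⟩ := hd
      refine ⟨d, hd1, hdm, ?_⟩
      have e : (Point.some _ _ h1n : WK.Point) = -Point.some _ _ h1 := by
        rw [Point.neg_some]
      rw [e, smul_neg, hd0, neg_zero]
    obtain ⟨hm0', hne⟩ := s58nm_order A WA WK Wk hK hk m r (WK.negY (r : F) y1) h1n y' h' hord hdn
    exact ⟨(r : F), WK.negY (r : F) y1, h1n, r.2, hnegA, rfl, hres, hm0', hne⟩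

end lift

end Fermat.Agent.S58
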