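import Mathlib

/-!
# S58, NODE [N-A]: a nodal cubic has points of every exact order prime to the characteristic
(Mathlib only)

`W` is the Weierstrass curve `(Y - αX)(Y - βX) = X³` in the coordinates `X = x - x0`,
`Y = y - y0` (a node at `(x0, y0)` with tangent slopes `α ≠ β`).  The lines through the node
parametrise the curve: `t ↦ (x0 + (t - α)(t - β), y0 + t (t - α)(t - β))`, and in the parameter
`u = (t - α) / (t - β)` the group law of the nonsingular points is the multiplication.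

* `s58no_equation`, `s58no_nonsingular_of`: the parametrisation, and nonsingularity away from the
  node;
* `s58no_add_formula`: the chord-and-tangent formulas in the parameter `t` (polynomial
  identities); `s58no_add`: `P[t₁] + P[t₂] = P[t₃]` with `t₃ (t₁ + t₂ - α - β) = t₁ t₂ - α β`;
* `s58no_add_inv`, `s58no_add_mul`: in the parameter `u`: `P(u) + P(v) = 0` if `u v = 1` and
  `P(u) + P(v) = P(u v)` otherwise;
* `s58no_exists_order`: over an algebraically closed field there is a point of exact order `m`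
  for every `m` with `(m : k) ≠ 0`.

Names are prefixed `s58no`.
-/

set_option autoImplicit false

open WeierstrassCurve WeierstrassCurve.Affine

namespace Fermat.Agent.S58

section Node

variable {k : Type*} [Field k] (V : Affine k) (α β x0 y0 : k)

/-- abscissa of the point with parameter `t` (the slope of the line through the node) -/
def s58noX (t : k) : k := x0 + (t - α) * (t - β)

/-- ordinate of the point with parameter `t` -/
def s58noY (t : k) : k := y0 + t * ((t - α) * (t - β))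

/-- the parameter `t` in terms of `u = (t - α) / (t - β)` -/
noncomputable def s58noT (u : k) : k := (β * u - α) / (u - 1)

variable (h1 : V.a₁ = -(α + β)) (h2 : V.a₂ = -(α * β + 3 * x0))
  (h3 : V.a₃ = (α + β) * x0 - 2 * y0)
  (h4 : V.a₄ = 2 * α * β * x0 + 3 * x0 ^ 2 - (α + β) * y0)
  (h6 : V.a₆ = -(y0 ^ 2 - (α + β) * x0 * y0 + α * β * x0 ^ 2 + x0 ^ 3))

include h1 h2 h3 h4 h6 in
/-- the parametrisation lies on the curve -/
theorem s58no_equation (t : k) : V.Equation (s58noX α β x0 t) (s58noY α β y0 t) := by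
  rw [Affine.equation_iff, h1, h2, h3, h4, h6]
  simp only [s58noX, s58noY]
  ring

include h1 h2 h3 h4 h6 in
/-- a point of the curve away from the node is nonsingular -/
theorem s58no_nonsingular_of {x y : k} (h : V.Equation x y) (hx : x ≠ x0) :
    V.Nonsingular x y := by
  rw [Affine.nonsingular_iff]
  refine ⟨h, ?_⟩
  by_contra hcon
  push Not at hcon
  obtain ⟨e1, e2⟩ := hcon
  rw [Affine.equation_iff, h1, h2, h3, h4, h6] at h
  rw [h1, h2, h4] at e1
  rw [h1, h3] at e2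
  have h3' : (x - x0) ^ 3 = 0 := by
    linear_combination 2 * h - (x - x0) * e1 - (y - y0) * e2
  exact hx (sub_eq_zero.mp ((pow_eq_zero_iff (three_ne_zero)).mp h3'))

include h1 h2 h3 h4 h6 in
/-- the points with parameter `t ≠ α, β` are nonsingular -/
theorem s58no_nonsingular (t : k) (ht : (t - α) * (t - β) ≠ 0) :
    V.Nonsingular (s58noX α β x0 t) (s58noY α β y0 t) := by
  apply s58no_nonsingular_of V α β x0 y0 h1 h2 h3 h4 h6 (s58no_equation V α β x0 y0 h1 h2 h3 h4 h6 t)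
  intro h
  apply ht
  simp only [s58noX] at h
  linear_combination h

include h1 h2 h3 in
/-- the chord-and-tangent formulas in the parameter `t` -/
theorem s58no_add_formula (t₁ t₂ L : k)
    (hL : L * (t₁ + t₂ - α - β) =
      t₁ ^ 2 + t₁ * t₂ + t₂ ^ 2 - (α + β) * (t₁ + t₂) + α * β) :
    V.addX (s58noX α β x0 t₁) (s58noX α β x0 t₂) L = s58noX α β x0 (t₁ + t₂ - L) ∧
      V.addY (s58noX α β x0 t₁) (s58noX α β x0 t₂) (s58noY α β y0 t₁) L =
        s58noY α β y0 (t₁ + t₂ - L) := by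
  have hX : V.addX (s58noX α β x0 t₁) (s58noX α β x0 t₂) L = s58noX α β x0 (t₁ + t₂ - L) := by
    simp only [addX, h1, h2, s58noX]
    linear_combination 2 * hL
  refine ⟨hX, ?_⟩
  simp only [addY, negY, negAddY, hX, h1, h3]
  simp only [s58noX, s58noY]
  linear_combination (-(L + α + β - 2 * t₁ - t₂)) * hL

/-- `(t - α)(t - β)` in the parameter `u` -/
theorem s58noT_sub (u : k) (hu : u ≠ 1) :
    (s58noT α β u - α) * (s58noT α β u - β) = u * (β - α) ^ 2 / (u - 1) ^ 2 := by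
  have hu' : u - 1 ≠ 0 := sub_ne_zero.mpr hu
  simp only [s58noT]
  field_simp
  ring

/-- `t₁ + t₂ - α - β` in the parameters `u`, `v` -/
theorem s58noT_add (u v : k) (hu : u ≠ 1) (hv : v ≠ 1) :
    s58noT α β u + s58noT α β v - α - β = (β - α) * (u * v - 1) / ((u - 1) * (v - 1)) := by
  have hu' : u - 1 ≠ 0 := sub_ne_zero.mpr hu
  have hv' : v - 1 ≠ 0 := sub_ne_zero.mpr hv
  simp only [s58noT]
  field_simp
  ring

/-- the parameter of the sum -/
theorem s58noT_mul (u v : k) (hu : u ≠ 1) (hv : v ≠ 1) (huv : u * v ≠ 1) :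
    s58noT α β (u * v) * (s58noT α β u + s58noT α β v - α - β) =
      s58noT α β u * s58noT α β v - α * β := by
  have hu' : u - 1 ≠ 0 := sub_ne_zero.mpr hu
  have hv' : v - 1 ≠ 0 := sub_ne_zero.mpr hv
  have huv' : u * v - 1 ≠ 0 := sub_ne_zero.mpr huv
  simp only [s58noT]
  field_simp
  ring

variable [DecidableEq k]

include h1 h2 h3 h4 in
/-- **addition in the parameter `t`** -/
theorem s58no_add (t₁ t₂ t₃ : k)
    (h₁ : V.Nonsingular (s58noX α β x0 t₁) (s58noY α β y0 t₁))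
    (h₂ : V.Nonsingular (s58noX α β x0 t₂) (s58noY α β y0 t₂))
    (hX₁ : (t₁ - α) * (t₁ - β) ≠ 0) (hs : t₁ + t₂ - α - β ≠ 0)
    (ht₃ : t₃ * (t₁ + t₂ - α - β) = t₁ * t₂ - α * β)
    (h₃ : V.Nonsingular (s58noX α β x0 t₃) (s58noY α β y0 t₃)) :
    Point.some _ _ h₁ + Point.some _ _ h₂ = Point.some _ _ h₃ := by
  -- the slope of the chord / tangent
  have key : ∀ L : k, L * (t₁ + t₂ - α - β) =
      t₁ ^ 2 + t₁ * t₂ + t₂ ^ 2 - (α + β) * (t₁ + t₂) + α * β →
      V.addX (s58noX α β x0 t₁) (s58noX α β x0 t₂) L = s58noX α β x0 t₃ ∧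
      V.addY (s58noX α β x0 t₁) (s58noX α β x0 t₂) (s58noY α β y0 t₁) L =
        s58noY α β y0 t₃ := by
    intro L hL
    have e : t₃ = t₁ + t₂ - L := by
      apply mul_right_cancel₀ hs
      rw [ht₃]
      linear_combination hL
    rw [e]
    exact s58no_add_formula V α β x0 y0 h1 h2 h3 t₁ t₂ L hL
  by_cases ht : t₁ = t₂
  · subst ht
    have hy : s58noY α β y0 t₁ ≠ V.negY (s58noX α β x0 t₁) (s58noY α β y0 t₁) := by
      intro hy
      simp only [negY, h1, h3, s58noX, s58noY] at hy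
      have h0 : (t₁ + t₁ - α - β) * ((t₁ - α) * (t₁ - β)) = 0 := by linear_combination hy
      rcases mul_eq_zero.mp h0 with h | h
      · exact hs h
      · exact hX₁ h
    have hL := key (V.slope (s58noX α β x0 t₁) (s58noX α β x0 t₁) (s58noY α β y0 t₁)
      (s58noY α β y0 t₁)) (by
        rw [slope_of_Y_ne rfl hy, div_mul_eq_mul_div, div_eq_iff (sub_ne_zero.mpr hy)]
        simp only [negY, h1, h2, h3, h4, s58noX, s58noY]
        ring)
    rw [Point.add_of_Y_ne hy]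
    congr 1
    · exact hL.1
    · exact hL.2
  · have hx : s58noX α β x0 t₁ ≠ s58noX α β x0 t₂ := by
      intro hx
      simp only [s58noX] at hx
      have h0 : (t₁ - t₂) * (t₁ + t₂ - α - β) = 0 := by linear_combination hx
      rcases mul_eq_zero.mp h0 with h | h
      · exact ht (sub_eq_zero.mp h)
      · exact hs h
    have hL := key (V.slope (s58noX α β x0 t₁) (s58noX α β x0 t₂) (s58noY α β y0 t₁)
      (s58noY α β y0 t₂)) (by
        rw [slope_of_X_ne hx, div_mul_eq_mul_div, div_eq_iff (sub_ne_zero.mpr hx)]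
        simp only [s58noX, s58noY]
        ring)
    rw [Point.add_of_X_ne hx]
    congr 1
    · exact hL.1
    · exact hL.2

include h1 h3 in
/-- opposite points in the parameter `t` -/
theorem s58no_add_neg (t₁ t₂ : k)
    (h₁ : V.Nonsingular (s58noX α β x0 t₁) (s58noY α β y0 t₁))
    (h₂ : V.Nonsingular (s58noX α β x0 t₂) (s58noY α β y0 t₂))
    (hs : t₁ + t₂ - α - β = 0) :
    Point.some _ _ h₁ + Point.some _ _ h₂ = 0 := by
  have e : t₂ = α + β - t₁ := by linear_combination hs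
  subst e
  apply Point.add_of_Y_eq
  · simp only [s58noX]
    ring
  · simp only [negY, h1, h3, s58noX, s58noY]
    ring

omit [DecidableEq k] in
include h1 h2 h3 h4 h6 in
/-- the point with parameter `u ≠ 0, 1` is nonsingular -/
theorem s58no_nonsingular_u (hαβ : α ≠ β) (u : k) (hu0 : u ≠ 0) (hu1 : u ≠ 1) :
    V.Nonsingular (s58noX α β x0 (s58noT α β u)) (s58noY α β y0 (s58noT α β u)) := by
  apply s58no_nonsingular V α β x0 y0 h1 h2 h3 h4 h6
  rw [s58noT_sub α β u hu1]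
  exact div_ne_zero (mul_ne_zero hu0 (pow_ne_zero 2 (sub_ne_zero.mpr hαβ.symm)))
    (pow_ne_zero 2 (sub_ne_zero.mpr hu1))

include h1 h2 h3 h4 h6 in
/-- `P(u) + P(v) = 0` when `u v = 1` -/
theorem s58no_add_inv (hαβ : α ≠ β) (u v : k) (hu0 : u ≠ 0) (hu1 : u ≠ 1) (hv0 : v ≠ 0)
    (hv1 : v ≠ 1) (huv : u * v = 1) :
    Point.some _ _ (s58no_nonsingular_u V α β x0 y0 h1 h2 h3 h4 h6 hαβ u hu0 hu1) +
      Point.some _ _ (s58no_nonsingular_u V α β x0 y0 h1 h2 h3 h4 h6 hαβ v hv0 hv1) = 0 := by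
  apply s58no_add_neg V α β x0 y0 h1 h3
  rw [s58noT_add α β u v hu1 hv1, huv, sub_self, mul_zero, zero_div]

include h1 h2 h3 h4 h6 in
/-- `P(u) + P(v) = P(u v)` when `u v ≠ 1` -/
theorem s58no_add_mul (hαβ : α ≠ β) (u v : k) (hu0 : u ≠ 0) (hu1 : u ≠ 1) (hv0 : v ≠ 0)
    (hv1 : v ≠ 1) (huv : u * v ≠ 1) :
    Point.some _ _ (s58no_nonsingular_u V α β x0 y0 h1 h2 h3 h4 h6 hαβ u hu0 hu1) +
      Point.some _ _ (s58no_nonsingular_u V α β x0 y0 h1 h2 h3 h4 h6 hαβ v hv0 hv1) =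
    Point.some _ _ (s58no_nonsingular_u V α β x0 y0 h1 h2 h3 h4 h6 hαβ (u * v)
      (mul_ne_zero hu0 hv0) huv) := by
  apply s58no_add V α β x0 y0 h1 h2 h3 h4
  · rw [s58noT_sub α β u hu1]
    exact div_ne_zero (mul_ne_zero hu0 (pow_ne_zero 2 (sub_ne_zero.mpr hαβ.symm)))
      (pow_ne_zero 2 (sub_ne_zero.mpr hu1))
  · rw [s58noT_add α β u v hu1 hv1]
    exact div_ne_zero (mul_ne_zero (sub_ne_zero.mpr hαβ.symm) (sub_ne_zero.mpr huv))
      (mul_ne_zero (sub_ne_zero.mpr hu1) (sub_ne_zero.mpr hv1))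
  · exact s58noT_mul α β u v hu1 hv1 huv

omit [DecidableEq k] in
include h1 h2 h3 h4 h6 in
/-- the point depends only on the parameter -/
theorem s58no_congr (hαβ : α ≠ β) (u v : k) (hu0 : u ≠ 0) (hu1 : u ≠ 1) (hv0 : v ≠ 0)
    (hv1 : v ≠ 1) (huv : u = v) :
    (Point.some _ _ (s58no_nonsingular_u V α β x0 y0 h1 h2 h3 h4 h6 hαβ u hu0 hu1) : V.Point) =
      Point.some _ _ (s58no_nonsingular_u V α β x0 y0 h1 h2 h3 h4 h6 hαβ v hv0 hv1) := by
  subst huv
  rfl

end Node

/-- **[N-A]** a nodal cubic over an algebraically closed field has a point of exact order `m`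
for every `m` prime to the characteristic. -/
theorem s58no_exists_order {k : Type*} [Field k] [DecidableEq k] [IsAlgClosed k]
    (W : WeierstrassCurve k) (α β x0 y0 : k) (hαβ : α ≠ β) (h1 : W.a₁ = -(α + β))
    (h2 : W.a₂ = -(α * β + 3 * x0)) (h3 : W.a₃ = (α + β) * x0 - 2 * y0)
    (h4 : W.a₄ = 2 * α * β * x0 + 3 * x0 ^ 2 - (α + β) * y0)
    (h6 : W.a₆ = -(y0 ^ 2 - (α + β) * x0 * y0 + α * β * x0 ^ 2 + x0 ^ 3)) (m : ℕ)
    (hm : (m : k) ≠ 0) : ∃ P : W.toAffine.Point, addOrderOf P = m := by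
  have hm0 : m ≠ 0 := by
    rintro rfl
    simp at hm
  by_cases hm1 : m = 1
  · exact ⟨0, by rw [hm1, addOrderOf_zero]⟩
  have hm2 : 2 ≤ m := by omega
  have hne : NeZero (m : k) := ⟨hm⟩
  obtain ⟨ζ, hζ⟩ := HasEnoughRootsOfUnity.exists_primitiveRoot k m
  have hζ0 : ζ ≠ 0 := hζ.ne_zero hm0
  have hpow0 : ∀ j : ℕ, ζ ^ j ≠ 0 := fun j => pow_ne_zero j hζ0
  have hpow1 : ∀ j : ℕ, 1 ≤ j → j < m → ζ ^ j ≠ 1 := fun j hj1 hj2 =>
    hζ.pow_ne_one_of_pos_of_lt (by omega) hj2
  have hζ1 : ζ ≠ 1 := hζ.ne_one (by omega)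
  have hmul : ∀ j : ℕ, ∀ hj1 : 1 ≤ j, ∀ hj : j < m,
      j • (Point.some _ _ (s58no_nonsingular_u W.toAffine α β x0 y0 h1 h2 h3 h4 h6 hαβ ζ hζ0 hζ1) :
        W.toAffine.Point) =
      Point.some _ _ (s58no_nonsingular_u W.toAffine α β x0 y0 h1 h2 h3 h4 h6 hαβ (ζ ^ j) (hpow0 j)
        (hpow1 j hj1 hj)) := by
    intro j
    induction j with
    | zero => intro hj1; omega
    | succ j ih =>
      intro hj1 hj
      by_cases hj0 : j = 0
      · subst hj0
        refine (one_nsmul _).trans ?_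
        exact s58no_congr W.toAffine α β x0 y0 h1 h2 h3 h4 h6 hαβ ζ (ζ ^ (0 + 1)) hζ0 hζ1
          (hpow0 _) (hpow1 _ hj1 hj) (by rw [zero_add, pow_one])
      · rw [succ_nsmul, ih (by omega) (by omega),
          s58no_add_mul W.toAffine α β x0 y0 h1 h2 h3 h4 h6 hαβ (ζ ^ j) ζ (hpow0 j)
            (hpow1 j (by omega) (by omega)) hζ0 hζ1 (by rw [← pow_succ]; exact hpow1 _ hj1 hj)]
        exact s58no_congr W.toAffine α β x0 y0 h1 h2 h3 h4 h6 hαβ (ζ ^ j * ζ) (ζ ^ (j + 1))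
          (mul_ne_zero (hpow0 j) hζ0) (by rw [← pow_succ]; exact hpow1 _ hj1 hj) (hpow0 _)
          (hpow1 _ hj1 hj) (pow_succ ζ j).symm
  refine ⟨Point.some _ _ (s58no_nonsingular_u W.toAffine α β x0 y0 h1 h2 h3 h4 h6 hαβ ζ hζ0 hζ1),
    (addOrderOf_eq_iff (by omega)).mpr ⟨?_, ?_⟩⟩
  · obtain ⟨n, rfl⟩ : ∃ n, m = n + 1 := ⟨m - 1, by omega⟩
    rw [succ_nsmul, hmul n (by omega) (by omega)]
    exact s58no_add_inv W.toAffine α β x0 y0 h1 h2 h3 h4 h6 hαβ (ζ ^ n) ζ (hpow0 n)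
      (hpow1 n (by omega) (by omega)) hζ0 hζ1 (by rw [← pow_succ]; exact hζ.pow_eq_one)
  · intro j hj hj0
    rw [hmul j hj0 hj]
    exact Point.some_ne_zero _

end Fermat.Agent.S58
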