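import Mathlib

/-!
# S58, package [N-A], abstract half: a point of exact order `m` from a parametrisation by `kˣ`

`s58nx_exists_order` : let `k` be an algebraically closed field, `G` an additive commutative
group and `P : kˣ → G` a map with `P 1 = 0`, `P u ≠ 0` for `u ≠ 1`, and the three addition
rules of a parametrised nodal cubic (inverse, chord, tangent).  Then for every `m` with
`(m : k) ≠ 0` there is an element of `G` of exact additive order `m`.

`s58nx_add` : the same three rules make `P` additive, `P u + P v = P (u * v)`.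

Names are prefixed `s58nx_`.  Imports Mathlib only.
-/

set_option autoImplicit false

namespace Fermat.Agent.S58

/-- A map `P : M → G` from a commutative group with `P 1 = 0` and the inverse, chord and
tangent rules is additive. -/
theorem s58nx_add {M G : Type*} [CommGroup M] [AddCommGroup G] (P : M → G)
    (h1 : P 1 = 0) (hneg : ∀ u : M, u ≠ 1 → P u⁻¹ = -P u)
    (hchord : ∀ u v : M, u ≠ 1 → v ≠ 1 → u ≠ v → u * v ≠ 1 → P u + P v = P (u * v))
    (htan : ∀ u : M, u ≠ 1 → u * u ≠ 1 → P u + P u = P (u * u)) (u v : M) :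
    P u + P v = P (u * v) := by
  by_cases hu : u = 1
  · subst hu; rw [h1, zero_add, one_mul]
  by_cases hv : v = 1
  · subst hv; rw [h1, add_zero, mul_one]
  by_cases huv : u * v = 1
  · have hv' : v = u⁻¹ := (eq_inv_of_mul_eq_one_right huv)
    rw [huv, h1, hv', hneg u hu, add_neg_cancel]
  by_cases he : u = v
  · subst he; exact htan u hu huv
  · exact hchord u v hu hv he huv

/-- **[N-A], abstract half.**  An injective parametrisation `P : kˣ → G` obeying the inverse,
chord and tangent rules produces an element of exact order `m` whenever `(m : k) ≠ 0`. -/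
theorem s58nx_exists_order {k : Type*} [Field k] [IsAlgClosed k] {G : Type*} [AddCommGroup G]
    (P : kˣ → G) (h1 : P 1 = 0) (hne : ∀ u : kˣ, u ≠ 1 → P u ≠ 0)
    (hneg : ∀ u : kˣ, u ≠ 1 → P u⁻¹ = -P u)
    (hchord : ∀ u v : kˣ, u ≠ 1 → v ≠ 1 → u ≠ v → u * v ≠ 1 → P u + P v = P (u * v))
    (htan : ∀ u : kˣ, u ≠ 1 → u * u ≠ 1 → P u + P u = P (u * u))
    (m : ℕ) (hm : (m : k) ≠ 0) : ∃ T : G, addOrderOf T = m := by
  have hadd := s58nx_add P h1 hneg hchord htan
  -- the homomorphism `kˣ →* Multiplicative G`
  let φ : kˣ →* Multiplicative G :=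
    { toFun := fun u => Multiplicative.ofAdd (P u)
      map_one' := by rw [h1]; rfl
      map_mul' := fun u v => by rw [← hadd u v]; rfl }
  have hφ : Function.Injective φ := by
    rw [injective_iff_map_eq_one]
    intro u hu
    by_contra h
    exact hne u h (by simpa [φ] using hu)
  -- a primitive `m`-th root of unity
  have : NeZero (m : k) := ⟨hm⟩
  have hm0 : m ≠ 0 := fun h => hm (by rw [h, Nat.cast_zero])
  have : NeZero m := ⟨hm0⟩
  obtain ⟨ζ, hζ⟩ := HasEnoughRootsOfUnity.exists_primitiveRoot k m
  have hζ0 : ζ ≠ 0 := hζ.ne_zero hm0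
  let u : kˣ := Units.mk0 ζ hζ0
  have hu : IsPrimitiveRoot u m := by
    rw [← IsPrimitiveRoot.coe_units_iff]
    exact hζ
  refine ⟨P u, ?_⟩
  have h2 : orderOf (φ u) = orderOf u := orderOf_injective φ hφ u
  have h3 : orderOf u = m := hu.eq_orderOf.symm
  have h4 : addOrderOf (P u) = orderOf (Multiplicative.ofAdd (P u)) :=
    (orderOf_ofAdd_eq_addOrderOf (P u)).symm
  rw [h4]
  exact h2.trans h3

end Fermat.Agent.S58
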