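import Mathlib

/-!
# S58, NODE [N-A]: a nodal cubic has points of every order prime to the characteristic

The Weierstrass curve `(Y - α X)(Y - β X) = X ^ 3`, `X = x - x0`, `Y = y - y0`, `α ≠ β`, is
parametrised by `u ↦ P(u) = (x0 + u d² / (u - 1)², y0 + u d³ / (u - 1)³ + β u d² / (u - 1)²)`,
`d = β - α`, `u ≠ 0, 1`, and `P(u) + P(v) = P(u v)`, `-P(u) = P(u⁻¹)`.  A primitive `m`-th root of
unity gives a point of exact order `m`.

Names are prefixed `s58nq`.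
-/

set_option autoImplicit false

namespace Fermat.Agent.S58

open WeierstrassCurve WeierstrassCurve.Affine Polynomial

section param

variable {k : Type*} [Field k]

/-- the abscissa of the point with parameter `u` -/
def s58nqX (d x0 u : k) : k := x0 + u * d ^ 2 / (u - 1) ^ 2

/-- the ordinate of the point with parameter `u` -/
def s58nqY (β d y0 u : k) : k :=
  y0 + u * d ^ 3 / (u - 1) ^ 3 + β * u * d ^ 2 / (u - 1) ^ 2

/-- the curve is `(Y - (β - d) X)(Y - β X) = X ^ 3` in the coordinates centred at `(x0, y0)` -/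
def S58nqCurve (W : Affine k) (β d x0 y0 : k) : Prop :=
  W.a₁ = d - 2 * β ∧ W.a₂ = -((β - d) * β + 3 * x0) ∧ W.a₃ = (2 * β - d) * x0 - 2 * y0 ∧
    W.a₄ = 2 * (β - d) * β * x0 + 3 * x0 ^ 2 - (2 * β - d) * y0 ∧
    W.a₆ = -(y0 ^ 2 - (2 * β - d) * x0 * y0 + (β - d) * β * x0 ^ 2 + x0 ^ 3)

variable {W : Affine k} {β d x0 y0 : k}

theorem s58nq_equation (hW : S58nqCurve W β d x0 y0) {u : k} (hu1 : u ≠ 1) :
    W.Equation (s58nqX d x0 u) (s58nqY β d y0 u) := by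
  obtain ⟨h1, h2, h3, h4, h6⟩ := hW
  have hu : u - 1 ≠ 0 := sub_ne_zero.mpr hu1
  rw [equation_iff, h1, h2, h3, h4, h6, s58nqX, s58nqY]
  field_simp
  ring

theorem s58nq_negY (hW : S58nqCurve W β d x0 y0) {u : k} (hu0 : u ≠ 0) (hu1 : u ≠ 1) :
    W.negY (s58nqX d x0 u) (s58nqY β d y0 u) = s58nqY β d y0 u⁻¹ := by
  obtain ⟨h1, h2, h3, h4, h6⟩ := hW
  have hu : u - 1 ≠ 0 := sub_ne_zero.mpr hu1
  have hu' : u⁻¹ - 1 ≠ 0 := by
    intro h
    apply hu1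
    have : u⁻¹ = 1 := sub_eq_zero.mp h
    rw [← inv_inv u, this, inv_one]
  have hu'' : 1 - u ≠ 0 := fun h => hu1 (sub_eq_zero.mp h).symm
  rw [negY, h1, h3, s58nqX, s58nqY, s58nqY]
  field_simp
  ring

theorem s58nq_X_inv {u : k} (hu0 : u ≠ 0) (hu1 : u ≠ 1) :
    s58nqX d x0 u⁻¹ = s58nqX d x0 u := by
  have hu : u - 1 ≠ 0 := sub_ne_zero.mpr hu1
  have hu'' : 1 - u ≠ 0 := fun h => hu1 (sub_eq_zero.mp h).symm
  rw [s58nqX, s58nqX]
  field_simp
  ring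

theorem s58nq_nonsingular (hW : S58nqCurve W β d x0 y0) (hd : d ≠ 0) {u : k} (hu0 : u ≠ 0)
    (hu1 : u ≠ 1) : W.Nonsingular (s58nqX d x0 u) (s58nqY β d y0 u) := by
  rw [nonsingular_iff']
  refine ⟨s58nq_equation hW hu1, ?_⟩
  obtain ⟨h1, h2, h3, h4, h6⟩ := hW
  have hu : u - 1 ≠ 0 := sub_ne_zero.mpr hu1
  by_cases hum : u + 1 = 0
  · left
    have hu2 : u = -1 := eq_neg_of_add_eq_zero_left hum
    have h2' : (2 : k) ≠ 0 := by
      intro h
      apply hu1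
      rw [hu2]
      linear_combination (-1 : k) * h
    have e : W.a₁ * s58nqY β d y0 u - (3 * s58nqX d x0 u ^ 2 + 2 * W.a₂ * s58nqX d x0 u + W.a₄)
        = -(d ^ 4 / 16) := by
      have h16 : (16 : k) ≠ 0 := by
        have : (16 : k) = 2 ^ 4 := by norm_num
        rw [this]
        exact pow_ne_zero 4 h2'
      have hm2 : (-1 - 1 : k) ≠ 0 := by
        have : (-1 - 1 : k) = -2 := by norm_num
        rw [this]
        exact neg_ne_zero.mpr h2'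
      rw [h1, h2, h4, s58nqX, s58nqY, hu2]
      field_simp
      ring
    rw [e]
    exact neg_ne_zero.mpr (div_ne_zero (pow_ne_zero 4 hd) (by
      have : (16 : k) = 2 ^ 4 := by norm_num
      rw [this]
      exact pow_ne_zero 4 h2'))
  · right
    have e : 2 * s58nqY β d y0 u + W.a₁ * s58nqX d x0 u + W.a₃
        = u * (u + 1) * d ^ 3 / (u - 1) ^ 3 := by
      rw [h1, h3, s58nqX, s58nqY]
      field_simp
      ring
    rw [e]
    exact div_ne_zero (mul_ne_zero (mul_ne_zero hu0 hum) (pow_ne_zero 3 hd)) (pow_ne_zero 3 hu)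

/-- the abscissae of `P(u)` and `P(v)` differ when `u ≠ v` and `u v ≠ 1` -/
theorem s58nq_X_sub {u v : k} (hu1 : u ≠ 1) (hv1 : v ≠ 1) :
    s58nqX d x0 u - s58nqX d x0 v
      = d ^ 2 * (u - v) * (1 - u * v) / ((u - 1) ^ 2 * (v - 1) ^ 2) := by
  have hu : u - 1 ≠ 0 := sub_ne_zero.mpr hu1
  have hv : v - 1 ≠ 0 := sub_ne_zero.mpr hv1
  rw [s58nqX, s58nqX]
  field_simp
  ring

theorem s58nq_X_ne (hd : d ≠ 0) {u v : k} (hu1 : u ≠ 1) (hv1 : v ≠ 1) (huv : u ≠ v)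
    (huv1 : u * v ≠ 1) : s58nqX d x0 u ≠ s58nqX d x0 v := by
  have hu : u - 1 ≠ 0 := sub_ne_zero.mpr hu1
  have hv : v - 1 ≠ 0 := sub_ne_zero.mpr hv1
  rw [← sub_ne_zero, s58nq_X_sub hu1 hv1]
  exact div_ne_zero (mul_ne_zero (mul_ne_zero (pow_ne_zero 2 hd) (sub_ne_zero.mpr huv))
    (fun h => huv1 (sub_eq_zero.mp h).symm)) (mul_ne_zero (pow_ne_zero 2 hu) (pow_ne_zero 2 hv))

/-- the slope of the chord through `P(u)` and `P(v)` -/
theorem s58nq_slope (W : Affine k) (β y0 : k) [DecidableEq k] (hd : d ≠ 0) {u v : k}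
    (hu1 : u ≠ 1) (hv1 : v ≠ 1) (huv : u ≠ v) (huv1 : u * v ≠ 1) :
    W.slope (s58nqX d x0 u) (s58nqX d x0 v) (s58nqY β d y0 u) (s58nqY β d y0 v)
      = β + d / (u - 1) + d / (v - 1) - d / (u * v - 1) := by
  have hu : u - 1 ≠ 0 := sub_ne_zero.mpr hu1
  have hv : v - 1 ≠ 0 := sub_ne_zero.mpr hv1
  have hw : u * v - 1 ≠ 0 := sub_ne_zero.mpr huv1
  have hw' : 1 - u * v ≠ 0 := fun h => huv1 (sub_eq_zero.mp h).symm
  have huv' : u - v ≠ 0 := sub_ne_zero.mpr huv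
  rw [slope_of_X_ne (s58nq_X_ne hd hu1 hv1 huv huv1), s58nq_X_sub hu1 hv1, s58nqY, s58nqY]
  field_simp
  ring

theorem s58nq_some_congr {x y x' y' : k} (h : W.Nonsingular x y) (h' : W.Nonsingular x' y')
    (hx : x = x') (hy : y = y') : (Point.some x y h : W.Point) = Point.some x' y' h' := by
  subst hx; subst hy; rfl

theorem s58nq_Y_sub_negY (hW : S58nqCurve W β d x0 y0) {u : k} (hu1 : u ≠ 1) :
    s58nqY β d y0 u - W.negY (s58nqX d x0 u) (s58nqY β d y0 u)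
      = u * (u + 1) * d ^ 3 / (u - 1) ^ 3 := by
  obtain ⟨h1, h2, h3, h4, h6⟩ := hW
  have hu : u - 1 ≠ 0 := sub_ne_zero.mpr hu1
  rw [negY, h1, h3, s58nqX, s58nqY]
  field_simp
  ring

theorem s58nq_Y_ne_negY (hW : S58nqCurve W β d x0 y0) (hd : d ≠ 0) {u : k} (hu0 : u ≠ 0)
    (hu2 : u * u ≠ 1) :
    s58nqY β d y0 u ≠ W.negY (s58nqX d x0 u) (s58nqY β d y0 u) := by
  have hu1 : u ≠ 1 := fun h => hu2 (by rw [h, mul_one])
  have hum : u + 1 ≠ 0 := fun h => hu2 (by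
    have : u = -1 := eq_neg_of_add_eq_zero_left h
    rw [this]; ring)
  rw [← sub_ne_zero, s58nq_Y_sub_negY hW hu1]
  exact div_ne_zero (mul_ne_zero (mul_ne_zero hu0 hum) (pow_ne_zero 3 hd))
    (pow_ne_zero 3 (sub_ne_zero.mpr hu1))

/-- the slope of the tangent at `P(u)` -/
theorem s58nq_slope_self (hW : S58nqCurve W β d x0 y0) [DecidableEq k] (hd : d ≠ 0) {u : k}
    (hu0 : u ≠ 0) (hu2 : u * u ≠ 1) :
    W.slope (s58nqX d x0 u) (s58nqX d x0 u) (s58nqY β d y0 u) (s58nqY β d y0 u)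
      = β + 2 * d / (u - 1) - d / (u * u - 1) := by
  have hu1 : u ≠ 1 := fun h => hu2 (by rw [h, mul_one])
  have hum : u + 1 ≠ 0 := fun h => hu2 (by
    have : u = -1 := eq_neg_of_add_eq_zero_left h
    rw [this]; ring)
  have hu : u - 1 ≠ 0 := sub_ne_zero.mpr hu1
  have hw : u * u - 1 ≠ 0 := sub_ne_zero.mpr hu2
  have hw' : u ^ 2 - 1 ≠ 0 := by rw [pow_two]; exact hw
  have hy := s58nq_Y_ne_negY hW hd hu0 hu2
  rw [slope_of_Y_ne rfl hy, s58nq_Y_sub_negY hW hu1]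
  obtain ⟨h1, h2, h3, h4, h6⟩ := hW
  rw [h1, h2, h4, s58nqX, s58nqY]
  field_simp
  ring

/-- the `x`-coordinate of the sum: chord case -/
theorem s58nq_addX (hW : S58nqCurve W β d x0 y0) {u v : k} (hu1 : u ≠ 1) (hv1 : v ≠ 1)
    (huv1 : u * v ≠ 1) :
    W.addX (s58nqX d x0 u) (s58nqX d x0 v) (β + d / (u - 1) + d / (v - 1) - d / (u * v - 1))
      = s58nqX d x0 (u * v) := by
  obtain ⟨h1, h2, h3, h4, h6⟩ := hW
  have hu : u - 1 ≠ 0 := sub_ne_zero.mpr hu1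
  have hv : v - 1 ≠ 0 := sub_ne_zero.mpr hv1
  have hw : u * v - 1 ≠ 0 := sub_ne_zero.mpr huv1
  rw [addX, h1, h2, s58nqX, s58nqX, s58nqX]
  field_simp
  ring

/-- the `y`-coordinate of the sum: chord case -/
theorem s58nq_addY (hW : S58nqCurve W β d x0 y0) {u v : k} (hu1 : u ≠ 1) (hv1 : v ≠ 1)
    (huv1 : u * v ≠ 1) :
    W.addY (s58nqX d x0 u) (s58nqX d x0 v) (s58nqY β d y0 u)
      (β + d / (u - 1) + d / (v - 1) - d / (u * v - 1)) = s58nqY β d y0 (u * v) := by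
  rw [addY, negAddY, s58nq_addX hW hu1 hv1 huv1]
  obtain ⟨h1, h2, h3, h4, h6⟩ := hW
  have hu : u - 1 ≠ 0 := sub_ne_zero.mpr hu1
  have hv : v - 1 ≠ 0 := sub_ne_zero.mpr hv1
  have hw : u * v - 1 ≠ 0 := sub_ne_zero.mpr huv1
  rw [negY, h1, h3, s58nqX, s58nqX, s58nqY, s58nqY]
  field_simp
  ring

/-- the `x`-coordinate of the double -/
theorem s58nq_addX_self (hW : S58nqCurve W β d x0 y0) {u : k} (hu2 : u * u ≠ 1) :
    W.addX (s58nqX d x0 u) (s58nqX d x0 u) (β + 2 * d / (u - 1) - d / (u * u - 1))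
      = s58nqX d x0 (u * u) := by
  obtain ⟨h1, h2, h3, h4, h6⟩ := hW
  have hu1 : u ≠ 1 := fun h => hu2 (by rw [h, mul_one])
  have hu : u - 1 ≠ 0 := sub_ne_zero.mpr hu1
  have hw : u * u - 1 ≠ 0 := sub_ne_zero.mpr hu2
  have hw' : u ^ 2 - 1 ≠ 0 := by rw [pow_two]; exact hw
  rw [addX, h1, h2, s58nqX, s58nqX]
  field_simp
  ring

/-- the `y`-coordinate of the double -/
theorem s58nq_addY_self (hW : S58nqCurve W β d x0 y0) {u : k} (hu2 : u * u ≠ 1) :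
    W.addY (s58nqX d x0 u) (s58nqX d x0 u) (s58nqY β d y0 u)
      (β + 2 * d / (u - 1) - d / (u * u - 1)) = s58nqY β d y0 (u * u) := by
  rw [addY, negAddY, s58nq_addX_self hW hu2]
  obtain ⟨h1, h2, h3, h4, h6⟩ := hW
  have hu1 : u ≠ 1 := fun h => hu2 (by rw [h, mul_one])
  have hu : u - 1 ≠ 0 := sub_ne_zero.mpr hu1
  have hw : u * u - 1 ≠ 0 := sub_ne_zero.mpr hu2
  have hw' : u ^ 2 - 1 ≠ 0 := by rw [pow_two]; exact hw
  rw [negY, h1, h3, s58nqX, s58nqX, s58nqY, s58nqY]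
  field_simp
  ring

/-! ### the points `P(u)` -/

variable [DecidableEq k]

/-- the point with parameter `u` (`0` if `u = 0` or `u = 1`) -/
noncomputable def s58nqP (hW : S58nqCurve W β d x0 y0) (hd : d ≠ 0) (u : k) : W.Point :=
  if h : u ≠ 0 ∧ u ≠ 1 then Point.some _ _ (s58nq_nonsingular hW hd h.1 h.2) else 0

theorem s58nqP_eq (hW : S58nqCurve W β d x0 y0) (hd : d ≠ 0) {u : k} (hu0 : u ≠ 0)
    (hu1 : u ≠ 1) :
    s58nqP hW hd u = Point.some _ _ (s58nq_nonsingular hW hd hu0 hu1) := by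
  rw [s58nqP, dif_pos ⟨hu0, hu1⟩]

theorem s58nqP_ne_zero (hW : S58nqCurve W β d x0 y0) (hd : d ≠ 0) {u : k} (hu0 : u ≠ 0)
    (hu1 : u ≠ 1) : s58nqP hW hd u ≠ 0 := by
  rw [s58nqP_eq hW hd hu0 hu1]
  exact Point.some_ne_zero _

theorem s58nqP_neg (hW : S58nqCurve W β d x0 y0) (hd : d ≠ 0) {u : k} (hu0 : u ≠ 0)
    (hu1 : u ≠ 1) : -s58nqP hW hd u = s58nqP hW hd u⁻¹ := by
  have hi0 : u⁻¹ ≠ 0 := inv_ne_zero hu0
  have hi1 : u⁻¹ ≠ 1 := by
    intro h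
    apply hu1
    rw [← inv_inv u, h, inv_one]
  rw [s58nqP_eq hW hd hu0 hu1, s58nqP_eq hW hd hi0 hi1, Point.neg_some]
  exact s58nq_some_congr _ _ (s58nq_X_inv hu0 hu1).symm (s58nq_negY hW hu0 hu1)

theorem s58nqP_add (hW : S58nqCurve W β d x0 y0) (hd : d ≠ 0) {u v : k} (hu0 : u ≠ 0)
    (hu1 : u ≠ 1) (hv0 : v ≠ 0) (hv1 : v ≠ 1) (huv : u ≠ v) (huv1 : u * v ≠ 1) :
    s58nqP hW hd u + s58nqP hW hd v = s58nqP hW hd (u * v) := by
  rw [s58nqP_eq hW hd hu0 hu1, s58nqP_eq hW hd hv0 hv1,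
    s58nqP_eq hW hd (mul_ne_zero hu0 hv0) huv1,
    Point.add_of_X_ne (s58nq_X_ne hd hu1 hv1 huv huv1)]
  refine s58nq_some_congr _ _ ?_ ?_
  · rw [s58nq_slope W β y0 hd hu1 hv1 huv huv1, s58nq_addX hW hu1 hv1 huv1]
  · rw [s58nq_slope W β y0 hd hu1 hv1 huv huv1, s58nq_addY hW hu1 hv1 huv1]

theorem s58nqP_two (hW : S58nqCurve W β d x0 y0) (hd : d ≠ 0) {u : k} (hu0 : u ≠ 0)
    (hu2 : u * u ≠ 1) :
    s58nqP hW hd u + s58nqP hW hd u = s58nqP hW hd (u * u) := by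
  have hu1 : u ≠ 1 := fun h => hu2 (by rw [h, mul_one])
  rw [s58nqP_eq hW hd hu0 hu1, s58nqP_eq hW hd (mul_ne_zero hu0 hu0) hu2,
    Point.add_self_of_Y_ne (s58nq_Y_ne_negY hW hd hu0 hu2)]
  refine s58nq_some_congr _ _ ?_ ?_
  · rw [s58nq_slope_self hW hd hu0 hu2, s58nq_addX_self hW hu2]
  · rw [s58nq_slope_self hW hd hu0 hu2, s58nq_addY_self hW hu2]

/-- multiples of the point attached to a primitive `m`-th root of unity -/
theorem s58nqP_nsmul (hW : S58nqCurve W β d x0 y0) (hd : d ≠ 0) {m : ℕ} {ζ : k}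
    (hζ : IsPrimitiveRoot ζ m) (j : ℕ) (hj1 : 1 ≤ j) (hjm : j < m) :
    j • s58nqP hW hd ζ = s58nqP hW hd (ζ ^ j) := by
  have hm0 : m ≠ 0 := by omega
  have hζ0 : ζ ≠ 0 := hζ.ne_zero hm0
  have hpow : ∀ i : ℕ, 1 ≤ i → i < m → ζ ^ i ≠ 1 := by
    intro i hi1 him h
    have := Nat.le_of_dvd (by omega) ((hζ.pow_eq_one_iff_dvd i).mp h)
    omega
  induction j, hj1 using Nat.le_induction with
  | base => rw [one_nsmul, pow_one]
  | succ j hj1 ih =>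
    rw [succ_nsmul, ih (by omega), pow_succ]
    rcases Nat.eq_or_lt_of_le hj1 with h1 | h1
    · subst h1
      rw [pow_one]
      refine s58nqP_two hW hd hζ0 ?_
      have := hpow 2 (by omega) (by omega)
      rwa [pow_two] at this
    · have hne : ζ ^ j ≠ ζ := by
        intro h
        have e : ζ ^ (j - 1) * ζ = 1 * ζ := by
          rw [← pow_succ, one_mul, show j - 1 + 1 = j by omega, h]
        exact hpow (j - 1) (by omega) (by omega) (mul_right_cancel₀ hζ0 e)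
      have h1' : ζ ≠ 1 := by
        have := hpow 1 le_rfl (by omega)
        rwa [pow_one] at this
      refine s58nqP_add hW hd (pow_ne_zero j hζ0) (hpow j (by omega) (by omega)) hζ0 h1' hne ?_
      rw [← pow_succ]
      exact hpow (j + 1) (by omega) hjm

end param

/-- **[N-A]** a nodal cubic over an algebraically closed field has a point of exact order `m`
for every `m` prime to the characteristic. -/
theorem s58nq_exists_order {k : Type*} [Field k] [DecidableEq k] [IsAlgClosed k]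
    (W : WeierstrassCurve k) (α β x0 y0 : k) (hαβ : α ≠ β) (h1 : W.a₁ = -(α + β))
    (h2 : W.a₂ = -(α * β + 3 * x0)) (h3 : W.a₃ = (α + β) * x0 - 2 * y0)
    (h4 : W.a₄ = 2 * α * β * x0 + 3 * x0 ^ 2 - (α + β) * y0)
    (h6 : W.a₆ = -(y0 ^ 2 - (α + β) * x0 * y0 + α * β * x0 ^ 2 + x0 ^ 3)) (m : ℕ)
    (hm : (m : k) ≠ 0) : ∃ P : W.toAffine.Point, addOrderOf P = m := by
  have hm0 : m ≠ 0 := by
    rintro rfl
    exact hm Nat.cast_zero
  rcases Nat.lt_or_ge m 2 with hm2 | hm2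
  · have : m = 1 := by omega
    subst this
    exact ⟨0, addOrderOf_zero⟩
  obtain ⟨d, rfl⟩ : ∃ d : k, α = β - d := ⟨β - α, by ring⟩
  have hd : d ≠ 0 := by
    rintro rfl
    exact hαβ (sub_zero β)
  have hW : S58nqCurve W.toAffine β d x0 y0 :=
    ⟨by rw [h1]; ring, by rw [h2], by rw [h3]; ring, by rw [h4]; ring, by rw [h6]; ring⟩
  have : NeZero (m : k) := ⟨hm⟩
  obtain ⟨ζ, hζroot⟩ := IsAlgClosed.exists_root (cyclotomic m k)
    (degree_cyclotomic_pos m k (by omega)).ne'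
  have hζ : IsPrimitiveRoot ζ m := isRoot_cyclotomic_iff.mp hζroot
  have hζ0 : ζ ≠ 0 := hζ.ne_zero hm0
  have hζ1 : ζ ≠ 1 := by
    intro h
    have := (hζ.pow_eq_one_iff_dvd 1).mp (by rw [pow_one, h])
    have := Nat.le_of_dvd one_pos this
    omega
  refine ⟨s58nqP hW hd ζ, (addOrderOf_eq_iff (by omega)).mpr ⟨?_, fun j hjm hj0 => ?_⟩⟩
  · have e : ζ ^ (m - 1) = ζ⁻¹ := by
      apply eq_inv_of_mul_eq_one_left
      rw [← pow_succ, show m - 1 + 1 = m by omega]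
      exact hζ.pow_eq_one
    have h := s58nqP_nsmul hW hd hζ (m - 1) (by omega) (by omega)
    rw [show m = (m - 1) + 1 by omega, succ_nsmul, h, e, ← s58nqP_neg hW hd hζ0 hζ1,
      neg_add_cancel]
  · rw [s58nqP_nsmul hW hd hζ j hj0 hjm]
    refine s58nqP_ne_zero hW hd (pow_ne_zero j hζ0) ?_
    intro h
    have := Nat.le_of_dvd hj0 ((hζ.pow_eq_one_iff_dvd j).mp h)
    omega

end Fermat.Agent.S58
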