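/-
S58 (NODE, [N-A], parametrisation route): the nonsingular points of a nodal cubic contain
points of every exact order `m` prime to the characteristic.

Normal form: `W` is `(Y - αX)(Y - βX) = X³` with `X = x - x0`, `Y = y - y0`, `α ≠ β`.
With `δ = β - α` the nonsingular affine points are
`(x0 + δ² a (a + 1), y0 + β δ² a (a + 1) + δ³ a² (a + 1))`, `a ∉ {0, -1}` and, with
`a = 1 / (u - 1)`, the map `u ↦ P(u)` (`P(1) = O`) is multiplicative: `P(u) + P(v) = P(u v)`.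
Hence `P(ζ)` has exact order `m` for a primitive `m`-th root of unity `ζ`.  Mathlib only.
-/
import Mathlib

set_option autoImplicit false

namespace Fermat.Agent.S58

open WeierstrassCurve WeierstrassCurve.Affine

section

variable {k : Type*} [Field k]

/-- `W` is the nodal cubic `(Y - αX)(Y - βX) = X³`, `X = x - x0`, `Y = y - y0` -/
structure S58nuNode (W : WeierstrassCurve k) (α β x0 y0 : k) : Prop where
  h1 : W.a₁ = -(α + β)
  h2 : W.a₂ = -(α * β + 3 * x0)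
  h3 : W.a₃ = (α + β) * x0 - 2 * y0
  h4 : W.a₄ = 2 * α * β * x0 + 3 * x0 ^ 2 - (α + β) * y0
  h6 : W.a₆ = -(y0 ^ 2 - (α + β) * x0 * y0 + α * β * x0 ^ 2 + x0 ^ 3)

/-- the `x`-coordinate of the point with parameter `a` -/
def s58nuA (α β x0 a : k) : k := x0 + (β - α) ^ 2 * (a * (a + 1))

/-- the `y`-coordinate of the point with parameter `a` -/
def s58nuB (α β y0 a : k) : k :=
  y0 + β * ((β - α) ^ 2 * (a * (a + 1))) + (β - α) ^ 3 * (a ^ 2 * (a + 1))

variable {W : WeierstrassCurve k} {α β x0 y0 : k}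

theorem s58nu_equation (hN : S58nuNode W α β x0 y0) (a : k) :
    W.toAffine.Equation (s58nuA α β x0 a) (s58nuB α β y0 a) := by
  rw [Affine.equation_iff', hN.h1, hN.h2, hN.h3, hN.h4, hN.h6]
  unfold s58nuA s58nuB
  ring

/-- the only singular point has `x = x0` -/
theorem s58nu_nonsingular_of_ne (hN : S58nuNode W α β x0 y0) {x y : k}
    (h : W.toAffine.Equation x y) (hx : x ≠ x0) : W.toAffine.Nonsingular x y := by
  rw [Affine.nonsingular_iff']
  refine ⟨h, ?_⟩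
  by_contra hcon
  rw [not_or, not_not, not_not] at hcon
  obtain ⟨e1, e2⟩ := hcon
  rw [Affine.equation_iff'] at h
  rw [hN.h1, hN.h2, hN.h3, hN.h4, hN.h6] at h
  rw [hN.h1, hN.h2, hN.h4] at e1
  rw [hN.h1, hN.h3] at e2
  have h3 : (x - x0) ^ 3 = 0 := by
    linear_combination 2 * h - (x - x0) * e1 - (y - y0) * e2
  exact hx (sub_eq_zero.mp (pow_eq_zero_iff (by norm_num) |>.mp h3))

theorem s58nu_nonsingular (hN : S58nuNode W α β x0 y0) (hαβ : α ≠ β) {a : k} (ha0 : a ≠ 0)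
    (ha1 : a ≠ -1) : W.toAffine.Nonsingular (s58nuA α β x0 a) (s58nuB α β y0 a) := by
  refine s58nu_nonsingular_of_ne hN (s58nu_equation hN a) ?_
  unfold s58nuA
  intro h0
  have hδ : β - α ≠ 0 := sub_ne_zero.mpr (Ne.symm hαβ)
  have ha1' : a + 1 ≠ 0 := fun h => ha1 (eq_neg_of_add_eq_zero_left h)
  have : (β - α) ^ 2 * (a * (a + 1)) = 0 := by linear_combination h0
  exact mul_ne_zero (pow_ne_zero 2 hδ) (mul_ne_zero ha0 ha1') this

/-- negation: `a ↦ -a - 1` -/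
theorem s58nu_neg (hN : S58nuNode W α β x0 y0) (a : k) :
    s58nuA α β x0 (-a - 1) = s58nuA α β x0 a ∧
      s58nuB α β y0 (-a - 1) =
        W.toAffine.negY (s58nuA α β x0 a) (s58nuB α β y0 a) := by
  constructor
  · unfold s58nuA
    ring
  · simp only [Affine.negY, hN.h1, hN.h3]
    unfold s58nuA s58nuB
    ring

/-- the chord: `a ⊕ b = a b / (a + b + 1)` -/
theorem s58nu_chord (hN : S58nuNode W α β x0 y0) (hαβ : α ≠ β) {a b : k} (hab : a ≠ b)
    (hab1 : a + b + 1 ≠ 0) :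
    s58nuA α β x0 a ≠ s58nuA α β x0 b ∧
    W.toAffine.addX (s58nuA α β x0 a) (s58nuA α β x0 b)
        ((s58nuB α β y0 a - s58nuB α β y0 b) / (s58nuA α β x0 a - s58nuA α β x0 b)) =
      s58nuA α β x0 (a * b / (a + b + 1)) ∧
    W.toAffine.addY (s58nuA α β x0 a) (s58nuA α β x0 b) (s58nuB α β y0 a)
        ((s58nuB α β y0 a - s58nuB α β y0 b) / (s58nuA α β x0 a - s58nuA α β x0 b)) =
      s58nuB α β y0 (a * b / (a + b + 1)) := by
  have hδ : β - α ≠ 0 := sub_ne_zero.mpr (Ne.symm hαβ)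
  have hab' : a - b ≠ 0 := sub_ne_zero.mpr hab
  have hA : s58nuA α β x0 a - s58nuA α β x0 b = (β - α) ^ 2 * ((a - b) * (a + b + 1)) := by
    unfold s58nuA
    ring
  have hA0 : s58nuA α β x0 a - s58nuA α β x0 b ≠ 0 := by
    rw [hA]
    exact mul_ne_zero (pow_ne_zero 2 hδ) (mul_ne_zero hab' hab1)
  have hℓ : (s58nuB α β y0 a - s58nuB α β y0 b) / (s58nuA α β x0 a - s58nuA α β x0 b) =
      β + (β - α) * (a ^ 2 + a * b + b ^ 2 + a + b) / (a + b + 1) := by
    rw [hA, div_eq_iff (mul_ne_zero (pow_ne_zero 2 hδ) (mul_ne_zero hab' hab1))]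
    unfold s58nuB
    field_simp
    ring
  refine ⟨fun h => hA0 (sub_eq_zero.mpr h), ?_, ?_⟩
  · rw [hℓ]
    simp only [Affine.addX, hN.h1, hN.h2]
    unfold s58nuA
    field_simp
    ring
  · rw [hℓ]
    simp only [Affine.addY, Affine.negAddY, Affine.negY, Affine.addX, hN.h1, hN.h2, hN.h3]
    unfold s58nuA s58nuB
    field_simp
    ring

/-- the tangent: `a ⊕ a = a² / (2 a + 1)` -/
theorem s58nu_tangent (hN : S58nuNode W α β x0 y0) (hαβ : α ≠ β) {a : k} (ha0 : a ≠ 0)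
    (ha1 : a ≠ -1) (ha2 : 2 * a + 1 ≠ 0) :
    s58nuB α β y0 a ≠ W.toAffine.negY (s58nuA α β x0 a) (s58nuB α β y0 a) ∧
    W.toAffine.addX (s58nuA α β x0 a) (s58nuA α β x0 a)
        ((3 * s58nuA α β x0 a ^ 2 + 2 * W.a₂ * s58nuA α β x0 a + W.a₄ -
            W.a₁ * s58nuB α β y0 a) /
          (s58nuB α β y0 a - W.toAffine.negY (s58nuA α β x0 a) (s58nuB α β y0 a))) =
      s58nuA α β x0 (a * a / (2 * a + 1)) ∧
    W.toAffine.addY (s58nuA α β x0 a) (s58nuA α β x0 a) (s58nuB α β y0 a)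
        ((3 * s58nuA α β x0 a ^ 2 + 2 * W.a₂ * s58nuA α β x0 a + W.a₄ -
            W.a₁ * s58nuB α β y0 a) /
          (s58nuB α β y0 a - W.toAffine.negY (s58nuA α β x0 a) (s58nuB α β y0 a))) =
      s58nuB α β y0 (a * a / (2 * a + 1)) := by
  have hδ : β - α ≠ 0 := sub_ne_zero.mpr (Ne.symm hαβ)
  have ha1' : a + 1 ≠ 0 := fun h => ha1 (eq_neg_of_add_eq_zero_left h)
  have ha2' : a * 2 + 1 ≠ 0 := by rwa [mul_comm]
  have hD : s58nuB α β y0 a - W.toAffine.negY (s58nuA α β x0 a) (s58nuB α β y0 a) =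
      (β - α) ^ 3 * (a * (a + 1) * (2 * a + 1)) := by
    simp only [Affine.negY, hN.h1, hN.h3]
    unfold s58nuA s58nuB
    ring
  have hD0 : (β - α) ^ 3 * (a * (a + 1) * (2 * a + 1)) ≠ 0 :=
    mul_ne_zero (pow_ne_zero 3 hδ) (mul_ne_zero (mul_ne_zero ha0 ha1') ha2)
  have hℓ : (3 * s58nuA α β x0 a ^ 2 + 2 * W.a₂ * s58nuA α β x0 a + W.a₄ -
        W.a₁ * s58nuB α β y0 a) /
      (s58nuB α β y0 a - W.toAffine.negY (s58nuA α β x0 a) (s58nuB α β y0 a)) =
      β + (β - α) * (3 * a ^ 2 + 2 * a) / (2 * a + 1) := by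
    rw [hD, div_eq_iff hD0, hN.h1, hN.h2, hN.h4]
    unfold s58nuA s58nuB
    field_simp
    ring
  refine ⟨fun h => hD0 (by rw [← hD]; exact sub_eq_zero.mpr h), ?_, ?_⟩
  · rw [hℓ]
    simp only [Affine.addX, hN.h1, hN.h2]
    unfold s58nuA
    field_simp
    ring
  · rw [hℓ]
    simp only [Affine.addY, Affine.negAddY, Affine.negY, Affine.addX, hN.h1, hN.h2, hN.h3]
    unfold s58nuA s58nuB
    field_simp
    ring

/-! ### The multiplicative parametrisation -/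

theorem s58nu_some_congr {V : Affine k} {x y x' y' : k} (h : V.Nonsingular x y)
    (h' : V.Nonsingular x' y') (hx : x = x') (hy : y = y') :
    Point.some x y h = Point.some x' y' h' := by
  subst hx hy
  rfl

theorem s58nu_par_ne_zero {u : k} (hu1 : u ≠ 1) : (u - 1)⁻¹ ≠ 0 :=
  inv_ne_zero (sub_ne_zero.mpr hu1)

theorem s58nu_par_ne_neg_one {u : k} (hu0 : u ≠ 0) : (u - 1)⁻¹ ≠ -1 := by
  intro h
  have h1 : u - 1 = (-1 : k)⁻¹ := by rw [← h, inv_inv]
  rw [inv_neg_one] at h1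
  apply hu0
  linear_combination h1

variable [DecidableEq k]

/-- the point with multiplicative parameter `u` (`u = 1 ↦ O`; junk value `O` at `u = 0`) -/
noncomputable def s58nuPt (hN : S58nuNode W α β x0 y0) (hαβ : α ≠ β) (u : k) :
    W.toAffine.Point :=
  if h : u ≠ 0 ∧ u ≠ 1 then
    Point.some (s58nuA α β x0 (u - 1)⁻¹) (s58nuB α β y0 (u - 1)⁻¹)
      (s58nu_nonsingular hN hαβ (s58nu_par_ne_zero h.2) (s58nu_par_ne_neg_one h.1))
  else 0

theorem s58nuPt_one (hN : S58nuNode W α β x0 y0) (hαβ : α ≠ β) : s58nuPt hN hαβ 1 = 0 :=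
  dif_neg (fun h => h.2 rfl)

theorem s58nuPt_of (hN : S58nuNode W α β x0 y0) (hαβ : α ≠ β) {u : k} (hu0 : u ≠ 0)
    (hu1 : u ≠ 1) :
    s58nuPt hN hαβ u = Point.some (s58nuA α β x0 (u - 1)⁻¹) (s58nuB α β y0 (u - 1)⁻¹)
      (s58nu_nonsingular hN hαβ (s58nu_par_ne_zero hu1) (s58nu_par_ne_neg_one hu0)) :=
  dif_pos ⟨hu0, hu1⟩

theorem s58nuPt_eq_zero_iff (hN : S58nuNode W α β x0 y0) (hαβ : α ≠ β) {u : k} (hu0 : u ≠ 0) :
    s58nuPt hN hαβ u = 0 ↔ u = 1 := by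
  constructor
  · intro h
    by_contra hu1
    rw [s58nuPt_of hN hαβ hu0 hu1] at h
    exact Point.some_ne_zero _ h
  · rintro rfl
    exact s58nuPt_one hN hαβ

/-- **the parametrisation is multiplicative** -/
theorem s58nu_mul (hN : S58nuNode W α β x0 y0) (hαβ : α ≠ β) {u v : k} (hu0 : u ≠ 0)
    (hv0 : v ≠ 0) : s58nuPt hN hαβ u + s58nuPt hN hαβ v = s58nuPt hN hαβ (u * v) := by
  by_cases hu1 : u = 1
  · subst hu1
    rw [s58nuPt_one, zero_add, one_mul]
  by_cases hv1 : v = 1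
  · subst hv1
    rw [s58nuPt_one, add_zero, mul_one]
  have hu1' : u - 1 ≠ 0 := sub_ne_zero.mpr hu1
  have hv1' : v - 1 ≠ 0 := sub_ne_zero.mpr hv1
  rw [s58nuPt_of hN hαβ hu0 hu1, s58nuPt_of hN hαβ hv0 hv1]
  by_cases huv : u * v = 1
  · rw [huv, s58nuPt_one]
    have hb : (v - 1)⁻¹ = -(u - 1)⁻¹ - 1 := by
      have hv : v = u⁻¹ := eq_inv_of_mul_eq_one_right huv
      have h1u : 1 - u ≠ 0 := fun h => hu1' (by linear_combination -h)
      rw [hv]
      field_simp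
      ring
    apply Point.add_of_Y_eq
    · rw [hb, (s58nu_neg hN _).1]
    · rw [hb, (s58nu_neg hN _).1, (s58nu_neg hN _).2, Affine.negY_negY]
  · have huv0 : u * v ≠ 0 := mul_ne_zero hu0 hv0
    have huv' : u * v - 1 ≠ 0 := sub_ne_zero.mpr huv
    rw [s58nuPt_of hN hαβ huv0 huv]
    by_cases hne : u = v
    · subst hne
      have hup : u + 1 ≠ 0 := by
        intro h
        apply huv
        linear_combination (u - 1) * h
      have ha2 : 2 * (u - 1)⁻¹ + 1 ≠ 0 := by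
        have e : 2 * (u - 1)⁻¹ + 1 = (u + 1) / (u - 1) := by
          field_simp
          ring
        rw [e]
        exact div_ne_zero hup hu1'
      have hc : (u - 1)⁻¹ * (u - 1)⁻¹ / (2 * (u - 1)⁻¹ + 1) = (u * u - 1)⁻¹ := by
        have e : 2 * (u - 1)⁻¹ + 1 = (u + 1) / (u - 1) := by
          field_simp
          ring
        have e2 : u * u - 1 = (u - 1) * (u + 1) := by ring
        rw [e, e2]
        field_simp
      obtain ⟨t1, t2, t3⟩ := s58nu_tangent hN hαβ (s58nu_par_ne_zero hu1)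
        (s58nu_par_ne_neg_one hu0) ha2
      rw [Point.add_self_of_Y_ne t1]
      apply s58nu_some_congr
      · rw [Affine.slope_of_Y_ne rfl t1, t2, hc]
      · rw [Affine.slope_of_Y_ne rfl t1, t3, hc]
    · have hab : (u - 1)⁻¹ ≠ (v - 1)⁻¹ := by
        intro h
        apply hne
        have := inv_injective h
        linear_combination this
      have e : (u - 1)⁻¹ + (v - 1)⁻¹ + 1 = (u * v - 1) / ((u - 1) * (v - 1)) := by
        field_simp
        ring
      have hab1 : (u - 1)⁻¹ + (v - 1)⁻¹ + 1 ≠ 0 := by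
        rw [e]
        exact div_ne_zero huv' (mul_ne_zero hu1' hv1')
      have hc : (u - 1)⁻¹ * (v - 1)⁻¹ / ((u - 1)⁻¹ + (v - 1)⁻¹ + 1) = (u * v - 1)⁻¹ := by
        rw [e]
        field_simp
      obtain ⟨c1, c2, c3⟩ := s58nu_chord (y0 := y0) hN hαβ hab hab1
      rw [Point.add_of_X_ne c1]
      apply s58nu_some_congr
      · rw [Affine.slope_of_X_ne c1, c2, hc]
      · rw [Affine.slope_of_X_ne c1, c3, hc]

theorem s58nu_nsmul (hN : S58nuNode W α β x0 y0) (hαβ : α ≠ β) {ζ : k} (hζ : ζ ≠ 0) (j : ℕ) :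
    j • s58nuPt hN hαβ ζ = s58nuPt hN hαβ (ζ ^ j) := by
  induction j with
  | zero => rw [zero_smul, pow_zero, s58nuPt_one]
  | succ j ih => rw [succ_nsmul, ih, s58nu_mul hN hαβ (pow_ne_zero j hζ) hζ, pow_succ]

/-- a primitive `m`-th root of unity gives a point of exact order `m` -/
theorem s58nu_addOrderOf (hN : S58nuNode W α β x0 y0) (hαβ : α ≠ β) {ζ : k} {m : ℕ}
    (hm : m ≠ 0) (hζ : IsPrimitiveRoot ζ m) : addOrderOf (s58nuPt hN hαβ ζ) = m := by
  have hζ0 : ζ ≠ 0 := hζ.ne_zero hm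
  apply Nat.dvd_antisymm
  · apply addOrderOf_dvd_of_nsmul_eq_zero
    rw [s58nu_nsmul hN hαβ hζ0, hζ.pow_eq_one, s58nuPt_one]
  · have h := addOrderOf_nsmul_eq_zero (s58nuPt hN hαβ ζ)
    rw [s58nu_nsmul hN hαβ hζ0] at h
    exact (hζ.pow_eq_one_iff_dvd _).mp ((s58nuPt_eq_zero_iff hN hαβ (pow_ne_zero _ hζ0)).mp h)

/-- **[N-A]**: a nodal cubic in normal form over an algebraically closed field has a point of
exact order `m` for every `m` prime to the characteristic. -/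
theorem s58nu_exists_order [IsAlgClosed k] (W : WeierstrassCurve k) (α β x0 y0 : k)
    (hαβ : α ≠ β) (h1 : W.a₁ = -(α + β)) (h2 : W.a₂ = -(α * β + 3 * x0))
    (h3 : W.a₃ = (α + β) * x0 - 2 * y0)
    (h4 : W.a₄ = 2 * α * β * x0 + 3 * x0 ^ 2 - (α + β) * y0)
    (h6 : W.a₆ = -(y0 ^ 2 - (α + β) * x0 * y0 + α * β * x0 ^ 2 + x0 ^ 3)) (m : ℕ)
    (hm : (m : k) ≠ 0) : ∃ P : W.toAffine.Point, addOrderOf P = m := by
  have hN : S58nuNode W α β x0 y0 := ⟨h1, h2, h3, h4, h6⟩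
  have : NeZero (m : k) := ⟨hm⟩
  obtain ⟨ζ, hζ⟩ := HasEnoughRootsOfUnity.exists_primitiveRoot k m
  have hm0 : m ≠ 0 := by
    rintro rfl
    exact hm Nat.cast_zero
  exact ⟨s58nuPt hN hαβ ζ, s58nu_addOrderOf hN hαβ hm0 hζ⟩

end

end Fermat.Agent.S58
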