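import Mathlib

/-!
# S58 (D2): a function satisfying the parallelogram law is a quadratic form

`G` an additive commutative group, `d : G → ℤ` with
`d (A + B) + d (A - B) = 2 * d A + 2 * d B` for all `A`, `B`.  Then `d 0 = 0`, `d (-A) = d A`,
the pairing `s58qfB d A B = d (A + B) - d A - d B` is biadditive and symmetric,
`d (n • A) = n ^ 2 * d A`, and `d` of an integral combination of three elements is given by
the usual formula (`s58qf_comb3`).

Names are prefixed `s58qf`.
-/

set_option autoImplicit false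

namespace Fermat.Agent.S58

variable {G : Type*} [AddCommGroup G]

/-- the pairing attached to `d` -/
def s58qfB (d : G → ℤ) (A B : G) : ℤ := d (A + B) - d A - d B

theorem s58qfB_def (d : G → ℤ) (A B : G) : s58qfB d A B = d (A + B) - d A - d B := rfl

section

variable (d : G → ℤ) (hpar : ∀ A B : G, d (A + B) + d (A - B) = 2 * d A + 2 * d B)
include hpar

theorem s58qf_zero : d 0 = 0 := by
  have h := hpar 0 0
  simp only [add_zero, sub_zero] at h
  linarith

theorem s58qf_neg (A : G) : d (-A) = d A := by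
  have h := hpar 0 A
  have h0 := s58qf_zero d hpar
  simp only [zero_add, zero_sub] at h
  linarith

theorem s58qf_sub_comm (A B : G) : d (A - B) = d (B - A) := by
  rw [← s58qf_neg d hpar (A - B), neg_sub]

theorem s58qf_add (A B : G) : d (A + B) = d A + d B + s58qfB d A B := by
  rw [s58qfB_def]
  ring

theorem s58qf_sub (A B : G) : d (A - B) = d A + d B - s58qfB d A B := by
  have h := hpar A B
  rw [s58qfB_def]
  linarith

theorem s58qf_B_comm (A B : G) : s58qfB d A B = s58qfB d B A := by
  rw [s58qfB_def, s58qfB_def, add_comm A B]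
  ring

theorem s58qf_B_self (A : G) : s58qfB d A A = 2 * d A := by
  have h := hpar A A
  have h0 := s58qf_zero d hpar
  rw [sub_self, h0] at h
  rw [s58qfB_def]
  linarith

theorem s58qf_B_zero_left (B : G) : s58qfB d 0 B = 0 := by
  rw [s58qfB_def, zero_add, s58qf_zero d hpar]
  ring

theorem s58qf_B_zero_right (A : G) : s58qfB d A 0 = 0 := by
  rw [s58qf_B_comm d hpar, s58qf_B_zero_left d hpar]

/-- the key identity: `d` is "quadratic" on three elements -/
theorem s58qf_three (P R Q : G) :
    d (P + R + Q) = d (P + R) + d (P + Q) + d (R + Q) - d P - d R - d Q := by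
  have h1 := hpar (P + R) Q
  have h2 := hpar P (R - Q)
  have h3 := hpar (P + Q) R
  have h4 := hpar R Q
  have e2a : P + (R - Q) = P + R - Q := by abel
  have e2b : P - (R - Q) = P + Q - R := by abel
  have e3a : P + Q + R = P + R + Q := by abel
  rw [e2a, e2b] at h2
  rw [e3a] at h3
  linarith

theorem s58qf_B_add_left (A A' B : G) :
    s58qfB d (A + A') B = s58qfB d A B + s58qfB d A' B := by
  have h := s58qf_three d hpar A A' B
  rw [s58qfB_def, s58qfB_def, s58qfB_def]
  linarith

theorem s58qf_B_add_right (A B B' : G) :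
    s58qfB d A (B + B') = s58qfB d A B + s58qfB d A B' := by
  rw [s58qf_B_comm d hpar A (B + B'), s58qf_B_add_left d hpar, s58qf_B_comm d hpar B A,
    s58qf_B_comm d hpar B' A]

theorem s58qf_B_neg_left (A B : G) : s58qfB d (-A) B = - s58qfB d A B := by
  have h := s58qf_B_add_left d hpar A (-A) B
  rw [add_neg_cancel, s58qf_B_zero_left d hpar] at h
  linarith

theorem s58qf_B_neg_right (A B : G) : s58qfB d A (-B) = - s58qfB d A B := by
  rw [s58qf_B_comm d hpar A (-B), s58qf_B_neg_left d hpar, s58qf_B_comm d hpar B A]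

theorem s58qf_B_sub_left (A A' B : G) :
    s58qfB d (A - A') B = s58qfB d A B - s58qfB d A' B := by
  rw [sub_eq_add_neg, s58qf_B_add_left d hpar, s58qf_B_neg_left d hpar]
  ring

theorem s58qf_B_sub_right (A B B' : G) :
    s58qfB d A (B - B') = s58qfB d A B - s58qfB d A B' := by
  rw [sub_eq_add_neg, s58qf_B_add_right d hpar, s58qf_B_neg_right d hpar]
  ring

theorem s58qf_B_nsmul_left (n : ℕ) (A B : G) : s58qfB d (n • A) B = n * s58qfB d A B := by
  induction n with
  | zero => rw [zero_smul, s58qf_B_zero_left d hpar]; simp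
  | succ n ih =>
    rw [succ_nsmul, s58qf_B_add_left d hpar, ih]
    push_cast
    ring

theorem s58qf_B_zsmul_left (n : ℤ) (A B : G) : s58qfB d (n • A) B = n * s58qfB d A B := by
  obtain ⟨m, rfl | rfl⟩ := Int.eq_nat_or_neg n
  · rw [natCast_zsmul, s58qf_B_nsmul_left d hpar]
  · rw [neg_smul, natCast_zsmul, s58qf_B_neg_left d hpar, s58qf_B_nsmul_left d hpar]
    ring

theorem s58qf_B_zsmul_right (n : ℤ) (A B : G) : s58qfB d A (n • B) = n * s58qfB d A B := by
  rw [s58qf_B_comm d hpar A (n • B), s58qf_B_zsmul_left d hpar, s58qf_B_comm d hpar B A]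

/-- `d (n • A) = n ^ 2 * d A` -/
theorem s58qf_zsmul (n : ℤ) (A : G) : d (n • A) = n ^ 2 * d A := by
  have h1 : s58qfB d (n • A) (n • A) = 2 * d (n • A) := s58qf_B_self d hpar _
  rw [s58qf_B_zsmul_left d hpar, s58qf_B_zsmul_right d hpar, s58qf_B_self d hpar] at h1
  linarith

theorem s58qf_nsmul (n : ℕ) (A : G) : d (n • A) = (n : ℤ) ^ 2 * d A := by
  rw [← natCast_zsmul, s58qf_zsmul d hpar]

/-- `d` of an integral combination of two elements -/
theorem s58qf_comb2 (a b : ℤ) (A B : G) :
    d (a • A + b • B) = a ^ 2 * d A + b ^ 2 * d B + a * b * s58qfB d A B := by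
  rw [s58qf_add d hpar, s58qf_zsmul d hpar, s58qf_zsmul d hpar, s58qf_B_zsmul_left d hpar,
    s58qf_B_zsmul_right d hpar]
  ring

/-- `d` of an integral combination of three elements -/
theorem s58qf_comb3 (a b c : ℤ) (A B C : G) :
    d (a • A + b • B + c • C) = a ^ 2 * d A + b ^ 2 * d B + c ^ 2 * d C
      + a * b * s58qfB d A B + a * c * s58qfB d A C + b * c * s58qfB d B C := by
  rw [s58qf_add d hpar (a • A + b • B) (c • C), s58qf_comb2 d hpar, s58qf_zsmul d hpar,
    s58qf_B_add_left d hpar, s58qf_B_zsmul_left d hpar, s58qf_B_zsmul_left d hpar,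
    s58qf_B_zsmul_right d hpar, s58qf_B_zsmul_right d hpar]
  ring

/-- if `d A = 0` and `d ≥ 0` then `B(A, ·) = 0` -/
theorem s58qf_B_eq_zero_of_nonneg (hnn : ∀ A : G, 0 ≤ d A) (A B : G) (hA : d A = 0) :
    s58qfB d A B = 0 := by
  -- `0 ≤ d (n A + B) = d B + n B(A,B)` for all `n`
  have h : ∀ n : ℤ, 0 ≤ d B + n * s58qfB d A B := by
    intro n
    have h1 := hnn (n • A + (1 : ℤ) • B)
    rw [s58qf_comb2 d hpar, hA] at h1
    linarith
  by_contra hne
  rcases lt_or_gt_of_ne hne with hlt | hgt
  · have h1 := h (d B + 1)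
    have h2 := hnn B
    nlinarith
  · have h1 := h (-(d B + 1))
    have h2 := hnn B
    nlinarith

end

end Fermat.Agent.S58
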