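import Mathlib
import Fermat.Agent.S58.QuadForm

/-!
# S58 (D2), continued: Cauchy–Schwarz for a non-negative quadratic function

`d : G → ℤ` with the parallelogram law and `0 ≤ d`:
`s58qc_cs : (s58qfB d A B) ^ 2 ≤ 4 * d A * d B`, and the consequences used for the Frobenius
(`d Φ = l`, `d P = 1`): `s58qc_hasse : a ^ 2 ≤ 4 * l` and `0 < l + 1 - a`, `0 < l + 1 + a`.

Names are prefixed `s58qc`.
-/

set_option autoImplicit false

namespace Fermat.Agent.S58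

variable {G : Type*} [AddCommGroup G]

/-- **Cauchy–Schwarz**: `B(A,B)^2 ≤ 4 d(A) d(B)` for a non-negative quadratic function. -/
theorem s58qc_cs (d : G → ℤ) (hpar : ∀ A B : G, d (A + B) + d (A - B) = 2 * d A + 2 * d B)
    (hnn : ∀ A : G, 0 ≤ d A) (A B : G) : (s58qfB d A B) ^ 2 ≤ 4 * d A * d B := by
  by_cases hA : d A = 0
  · rw [s58qf_B_eq_zero_of_nonneg d hpar hnn A B hA, hA]
    simp
  · have hApos : 0 < d A := lt_of_le_of_ne (hnn A) (Ne.symm hA)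
    have h := hnn ((s58qfB d A B) • A + (-(2 * d A)) • B)
    rw [s58qf_comb2 d hpar] at h
    have h2 : 0 ≤ d A * (4 * d A * d B - (s58qfB d A B) ^ 2) := by nlinarith
    have h3 : 0 ≤ 4 * d A * d B - (s58qfB d A B) ^ 2 := by
      by_contra hneg
      rw [not_le] at hneg
      have := mul_neg_of_pos_of_neg hApos hneg
      linarith
    linarith

/-- the Hasse bound in the abstract: if `d Φ = l`, `d P = 1` then `a := B(Φ, P)` has
`a^2 ≤ 4 l`. -/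
theorem s58qc_hasse (d : G → ℤ) (hpar : ∀ A B : G, d (A + B) + d (A - B) = 2 * d A + 2 * d B)
    (hnn : ∀ A : G, 0 ≤ d A) (Φ P : G) (l : ℤ) (hΦ : d Φ = l) (hP : d P = 1) :
    (s58qfB d Φ P) ^ 2 ≤ 4 * l := by
  have h := s58qc_cs d hpar hnn Φ P
  rw [hΦ, hP] at h
  linarith

/-- `d (Φ - P) = l + 1 - a > 0` for `l ≥ 2` -/
theorem s58qc_sub_pos (d : G → ℤ) (hpar : ∀ A B : G, d (A + B) + d (A - B) = 2 * d A + 2 * d B)
    (hnn : ∀ A : G, 0 ≤ d A) (Φ P : G) (l : ℤ) (hl : 2 ≤ l) (hΦ : d Φ = l) (hP : d P = 1) :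
    d (Φ - P) = l + 1 - s58qfB d Φ P ∧ 0 < d (Φ - P) := by
  have h := s58qc_hasse d hpar hnn Φ P l hΦ hP
  have e : d (Φ - P) = l + 1 - s58qfB d Φ P := by
    rw [s58qf_sub d hpar, hΦ, hP]
  refine ⟨e, ?_⟩
  rw [e]
  nlinarith

/-- `d (Φ + P) = l + 1 + a > 0` for `l ≥ 2` -/
theorem s58qc_add_pos (d : G → ℤ) (hpar : ∀ A B : G, d (A + B) + d (A - B) = 2 * d A + 2 * d B)
    (hnn : ∀ A : G, 0 ≤ d A) (Φ P : G) (l : ℤ) (hl : 2 ≤ l) (hΦ : d Φ = l) (hP : d P = 1) :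
    d (Φ + P) = l + 1 + s58qfB d Φ P ∧ 0 < d (Φ + P) := by
  have h := s58qc_hasse d hpar hnn Φ P l hΦ hP
  have e : d (Φ + P) = l + 1 + s58qfB d Φ P := by
    rw [s58qf_add d hpar, hΦ, hP]
  refine ⟨e, ?_⟩
  rw [e]
  nlinarith

end Fermat.Agent.S58
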