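/-
S58 (GENERIC, D1 duplication case): the degree of the duplication formula.

For a Weierstrass curve `W` over an algebraically closed field `k` with `Δ ≠ 0` and rational
functions `a, s : RatFunc k` with `ψ₂²(a) ≠ 0` and `ψ₂²(a) * s = a⁴ - b₄ a² - 2 b₆ a - b₈`
(the `x`-coordinate of the double), `deg s = 4 * deg a`, where
`deg = s58rhDeg = max (natDegree num) (natDegree denom)`.

Proof: `s` is the image of the fixed rational function `N / D` (coprime by the Bezout identity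
`s58rh_bezout_id`, of degree `4`) under the substitution `X ↦ a`; conclude by the degree of a
composite (`s58rc_comp_self`).  Also: the three inputs `hroot`, `hpar`, `hdup` of the
model-independent parallelogram law `s58pb_core` (`ParaAbs`) at `deg := s58rhDeg`, and the
resulting instance `s58du_para_core`.
-/
import Mathlib
import Fermat.Agent.S58.RatHeight
import Fermat.Agent.S58.RatComp
import Fermat.Agent.S58.ParaAbs

set_option autoImplicit false

namespace Fermat.Agent.S58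

open Polynomial

section

variable {k : Type*} [Field k]

/-- the degree of a fraction `p / q` in lowest terms (any field) -/
theorem s58du_deg_of_coprime (p q : k[X]) (hq : q ≠ 0) (h : IsCoprime p q) :
    s58rhDeg (algebraMap k[X] (RatFunc k) p / algebraMap k[X] (RatFunc k) q) =
      max p.natDegree q.natDegree := by
  have hu := s58rc_unique
    (RatFunc.isCoprime_num_denom (algebraMap k[X] (RatFunc k) p / algebraMap k[X] (RatFunc k) q))
    h ((RatFunc.num_mul_eq_mul_denom_iff hq).mpr rfl)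
  unfold s58rhDeg
  rw [hu.1, hu.2]

/-- the numerator `X⁴ - b₄ X² - 2 b₆ X - b₈` of the duplication formula -/
noncomputable def s58duN (W : WeierstrassCurve k) : k[X] :=
  X ^ 4 - C W.b₄ * X ^ 2 - C (2 * W.b₆) * X - C W.b₈

/-- the denominator `4 X³ + b₂ X² + 2 b₄ X + b₆` of the duplication formula -/
noncomputable def s58duD (W : WeierstrassCurve k) : k[X] :=
  C 4 * X ^ 3 + C W.b₂ * X ^ 2 + C (2 * W.b₄) * X + C W.b₆

theorem s58du_natDegree_N (W : WeierstrassCurve k) : (s58duN W).natDegree = 4 := by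
  unfold s58duN
  compute_degree!

theorem s58du_natDegree_D (W : WeierstrassCurve k) : (s58duD W).natDegree ≤ 3 := by
  unfold s58duD
  compute_degree

theorem s58du_eval_N (W : WeierstrassCurve k) (x : k) :
    (s58duN W).eval x = x ^ 4 - W.b₄ * x ^ 2 - 2 * W.b₆ * x - W.b₈ := by
  unfold s58duN
  simp

theorem s58du_eval_D (W : WeierstrassCurve k) (x : k) :
    (s58duD W).eval x = 4 * x ^ 3 + W.b₂ * x ^ 2 + 2 * W.b₄ * x + W.b₆ := by
  unfold s58duD
  simp

theorem s58du_aeval_N (W : WeierstrassCurve k) (a : RatFunc k) :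
    aeval a (s58duN W) =
      a ^ 4 - RatFunc.C W.b₄ * a ^ 2 - 2 * RatFunc.C W.b₆ * a - RatFunc.C W.b₈ := by
  have h2 : (RatFunc.C (2 : k) : RatFunc k) = 2 := map_ofNat _ 2
  unfold s58duN
  simp [RatFunc.algebraMap_eq_C, h2]

theorem s58du_aeval_D (W : WeierstrassCurve k) (a : RatFunc k) :
    aeval a (s58duD W) =
      4 * a ^ 3 + RatFunc.C W.b₂ * a ^ 2 + 2 * RatFunc.C W.b₄ * a + RatFunc.C W.b₆ := by
  have h2 : (RatFunc.C (2 : k) : RatFunc k) = 2 := map_ofNat _ 2
  have h4 : (RatFunc.C (4 : k) : RatFunc k) = 4 := map_ofNat _ 4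
  unfold s58duD
  simp [RatFunc.algebraMap_eq_C, h2, h4]

/-- numerator and denominator of the duplication formula have no common root when `Δ ≠ 0` -/
theorem s58du_ncr (W : WeierstrassCurve k) (hΔ : W.Δ ≠ 0) : s58rhNcr (s58duN W) (s58duD W) 0 := by
  rintro x ⟨h1, h2, -⟩
  rw [s58du_eval_N] at h1
  rw [s58du_eval_D] at h2
  apply hΔ
  rw [← s58rh_bezout_id W x, h1, h2, mul_zero, mul_zero, sub_zero]

theorem s58du_D_ne_zero [IsAlgClosed k] (W : WeierstrassCurve k) (hΔ : W.Δ ≠ 0) :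
    s58duD W ≠ 0 := by
  intro h0
  have h1 := s58du_ncr W hΔ
  rw [h0] at h1
  have hdeg : (s58duN W).degree ≠ 0 := by
    intro h
    have h2 := natDegree_eq_zero_iff_degree_le_zero.mpr h.le
    rw [s58du_natDegree_N] at h2
    exact absurd h2 (by norm_num)
  obtain ⟨x, hx⟩ := IsAlgClosed.exists_root (s58duN W) hdeg
  exact h1 x ⟨hx, eval_zero, eval_zero⟩

/-- **Degree of the duplication formula**: `deg x(2P) = 4 deg x(P)`. -/
theorem s58du_dup [IsAlgClosed k] (W : WeierstrassCurve k) (hΔ : W.Δ ≠ 0) (a s : RatFunc k)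
    (hψ : 4 * a ^ 3 + RatFunc.C W.b₂ * a ^ 2 + 2 * RatFunc.C W.b₄ * a + RatFunc.C W.b₆ ≠ 0)
    (hdup : (4 * a ^ 3 + RatFunc.C W.b₂ * a ^ 2 + 2 * RatFunc.C W.b₄ * a + RatFunc.C W.b₆) * s =
      a ^ 4 - RatFunc.C W.b₄ * a ^ 2 - 2 * RatFunc.C W.b₆ * a - RatFunc.C W.b₈) :
    s58rhDeg s = 4 * s58rhDeg a := by
  have hs : s = aeval a (s58duN W) / aeval a (s58duD W) := by
    rw [s58du_aeval_N, s58du_aeval_D, eq_div_iff hψ, ← hdup]
    ring
  by_cases ha : s58rhDeg a = 0
  · obtain ⟨c, rfl⟩ := (s58rh_deg_eq_zero_iff a).mp ha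
    rw [ha, mul_zero, hs]
    have e1 : aeval (RatFunc.C c : RatFunc k) (s58duN W) = RatFunc.C ((s58duN W).eval c) := by
      rw [← RatFunc.algebraMap_eq_C, aeval_algebraMap_apply, coe_aeval_eq_eval]
    have e2 : aeval (RatFunc.C c : RatFunc k) (s58duD W) = RatFunc.C ((s58duD W).eval c) := by
      rw [← RatFunc.algebraMap_eq_C, aeval_algebraMap_apply, coe_aeval_eq_eval]
    rw [e1, e2, ← map_div₀]
    exact s58rh_deg_C _
  · have htr : Transcendental k a := fun halg => ha (s58rh_deg_of_isAlgebraic a halg)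
    have hinj : Function.Injective (aeval a : k[X] →ₐ[k] RatFunc k) :=
      transcendental_iff_injective.mp htr
    have hφ : nonZeroDivisors k[X] ≤ (nonZeroDivisors (RatFunc k)).comap
        ((aeval a : k[X] →ₐ[k] RatFunc k) : k[X] →+* RatFunc k) := by
      intro p hp
      rw [Submonoid.mem_comap, mem_nonZeroDivisors_iff_ne_zero]
      intro h0
      have hp0 : p ≠ 0 := nonZeroDivisors.ne_zero hp
      apply hp0
      apply hinj
      rw [map_zero]
      exact h0
    set ψ : RatFunc k →+* RatFunc k :=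
      RatFunc.liftRingHom ((aeval a : k[X] →ₐ[k] RatFunc k) : k[X] →+* RatFunc k) hφ with hψdef
    have hψC : ∀ c : k, ψ (RatFunc.C c) = RatFunc.C c := by
      intro c
      rw [hψdef, RatFunc.liftRingHom_C]
      simp [RatFunc.algebraMap_eq_C]
    have hψX : ψ RatFunc.X = a := by
      rw [hψdef, RatFunc.liftRingHom_X]
      simp
    set r : RatFunc k := algebraMap k[X] (RatFunc k) (s58duN W) /
      algebraMap k[X] (RatFunc k) (s58duD W) with hr
    have hψr : ψ r = s := by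
      rw [hs, hr, hψdef, RatFunc.liftRingHom_apply_div]
      rfl
    have hD0 : algebraMap k[X] (RatFunc k) (s58duD W) ≠ 0 :=
      RatFunc.algebraMap_ne_zero (s58du_D_ne_zero W hΔ)
    have hdegr : s58rhDeg r = 4 := by
      rw [s58rh_deg_of_ncr r (s58duN W) (s58duD W) (s58du_ncr W hΔ)
        (by rw [hr, div_mul_cancel₀ _ hD0]), s58du_natDegree_N]
      exact max_eq_left ((s58du_natDegree_D W).trans (by norm_num))
    have key := s58rc_comp_self ψ hψC r
    rw [hψr, hψX] at key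
    unfold s58rhDeg at hdegr ⊢
    rw [key, hdegr]

/-- a root of `ψ₂² = 4X³ + b₂X² + 2b₄X + b₆` in `RatFunc k` is constant -/
theorem s58du_root [IsAlgClosed k] (W : WeierstrassCurve k) (hΔ : W.Δ ≠ 0) (r : RatFunc k)
    (h : 4 * r ^ 3 + RatFunc.C W.b₂ * r ^ 2 + 2 * RatFunc.C W.b₄ * r + RatFunc.C W.b₆ = 0) :
    s58rhDeg r = 0 :=
  s58rh_deg_of_root r (s58duD W) (s58du_D_ne_zero W hΔ) (by rw [s58du_aeval_D, h])

/-! ### The three inputs of `s58pb_core` (model-independent (D1)) at `deg := s58rhDeg` -/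

theorem s58du_hroot [IsAlgClosed k] (W : WeierstrassCurve k) (hΔ : W.Δ ≠ 0) :
    ∀ r : RatFunc k,
      4 * r ^ 3 + RatFunc.C W.b₂ * r ^ 2 + 2 * RatFunc.C W.b₄ * r + RatFunc.C W.b₆ = 0 →
        s58rhDeg r = 0 :=
  fun r h => s58du_root W hΔ r h

theorem s58du_hpar [IsAlgClosed k] (W : WeierstrassCurve k) (hΔ : W.Δ ≠ 0) :
    ∀ a b s t : RatFunc k, a ≠ b →
      (a - b) ^ 2 * (s + t) = 2 * (a + b) * (a * b) + RatFunc.C W.b₂ * (a * b) +
        RatFunc.C W.b₄ * (a + b) + RatFunc.C W.b₆ →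
      (a - b) ^ 2 * (s * t) = (a * b) ^ 2 - RatFunc.C W.b₄ * (a * b) -
        RatFunc.C W.b₆ * (a + b) - RatFunc.C W.b₈ →
      s58rhDeg s + s58rhDeg t = 2 * s58rhDeg a + 2 * s58rhDeg b :=
  fun a b s t _ h1 h2 => s58rh_para W hΔ a b s t h1 h2

theorem s58du_hdup [IsAlgClosed k] (W : WeierstrassCurve k) (hΔ : W.Δ ≠ 0) :
    ∀ a s : RatFunc k,
      4 * a ^ 3 + RatFunc.C W.b₂ * a ^ 2 + 2 * RatFunc.C W.b₄ * a + RatFunc.C W.b₆ ≠ 0 →
      (4 * a ^ 3 + RatFunc.C W.b₂ * a ^ 2 + 2 * RatFunc.C W.b₄ * a + RatFunc.C W.b₆) * s =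
        a ^ 4 - RatFunc.C W.b₄ * a ^ 2 - 2 * RatFunc.C W.b₆ * a - RatFunc.C W.b₈ →
      s58rhDeg s = 4 * s58rhDeg a :=
  fun a s h1 h2 => s58du_dup W hΔ a s h1 h2

end

section Para

open WeierstrassCurve WeierstrassCurve.Affine

/-- **(D1)**, model-independent, at `deg := s58rhDeg`: the exact parallelogram law for the
degree of the `x`-coordinate on a subgroup `G` of points whose `x`-coordinates come from
`RatFunc k` (`k` algebraically closed, `Δ ≠ 0`). -/
theorem s58du_para_core {k K : Type*} [Field k] [IsAlgClosed k] [Field K] [DecidableEq K]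
    (Wk : WeierstrassCurve k) (hΔ : Wk.Δ ≠ 0) (j : RatFunc k →+* K) (W' : WeierstrassCurve K)
    (hb₂ : W'.b₂ = j (RatFunc.C Wk.b₂)) (hb₄ : W'.b₄ = j (RatFunc.C Wk.b₄))
    (hb₆ : W'.b₆ = j (RatFunc.C Wk.b₆)) (hb₈ : W'.b₈ = j (RatFunc.C Wk.b₈))
    (G : AddSubgroup W'.toAffine.Point)
    (hG : ∀ (x y : K) (h : W'.toAffine.Nonsingular x y), Point.some x y h ∈ G →
      ∃ r : RatFunc k, j r = x)
    (d : W'.toAffine.Point → ℤ) (hd0 : d 0 = 0)
    (hd : ∀ (x y : K) (h : W'.toAffine.Nonsingular x y) (r : RatFunc k), j r = x →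
      d (Point.some x y h) = (s58rhDeg r : ℤ))
    (A B : W'.toAffine.Point) (hA : A ∈ G) (hB : B ∈ G) :
    d (A + B) + d (A - B) = 2 * d A + 2 * d B :=
  s58pb_core Wk j W' hb₂ hb₄ hb₆ hb₈ s58rhDeg (s58du_hroot Wk hΔ) (s58du_hpar Wk hΔ)
    (s58du_hdup Wk hΔ) G hG d hd0 hd A B hA hB

end Para

end Fermat.Agent.S58
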