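/-
S58 (stage 7), package RED, leaf [R-RESF]: the residue field of a valuation subring of
`AlgebraicClosure ℚ` over a prime `l`.  Prefix `s58rf_`.  (Consumer: `S58/RedGal.lean`.)

* `s58rf_inertia` : an element of the inertia group maps `A` to `A` and induces the identity on
  the residue field;
* `s58rf_frob` : a Frobenius element at `l` maps `A` to `A` and induces `x ↦ x ^ l`;
* `s58rf_charP` : the residue field has characteristic `l`;
* `s58rf_algClosed` : the residue field is algebraically closed;
* `s58rf_unit` : an integer prime to `l` is a unit of `A`.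
-/
import Mathlib
import Fermat.Prelude.Def_FLTPrelim_Ramification
import Fermat.Prelude.Def_EllipticCurve_FrobeniusTrace
import Fermat.Agent.S05.Inertia

set_option autoImplicit false

namespace Fermat.Agent.S58

open scoped Pointwise

/-- an element of the inertia group maps `A` to `A` and is the identity on the residue field -/
theorem s58rf_inertia (A : ValuationSubring (AlgebraicClosure ℚ))
    (σ : AlgebraicClosure ℚ ≃ₐ[ℚ] AlgebraicClosure ℚ) (hσ : σ ∈ A.inertiaSubgroupIn ℚ) :
    ∀ a : A, ∃ b : A, (b : AlgebraicClosure ℚ) = σ a ∧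
      IsLocalRing.residue A b = IsLocalRing.residue A a := by
  obtain ⟨τ, hτ, rfl⟩ := hσ
  intro a
  refine ⟨τ • a, rfl, ?_⟩
  have h1 : MulSemiringAction.toRingAut (A.decompositionSubgroup ℚ)
      (IsLocalRing.ResidueField A) τ = 1 := hτ
  have h2 : τ • IsLocalRing.residue A a = IsLocalRing.residue A a := by
    have := congrArg (fun f : RingAut (IsLocalRing.ResidueField A) =>
      f (IsLocalRing.residue A a)) h1
    simpa using this
  rw [IsLocalRing.ResidueField.residue_smul]
  exact h2

/-- a Frobenius element at `l` maps `A` to `A` and induces the `l`-th power on the residue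
field -/
theorem s58rf_frob (A : ValuationSubring (AlgebraicClosure ℚ)) (l : ℕ)
    (τ : AlgebraicClosure ℚ ≃ₐ[ℚ] AlgebraicClosure ℚ) (hτ : A.IsFrobeniusAt τ l) :
    ∀ a : A, ∃ b : A, (b : AlgebraicClosure ℚ) = τ a ∧
      IsLocalRing.residue A b = IsLocalRing.residue A a ^ l := by
  intro a
  refine ⟨(⟨τ, hτ.mem_decompositionSubgroup⟩ : A.decompositionSubgroup ℚ) • a, rfl, ?_⟩
  rw [IsLocalRing.ResidueField.residue_smul]
  exact hτ.smul_residue_eq _

/-- the residue field of a valuation subring over `l` has characteristic `l` -/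
theorem s58rf_charP (A : ValuationSubring (AlgebraicClosure ℚ)) (l : ℕ) (hl : l.Prime)
    (hA : A.LiesOverPrime l) : CharP (IsLocalRing.ResidueField A) l := by
  rw [CharP.charP_iff_prime_eq_zero hl]
  have h1 : ((l : A) : AlgebraicClosure ℚ) ∈ A.nonunits := by
    rw [show ((l : A) : AlgebraicClosure ℚ) = (l : AlgebraicClosure ℚ) from by simp]
    exact hA
  have h2 : (l : A) ∈ IsLocalRing.maximalIdeal A := by
    rw [IsLocalRing.mem_maximalIdeal]
    exact (A.coe_mem_nonunits_iff).mp h1
  have h3 := (IsLocalRing.residue_eq_zero_iff (l : A)).mpr h2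
  rwa [map_natCast] at h3

/-- the residue field of a valuation subring of `AlgebraicClosure ℚ` is algebraically closed -/
theorem s58rf_algClosed (A : ValuationSubring (AlgebraicClosure ℚ)) :
    IsAlgClosed (IsLocalRing.ResidueField A) := by
  apply IsAlgClosed.of_exists_root
  intro p hpm hpirr
  have hsurj : Function.Surjective (IsLocalRing.residue A) := IsLocalRing.residue_surjective
  have hlift : p ∈ Polynomial.lifts (IsLocalRing.residue A) :=
    (Polynomial.mem_lifts p).mpr (Polynomial.map_surjective _ hsurj p)
  obtain ⟨P, hPmap, hPdeg, hPm⟩ := Polynomial.lifts_and_degree_eq_and_monic hlift hpm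
  have hinj : Function.Injective A.subtype := Subtype.val_injective
  have hdeg : (P.map A.subtype).degree ≠ 0 := by
    rw [Polynomial.degree_map_eq_of_injective hinj, hPdeg]
    exact Polynomial.degree_ne_of_natDegree_ne
      (Polynomial.natDegree_pos_iff_degree_pos.mpr
        (Polynomial.degree_pos_of_irreducible hpirr)).ne'
  obtain ⟨x, hx⟩ := IsAlgClosed.exists_root (P.map A.subtype) hdeg
  have hint : IsIntegral A x := by
    refine ⟨P, hPm, ?_⟩
    rw [Polynomial.eval₂_eq_eval_map]
    exact hx
  obtain ⟨y, rfl⟩ := IsIntegrallyClosed.algebraMap_eq_of_integral hint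
  have hy : P.eval y = 0 := by
    have h1 : (P.map A.subtype).eval (A.subtype y) = A.subtype (P.eval y) :=
      Polynomial.eval_map_apply A.subtype y
    have h2 : A.subtype (P.eval y) = 0 := by rw [← h1]; exact hx
    exact hinj (by rw [h2, map_zero])
  refine ⟨IsLocalRing.residue A y, ?_⟩
  rw [← hPmap, Polynomial.eval_map_apply, hy, map_zero]

/-- an integer prime to `l` is a unit of a valuation subring over `l` -/
theorem s58rf_unit (A : ValuationSubring (AlgebraicClosure ℚ)) (l : ℕ) (hl : l.Prime)
    (hA : A.LiesOverPrime l) (m : ℕ) (hm : m.Coprime l) :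
    (m : AlgebraicClosure ℚ) ∉ A.nonunits := by
  intro hmem
  have hnd : ¬ (l : ℤ) ∣ (m : ℤ) := fun h =>
    (Nat.Prime.coprime_iff_not_dvd hl).mp hm.symm (Int.natCast_dvd_natCast.mp h)
  have h1 := Fermat.Agent.S05.valuation_intCast_eq_one A hl hA hnd
  rw [ValuationSubring.mem_nonunits_iff] at hmem
  rw [Int.cast_natCast] at h1
  rw [h1] at hmem
  exact lt_irrefl _ hmem

end Fermat.Agent.S58
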