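import Mathlib
import Fermat.Agent.S58.RedQ
import Fermat.Agent.S58.ResField
import Fermat.Agent.S58.RedGalCore
import Fermat.Prelude.Def_FLTPrelim_Modularity
import Fermat.Prelude.Def_FLTPrelim_GaloisRep

/-!
# S58, package RED: the seams at the carrier `A ⊆ Q̄`, residue-field side

`W` a Weierstrass curve over `ℤ`, `l` a prime, `A` a valuation subring of `Q̄` over `l`,
`k_A` its residue field, `Wk := (W.map (Int.castRingHom A)).map (IsLocalRing.residue A)`.

* `s58rs_delta` : `Wk.Δ ≠ 0` at a good prime;
* `s58rs_delta_mod` : `(W.reductionMod l).Δ ≠ 0` at a good prime;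
* `s58rs_hQ` : the relational form of (Q) on `Wk` (the argument `hQ` of `s58rk_quad`) from the
  `Point.map` form of (Q) for `W.reductionMod l` over every algebraically closed field.

Names are prefixed `s58rs`.
-/

set_option autoImplicit false

noncomputable section

open WeierstrassCurve WeierstrassCurve.Affine

namespace Fermat.Agent.S58

local notation "Qb" => AlgebraicClosure ℚ

/-- the special fibre has nonzero discriminant at a good prime -/
theorem s58rs_delta (W : WeierstrassCurve ℤ) (l : ℕ) (hl : l.Prime) (hΔ : ¬ (l : ℤ) ∣ W.Δ)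
    (A : ValuationSubring Qb) (hA : A.LiesOverPrime l) :
    ((W.map (Int.castRingHom A)).map (IsLocalRing.residue A)).Δ ≠ 0 := by
  haveI := s58rf_charP A l hl hA
  rw [WeierstrassCurve.map_Δ, WeierstrassCurve.map_Δ]
  intro h
  apply hΔ
  have h2 : ((W.Δ : ℤ) : IsLocalRing.ResidueField A) = 0 := by simpa using h
  exact (CharP.intCast_eq_zero_iff (IsLocalRing.ResidueField A) l W.Δ).mp h2

/-- the reduction mod `l` has nonzero discriminant at a good prime -/
theorem s58rs_delta_mod (W : WeierstrassCurve ℤ) (l : ℕ) (hΔ : ¬ (l : ℤ) ∣ W.Δ) :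
    (W.reductionMod l).Δ ≠ 0 := by
  unfold WeierstrassCurve.reductionMod
  rw [WeierstrassCurve.map_Δ]
  intro h
  apply hΔ
  have h2 : ((W.Δ : ℤ) : ZMod l) = 0 := by simpa using h
  exact (ZMod.intCast_zmod_eq_zero_iff_dvd _ _).mp h2

/-- transport of a relational statement along an equality of curves -/
theorem s58rs_transport {K : Type*} [Field K] [DecidableEq K] {W1 W2 : Affine K} (h : W1 = W2)
    (f : K → K) (a c : ℤ)
    (H : ∀ T T1 T2 : W1.Point, S58Map W1 f T T1 → S58Map W1 f T1 T2 → T2 - a • T1 + c • T = 0) :
    ∀ T T1 T2 : W2.Point, S58Map W2 f T T1 → S58Map W2 f T1 T2 → T2 - a • T1 + c • T = 0 := by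
  subst h
  exact H

/-- **(Q) at the carrier**: the relational form of the Frobenius characteristic equation on the
special fibre `Wk`, from (Q) for `W.reductionMod l` over every algebraically closed field. -/
theorem s58rs_hQ (W : WeierstrassCurve ℤ) (l : ℕ) [Fact l.Prime]
    (A : ValuationSubring Qb) (hA : A.LiesOverPrime l)
    [DecidableEq (IsLocalRing.ResidueField A)]
    (hfq : ∀ (k : Type) [Field k] [Algebra (ZMod l) k] [IsAlgClosed k] [DecidableEq k]
      (T : ((W.reductionMod l).toAffine⁄k).Point),
      Point.map (W' := (W.reductionMod l).toAffine) (FiniteField.frobeniusAlgHom (ZMod l) k)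
          (Point.map (W' := (W.reductionMod l).toAffine)
            (FiniteField.frobeniusAlgHom (ZMod l) k) T) -
        (W.reductionMod l).traceOfFrobenius •
          Point.map (W' := (W.reductionMod l).toAffine)
            (FiniteField.frobeniusAlgHom (ZMod l) k) T + l • T = 0) :
    ∀ Q Q1 Q2 : ((W.map (Int.castRingHom A)).map (IsLocalRing.residue A)).toAffine.Point,
      S58Map ((W.map (Int.castRingHom A)).map (IsLocalRing.residue A)).toAffine
        (fun z => z ^ l) Q Q1 →
      S58Map ((W.map (Int.castRingHom A)).map (IsLocalRing.residue A)).toAffine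
        (fun z => z ^ l) Q1 Q2 →
      Q2 - W.apOfModel l • Q1 + (l : ℤ) • Q = 0 := by
  haveI := s58rf_charP A l (Fact.out) hA
  letI : Algebra (ZMod l) (IsLocalRing.ResidueField A) := ZMod.algebra _ l
  haveI := s58rf_algClosed A
  have hW : ((W.reductionMod l).toAffine⁄(IsLocalRing.ResidueField A)) =
      ((W.map (Int.castRingHom A)).map (IsLocalRing.residue A)).toAffine := by
    unfold WeierstrassCurve.reductionMod
    show (W.map (Int.castRingHom (ZMod l))).map (algebraMap (ZMod l) (IsLocalRing.ResidueField A))
      = (W.map (Int.castRingHom A)).map (IsLocalRing.residue A)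
    rw [WeierstrassCurve.map_map, WeierstrassCurve.map_map]
    congr 1
    exact RingHom.ext_int _ _
  exact s58rs_transport hW _ _ _
    (s58rq_of_fq l (W.reductionMod l) (IsLocalRing.ResidueField A) (W.apOfModel l)
      (hfq (IsLocalRing.ResidueField A)))

end Fermat.Agent.S58
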