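/-
S58 (stage 7), package [M7]: the top of the modular side.  Prefix `s58top_`.

* `s58top_rep35`, `s58top_rep36` : package [M2] (`S58/ChiInt.lean`) and Carayol's theorem
  without the residual hypothesis (`S58/CarayolNoRes.lean`) in the shape consumed by [M3]:
  for a newform `g` of level `M` with `a_ℓ(g) = a ℓ ∈ ℤ` at the primes outside a finite set
  `S ∋ lam` containing the primes of `M`, a `lam`-adic representation over a complete discrete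
  valuation ring `O` with Frobenius characteristic polynomials `X² - a_ℓ X + ℓ` outside `S`
  and the local property at the primes of `M` (S35: `q ∥ M`; S36: `q² ∥ M`).
* `s58top_main` : the statement of S58 (level lowering to `rad |Δ|` for a semistable modular
  model of cube-free level) from
  `hU`, `hF` : the transfers from the Tate module of `W` (unipotence on inertia at `q ≠ lam`,
  trace of Frobenius at a good prime `q ≠ lam`) to any such representation,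
  `hbound` : `a_q(W) ≠ ± (q + 1)` at the good primes,
  `h5` : package [M5] (the eigenvalue of `g` at the good primes not dividing its level).
  Chain: [M1] `s58m1_of_model` → [M3] `s58m3_level_dvd` → `h5` → [M6] `s58m6_modular`.
-/
import Fermat.Agent.S58.ChiInt
import Fermat.Agent.S58.CarayolNoRes
import Fermat.Agent.S58.LevelClaims
import Fermat.Agent.S58.NewDescent
import Fermat.Agent.S58.Stabilise

set_option autoImplicit false

namespace Fermat.Agent.S58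

open Polynomial ModularFormClass CuspForm

/-- **[M2] in the shape of [M3], S35.** -/
theorem s58top_rep35 {M : ℕ} [NeZero M] {g : CuspForm (CongruenceSubgroup.Gamma0 M) 2}
    (hg : g.IsNewform) (a : ℕ → ℤ) (lam : ℕ) [Fact lam.Prime] (S : Finset ℕ) (hlamS : lam ∈ S)
    (hMS : ∀ q : ℕ, q.Prime → q ∣ M → q ∈ S)
    (hga : ∀ ℓ : ℕ, ℓ.Prime → ℓ ∉ S → qCoeff g ℓ = (a ℓ : ℂ)) :
    ∃ (O : Type) (_ : CommRing O) (_ : IsDomain O) (_ : IsDiscreteValuationRing O)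
      (_ : IsAdicComplete (IsLocalRing.maximalIdeal O) O)
      (_ : Finite (IsLocalRing.ResidueField O)) (_ : CharZero O),
      (lam : O) ∈ IsLocalRing.maximalIdeal O ∧ ∃ ρ : GaloisRepAdic O,
        (∀ ℓ : ℕ, ℓ.Prime → ℓ ∉ S →
          ∀ A : ValuationSubring (AlgebraicClosure ℚ), A.LiesOverPrime ℓ →
            ∀ σ : AlgebraicClosure ℚ ≃ₐ[ℚ] AlgebraicClosure ℚ, A.IsFrobeniusAt σ ℓ →
              LinearMap.charpoly (ρ.ρ σ) =
                X ^ 2 - C ((a ℓ : ℤ) : O) * X + C ((ℓ : ℕ) : O)) ∧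
        (∀ q : ℕ, q.Prime → q ≠ lam → q ∣ M → ¬ q ^ 2 ∣ M →
          ∀ A : ValuationSubring (AlgebraicClosure ℚ), A.LiesOverPrime q →
            ∀ σ : AlgebraicClosure ℚ ≃ₐ[ℚ] AlgebraicClosure ℚ, A.IsFrobeniusAt σ q →
              LinearMap.charpoly (ρ.ρ σ) = X ^ 2 - C ((q : O) + 1) * X + C ((q : O)) ∨
              LinearMap.charpoly (ρ.ρ σ) = X ^ 2 + C ((q : O) + 1) * X + C ((q : O))) := by
  obtain ⟨O, i1, i2, i3, i4, i5, i6, i7, i8, i9, -, hlamO, ρ, hfrob, hst⟩ :=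
    s58m2_S35 hg lam S hlamS hMS a (fun ℓ hℓ _ hℓS => hga ℓ hℓ hℓS)
  exact ⟨O, i1, i2, i3, i4, i5, i6, hlamO, ρ,
    fun ℓ hℓ hℓS A hA σ hσ => hfrob ℓ hℓ (fun h => hℓS (hMS ℓ hℓ h)) hℓS A hA σ hσ, hst⟩

/-- **[M2] in the shape of [M3], Carayol (S36 without the residual hypothesis).** -/
theorem s58top_rep36 {M : ℕ} [NeZero M] {g : CuspForm (CongruenceSubgroup.Gamma0 M) 2}
    (hg : g.IsNewform) (a : ℕ → ℤ) (lam : ℕ) [Fact lam.Prime] (S : Finset ℕ) (hlamS : lam ∈ S)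
    (hMS : ∀ q : ℕ, q.Prime → q ∣ M → q ∈ S)
    (hga : ∀ ℓ : ℕ, ℓ.Prime → ℓ ∉ S → qCoeff g ℓ = (a ℓ : ℂ)) :
    ∃ (O : Type) (_ : CommRing O) (_ : IsDomain O) (_ : IsDiscreteValuationRing O)
      (_ : IsAdicComplete (IsLocalRing.maximalIdeal O) O)
      (_ : Finite (IsLocalRing.ResidueField O)) (_ : CharZero O),
      (lam : O) ∈ IsLocalRing.maximalIdeal O ∧ ∃ ρ : GaloisRepAdic O,
        (∀ ℓ : ℕ, ℓ.Prime → ℓ ∉ S →
          ∀ A : ValuationSubring (AlgebraicClosure ℚ), A.LiesOverPrime ℓ →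
            ∀ σ : AlgebraicClosure ℚ ≃ₐ[ℚ] AlgebraicClosure ℚ, A.IsFrobeniusAt σ ℓ →
              LinearMap.charpoly (ρ.ρ σ) =
                X ^ 2 - C ((a ℓ : ℤ) : O) * X + C ((ℓ : ℕ) : O)) ∧
        (∀ q : ℕ, q.Prime → q ≠ lam → M.factorization q = 2 →
          ¬ ρ.IsUnipotentOnInertiaAt q) := by
  obtain ⟨chig, iota, hchig, -, halg⟩ :=
    s58m2_data hg.1 lam S hMS a (fun ℓ hℓ _ hℓS => hga ℓ hℓ hℓS)
  obtain ⟨O, i1, i2, i3, i4, i5, i6, i7, i8, i9, -, ρ, hfrob, hst⟩ :=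
    s58cn_carayol hg lam S ℤ_[lam] (s58m2_lam_mem lam) chig hchig iota hlamS hMS
  refine ⟨O, i1, i2, i3, i4, i5, i6, s58m2_lam_mem_ext lam O, ρ, ?_, hst⟩
  intro ℓ hℓ hℓS A hA σ hσ
  have hℓS' : ℓ ∉ (↑S : Set ℕ) := fun h => hℓS (Finset.mem_coe.mp h)
  have hℓM : ¬ ℓ ∣ M := fun h => hℓS (hMS ℓ hℓ h)
  rw [hfrob ℓ hℓ hℓM hℓS' A hA σ hσ, halg O ℓ hℓ hℓM hℓS']

/-- **[M7] the top, modular side.**  S58 from the transfers `hU`, `hF` (Tate module of `W`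
to any compatible `λ`-adic representation), the trivial bound `hbound` and the statement `h5`
of [M5] (the eigenvalue at the good primes dividing `N` but not the level of the newform). -/
theorem s58top_main (W : WeierstrassCurve ℤ) (N : ℕ)
    (hN : W.IsModularModelOfLevel N) (hbad : ∀ ℓ : ℕ, ℓ.Prime → (ℓ : ℤ) ∣ W.Δ → ℓ ∣ N)
    (hN3 : ∀ q : ℕ, q.Prime → ¬ q ^ 3 ∣ N)
    (hU : ∀ (lam : ℕ) [Fact lam.Prime] (S : Finset ℕ), lam ∈ S →
      (∀ ℓ : ℕ, ℓ.Prime → (ℓ : ℤ) ∣ W.Δ → ℓ ∈ S) →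
      ∀ (O : Type) [CommRing O] [IsDomain O] [IsDiscreteValuationRing O]
        [IsAdicComplete (IsLocalRing.maximalIdeal O) O]
        [Finite (IsLocalRing.ResidueField O)] [CharZero O],
        (lam : O) ∈ IsLocalRing.maximalIdeal O → ∀ ρ : GaloisRepAdic O,
          (∀ ℓ : ℕ, ℓ.Prime → ℓ ∉ S →
            ∀ A : ValuationSubring (AlgebraicClosure ℚ), A.LiesOverPrime ℓ →
              ∀ σ : AlgebraicClosure ℚ ≃ₐ[ℚ] AlgebraicClosure ℚ, A.IsFrobeniusAt σ ℓ →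
                LinearMap.charpoly (ρ.ρ σ) =
                  X ^ 2 - C ((W.apOfModel ℓ : ℤ) : O) * X + C ((ℓ : ℕ) : O)) →
          ∀ q : ℕ, q.Prime → q ≠ lam → ρ.IsUnipotentOnInertiaAt q)
    (hF : ∀ (lam : ℕ) [Fact lam.Prime] (S : Finset ℕ), lam ∈ S →
      (∀ ℓ : ℕ, ℓ.Prime → (ℓ : ℤ) ∣ W.Δ → ℓ ∈ S) →
      ∀ (O : Type) [CommRing O] [IsDomain O] [IsDiscreteValuationRing O]
        [IsAdicComplete (IsLocalRing.maximalIdeal O) O]
        [Finite (IsLocalRing.ResidueField O)] [CharZero O],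
        (lam : O) ∈ IsLocalRing.maximalIdeal O → ∀ ρ : GaloisRepAdic O,
          (∀ ℓ : ℕ, ℓ.Prime → ℓ ∉ S →
            ∀ A : ValuationSubring (AlgebraicClosure ℚ), A.LiesOverPrime ℓ →
              ∀ σ : AlgebraicClosure ℚ ≃ₐ[ℚ] AlgebraicClosure ℚ, A.IsFrobeniusAt σ ℓ →
                LinearMap.charpoly (ρ.ρ σ) =
                  X ^ 2 - C ((W.apOfModel ℓ : ℤ) : O) * X + C ((ℓ : ℕ) : O)) →
          ∀ q : ℕ, q.Prime → q ≠ lam → W.IsGoodPrimeFor q →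
            ∀ A : ValuationSubring (AlgebraicClosure ℚ), A.LiesOverPrime q →
              ∀ σ : AlgebraicClosure ℚ ≃ₐ[ℚ] AlgebraicClosure ℚ, A.IsFrobeniusAt σ q →
                LinearMap.trace O ρ.V (ρ.ρ σ) = ((W.apOfModel q : ℤ) : O))
    (hbound : ∀ q : ℕ, q.Prime → W.IsGoodPrimeFor q →
      W.apOfModel q ≠ (q : ℤ) + 1 ∧ W.apOfModel q ≠ -((q : ℤ) + 1))
    (h5 : ∀ (S : Finset ℕ) {M : ℕ} (g : CuspForm (CongruenceSubgroup.Gamma0 M) 2),
      g.IsNormalizedEigenform →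
      (∀ ℓ : ℕ, ℓ.Prime → ℓ ∉ S →
        ¬ (ℓ : ℤ) ∣ W.Δ ∧ ¬ ℓ ∣ M ∧ qCoeff g ℓ = (W.apOfModel ℓ : ℂ)) →
      ∀ q : ℕ, q.Prime → ¬ (q : ℤ) ∣ W.Δ → ¬ q ∣ M → qCoeff g q = (W.apOfModel q : ℂ)) :
    W.IsModularModelOfLevel W.conductorLevel := by
  have hN0 : N ≠ 0 := s58m1_ne_zero hN3
  have hΔ : W.Δ ≠ 0 := by
    intro h0
    obtain ⟨ℓ, hℓN, hℓ⟩ := Nat.exists_infinite_primes (N + 1)
    have h1 : ℓ ∣ N := hbad ℓ hℓ (by rw [h0]; exact dvd_zero _)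
    have h2 := Nat.le_of_dvd (Nat.pos_of_ne_zero hN0) h1
    omega
  obtain ⟨M, g, hMN, hg, hgW⟩ := s58m1_of_model W hN0 hN
  have hM0 : M ≠ 0 := fun h => hN0 (by rw [h] at hMN; exact zero_dvd_iff.mp hMN)
  have : NeZero M := ⟨hM0⟩
  have hgW' : ∀ ℓ : ℕ, ℓ.Prime → ¬ ℓ ∣ N → qCoeff g ℓ = (W.apOfModel ℓ : ℂ) :=
    fun ℓ hℓ hℓN => hgW ℓ hℓ (fun h => hℓN (hbad ℓ hℓ h)) hℓN
  have hMC : M ∣ W.conductorLevel :=
    s58m3_level_dvd W hΔ hN3 hbad hMN hgW'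
      (fun lam _ S h1 h2 h3 => s58top_rep35 hg W.apOfModel lam S h1 h2 h3)
      (fun lam _ S h1 h2 h3 => s58top_rep36 hg W.apOfModel lam S h1 h2 h3) hU hF hbound
  refine s58m6_modular W hΔ g hg.1 hMC (fun l hl hgood => ?_)
  have hlM : ¬ l ∣ M :=
    fun h => hgood ((W.prime_dvd_conductorLevel_iff hΔ hl).mp (h.trans hMC))
  refine h5 N.primeFactors g hg.1 (fun ℓ hℓ hℓS => ?_) l hl hgood hlM
  have hℓN : ¬ ℓ ∣ N := fun h => hℓS (Nat.mem_primeFactors.mpr ⟨hℓ, h, hN0⟩)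
  exact ⟨fun h => hℓN (hbad ℓ hℓ h), fun h => hℓN (h.trans hMN), hgW' ℓ hℓ hℓN⟩

end Fermat.Agent.S58
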