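import Fermat.Agent.S58.Top
import Fermat.Agent.S58.ApBound
import Fermat.Agent.S58.GoodViaF

/-!
# S58, package [M7], variant: the top of the modular side from the two transfers only

`s58tb_main` : the statement of S58 (level lowering to `rad |Δ|` for a modular integral model of
cube-free level whose bad primes divide the level) from the two transfers from the Tate module
of `W` to any compatible `λ`-adic representation:

* `hU` : unipotence on inertia at every prime `q ≠ λ`;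
* `hF` : the trace of a Frobenius at a good prime `q ≠ λ` is `a_q(W)`.

Compared with `s58top_main` the hypothesis `h5` (package [M5]) is discharged by `s58gf_good`
(from `hF`), and `hbound` by `s58ab_bound`.
Chain: [M1] `s58m1_of_model` → [M3] `s58m3_level_dvd` → `s58gf_good` → [M6] `s58m6_modular`.

Names are prefixed `s58tb_`.
-/

set_option autoImplicit false

namespace Fermat.Agent.S58

open Polynomial ModularFormClass CuspForm

/-- **[M7], variant.**  S58 from the transfers `hU`, `hF` only. -/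
theorem s58tb_main (W : WeierstrassCurve ℤ) (N : ℕ)
    (hN : W.IsModularModelOfLevel N) (hbad : ∀ ℓ : ℕ, ℓ.Prime → (ℓ : ℤ) ∣ W.Δ → ℓ ∣ N)
    (hN3 : ∀ q : ℕ, q.Prime → ¬ q ^ 3 ∣ N)
    (hU : ∀ (lam : ℕ) [Fact lam.Prime] (S : Finset ℕ), lam ∈ S →
      (∀ ℓ : ℕ, ℓ.Prime → (ℓ : ℤ) ∣ W.Δ → ℓ ∈ S) →
      ∀ (O : Type) [CommRing O] [IsDomain O] [IsDiscreteValuationRing O]
        [IsAdicComplete (IsLocalRing.maximalIdeal O) O]
        [Finite (IsLocalRing.ResidueField O)] [CharZero O],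
        (lam : O) ∈ IsLocalRing.maximalIdeal O → ∀ ρ : GaloisRepAdic O,
          (∀ ℓ : ℕ, ℓ.Prime → ℓ ∉ S →
            ∀ A : ValuationSubring (AlgebraicClosure ℚ), A.LiesOverPrime ℓ →
              ∀ σ : AlgebraicClosure ℚ ≃ₐ[ℚ] AlgebraicClosure ℚ, A.IsFrobeniusAt σ ℓ →
                LinearMap.charpoly (ρ.ρ σ) =
                  X ^ 2 - C ((W.apOfModel ℓ : ℤ) : O) * X + C ((ℓ : ℕ) : O)) →
          ∀ q : ℕ, q.Prime → q ≠ lam → ρ.IsUnipotentOnInertiaAt q)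
    (hF : ∀ (lam : ℕ) [Fact lam.Prime] (S : Finset ℕ), lam ∈ S →
      (∀ ℓ : ℕ, ℓ.Prime → (ℓ : ℤ) ∣ W.Δ → ℓ ∈ S) →
      ∀ (O : Type) [CommRing O] [IsDomain O] [IsDiscreteValuationRing O]
        [IsAdicComplete (IsLocalRing.maximalIdeal O) O]
        [Finite (IsLocalRing.ResidueField O)] [CharZero O],
        (lam : O) ∈ IsLocalRing.maximalIdeal O → ∀ ρ : GaloisRepAdic O,
          (∀ ℓ : ℕ, ℓ.Prime → ℓ ∉ S →
            ∀ A : ValuationSubring (AlgebraicClosure ℚ), A.LiesOverPrime ℓ →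
              ∀ σ : AlgebraicClosure ℚ ≃ₐ[ℚ] AlgebraicClosure ℚ, A.IsFrobeniusAt σ ℓ →
                LinearMap.charpoly (ρ.ρ σ) =
                  X ^ 2 - C ((W.apOfModel ℓ : ℤ) : O) * X + C ((ℓ : ℕ) : O)) →
          ∀ q : ℕ, q.Prime → q ≠ lam → W.IsGoodPrimeFor q →
            ∀ A : ValuationSubring (AlgebraicClosure ℚ), A.LiesOverPrime q →
              ∀ σ : AlgebraicClosure ℚ ≃ₐ[ℚ] AlgebraicClosure ℚ, A.IsFrobeniusAt σ q →
                LinearMap.trace O ρ.V (ρ.ρ σ) = ((W.apOfModel q : ℤ) : O)) :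
    W.IsModularModelOfLevel W.conductorLevel := by
  have hN0 : N ≠ 0 := s58m1_ne_zero hN3
  have hΔ : W.Δ ≠ 0 := by
    intro h0
    obtain ⟨ℓ, hℓN, hℓ⟩ := Nat.exists_infinite_primes (N + 1)
    have h1 : ℓ ∣ N := hbad ℓ hℓ (by rw [h0]; exact dvd_zero _)
    have h2 := Nat.le_of_dvd (Nat.pos_of_ne_zero hN0) h1
    omega
  obtain ⟨M, g, hMN, hg, hgW⟩ := s58m1_of_model W hN0 hN
  have hM0 : M ≠ 0 := fun h => hN0 (by rw [h] at hMN; exact zero_dvd_iff.mp hMN)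
  have : NeZero M := ⟨hM0⟩
  have hgW' : ∀ ℓ : ℕ, ℓ.Prime → ¬ ℓ ∣ N → qCoeff g ℓ = (W.apOfModel ℓ : ℂ) :=
    fun ℓ hℓ hℓN => hgW ℓ hℓ (fun h => hℓN (hbad ℓ hℓ h)) hℓN
  have hMC : M ∣ W.conductorLevel :=
    s58m3_level_dvd W hΔ hN3 hbad hMN hgW'
      (fun lam _ S h1 h2 h3 => s58top_rep35 hg W.apOfModel lam S h1 h2 h3)
      (fun lam _ S h1 h2 h3 => s58top_rep36 hg W.apOfModel lam S h1 h2 h3) hU hF
      (fun q hq hgood => s58ab_bound W q hq hgood)
  refine s58m6_modular W hΔ g hg.1 hMC (fun l hl hgood => ?_)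
  have hlM : ¬ l ∣ M :=
    fun h => hgood ((W.prime_dvd_conductorLevel_iff hΔ hl).mp (h.trans hMC))
  refine s58gf_good W hF N.primeFactors hg (fun ℓ hℓ hℓS => ?_) l hl hgood hlM
  have hℓN : ¬ ℓ ∣ N := fun h => hℓS (Nat.mem_primeFactors.mpr ⟨hℓ, h, hN0⟩)
  exact ⟨fun h => hℓN (hbad ℓ hℓ h), fun h => hℓN (h.trans hMN), hgW' ℓ hℓ hℓN⟩

end Fermat.Agent.S58
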