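import Mathlib
import Fermat.Prelude.Def_GaloisRep_Residual
import Fermat.Agent.S13.TwoGlue
import Fermat.Agent.S29.FrobDens
import Fermat.Agent.S30.CycloAdic
import Fermat.Agent.S31.Lucas
import Fermat.Agent.S31.TraceInst
import Fermat.Agent.S37.Frob

/-!
# S58, residual twin of the trace transfer (prefix `s58t_`)

(The adic transfer is `Fermat.Agent.S58.Transfer`, prefix `s58tr_`; this file is its mod-`lam`
twin and is independent of it.)

Abstract setting: `P` is an abelian group with an action of `Gal(ℚ̄/ℚ)` (in the application the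
`ℚ̄`-points of an elliptic curve), `lam` is a prime, and `ρ` is a residual Galois representation
of rank two over a field `k` of characteristic `lam`.  Suppose that for the primes `ℓ ≠ lam`
outside a finite set `S`

* the characteristic polynomial of `ρ` at a Frobenius element at `ℓ` is `X ^ 2 - a ℓ X + ℓ`,
* a Frobenius element `τ` at `ℓ` satisfies `τ ^ 2 - a ℓ τ + ℓ = 0` on the `lam`-torsion of `P`,

and that the `lam`-torsion of `P` has a finite level and is nonzero.  Then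

* `s58t_frob_trace_res`: `trace ρ(g) = a_q` in `k` for a Frobenius element `g` at `q ≠ lam`
  satisfying `g ^ 2 - a_q g + q = 0` on the `lam`-torsion;
* `s58t_attached_congr`: the same for a representation attached to a cusp form `f`
  (`ResidualGaloisRep.IsAttachedTo`): `φ x = a_q` for the algebraic integer `x = a_q(f)`, at a
  prime `q ∤ N`, `q ≠ lam`.

Tools: `s58t_lucas` (the Lucas relation `τ ^ b + ℓ ^ b τ ^ (-b) = V_b(a, ℓ)` on the torsion),
`s58t_point` (the congruence `m ∣ V_b(a, ℓ) - c` read off at a point of exact order `m`).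
-/

set_option autoImplicit false

namespace Fermat.Agent.S58

open Fermat.Agent.S29 Fermat.Agent.S30 Fermat.Agent.S31 Polynomial

local notation "Qb" => AlgebraicClosure ℚ

/-! ### The torsion subgroup and the Lucas relation -/

section torsion

variable (G P : Type*) [Group G] [AddCommGroup P] [DistribMulAction G P]

/-- The `m`-torsion subgroup of an abelian group. -/
def s58tTors (m : ℕ) : AddSubgroup P := (nsmulAddMonoidHom m : P →+ P).ker

variable {P} in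
theorem s58t_mem_tors (m : ℕ) (T : P) : T ∈ s58tTors P m ↔ m • T = 0 := Iff.rfl

variable {G P} in
/-- The torsion is stable under the action. -/
theorem s58t_smul_tors (m : ℕ) (g : G) (T : P) (hT : m • T = 0) : m • (g • T) = 0 := by
  rw [smul_comm, hT, smul_zero]

/-- The action on the `m`-torsion, as a homomorphism to the endomorphism ring. -/
def s58tRho (m : ℕ) : G →* Module.End ℤ (s58tTors P m) where
  toFun g := (AddMonoidHom.mk' (fun x : s58tTors P m =>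
      (⟨g • (x : P), s58t_smul_tors m g _ x.2⟩ : s58tTors P m))
    (fun x y => Subtype.ext (smul_add g (x : P) (y : P)))).toIntLinearMap
  map_one' := LinearMap.ext fun x => Subtype.ext (one_smul G (x : P))
  map_mul' g h := LinearMap.ext fun x => Subtype.ext (mul_smul g h (x : P))

variable {G P} in
theorem s58tRho_apply (m : ℕ) (g : G) (x : s58tTors P m) :
    ((s58tRho G P m g x : s58tTors P m) : P) = g • (x : P) := rfl

variable {G P} in
/-- **The Lucas relation on the torsion.**  If `τ ^ 2 - a τ + ℓ = 0` on the `m`-torsion, then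
`τ ^ b + ℓ ^ b τ ^ (-b) = V_b(a, ℓ)` there. -/
theorem s58t_lucas (m : ℕ) (τ : G) (a : ℤ) (ℓ : ℕ)
    (hrel : ∀ T : P, m • T = 0 → τ • τ • T - a • τ • T + ℓ • T = 0) (b : ℕ) (T : P)
    (hT : m • T = 0) :
    τ ^ b • T + ℓ ^ b • (τ ^ b)⁻¹ • T = lucV (a : ℤ) (ℓ : ℤ) b • T := by
  have hrel' : s58tRho G P m τ * s58tRho G P m τ
      - (a : Module.End ℤ (s58tTors P m)) * s58tRho G P m τ
      + ((ℓ : ℕ) : Module.End ℤ (s58tTors P m)) = 0 := by
    refine LinearMap.ext fun x => Subtype.ext ?_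
    have h := hrel (x : P) x.2
    simp only [LinearMap.add_apply, LinearMap.sub_apply, Module.End.mul_apply,
      Module.End.natCast_apply, Module.End.intCast_apply, LinearMap.zero_apply,
      AddSubgroup.coe_add, AddSubgroup.coe_sub, AddSubgroup.coe_nsmul, AddSubgroup.coe_zsmul,
      s58tRho_apply, ZeroMemClass.coe_zero]
    exact h
  have h := luc_rep (s58tRho G P m) τ (a : Module.End ℤ (s58tTors P m))
    ((ℓ : ℕ) : Module.End ℤ (s58tTors P m)) hrel' (Int.cast_commute a _).eq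
    (Nat.cast_commute ℓ _).eq b
  have h2 : lucV (a : Module.End ℤ (s58tTors P m)) ((ℓ : ℕ) : Module.End ℤ (s58tTors P m)) b
      = ((lucV (a : ℤ) (ℓ : ℤ) b : ℤ) : Module.End ℤ (s58tTors P m)) := by
    have h3 := luc_map (Int.castRingHom (Module.End ℤ (s58tTors P m))) (a : ℤ) (ℓ : ℤ) b
    rw [eq_intCast, eq_intCast, eq_intCast, Int.cast_natCast] at h3
    exact h3.symm
  rw [h2, ← Nat.cast_pow] at h
  have h4 := congrArg (fun f : Module.End ℤ (s58tTors P m) =>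
    ((f ⟨T, hT⟩ : s58tTors P m) : P)) h
  simp only [LinearMap.add_apply, Module.End.mul_apply,
    Module.End.natCast_apply, Module.End.intCast_apply,
    AddSubgroup.coe_add, AddSubgroup.coe_nsmul, AddSubgroup.coe_zsmul,
    s58tRho_apply] at h4
  exact h4

variable {P} in
/-- Natural numbers congruent modulo `m` act in the same way on the `m`-torsion. -/
theorem s58t_nsmul_congr (m u v : ℕ) (h : (u : ZMod m) = (v : ZMod m)) (T : P)
    (hT : m • T = 0) : u • T = v • T := by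
  have h1 : u ≡ v [MOD m] := (ZMod.natCast_eq_natCast_iff u v m).mp h
  obtain ⟨k, hk⟩ := Nat.modEq_iff_dvd.mp h1
  have h2 : ((v : ℤ) - (u : ℤ)) • T = 0 := by
    rw [hk, mul_comm, mul_smul, natCast_zsmul, hT, smul_zero]
  rw [sub_smul, natCast_zsmul, natCast_zsmul, sub_eq_zero] at h2
  exact h2.symm

variable {P} in
/-- A nonzero point killed by a prime `lam` has exact order `lam`. -/
theorem s58t_exact_of_prime (lam : ℕ) (hlam : lam.Prime) (T : P) (hT : lam • T = 0)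
    (hT0 : T ≠ 0) (k : ℤ) (hk : k • T = 0) : (lam : ℤ) ∣ k := by
  by_contra hnd
  have hp : Prime (lam : ℤ) := Nat.prime_iff_prime_int.mp hlam
  obtain ⟨u, v, huv⟩ := (Prime.coprime_iff_not_dvd hp).mpr hnd
  apply hT0
  have h1 : (u * (lam : ℤ) + v * k) • T = 0 := by
    rw [add_smul, mul_smul, mul_smul, natCast_zsmul, hT, hk, smul_zero, smul_zero, add_zero]
  rw [huv, one_smul] at h1
  exact h1

end torsion

/-! ### The congruence at a point of exact order -/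

section point

variable {P : Type*} [AddCommGroup P] [DistribMulAction (Qb ≃ₐ[ℚ] Qb) P]

/-- **The congruence at a point of exact order `m`.**  If `τ` satisfies `τ ^ 2 - a τ + ℓ = 0`
on the `m`-torsion, `τ ^ b` agrees with `g` on a field trivialising the `m`-torsion,
`ℓ ^ b = e` modulo `m`, and `g T₀ + e g⁻¹ T₀ = c T₀` for a point `T₀` of exact order `m`, then
`m ∣ V_b(a, ℓ) - c`. -/
theorem s58t_point (m : ℕ) (τ g : Qb ≃ₐ[ℚ] Qb) (a : ℤ) (ℓ b e : ℕ)
    (hrel : ∀ T : P, m • T = 0 → τ • τ • T - a • τ • T + ℓ • T = 0)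
    (L : IntermediateField ℚ Qb)
    (hL : ∀ σ : Qb ≃ₐ[ℚ] Qb, (∀ x ∈ L, σ x = x) → ∀ T : P, m • T = 0 → σ • T = T)
    (hb : ∀ x ∈ L, (τ ^ b) x = g x)
    (hε : (ℓ : ZMod m) ^ b = (e : ZMod m))
    (c : ℤ) (T0 : P) (hT0 : m • T0 = 0)
    (hord : ∀ k : ℤ, k • T0 = 0 → (m : ℤ) ∣ k)
    (hpt : g • T0 + e • g⁻¹ • T0 = c • T0) :
    (m : ℤ) ∣ lucV (a : ℤ) (ℓ : ℤ) b - c := by
  have h1 := s58t_lucas m τ a ℓ hrel b T0 hT0
  have hfix : ∀ T : P, m • T = 0 → τ ^ b • T = g • T := by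
    intro T hT
    have h2 : ∀ x ∈ L, (g⁻¹ * τ ^ b) x = x := by
      intro x hx
      rw [AlgEquiv.mul_apply, hb x hx]
      exact g.symm_apply_apply x
    have h3 := hL _ h2 T hT
    rw [mul_smul, inv_smul_eq_iff] at h3
    exact h3
  have h4 : (τ ^ b)⁻¹ • T0 = g⁻¹ • T0 := by
    rw [inv_smul_eq_iff, hfix _ (s58t_smul_tors m g⁻¹ T0 hT0), smul_inv_smul]
  have h5 : ℓ ^ b • g⁻¹ • T0 = e • g⁻¹ • T0 :=
    s58t_nsmul_congr m (ℓ ^ b) e (by rw [Nat.cast_pow]; exact hε) _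
      (s58t_smul_tors m g⁻¹ T0 hT0)
  rw [hfix T0 hT0, h4, h5, hpt] at h1
  apply hord
  rw [sub_smul, h1, sub_self]

end point

/-! ### The trace of a residual representation -/

section residual

variable {P : Type*} [AddCommGroup P] [DistribMulAction (Qb ≃ₐ[ℚ] Qb) P]
  (lam : ℕ) [Fact lam.Prime] {k : Type} [Field k]

/-- **The trace of a residual representation at a Frobenius element of a prime `q ≠ lam`**
satisfying `g ^ 2 - a_q g + q = 0` on the `lam`-torsion. -/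
theorem s58t_frob_trace_res (ρ : ResidualGaloisRep k) (hlamk : (lam : k) = 0)
    (S : Finset ℕ) (a : ℕ → ℤ)
    (hfrob : ∀ ℓ : ℕ, ℓ.Prime → ℓ ∉ S → ℓ ≠ lam → ∀ A : ValuationSubring Qb,
      A.LiesOverPrime ℓ → ∀ τ : Qb ≃ₐ[ℚ] Qb, A.IsFrobeniusAt τ ℓ →
        LinearMap.charpoly (ρ.ρ τ) = X ^ 2 - C ((a ℓ : ℤ) : k) * X + C ((ℓ : ℕ) : k))
    (hquad : ∀ ℓ : ℕ, ℓ.Prime → ℓ ∉ S → ℓ ≠ lam → ∀ A : ValuationSubring Qb,
      A.LiesOverPrime ℓ → ∀ τ : Qb ≃ₐ[ℚ] Qb, A.IsFrobeniusAt τ ℓ → ∀ T : P, lam • T = 0 →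
        τ • τ • T - a ℓ • τ • T + ℓ • T = 0)
    (hfield : ∃ L : IntermediateField ℚ Qb, FiniteDimensional ℚ L ∧
      ∀ σ : Qb ≃ₐ[ℚ] Qb, (∀ x ∈ L, σ x = x) → ∀ T : P, lam • T = 0 → σ • T = T)
    (q : ℕ) (hq : q.Prime) (hqlam : q ≠ lam)
    (A : ValuationSubring Qb) (hA : A.LiesOverPrime q) (g : Qb ≃ₐ[ℚ] Qb)
    (hg : A.IsFrobeniusAt g q) (aq : ℤ)
    (hquad_q : ∀ T : P, lam • T = 0 → g • g • T - aq • g • T + q • T = 0)
    (hord : ∃ T : P, lam • T = 0 ∧ T ≠ 0) :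
    LinearMap.trace k ρ.V (ρ.ρ g) = (aq : k) := by
  have hlam : lam.Prime := Fact.out
  obtain ⟨L1, hL1, hρ⟩ := ρ.factorsThroughFiniteLevel
  obtain ⟨L2, hL2, hP⟩ := hfield
  obtain ⟨T0, hT0, hne⟩ := hord
  have := hL1
  have := hL2
  have := cya_field_finiteDimensional lam 1
  obtain ⟨ℓ, hℓ, hℓS, A', hA', τ, hτ, b, hb⟩ :=
    fd_main (L1 ⊔ L2 ⊔ cycField (lam ^ 1)) (insert lam S) g
  have hℓlam : ℓ ≠ lam := fun h => hℓS (h ▸ Finset.mem_insert_self _ S)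
  have hℓS' : ℓ ∉ S := fun h => hℓS (Finset.mem_insert_of_mem h)
  have hle1 : L1 ≤ L1 ⊔ L2 ⊔ cycField (lam ^ 1) := le_sup_left.trans le_sup_left
  have hle2 : L2 ≤ L1 ⊔ L2 ⊔ cycField (lam ^ 1) := le_sup_right.trans le_sup_left
  have hle3 : cycField (lam ^ 1) ≤ L1 ⊔ L2 ⊔ cycField (lam ^ 1) := le_sup_right
  have hε : (ℓ : ZMod (lam ^ 1)) ^ b = (q : ZMod (lam ^ 1)) := by
    rw [← trcEps_frobenius lam 1 q hq hqlam A hA g hg,
      ← trcEps_frobenius lam 1 ℓ hℓ hℓlam A' hA' τ hτ, ← trcEps_pow]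
    exact trcEps_congr lam 1 _ _ (fun x hx => hb x (hle3 hx))
  have hT0' : lam ^ 1 • T0 = 0 := by rw [pow_one]; exact hT0
  have hpt : g • T0 + q • g⁻¹ • T0 = aq • T0 := by
    have h := hquad_q (g⁻¹ • T0) (s58t_smul_tors _ g⁻¹ T0 hT0)
    rw [smul_inv_smul] at h
    rw [← sub_eq_zero, ← h]
    abel
  have hdvd := s58t_point (lam ^ 1) τ g (a ℓ) ℓ b q
    (fun T hT => hquad ℓ hℓ hℓS' hℓlam A' hA' τ hτ T (by rw [← pow_one lam]; exact hT)) L2
    (fun σ hσ T hT => hP σ hσ T (by rw [← pow_one lam]; exact hT))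
    (fun x hx => hb x (hle2 hx)) hε aq T0 hT0'
    (fun k' hk' => by
      rw [pow_one]
      exact s58t_exact_of_prime lam hlam T0 hT0 hne k' hk') hpt
  have e0 : ρ.ρ (τ ^ b) = ρ.ρ g :=
    trc_rep_eq_of_eqOn ρ.ρ L1 hρ g (τ ^ b) (fun x hx => hb x (hle1 hx))
  have e1 : LinearMap.trace k ρ.V (ρ.ρ (τ ^ b)) = ((lucV (a ℓ : ℤ) (ℓ : ℤ) b : ℤ) : k) := by
    rw [luc_trace_rep ρ.finrank_eq ρ.ρ τ _ _ (hfrob ℓ hℓ hℓS' hℓlam A' hA' τ hτ) b]
    have h3 := luc_map (Int.castRingHom k) (a ℓ : ℤ) (ℓ : ℤ) b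
    rw [eq_intCast, eq_intCast, eq_intCast, Int.cast_natCast] at h3
    exact h3.symm
  rw [← e0, e1]
  obtain ⟨k', hk'⟩ := hdvd
  have h3 : ((lucV (a ℓ : ℤ) (ℓ : ℤ) b : ℤ) : k) - (aq : k) = 0 := by
    rw [← Int.cast_sub, hk']
    push_cast
    rw [hlamk]
    ring
  exact sub_eq_zero.mp h3

/-- **The mod-`lam` congruence for a representation attached to a cusp form**: at a prime
`q ∤ N`, `q ≠ lam`, whose Frobenius elements satisfy `g ^ 2 - a_q g + q = 0` on the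
`lam`-torsion, the image under `φ` of the `q`-th coefficient of `f` is `a_q`. -/
theorem s58t_attached_congr [CharP k lam] {N : ℕ}
    {f : CuspForm (CongruenceSubgroup.Gamma0 N) 2} (ρ : ResidualGaloisRep k)
    (φ : integralClosure ℤ ℂ →+* k) (hρ : ρ.IsAttachedTo f φ)
    (S : Finset ℕ) (a : ℕ → ℤ)
    (hfa : ∀ ℓ : ℕ, ℓ.Prime → ℓ ∉ S → ℓ ≠ lam →
      ¬ ℓ ∣ N ∧ ModularFormClass.qCoeff f ℓ = (a ℓ : ℂ))
    (hquad : ∀ ℓ : ℕ, ℓ.Prime → ℓ ∉ S → ℓ ≠ lam → ∀ A : ValuationSubring Qb,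
      A.LiesOverPrime ℓ → ∀ τ : Qb ≃ₐ[ℚ] Qb, A.IsFrobeniusAt τ ℓ → ∀ T : P, lam • T = 0 →
        τ • τ • T - a ℓ • τ • T + ℓ • T = 0)
    (hfield : ∃ L : IntermediateField ℚ Qb, FiniteDimensional ℚ L ∧
      ∀ σ : Qb ≃ₐ[ℚ] Qb, (∀ x ∈ L, σ x = x) → ∀ T : P, lam • T = 0 → σ • T = T)
    (q : ℕ) (hq : q.Prime) (hqlam : q ≠ lam) (hqN : ¬ q ∣ N) (aq : ℤ)
    (hquad_q : ∀ A : ValuationSubring Qb, A.LiesOverPrime q → ∀ g : Qb ≃ₐ[ℚ] Qb,
      A.IsFrobeniusAt g q → ∀ T : P, lam • T = 0 → g • g • T - aq • g • T + q • T = 0)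
    (hord : ∃ T : P, lam • T = 0 ∧ T ≠ 0)
    (x : integralClosure ℤ ℂ) (hx : (x : ℂ) = ModularFormClass.qCoeff f q) :
    φ x = (aq : k) := by
  have hlam : lam.Prime := Fact.out
  have hne : ∀ ℓ : ℕ, ℓ.Prime → ℓ ≠ lam → (ℓ : k) ≠ 0 := by
    intro ℓ hℓ hℓlam h0
    rw [CharP.cast_eq_zero_iff k lam ℓ] at h0
    exact hℓlam ((Nat.prime_dvd_prime_iff_eq hlam hℓ).mp h0).symm
  have hfrob : ∀ ℓ : ℕ, ℓ.Prime → ℓ ∉ S → ℓ ≠ lam → ∀ A : ValuationSubring Qb,
      A.LiesOverPrime ℓ → ∀ τ : Qb ≃ₐ[ℚ] Qb, A.IsFrobeniusAt τ ℓ →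
        LinearMap.charpoly (ρ.ρ τ) = X ^ 2 - C ((a ℓ : ℤ) : k) * X + C ((ℓ : ℕ) : k) := by
    intro ℓ hℓ hℓS hℓlam A hA τ hτ
    obtain ⟨hℓN, hco⟩ := hfa ℓ hℓ hℓS hℓlam
    obtain ⟨a', ha', hcp⟩ := hρ ℓ hℓ hℓN (hne ℓ hℓ hℓlam) A hA τ hτ
    have e : a' = ((a ℓ : ℤ) : integralClosure ℤ ℂ) := by
      apply Subtype.ext
      rw [ha', hco]
      simp
    rw [hcp, e, map_intCast]
  obtain ⟨A, hA⟩ := Fermat.Agent.S13.two_exists_liesOver q hq
  obtain ⟨g, hg⟩ := Fermat.Agent.S37.s37_exists_frobenius q hq A hA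
  have htr := s58t_frob_trace_res lam ρ (CharP.cast_eq_zero k lam) S a hfrob hquad hfield
    q hq hqlam A hA g hg aq (hquad_q A hA g hg) hord
  obtain ⟨x', hx', hcp⟩ := hρ q hq hqN (hne q hq hqlam) A hA g hg
  have e : x' = x := Subtype.ext (hx'.trans hx.symm)
  rw [← e, ← htr]
  exact (luc_trace_eq ρ.finrank_eq (ρ.ρ g) (φ x') (q : k) hcp).symm

end residual

end Fermat.Agent.S58
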