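import Mathlib
import Fermat.Prelude.Def_FLTPrelim_Modularity
import Fermat.Prelude.Def_FLTPrelim_GaloisRep
import Fermat.Prelude.Def_FLTPrelim_Ramification
import Fermat.Prelude.Def_EllipticCurve_FrobeniusTrace
import Fermat.Prelude.Def_GaloisRep_LocalConditions
import Fermat.Agent.S58.Transfer

/-!
# S58, [T-W]: the two transfers at the level of an integral Weierstrass model

`W : WeierstrassCurve ℤ`, `E := ((W.map (Int.castRingHom ℚ))⁄ℚ̄).Point` with the Prelude Galois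
action, `lam` a prime, `ρ : GaloisRepAdic O` a representation whose Frobenius elements outside a
finite set `S ∋ lam` containing the bad primes of `W` have characteristic polynomial
`X² - a_ℓ(W) X + ℓ`.

The E-side interface enters through five statements about `(W, lam)`:

* `S58twQuad W lam`  ([EI-QUAD]): `τ² - a_ℓ(W) τ + ℓ = 0` on `E[lam ^ n]` for a Frobenius element
  `τ` at a good prime `ℓ ≠ lam`;
* `S58twUnr W lam`   ([EI-UNR]): the inertia groups at a good prime `ℓ ≠ lam` fix `E[lam ^ n]`;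
* `S58twFix W lam`   ([EI-FIX]): at a bad prime `q ≠ lam` (with `q ∤ c₄`) every inertia group
  fixes a point of exact order `lam ^ n`;
* `S58twOrd W lam`   ([EI-ORD]): `E` has points of exact order `lam ^ n`;
* `S58twField W lam` ([EI-FIELD]): `E[lam ^ n]` is fixed by the Galois group of a number field.

Output (the two statements consumed by `s58m3_level_dvd`):

* `s58tw_unip_of` : `ρ` is unipotent on inertia at every prime `q ≠ lam`;
* `s58tw_frob_of` : `trace ρ(Frob_q) = a_q(W)` at every good prime `q ≠ lam`;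
* `s58tw_hU_of`, `s58tw_hF_of` : the binders `hU`, `hF` of `s58m3_level_dvd`, verbatim;
* `s58tw_quad_of`, `s58tw_unr_of`, `s58tw_fix_of`, `s58tw_field_of` : the interface statements
  from the shapes in which RED, NODE and the torsion-field package state them;
* `s58tw_ord_of_fix` : [EI-ORD] for `lam` follows from [EI-FIX] as soon as `W` has a bad prime
  different from `lam`.

Names are prefixed `s58tw` / `S58tw`.
-/

set_option autoImplicit false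

namespace Fermat.Agent.S58

open Polynomial WeierstrassCurve WeierstrassCurve.Affine WeierstrassCurve.Affine.Point

local notation "Qb" => AlgebraicClosure ℚ

/-- [EI-QUAD] for `(W, lam)`. -/
def S58twQuad (W : WeierstrassCurve ℤ) (lam : ℕ) : Prop :=
  ∀ l : ℕ, l.Prime → ¬ (l : ℤ) ∣ W.Δ → l ≠ lam → ∀ A : ValuationSubring Qb, A.LiesOverPrime l →
    ∀ τ : Qb ≃ₐ[ℚ] Qb, A.IsFrobeniusAt τ l →
      ∀ (n : ℕ) (T : ((W.map (Int.castRingHom ℚ))⁄(AlgebraicClosure ℚ)).Point),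
        lam ^ n • T = 0 → τ • τ • T - W.apOfModel l • τ • T + (l : ℤ) • T = 0

/-- [EI-UNR] for `(W, lam)`. -/
def S58twUnr (W : WeierstrassCurve ℤ) (lam : ℕ) : Prop :=
  ∀ l : ℕ, l.Prime → ¬ (l : ℤ) ∣ W.Δ → l ≠ lam → ∀ A : ValuationSubring Qb, A.LiesOverPrime l →
    ∀ σ ∈ A.inertiaSubgroupIn ℚ,
      ∀ (n : ℕ) (T : ((W.map (Int.castRingHom ℚ))⁄(AlgebraicClosure ℚ)).Point),
        lam ^ n • T = 0 → σ • T = T

/-- [EI-FIX] for `(W, lam)`. -/
def S58twFix (W : WeierstrassCurve ℤ) (lam : ℕ) : Prop :=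
  ∀ q : ℕ, q.Prime → (q : ℤ) ∣ W.Δ → ¬ (q : ℤ) ∣ W.c₄ → q ≠ lam → ∀ (n : ℕ)
    (A : ValuationSubring Qb), A.LiesOverPrime q →
      ∃ T : ((W.map (Int.castRingHom ℚ))⁄(AlgebraicClosure ℚ)).Point,
        addOrderOf T = lam ^ n ∧ ∀ σ ∈ A.inertiaSubgroupIn ℚ, σ • T = T

/-- [EI-ORD] for `(W, lam)`. -/
def S58twOrd (W : WeierstrassCurve ℤ) (lam : ℕ) : Prop :=
  ∀ n : ℕ, ∃ T : ((W.map (Int.castRingHom ℚ))⁄(AlgebraicClosure ℚ)).Point,
    addOrderOf T = lam ^ n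

/-- [EI-FIELD] for `(W, lam)`. -/
def S58twField (W : WeierstrassCurve ℤ) (lam : ℕ) : Prop :=
  ∀ n : ℕ, ∃ L : IntermediateField ℚ Qb, FiniteDimensional ℚ L ∧
    ∀ σ : Qb ≃ₐ[ℚ] Qb, (∀ x ∈ L, σ x = x) →
      ∀ T : ((W.map (Int.castRingHom ℚ))⁄(AlgebraicClosure ℚ)).Point,
        lam ^ n • T = 0 → σ • T = T

/-- [EI-ORD] for `lam` from [EI-FIX] at one bad prime `q0 ≠ lam` and one valuation subring
over it. -/
theorem s58tw_ord_of_fix (W : WeierstrassCurve ℤ) (lam : ℕ) (hX : S58twFix W lam)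
    (q0 : ℕ) (hq0 : q0.Prime) (hq0Δ : (q0 : ℤ) ∣ W.Δ) (hq0c : ¬ (q0 : ℤ) ∣ W.c₄)
    (hq0lam : q0 ≠ lam) (A : ValuationSubring Qb) (hA : A.LiesOverPrime q0) :
    S58twOrd W lam := fun n => by
  obtain ⟨T, hT, -⟩ := hX q0 hq0 hq0Δ hq0c hq0lam n A hA
  exact ⟨T, hT⟩

/-- the hypothesis `hquad` of the abstract transfer, from [EI-QUAD] -/
theorem s58tw_hquad (W : WeierstrassCurve ℤ) (lam : ℕ) (S : Finset ℕ)
    (hbadS : ∀ ℓ : ℕ, ℓ.Prime → (ℓ : ℤ) ∣ W.Δ → ℓ ∈ S) (hQ : S58twQuad W lam) :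
    ∀ ℓ : ℕ, ℓ.Prime → ℓ ∉ S → ℓ ≠ lam → ∀ A : ValuationSubring Qb,
      A.LiesOverPrime ℓ → ∀ τ : Qb ≃ₐ[ℚ] Qb, A.IsFrobeniusAt τ ℓ →
        ∀ (n : ℕ) (T : ((W.map (Int.castRingHom ℚ))⁄(AlgebraicClosure ℚ)).Point),
          lam ^ n • T = 0 → τ • τ • T - W.apOfModel ℓ • (τ • T) + ℓ • T = 0 := by
  intro ℓ hℓ hℓS hℓlam A hA τ hτ n T hT
  have h := hQ ℓ hℓ (fun hd => hℓS (hbadS ℓ hℓ hd)) hℓlam A hA τ hτ n T hT
  rw [natCast_zsmul] at h
  exact h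

/-! ### the producers' shapes give the five interface statements -/

/-- [EI-QUAD] from the statement of RED (`m` coprime to `l`). -/
theorem s58tw_quad_of (W : WeierstrassCurve ℤ) (lam : ℕ) (hlam : lam.Prime)
    (h : ∀ (l : ℕ), l.Prime → ¬ (l : ℤ) ∣ W.Δ → ∀ (m : ℕ), m.Coprime l →
      ∀ (A : ValuationSubring Qb), A.LiesOverPrime l → ∀ (τ : Qb ≃ₐ[ℚ] Qb),
        A.IsFrobeniusAt τ l →
        ∀ (T : ((W.map (Int.castRingHom ℚ))⁄(AlgebraicClosure ℚ)).Point), m • T = 0 →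
          τ • τ • T - W.apOfModel l • τ • T + (l : ℤ) • T = 0) :
    S58twQuad W lam := fun l hl hΔ hllam A hA τ hτ n T hT =>
  h l hl hΔ (lam ^ n) (Nat.Coprime.pow_left n ((Nat.coprime_primes hlam hl).mpr
    (fun e => hllam e.symm))) A hA τ hτ T hT

/-- [EI-UNR] from the statement of RED (`m` coprime to `l`). -/
theorem s58tw_unr_of (W : WeierstrassCurve ℤ) (lam : ℕ) (hlam : lam.Prime)
    (h : ∀ (l : ℕ), l.Prime → ¬ (l : ℤ) ∣ W.Δ → ∀ (m : ℕ), m.Coprime l →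
      ∀ (A : ValuationSubring Qb), A.LiesOverPrime l → ∀ (σ : Qb ≃ₐ[ℚ] Qb),
        σ ∈ A.inertiaSubgroupIn ℚ →
        ∀ (T : ((W.map (Int.castRingHom ℚ))⁄(AlgebraicClosure ℚ)).Point), m • T = 0 →
          σ • T = T) :
    S58twUnr W lam := fun l hl hΔ hllam A hA σ hσ n T hT =>
  h l hl hΔ (lam ^ n) (Nat.Coprime.pow_left n ((Nat.coprime_primes hlam hl).mpr
    (fun e => hllam e.symm))) A hA σ hσ T hT

/-- [EI-FIX] from the statement of NODE. -/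
theorem s58tw_fix_of (W : WeierstrassCurve ℤ) (lam : ℕ) (hlam : lam.Prime)
    (h : ∀ {q : ℕ}, q.Prime → (q : ℤ) ∣ W.Δ → ¬ (q : ℤ) ∣ W.c₄ → ∀ {lam : ℕ}, lam.Prime →
      lam ≠ q → ∀ (n : ℕ) (A : ValuationSubring Qb), A.LiesOverPrime q →
        ∃ T : ((W.map (Int.castRingHom ℚ))⁄(AlgebraicClosure ℚ)).Point,
          addOrderOf T = lam ^ n ∧ ∀ σ ∈ A.inertiaSubgroupIn ℚ, σ • T = T) :
    S58twFix W lam := fun _ hq hqΔ hqc hqlam n A hA =>
  h hq hqΔ hqc hlam (fun e => hqlam e.symm) n A hA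

/-- [EI-FIELD] from the two-sided statement (`σ = τ` on `L` gives `σ T = τ T`) for the
`m`-torsion, `m > 0`, `ℤ`-scalars. -/
theorem s58tw_field_of (W : WeierstrassCurve ℤ) (lam : ℕ) (hlam : lam.Prime)
    (h : ∀ (m : ℕ), 0 < m → ∃ L : IntermediateField ℚ Qb, FiniteDimensional ℚ L ∧
      ∀ σ τ : Qb ≃ₐ[ℚ] Qb, (∀ x ∈ L, σ x = τ x) →
        ∀ T : ((W.map (Int.castRingHom ℚ))⁄(AlgebraicClosure ℚ)).Point,
          (m : ℤ) • T = 0 → σ • T = τ • T) :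
    S58twField W lam := fun n => by
  obtain ⟨L, hL, hL'⟩ := h (lam ^ n) (pow_pos hlam.pos n)
  refine ⟨L, hL, fun σ hσ T hT => ?_⟩
  have h1 := hL' σ 1 (fun x hx => by rw [hσ x hx]; rfl) T (by rw [natCast_zsmul]; exact hT)
  rw [h1, one_smul]

/-! ### the two transfers at the model -/

/-- **[T-UNIP] at the model**: `ρ` is unipotent on inertia at every prime `q ≠ lam`
(good `q`: [EI-UNR] + [EI-ORD]; bad `q`: semistability + [EI-FIX]). -/
theorem s58tw_unip_of (W : WeierstrassCurve ℤ) (hss : W.IsSemistableModel)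
    (lam : ℕ) [Fact lam.Prime] (S : Finset ℕ)
    (hbadS : ∀ ℓ : ℕ, ℓ.Prime → (ℓ : ℤ) ∣ W.Δ → ℓ ∈ S)
    (O : Type) [CommRing O] [IsDomain O] [IsDiscreteValuationRing O] [CharZero O]
    (hlamO : (lam : O) ∈ IsLocalRing.maximalIdeal O) (ρ : GaloisRepAdic O)
    (hfrob : ∀ ℓ : ℕ, ℓ.Prime → ℓ ∉ S →
      ∀ A : ValuationSubring (AlgebraicClosure ℚ), A.LiesOverPrime ℓ →
        ∀ σ : AlgebraicClosure ℚ ≃ₐ[ℚ] AlgebraicClosure ℚ, A.IsFrobeniusAt σ ℓ →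
          LinearMap.charpoly (ρ.ρ σ) =
            X ^ 2 - C ((W.apOfModel ℓ : ℤ) : O) * X + C ((ℓ : ℕ) : O))
    (q : ℕ) (hq : q.Prime) (hqlam : q ≠ lam)
    (hQ : S58twQuad W lam) (hU : S58twUnr W lam) (hX : S58twFix W lam)
    (hO : S58twOrd W lam) (hF : S58twField W lam) :
    ρ.IsUnipotentOnInertiaAt q := by
  refine s58tr_unipotent (E := ((W.map (Int.castRingHom ℚ))⁄(AlgebraicClosure ℚ)).Point)
    ρ lam hlamO S W.apOfModel
    (fun ℓ hℓ hℓS _ A hA σ hσ => hfrob ℓ hℓ hℓS A hA σ hσ)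
    (s58tw_hquad W lam S hbadS hQ) hF q hq hqlam ?_
  intro A hA σ hσ n
  by_cases hqΔ : (q : ℤ) ∣ W.Δ
  · obtain ⟨T, hT, hfix⟩ := hX q hq hqΔ (hss q hq hqΔ) hqlam n A hA
    exact ⟨T, hT, hfix σ hσ⟩
  · obtain ⟨T, hT⟩ := hO n
    refine ⟨T, hT, hU q hq hqΔ hqlam A hA σ hσ n T ?_⟩
    rw [← hT]
    exact addOrderOf_nsmul_eq_zero T

/-- **[T-FROB] at the model**: `trace ρ(Frob_q) = a_q(W)` at every good prime `q ≠ lam`. -/
theorem s58tw_frob_of (W : WeierstrassCurve ℤ)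
    (lam : ℕ) [Fact lam.Prime] (S : Finset ℕ)
    (hbadS : ∀ ℓ : ℕ, ℓ.Prime → (ℓ : ℤ) ∣ W.Δ → ℓ ∈ S)
    (O : Type) [CommRing O] [IsDomain O] [IsDiscreteValuationRing O]
    (hlamO : (lam : O) ∈ IsLocalRing.maximalIdeal O) (ρ : GaloisRepAdic O)
    (hfrob : ∀ ℓ : ℕ, ℓ.Prime → ℓ ∉ S →
      ∀ A : ValuationSubring (AlgebraicClosure ℚ), A.LiesOverPrime ℓ →
        ∀ σ : AlgebraicClosure ℚ ≃ₐ[ℚ] AlgebraicClosure ℚ, A.IsFrobeniusAt σ ℓ →
          LinearMap.charpoly (ρ.ρ σ) =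
            X ^ 2 - C ((W.apOfModel ℓ : ℤ) : O) * X + C ((ℓ : ℕ) : O))
    (q : ℕ) (hq : q.Prime) (hqlam : q ≠ lam)
    (hQ : S58twQuad W lam) (hO : S58twOrd W lam) (hF : S58twField W lam)
    (hgood : W.IsGoodPrimeFor q) (A : ValuationSubring (AlgebraicClosure ℚ))
    (hA : A.LiesOverPrime q) (σ : AlgebraicClosure ℚ ≃ₐ[ℚ] AlgebraicClosure ℚ)
    (hσ : A.IsFrobeniusAt σ q) :
    LinearMap.trace O ρ.V (ρ.ρ σ) = ((W.apOfModel q : ℤ) : O) := by
  refine s58tr_frob (E := ((W.map (Int.castRingHom ℚ))⁄(AlgebraicClosure ℚ)).Point)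
    ρ lam hlamO S W.apOfModel
    (fun ℓ hℓ hℓS _ A hA σ hσ => hfrob ℓ hℓ hℓS A hA σ hσ)
    (s58tw_hquad W lam S hbadS hQ) hF q hq hqlam A hA σ hσ (W.apOfModel q) ?_ hO
  intro n T hT
  have h := hQ q hq hgood hqlam A hA σ hσ n T hT
  rw [natCast_zsmul] at h
  exact h

/-! ### the binders `hU`, `hF` of `s58m3_level_dvd`, verbatim -/

/-- the binder `hU` of `s58m3_level_dvd` from the five interface statements at every prime -/
theorem s58tw_hU_of (W : WeierstrassCurve ℤ) (hss : W.IsSemistableModel)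
    (hQ : ∀ lam : ℕ, lam.Prime → S58twQuad W lam) (hU : ∀ lam : ℕ, lam.Prime → S58twUnr W lam)
    (hX : ∀ lam : ℕ, lam.Prime → S58twFix W lam) (hO : ∀ lam : ℕ, lam.Prime → S58twOrd W lam)
    (hF : ∀ lam : ℕ, lam.Prime → S58twField W lam) :
    ∀ (lam : ℕ) [Fact lam.Prime] (S : Finset ℕ), lam ∈ S →
      (∀ ℓ : ℕ, ℓ.Prime → (ℓ : ℤ) ∣ W.Δ → ℓ ∈ S) →
      ∀ (O : Type) [CommRing O] [IsDomain O] [IsDiscreteValuationRing O]
        [IsAdicComplete (IsLocalRing.maximalIdeal O) O]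
        [Finite (IsLocalRing.ResidueField O)] [CharZero O],
        (lam : O) ∈ IsLocalRing.maximalIdeal O → ∀ ρ : GaloisRepAdic O,
          (∀ ℓ : ℕ, ℓ.Prime → ℓ ∉ S →
            ∀ A : ValuationSubring (AlgebraicClosure ℚ), A.LiesOverPrime ℓ →
              ∀ σ : AlgebraicClosure ℚ ≃ₐ[ℚ] AlgebraicClosure ℚ, A.IsFrobeniusAt σ ℓ →
                LinearMap.charpoly (ρ.ρ σ) =
                  X ^ 2 - C ((W.apOfModel ℓ : ℤ) : O) * X + C ((ℓ : ℕ) : O)) →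
          ∀ q : ℕ, q.Prime → q ≠ lam → ρ.IsUnipotentOnInertiaAt q := by
  intro lam hlam S _ hbadS O _ _ _ _ _ _ hlamO ρ hfrob q hq hqlam
  exact s58tw_unip_of W hss lam S hbadS O hlamO ρ hfrob q hq hqlam (hQ lam hlam.out)
    (hU lam hlam.out) (hX lam hlam.out) (hO lam hlam.out) (hF lam hlam.out)

/-- the binder `hF` of `s58m3_level_dvd` from the interface statements at every prime -/
theorem s58tw_hF_of (W : WeierstrassCurve ℤ)
    (hQ : ∀ lam : ℕ, lam.Prime → S58twQuad W lam) (hO : ∀ lam : ℕ, lam.Prime → S58twOrd W lam)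
    (hF : ∀ lam : ℕ, lam.Prime → S58twField W lam) :
    ∀ (lam : ℕ) [Fact lam.Prime] (S : Finset ℕ), lam ∈ S →
      (∀ ℓ : ℕ, ℓ.Prime → (ℓ : ℤ) ∣ W.Δ → ℓ ∈ S) →
      ∀ (O : Type) [CommRing O] [IsDomain O] [IsDiscreteValuationRing O]
        [IsAdicComplete (IsLocalRing.maximalIdeal O) O]
        [Finite (IsLocalRing.ResidueField O)] [CharZero O],
        (lam : O) ∈ IsLocalRing.maximalIdeal O → ∀ ρ : GaloisRepAdic O,
          (∀ ℓ : ℕ, ℓ.Prime → ℓ ∉ S →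
            ∀ A : ValuationSubring (AlgebraicClosure ℚ), A.LiesOverPrime ℓ →
              ∀ σ : AlgebraicClosure ℚ ≃ₐ[ℚ] AlgebraicClosure ℚ, A.IsFrobeniusAt σ ℓ →
                LinearMap.charpoly (ρ.ρ σ) =
                  X ^ 2 - C ((W.apOfModel ℓ : ℤ) : O) * X + C ((ℓ : ℕ) : O)) →
          ∀ q : ℕ, q.Prime → q ≠ lam → W.IsGoodPrimeFor q →
            ∀ A : ValuationSubring (AlgebraicClosure ℚ), A.LiesOverPrime q →
              ∀ σ : AlgebraicClosure ℚ ≃ₐ[ℚ] AlgebraicClosure ℚ, A.IsFrobeniusAt σ q →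
                LinearMap.trace O ρ.V (ρ.ρ σ) = ((W.apOfModel q : ℤ) : O) := by
  intro lam hlam S _ hbadS O _ _ _ _ _ _ hlamO ρ hfrob q hq hqlam hgood A hA σ hσ
  exact s58tw_frob_of W lam S hbadS O hlamO ρ hfrob q hq hqlam (hQ lam hlam.out)
    (hO lam hlam.out) (hF lam hlam.out) hgood A hA σ hσ

end Fermat.Agent.S58
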