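import Mathlib
import Fermat.Agent.S58.TransferW
import Fermat.Agent.S58.RedGalQ
import Fermat.Agent.S58.NodeFixOf
import Fermat.Agent.S58.NodeParamB
import Fermat.Agent.S58.EIOrd
import Fermat.Agent.S58.EIField

/-!
# S58, [T-W] closed: the binders `hU`, `hF` of `s58m3_level_dvd` with no open hypothesis

`s58tx_quad`, `s58tx_unr`, `s58tx_fix`, `s58tx_ord`, `s58tx_field` : the five interface statements
of `TransferW` from RED (`s58rg_quad`, `s58rg_unr`), NODE (`s58nfo_fix` at `s58nq_exists_order`),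
`s58eo_all` and `s58ef_fix`;  `s58tx_hU`, `s58tx_hF` : the two transfers at the model, in the shape of the
binders `hU`, `hF` of `s58m3_level_dvd`;  `s58tx_unip`, `s58tx_frob` : the same, pointwise.
Names are prefixed `s58tx_`.
-/

set_option autoImplicit false

namespace Fermat.Agent.S58

open Polynomial WeierstrassCurve WeierstrassCurve.Affine WeierstrassCurve.Affine.Point

theorem s58tx_quad (W : WeierstrassCurve ℤ) (lam : ℕ) (hlam : lam.Prime) : S58twQuad W lam :=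
  s58tw_quad_of W lam hlam
    (fun l hl hΔ m hm A hA τ hτ T hT => s58rg_quad W l hl hΔ m hm A hA τ hτ T hT)

theorem s58tx_unr (W : WeierstrassCurve ℤ) (lam : ℕ) (hlam : lam.Prime) : S58twUnr W lam :=
  s58tw_unr_of W lam hlam
    (fun l hl hΔ m hm A hA σ hσ T hT => s58rg_unr W l hl hΔ m hm A hA σ hσ T hT)

theorem s58tx_fix (W : WeierstrassCurve ℤ) (hΔ : W.Δ ≠ 0) (lam : ℕ) (hlam : lam.Prime) :
    S58twFix W lam :=
  s58tw_fix_of W lam hlam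
    (fun hq hqΔ hqc _ hlam' hlq n A hA =>
      s58nfo_fix (fun Wk α β x0 y0 hαβ h1 h2 h3 h4 h6 m hm =>
        s58nq_exists_order Wk α β x0 y0 hαβ h1 h2 h3 h4 h6 m hm) W hΔ hq hqΔ hqc hlam' hlq n A hA)

theorem s58tx_ord (W : WeierstrassCurve ℤ) (hΔ : W.Δ ≠ 0) (lam : ℕ) (hlam : lam.Prime) :
    S58twOrd W lam := fun n => s58eo_all W hΔ lam hlam n

theorem s58tx_field (W : WeierstrassCurve ℤ) (lam : ℕ) (hlam : lam.Prime) :
    S58twField W lam := fun n => s58ef_fix W (lam ^ n) (pow_pos hlam.pos n)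

/-- the binder `hU` of `s58m3_level_dvd` -/
theorem s58tx_hU (W : WeierstrassCurve ℤ) (hΔ : W.Δ ≠ 0) (hss : W.IsSemistableModel) :
    ∀ (lam : ℕ) [Fact lam.Prime] (S : Finset ℕ), lam ∈ S →
      (∀ ℓ : ℕ, ℓ.Prime → (ℓ : ℤ) ∣ W.Δ → ℓ ∈ S) →
      ∀ (O : Type) [CommRing O] [IsDomain O] [IsDiscreteValuationRing O]
        [IsAdicComplete (IsLocalRing.maximalIdeal O) O]
        [Finite (IsLocalRing.ResidueField O)] [CharZero O],
        (lam : O) ∈ IsLocalRing.maximalIdeal O → ∀ ρ : GaloisRepAdic O,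
          (∀ ℓ : ℕ, ℓ.Prime → ℓ ∉ S →
            ∀ A : ValuationSubring (AlgebraicClosure ℚ), A.LiesOverPrime ℓ →
              ∀ σ : AlgebraicClosure ℚ ≃ₐ[ℚ] AlgebraicClosure ℚ, A.IsFrobeniusAt σ ℓ →
                LinearMap.charpoly (ρ.ρ σ) =
                  X ^ 2 - C ((W.apOfModel ℓ : ℤ) : O) * X + C ((ℓ : ℕ) : O)) →
          ∀ q : ℕ, q.Prime → q ≠ lam → ρ.IsUnipotentOnInertiaAt q :=
  s58tw_hU_of W hss (s58tx_quad W) (s58tx_unr W) (s58tx_fix W hΔ) (s58tx_ord W hΔ)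
    (s58tx_field W)

/-- the binder `hF` of `s58m3_level_dvd` -/
theorem s58tx_hF (W : WeierstrassCurve ℤ) (hΔ : W.Δ ≠ 0) :
    ∀ (lam : ℕ) [Fact lam.Prime] (S : Finset ℕ), lam ∈ S →
      (∀ ℓ : ℕ, ℓ.Prime → (ℓ : ℤ) ∣ W.Δ → ℓ ∈ S) →
      ∀ (O : Type) [CommRing O] [IsDomain O] [IsDiscreteValuationRing O]
        [IsAdicComplete (IsLocalRing.maximalIdeal O) O]
        [Finite (IsLocalRing.ResidueField O)] [CharZero O],
        (lam : O) ∈ IsLocalRing.maximalIdeal O → ∀ ρ : GaloisRepAdic O,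
          (∀ ℓ : ℕ, ℓ.Prime → ℓ ∉ S →
            ∀ A : ValuationSubring (AlgebraicClosure ℚ), A.LiesOverPrime ℓ →
              ∀ σ : AlgebraicClosure ℚ ≃ₐ[ℚ] AlgebraicClosure ℚ, A.IsFrobeniusAt σ ℓ →
                LinearMap.charpoly (ρ.ρ σ) =
                  X ^ 2 - C ((W.apOfModel ℓ : ℤ) : O) * X + C ((ℓ : ℕ) : O)) →
          ∀ q : ℕ, q.Prime → q ≠ lam → W.IsGoodPrimeFor q →
            ∀ A : ValuationSubring (AlgebraicClosure ℚ), A.LiesOverPrime q →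
              ∀ σ : AlgebraicClosure ℚ ≃ₐ[ℚ] AlgebraicClosure ℚ, A.IsFrobeniusAt σ q →
                LinearMap.trace O ρ.V (ρ.ρ σ) = ((W.apOfModel q : ℤ) : O) :=
  s58tw_hF_of W (s58tx_quad W) (s58tx_ord W hΔ) (s58tx_field W)

/-- **[T-UNIP] at the model**, pointwise -/
theorem s58tx_unip (W : WeierstrassCurve ℤ) (hΔ : W.Δ ≠ 0) (hss : W.IsSemistableModel)
    (lam : ℕ) [Fact lam.Prime] (S : Finset ℕ) (hlamS : lam ∈ S)
    (hbadS : ∀ ℓ : ℕ, ℓ.Prime → (ℓ : ℤ) ∣ W.Δ → ℓ ∈ S)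
    (O : Type) [CommRing O] [IsDomain O] [IsDiscreteValuationRing O]
    [IsAdicComplete (IsLocalRing.maximalIdeal O) O]
    [Finite (IsLocalRing.ResidueField O)] [CharZero O]
    (hlamO : (lam : O) ∈ IsLocalRing.maximalIdeal O) (ρ : GaloisRepAdic O)
    (hfrob : ∀ ℓ : ℕ, ℓ.Prime → ℓ ∉ S →
      ∀ A : ValuationSubring (AlgebraicClosure ℚ), A.LiesOverPrime ℓ →
        ∀ σ : AlgebraicClosure ℚ ≃ₐ[ℚ] AlgebraicClosure ℚ, A.IsFrobeniusAt σ ℓ →
          LinearMap.charpoly (ρ.ρ σ) =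
            X ^ 2 - C ((W.apOfModel ℓ : ℤ) : O) * X + C ((ℓ : ℕ) : O))
    (q : ℕ) (hq : q.Prime) (hqlam : q ≠ lam) : ρ.IsUnipotentOnInertiaAt q :=
  s58tx_hU W hΔ hss lam S hlamS hbadS O hlamO ρ hfrob q hq hqlam

/-- **[T-FROB] at the model**, pointwise -/
theorem s58tx_frob (W : WeierstrassCurve ℤ) (hΔ : W.Δ ≠ 0)
    (lam : ℕ) [Fact lam.Prime] (S : Finset ℕ) (hlamS : lam ∈ S)
    (hbadS : ∀ ℓ : ℕ, ℓ.Prime → (ℓ : ℤ) ∣ W.Δ → ℓ ∈ S)
    (O : Type) [CommRing O] [IsDomain O] [IsDiscreteValuationRing O]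
    [IsAdicComplete (IsLocalRing.maximalIdeal O) O]
    [Finite (IsLocalRing.ResidueField O)] [CharZero O]
    (hlamO : (lam : O) ∈ IsLocalRing.maximalIdeal O) (ρ : GaloisRepAdic O)
    (hfrob : ∀ ℓ : ℕ, ℓ.Prime → ℓ ∉ S →
      ∀ A : ValuationSubring (AlgebraicClosure ℚ), A.LiesOverPrime ℓ →
        ∀ σ : AlgebraicClosure ℚ ≃ₐ[ℚ] AlgebraicClosure ℚ, A.IsFrobeniusAt σ ℓ →
          LinearMap.charpoly (ρ.ρ σ) =
            X ^ 2 - C ((W.apOfModel ℓ : ℤ) : O) * X + C ((ℓ : ℕ) : O))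
    (q : ℕ) (hq : q.Prime) (hqlam : q ≠ lam) (hgood : W.IsGoodPrimeFor q)
    (A : ValuationSubring (AlgebraicClosure ℚ)) (hA : A.LiesOverPrime q)
    (σ : AlgebraicClosure ℚ ≃ₐ[ℚ] AlgebraicClosure ℚ) (hσ : A.IsFrobeniusAt σ q) :
    LinearMap.trace O ρ.V (ρ.ρ σ) = ((W.apOfModel q : ℤ) : O) :=
  s58tx_hF W hΔ lam S hlamS hbadS O hlamO ρ hfrob q hq hqlam hgood A hA σ hσ

end Fermat.Agent.S58
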